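import Mathlib
import Fermat.Prelude.Def_AlgebraicCurve_CanonicalDivisor

set_option autoImplicit false

noncomputable section

namespace Fermat.Agent.S24.H24

open AlgebraicCurve IsDedekindDomain WithZero

variable {K F : Type*} [Field K] [Field F] [Algebra K F]

namespace PlaceLemmas

variable (v : Place K F)

theorem exists_irreducible : ∃ π : v.toValuationSubring, Irreducible π :=
  IsDiscreteValuationRing.exists_irreducible v.toValuationSubring

theorem coe_ne_zero_of_irreducible {π : v.toValuationSubring} (hπ : Irreducible π) :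
    (π : F) ≠ 0 := by
  simpa [ne_eq, ZeroMemClass.coe_eq_zero] using hπ.ne_zero

/-- `f ∈ O_v ↔ 0 ≤ ord f` for `f ≠ 0`. -/
theorem mem_iff_ord_nonneg {f : F} (hf : f ≠ 0) :
    f ∈ v.toValuationSubring ↔ 0 ≤ v.ord f := by
  obtain ⟨π, hπ⟩ := exists_irreducible v
  obtain ⟨u, hu⟩ := v.exists_unit_mul_zpow hf hπ
  have hπ0 := coe_ne_zero_of_irreducible v hπ
  constructor
  · intro hmem
    by_contra hneg
    rw [not_le] at hneg
    -- π ^ (-ord f) = u * f⁻¹ ... derive π^k is a unit
    set n := v.ord f with hn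
    obtain ⟨k, hk⟩ : ∃ k : ℕ, n = -((k : ℤ) + 1) := ⟨(-n - 1).toNat, by omega⟩
    have h1 : (π : F) ^ (k + 1) * f = ((u : v.toValuationSubring) : F) := by
      rw [hu, hk, zpow_neg, ← zpow_natCast]
      push_cast
      field_simp
    -- so π^(k+1) * ⟨f,hmem⟩ = u in the subring, hence π is a unit
    have h2 : π ^ (k + 1) * ⟨f, hmem⟩ = (u : v.toValuationSubring) := by
      apply Subtype.ext
      simpa using h1
    have h3 : IsUnit (π ^ (k + 1) * ⟨f, hmem⟩) := h2 ▸ u.isUnit
    have h4 : IsUnit (π ^ (k + 1)) := isUnit_of_mul_isUnit_left h3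
    have h5 : IsUnit π := (isUnit_pow_succ_iff).mp h4
    exact hπ.not_isUnit h5
  · intro hnn
    rw [hu]
    obtain ⟨k, hk⟩ := Int.eq_ofNat_of_zero_le hnn
    rw [hk, zpow_natCast]
    exact mul_mem (u : v.toValuationSubring).2 (pow_mem π.2 k)

theorem mem_iff {f : F} : f ∈ v.toValuationSubring ↔ f = 0 ∨ 0 ≤ v.ord f := by
  rcases eq_or_ne f 0 with rfl | hf
  · simp [zero_mem]
  · simp [hf, mem_iff_ord_nonneg v hf]


theorem ord_algebraMap (c : K) : v.ord (algebraMap K F c) = 0 := by
  rcases eq_or_ne c 0 with rfl | hc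
  · simp
  have hc' : algebraMap K F c ≠ 0 := by simpa using hc
  have h1 : 0 ≤ v.ord (algebraMap K F c) :=
    (mem_iff_ord_nonneg v hc').mp (v.algebraMap_mem' c)
  have h2 : 0 ≤ v.ord (algebraMap K F c)⁻¹ := by
    rw [← map_inv₀]
    exact (mem_iff_ord_nonneg v (by simpa using hc)).mp (v.algebraMap_mem' c⁻¹)
  rw [v.ord_inv] at h2
  omega

theorem ord_neg (f : F) : v.ord (-f) = v.ord f := by
  simp [Place.ord]

theorem ord_add_ge {f g : F} (hf : f ≠ 0) (hg : g ≠ 0) (hfg : f + g ≠ 0) :
    min (v.ord f) (v.ord g) ≤ v.ord (f + g) := by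
  have h := (v.adicValuation).map_add f g
  have hf' := v.adicValuation_ne_zero hf
  have hg' := v.adicValuation_ne_zero hg
  have hfg' := v.adicValuation_ne_zero hfg
  simp only [Place.ord]
  rcases le_max_iff.mp h with h | h
  · have := (WithZero.log_le_log hfg' hf').mpr h
    omega
  · have := (WithZero.log_le_log hfg' hg').mpr h
    omega

theorem ord_sub_ge {f g : F} (hf : f ≠ 0) (hg : g ≠ 0) (hfg : f - g ≠ 0) :
    min (v.ord f) (v.ord g) ≤ v.ord (f - g) := by
  have := ord_add_ge v hf (neg_ne_zero.mpr hg) (by simpa [sub_eq_add_neg] using hfg)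
  simpa [sub_eq_add_neg, ord_neg] using this

theorem ord_add_eq_of_lt {f g : F} (hf : f ≠ 0) (hg : g ≠ 0) (h : v.ord f < v.ord g) :
    v.ord (f + g) = v.ord f := by
  have hfg : f + g ≠ 0 := by
    intro h0
    have : f = -g := eq_neg_of_add_eq_zero_left h0
    rw [this, ord_neg] at h
    exact lt_irrefl _ h
  have h1 := ord_add_ge v hf hg hfg
  have h2 : min (v.ord (f + g)) (v.ord g) ≤ v.ord f := by
    have := ord_sub_ge v hfg hg (by simpa using hf)
    simpa using this
  rcases le_total (v.ord (f + g)) (v.ord g) with h3 | h3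
  · rw [min_eq_left h3] at h2
    rw [min_eq_left h.le] at h1
    omega
  · rw [min_eq_right h3] at h2
    omega

end PlaceLemmas

end Fermat.Agent.S24.H24
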