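import Mathlib
import Fermat.Prelude.Def_ModularCurve_ArithmeticGalois
import Fermat.Prelude.Def_ModularCurve_GenusNumerics
import Fermat.Prelude.Def_AlgebraicCurve_CanonicalDivisor

set_option autoImplicit false

noncomputable section

namespace Fermat.Agent.S24

open ModularCurve AlgebraicCurve

/-- The base field. -/
abbrev Qbar : Type := AlgebraicClosure ℚ

/-- The function field of `X₀(N)` over `Qbar`, as a type. -/
abbrev FN (N : ℕ) [NeZero N] : Type := ↥(modularFunctionFieldBar N)

/-- `j(q^d)` with coefficients in `Qbar`, as an element of `FN N` (for `d ∣ N`). -/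
def jd (N : ℕ) [NeZero N] (d : ℕ) [NeZero d] (hd : d ∣ N) : FN N :=
  ⟨coeffEmb Qbar (qExpand ℚ d jq),
    coeffEmb_mem_laurentBaseChange Qbar (jqd_mem_full N hd)⟩

/-- `j(q)` as an element of `FN N`. -/
def jBar (N : ℕ) [NeZero N] : FN N :=
  ⟨coeffEmb Qbar jq, coeffEmb_mem_laurentBaseChange Qbar (by
    have h := jqd_mem_full N (one_dvd N)
    rwa [qExpand_one_apply] at h)⟩

end Fermat.Agent.S24
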