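import Mathlib
import Fermat.Prelude.Def_AlgebraicCurve_CanonicalDivisor
import Fermat.Agent.S24.H24_Basic

set_option autoImplicit false

noncomputable section

namespace Fermat.Agent.S24.H24

open AlgebraicCurve KaehlerDifferential

variable {K F : Type*} [Field K] [Field F] [Algebra K F]

namespace RH

/-- the fibre of `x` over `a`. -/
def fib (x : F) (a : K) : Set (Place K F) := {v | 0 < v.ord (x - algebraMap K F a)}

/-- the poles of `x`. -/
def poles (x : F) : Set (Place K F) := {v | v.ord x < 0}

theorem value_unique (x : F) (v : Place K F) {a b : K}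
    (ha : 0 < v.ord (x - algebraMap K F a)) (hb : 0 < v.ord (x - algebraMap K F b)) : a = b := by
  by_contra hab
  have hxa : x - algebraMap K F a ≠ 0 := fun h => by simp [h] at ha
  have hxb : x - algebraMap K F b ≠ 0 := fun h => by simp [h] at hb
  have hc : algebraMap K F (a - b) ≠ 0 := by
    simpa [sub_eq_zero] using hab
  have hsub : (x - algebraMap K F b) - (x - algebraMap K F a) = algebraMap K F (a - b) := by
    rw [map_sub]; ring
  have h1 := PlaceLemmas.ord_sub_ge v hxb hxa (by rw [hsub]; exact hc)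
  rw [hsub, PlaceLemmas.ord_algebraMap] at h1
  have := lt_min hb ha
  omega

theorem not_pole_of_fib (x : F) (v : Place K F) {a : K}
    (ha : 0 < v.ord (x - algebraMap K F a)) : ¬ v.ord x < 0 := by
  intro hx
  have hx0 : x ≠ 0 := fun h => by simp [h] at hx
  rcases eq_or_ne a 0 with rfl | ha0
  · simp at ha; omega
  have hc : -algebraMap K F a ≠ 0 := by simpa using ha0
  have h1 := PlaceLemmas.ord_add_eq_of_lt v hx0 hc (by
    rw [PlaceLemmas.ord_neg, PlaceLemmas.ord_algebraMap]; exact hx)
  rw [← sub_eq_add_neg] at h1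
  omega


/-- The hypotheses on the function field `F/K` with separating element `x` needed for the
Riemann–Hurwitz computation (all provided by packages FF1–FF4). -/
structure Data (x : F) (n : ℕ) : Prop where
  deg_eq_one : ∀ v : Place K F, v.deg = 1
  dcoord : ∀ v : Place K F, v.DCoordGenerates
  nontrivial : Nontrivial Ω[F⁄K]
  span : ∀ ω : Ω[F⁄K], ∃ f : F, ω = f • D K F x
  principal : ∀ f : F, f ≠ 0 → ∃ Df : Divisor K F, (∀ v, Df v = v.ord f) ∧ Divisor.degree Df = 0
  value : ∀ v : Place K F, v.ord x < 0 ∨ ∃ a : K, 0 < v.ord (x - algebraMap K F a)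
  ord_fin : ∀ (v : Place K F) (a : K), 0 < v.ord (x - algebraMap K F a) →
    v.ordDifferential (D K F x) = v.ord (x - algebraMap K F a) - 1
  ord_pole : ∀ v : Place K F, v.ord x < 0 → v.ordDifferential (D K F x) = v.ord x - 1
  fib_finite : ∀ a : K, (fib (K := K) x a).Finite
  fib_sum : ∀ a : K, ∑ v ∈ (fib_finite a).toFinset, v.ord (x - algebraMap K F a) = n
  poles_finite : (poles (K := K) x).Finite
  poles_sum : ∑ v ∈ poles_finite.toFinset, v.ord x = -(n : ℤ)

namespace Data

variable {x : F} {n : ℕ} (h : Data (K := K) x n)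

include h

theorem D_ne_zero : D K F x ≠ 0 := by
  intro h0
  have hnt := h.nontrivial
  obtain ⟨ω, hω⟩ := exists_ne (0 : Ω[F⁄K])
  obtain ⟨f, hf⟩ := h.span ω
  rw [hf, h0, smul_zero] at hω
  exact hω rfl

theorem differentialCoeff_ne_zero (v : Place K F) : v.differentialCoeff (D K F x) ≠ 0 := by
  have := h.dcoord v
  intro h0
  have := v.differentialCoeff_smul_dCoord (D K F x)
  rw [h0, zero_smul] at this
  exact h.D_ne_zero this.symm

theorem ordDifferential_smul (v : Place K F) {f : F} (hf : f ≠ 0) :
    v.ordDifferential (f • D K F x) = v.ord f + v.ordDifferential (D K F x) := by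
  have := h.dcoord v
  have := h.nontrivial
  exact v.ordDifferential_smul hf (h.differentialCoeff_ne_zero v)

end Data

namespace Data

variable {x : F} {n : ℕ} (h : Data (K := K) x n)

include h

theorem degree_eq_sum (E : Divisor K F) (T : Finset (Place K F)) (hT : E.support ⊆ T) :
    Divisor.degree E = ∑ v ∈ T, E v := by
  have h1 : Divisor.degree E = E.sum fun v k => k * (v.deg : ℤ) := by
    simp [Divisor.degree, Finsupp.liftAddHom_apply]
  rw [h1, Finsupp.sum_of_support_subset E hT _ (fun v _ => by simp)]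
  refine Finset.sum_congr rfl fun v _ => ?_
  rw [h.deg_eq_one v]; simp

theorem degree_eq (S : Finset K)
    (hunr : ∀ (v : Place K F) (a : K), a ∉ S → 0 < v.ord (x - algebraMap K F a) →
      v.ord (x - algebraMap K F a) = 1)
    (E : Divisor K F) (hE : ∀ v, E v = v.ordDifferential (D K F x)) :
    Divisor.degree E = -2 * (n : ℤ)
      + ∑ a ∈ S, ((n : ℤ) - ((h.fib_finite a).toFinset.card : ℤ))
      + ((n : ℤ) - (h.poles_finite.toFinset.card : ℤ)) := by
  classical
  set P := h.poles_finite.toFinset with hP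
  set Fb : K → Finset (Place K F) := fun a => (h.fib_finite a).toFinset with hFb
  set T := P ∪ S.biUnion Fb with hTdef
  have hsupp : E.support ⊆ T := by
    intro v hv
    rw [Finsupp.mem_support_iff, hE v] at hv
    rcases h.value v with hpole | ⟨a, ha⟩
    · exact Finset.mem_union_left _ (by simpa [hP, poles] using hpole)
    · by_cases haS : a ∈ S
      · refine Finset.mem_union_right _ (Finset.mem_biUnion.mpr ⟨a, haS, ?_⟩)
        simpa [hFb, fib] using ha
      · exfalso
        apply hv
        rw [h.ord_fin v a ha, hunr v a haS ha]; rfl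
  rw [h.degree_eq_sum E T hsupp]
  have hdisj1 : Disjoint P (S.biUnion Fb) := by
    rw [Finset.disjoint_left]
    intro v hvP hvF
    obtain ⟨a, _, hva⟩ := Finset.mem_biUnion.mp hvF
    have h1 : v.ord x < 0 := by simpa [hP, poles] using hvP
    have h2 : 0 < v.ord (x - algebraMap K F a) := by simpa [hFb, fib] using hva
    exact not_pole_of_fib x v h2 h1
  have hdisj2 : (S : Set K).PairwiseDisjoint Fb := by
    intro a _ b _ hab
    rw [Function.onFun, Finset.disjoint_left]
    intro v hva hvb
    have h1 : 0 < v.ord (x - algebraMap K F a) := by simpa [hFb, fib] using hva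
    have h2 : 0 < v.ord (x - algebraMap K F b) := by simpa [hFb, fib] using hvb
    exact hab (value_unique x v h1 h2)
  rw [Finset.sum_union hdisj1, Finset.sum_biUnion hdisj2]
  have hpoles : ∑ v ∈ P, E v = -(n : ℤ) - (P.card : ℤ) := by
    have : ∀ v ∈ P, E v = v.ord x - 1 := by
      intro v hv
      have h1 : v.ord x < 0 := by simpa [hP, poles] using hv
      rw [hE v, h.ord_pole v h1]
    rw [Finset.sum_congr rfl this, Finset.sum_sub_distrib, h.poles_sum]
    simp
  have hfibs : ∀ a ∈ S, ∑ v ∈ Fb a, E v = (n : ℤ) - ((Fb a).card : ℤ) := by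
    intro a _
    have : ∀ v ∈ Fb a, E v = v.ord (x - algebraMap K F a) - 1 := by
      intro v hv
      have h1 : 0 < v.ord (x - algebraMap K F a) := by simpa [hFb, fib] using hv
      rw [hE v, h.ord_fin v a h1]
    rw [Finset.sum_congr rfl this, Finset.sum_sub_distrib, h.fib_sum a]
    simp
  rw [hpoles, Finset.sum_congr rfl hfibs]
  ring

end Data

namespace Data

variable {x : F} {n : ℕ} (h : Data (K := K) x n)

include h

theorem degree_canonicalDivisorOf [HasCanonicalDivisor (K := K) (F := F)] (S : Finset K)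
    (hunr : ∀ (v : Place K F) (a : K), a ∉ S → 0 < v.ord (x - algebraMap K F a) →
      v.ord (x - algebraMap K F a) = 1)
    {ω : Ω[F⁄K]} (hω : ω ≠ 0) :
    Divisor.degree (canonicalDivisorOf hω) = -2 * (n : ℤ)
      + ∑ a ∈ S, ((n : ℤ) - ((h.fib_finite a).toFinset.card : ℤ))
      + ((n : ℤ) - (h.poles_finite.toFinset.card : ℤ)) := by
  obtain ⟨f, hf⟩ := h.span ω
  have hf0 : f ≠ 0 := by
    rintro rfl
    rw [zero_smul] at hf
    exact hω hf
  obtain ⟨Df, hDf, hdeg⟩ := h.principal f hf0
  have hE : ∀ v, (canonicalDivisorOf hω - Df) v = v.ordDifferential (D K F x) := by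
    intro v
    rw [Finsupp.sub_apply, canonicalDivisorOf_apply, hDf v]
    conv_lhs => rw [hf]
    rw [h.ordDifferential_smul v hf0]
    ring
  have := h.degree_eq S hunr (canonicalDivisorOf hω - Df) hE
  rwa [map_sub, hdeg, sub_zero] at this

theorem genus_eq [HasCanonicalDivisor (K := K) (F := F)] (S : Finset K)
    (hunr : ∀ (v : Place K F) (a : K), a ∉ S → 0 < v.ord (x - algebraMap K F a) →
      v.ord (x - algebraMap K F a) = 1)
    (g : ℕ)
    (hg : 2 * (g : ℤ) - 2 = -2 * (n : ℤ)
      + ∑ a ∈ S, ((n : ℤ) - ((h.fib_finite a).toFinset.card : ℤ))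
      + ((n : ℤ) - (h.poles_finite.toFinset.card : ℤ))) :
    genus K F = g := by
  have hnt := h.nontrivial
  have hex : ∃ ω : Ω[F⁄K], ω ≠ 0 := exists_ne 0
  unfold genus
  rw [dif_pos hex, h.degree_canonicalDivisorOf S hunr hex.choose_spec, ← hg]
  have : (2 * (g : ℤ) - 2 + 2).toNat = 2 * g := by
    have : 2 * (g : ℤ) - 2 + 2 = ((2 * g : ℕ) : ℤ) := by push_cast; ring
    rw [this, Int.toNat_natCast]
  rw [this]
  omega

end Data

end RH

end Fermat.Agent.S24.H24
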