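import Mathlib
import Fermat.Agent.S24.Defs
import Fermat.Agent.S24.H24_RH

set_option autoImplicit false

noncomputable section

namespace Fermat.Agent.S24.H24

open AlgebraicCurve KaehlerDifferential ModularCurve

/-- Final arithmetic: from the Riemann–Hurwitz data, the fibre cardinalities over `0, 1728, ∞`
(as orbit counts `c3 c2 cinf`), the Ree inequality/parity and the combinatorial identities,
deduce the genus formula. Everything is an explicit hypothesis. -/
theorem genus_eq_genusFormula_of_inputs (N : ℕ) [NeZero N]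
    [HasCanonicalDivisor (K := Qbar) (F := FN N)]
    (n : ℕ) (hData : RH.Data (K := Qbar) (jBar N) n)
    (hunr : ∀ (v : Place Qbar (FN N)) (a : Qbar), a ≠ 0 → a ≠ 1728 →
      0 < v.ord (jBar N - algebraMap Qbar (FN N) a) → v.ord (jBar N - algebraMap Qbar (FN N) a) = 1)
    (c2 c3 cinf : ℕ)
    (h0 : (hData.fib_finite 0).toFinset.card = c3)
    (h1728 : (hData.fib_finite 1728).toFinset.card = c2)
    (hinf : hData.poles_finite.toFinset.card = cinf)
    (hpsi : n = dedekindPsi N)
    (hc2 : 2 * c2 = n + nuTwo N)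
    (hc3 : 3 * c3 = n + 2 * nuThree N)
    (hcinf : cinf = cuspCount N)
    (ree : c2 + cinf + c3 ≤ n + 2)
    (par : Even (n + c2 + cinf + c3)) :
    (genus Qbar (FN N) : ℚ) = genusFormula N := by
  classical
  obtain ⟨m, hm⟩ := par
  -- g = (n + 2 - c2 - c3 - cinf) / 2 = n + 1 - m
  have hmle : m ≤ n + 1 := by omega
  have hne : (0 : Qbar) ≠ 1728 := by norm_num
  have hgen := hData.genus_eq ({0, 1728} : Finset Qbar)
    (fun v a ha => hunr v a (fun h => ha (by simp [h])) (fun h => ha (by simp [h])))
    (n + 1 - m) (by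
      rw [Finset.sum_pair hne, h0, h1728, hinf]
      push_cast [Nat.cast_sub hmle]
      have : (n : ℤ) + c2 + cinf + c3 = m + m := by exact_mod_cast hm
      linarith)
  rw [hgen, genusFormula]
  have e1 : (m : ℚ) + m = n + c2 + cinf + c3 := by exact_mod_cast hm.symm
  have e2 : (2 : ℚ) * c2 = n + nuTwo N := by exact_mod_cast hc2
  have e3 : (3 : ℚ) * c3 = n + 2 * nuThree N := by exact_mod_cast hc3
  rw [Nat.cast_sub hmle]
  push_cast
  rw [← hcinf, ← hpsi]
  linarith

end Fermat.Agent.S24.H24
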