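import Mathlib

set_option autoImplicit false

noncomputable section

namespace Fermat.Agent.S24.H24

open scoped MatrixGroups
open Matrix.SpecialLinearGroup

/-- The coset space `SL(2,ℤ) ⧸ Γ₀(N)` (left cosets, left action). -/
abbrev XN (N : ℕ) : Type := SL(2, ℤ) ⧸ CongruenceSubgroup.Gamma0 N

instance (N : ℕ) [NeZero N] : Finite (XN N) :=
  Subgroup.finite_quotient_of_finiteIndex

instance (N : ℕ) [NeZero N] : Fintype (XN N) := Fintype.ofFinite _

instance (N : ℕ) : DecidableEq (XN N) := Classical.decEq _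

/-- the permutation of `XN N` induced by `g`. -/
def perm (N : ℕ) (g : SL(2, ℤ)) : Equiv.Perm (XN N) := MulAction.toPerm g

theorem perm_mul (N : ℕ) (g h : SL(2, ℤ)) : perm N (g * h) = perm N g * perm N h := by
  ext x
  simp [perm, mul_smul]

theorem perm_apply (N : ℕ) (g : SL(2, ℤ)) (x : XN N) : perm N g x = g • x := rfl

/-- `⟨S, T⟩` acts transitively on `XN N`. -/
theorem isPretransitive_closure (N : ℕ) :
    MulAction.IsPretransitive
      (Subgroup.closure {perm N ModularGroup.S, perm N ModularGroup.T}) (XN N) := by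
  constructor
  intro x y
  obtain ⟨g, rfl⟩ := MulAction.exists_smul_eq SL(2, ℤ) x y
  have hg : g ∈ Subgroup.closure ({ModularGroup.S, ModularGroup.T} : Set SL(2, ℤ)) := by
    rw [_root_.SpecialLinearGroup.SL2Z_generators]; trivial
  let φ : SL(2, ℤ) →* Equiv.Perm (XN N) := MulAction.toPermHom SL(2, ℤ) (XN N)
  have hφ : φ g ∈ Subgroup.closure {perm N ModularGroup.S, perm N ModularGroup.T} := by
    have := Subgroup.mem_map_of_mem φ hg
    rw [MonoidHom.map_closure] at this
    simpa [Set.image_pair, φ, perm] using this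
  exact ⟨⟨φ g, hφ⟩, rfl⟩

end Fermat.Agent.S24.H24
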