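import Mathlib

/-!
# S24 / COMB-orbits (helper37)

Orbit count of a permutation of prime order from its fixed points, in the REE convention
`numOrbits g := Nat.card (MulAction.orbitRel.Quotient (Subgroup.zpowers g) X)`:

if `g ^ p = 1` with `p` prime, then
`|X| + (p - 1) * #Fix g = p * numOrbits g`, hence `numOrbits g = #Fix g + (|X| - #Fix g) / p`.
-/

set_option autoImplicit false

namespace Fermat.Agent.S24.H37

open MulAction

section OrbitCount

variable {X : Type*} [Fintype X] [DecidableEq X]

/-- Number of fixed points of a permutation, as a `Finset` cardinality. -/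
def numFixed (g : Equiv.Perm X) : ℕ := (Finset.univ.filter fun x => g x = x).card

theorem numFixed_eq_natCard_fixedBy (g : Equiv.Perm X) :
    numFixed g = Nat.card (fixedBy X g) := by
  classical
  rw [numFixed, Nat.card_eq_fintype_card, Fintype.card_subtype]
  rfl

theorem numFixed_le_card (g : Equiv.Perm X) : numFixed g ≤ Fintype.card X := by
  rw [numFixed]
  exact Finset.card_le_univ _

omit [Fintype X] [DecidableEq X] in
/-- Fixed points of `g ^ k` are those of `g` when `k` is prime to the order of `g`. -/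
theorem fixed_pow_iff_of_coprime (g : Equiv.Perm X) {k : ℕ} (hk : k.Coprime (orderOf g)) (x : X) :
    (g ^ k) x = x ↔ g x = x := by
  constructor
  · intro h
    obtain ⟨m, hm⟩ := exists_pow_eq_self_of_coprime hk
    have h2 : ((g ^ k) ^ m) x = x := Function.IsFixedPt.perm_pow (e := g ^ k) h m
    rwa [hm] at h2
  · intro h
    exact Function.IsFixedPt.perm_pow (e := g) h k

/-- Burnside for the cyclic group generated by `g`, with the sum indexed by exponents. -/
theorem sum_range_orderOf_card_fixed (g : Equiv.Perm X) :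
    ∑ k ∈ Finset.range (orderOf g), numFixed (g ^ k)
      = Nat.card (orbitRel.Quotient (Subgroup.zpowers g) X) * orderOf g := by
  classical
  have hfin : IsOfFinOrder g := isOfFinOrder_of_finite g
  have : Fintype (orbitRel.Quotient (Subgroup.zpowers g) X) := Fintype.ofFinite _
  have : Fintype (Subgroup.zpowers g) := Fintype.ofFinite _
  have hB := sum_card_fixedBy_eq_card_orbits_mul_card_group (Subgroup.zpowers g) X
  rw [Nat.card_eq_fintype_card]
  have hcard : Fintype.card (Subgroup.zpowers g) = orderOf g := by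
    rw [← Nat.card_eq_fintype_card, Nat.card_zpowers]
  rw [hcard] at hB
  rw [← hB, ← Fin.sum_univ_eq_sum_range (fun k => numFixed (g ^ k)) (orderOf g)]
  rw [← (finEquivZPowers hfin).sum_comp]
  refine Finset.sum_congr rfl fun i _ => ?_
  rw [numFixed_eq_natCard_fixedBy, Nat.card_eq_fintype_card]
  rfl

/-- **Main counting identity**: if `g ^ p = 1` with `p` prime then
`|X| + (p - 1) * #Fix g = p * #orbits ⟨g⟩`. -/
theorem card_add_mul_numFixed_eq (g : Equiv.Perm X) {p : ℕ} (hp : p.Prime) (hg : g ^ p = 1) :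
    Fintype.card X + (p - 1) * numFixed g
      = p * Nat.card (orbitRel.Quotient (Subgroup.zpowers g) X) := by
  classical
  have hdvd : orderOf g ∣ p := orderOf_dvd_of_pow_eq_one hg
  have hB := sum_range_orderOf_card_fixed g
  have hfix1 : numFixed (1 : Equiv.Perm X) = Fintype.card X := by
    simp [numFixed]
  rcases (Nat.dvd_prime hp).mp hdvd with h1 | hpo
  · -- `g = 1`
    have hg1 : g = 1 := orderOf_eq_one_iff.mp h1
    rw [h1, Finset.sum_range_one, pow_zero, hfix1, mul_one] at hB
    rw [← hB, hg1, hfix1]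
    have : 1 ≤ p := hp.one_lt.le
    obtain ⟨q, rfl⟩ : ∃ q, p = q + 1 := ⟨p - 1, by omega⟩
    simp only [Nat.add_sub_cancel]
    ring
  · -- `orderOf g = p`
    rw [hpo] at hB
    have hsum : ∑ k ∈ Finset.range p, numFixed (g ^ k)
        = Fintype.card X + (p - 1) * numFixed g := by
      obtain ⟨q, rfl⟩ : ∃ q, p = q + 1 := ⟨p - 1, by have := hp.one_lt; omega⟩
      rw [Finset.sum_range_succ', pow_zero, hfix1, Nat.add_sub_cancel, add_comm]
      congr 1
      rw [Finset.sum_congr rfl (g := fun _ => numFixed g), Finset.sum_const, Finset.card_range,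
        smul_eq_mul]
      intro k hk
      have hk' : k + 1 < q + 1 := by simpa using hk
      have hcop : (k + 1).Coprime (orderOf g) := by
        rw [hpo]
        exact ((Nat.Prime.coprime_iff_not_dvd hp).mpr
          (Nat.not_dvd_of_pos_of_lt (Nat.succ_pos k) hk')).symm
      rw [numFixed, numFixed]
      congr 1
      ext x
      simp only [Finset.mem_filter, Finset.mem_univ, true_and]
      exact fixed_pow_iff_of_coprime g hcop x
    rw [← hsum, hB, mul_comm]

/-- Every fixed point is an orbit: `#Fix g ≤ #orbits ⟨g⟩` (for `g ^ p = 1`, `p` prime). -/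
theorem numFixed_le_natCard_orbits (g : Equiv.Perm X) {p : ℕ} (hp : p.Prime) (hg : g ^ p = 1) :
    numFixed g ≤ Nat.card (orbitRel.Quotient (Subgroup.zpowers g) X) := by
  have h := card_add_mul_numFixed_eq g hp hg
  have hle := numFixed_le_card g
  obtain ⟨q, rfl⟩ : ∃ q, p = q + 1 := ⟨p - 1, by have := hp.pos; omega⟩
  rw [Nat.add_sub_cancel] at h
  by_contra hcon
  rw [not_le] at hcon
  have : (q + 1) * Nat.card (orbitRel.Quotient (Subgroup.zpowers g) X)
      < (q + 1) * numFixed g := Nat.mul_lt_mul_of_pos_left hcon (Nat.succ_pos q)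
  nlinarith

/-- `|X| - #Fix g = p * (#orbits ⟨g⟩ - #Fix g)`. -/
theorem card_sub_numFixed_eq (g : Equiv.Perm X) {p : ℕ} (hp : p.Prime) (hg : g ^ p = 1) :
    Fintype.card X - numFixed g
      = p * (Nat.card (orbitRel.Quotient (Subgroup.zpowers g) X) - numFixed g) := by
  have h := card_add_mul_numFixed_eq g hp hg
  have hle := numFixed_le_card g
  have hfc := numFixed_le_natCard_orbits g hp hg
  obtain ⟨q, rfl⟩ : ∃ q, p = q + 1 := ⟨p - 1, by have := hp.pos; omega⟩
  rw [Nat.add_sub_cancel] at h
  set c := Nat.card (orbitRel.Quotient (Subgroup.zpowers g) X) with hc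
  set n := Fintype.card X with hn
  set f := numFixed g with hf
  have h2 : (q + 1) * (c - f) = (q + 1) * c - (q + 1) * f := Nat.mul_sub (q + 1) c f
  have h3 : (q + 1) * f = q * f + f := by ring
  omega

/-- The divisibility that makes the division in `natCard_orbits_eq` exact. -/
theorem dvd_card_sub_numFixed (g : Equiv.Perm X) {p : ℕ} (hp : p.Prime) (hg : g ^ p = 1) :
    p ∣ Fintype.card X - numFixed g :=
  ⟨_, card_sub_numFixed_eq g hp hg⟩

/-- **Orbit count from fixed points** (REE convention): if `g ^ p = 1` with `p` prime then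
`#orbits ⟨g⟩ = #Fix g + (|X| - #Fix g) / p`. -/
theorem natCard_orbits_eq (g : Equiv.Perm X) {p : ℕ} (hp : p.Prime) (hg : g ^ p = 1) :
    Nat.card (orbitRel.Quotient (Subgroup.zpowers g) X)
      = numFixed g + (Fintype.card X - numFixed g) / p := by
  have hfc := numFixed_le_natCard_orbits g hp hg
  rw [card_sub_numFixed_eq g hp hg, Nat.mul_div_cancel_left _ hp.pos]
  omega

/-- Involutions: `2 * #orbits ⟨g⟩ = |X| + #Fix g`. -/
theorem two_mul_natCard_orbits (g : Equiv.Perm X) (hg : g ^ 2 = 1) :
    2 * Nat.card (orbitRel.Quotient (Subgroup.zpowers g) X) = Fintype.card X + numFixed g := by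
  have h := card_add_mul_numFixed_eq g Nat.prime_two hg
  omega

/-- Order three: `3 * #orbits ⟨g⟩ = |X| + 2 * #Fix g`. -/
theorem three_mul_natCard_orbits (g : Equiv.Perm X) (hg : g ^ 3 = 1) :
    3 * Nat.card (orbitRel.Quotient (Subgroup.zpowers g) X)
      = Fintype.card X + 2 * numFixed g := by
  have h := card_add_mul_numFixed_eq g Nat.prime_three hg
  omega

end OrbitCount

section Action

variable {G X : Type*} [Group G] [MulAction G X] [Fintype X] [DecidableEq X]

omit [Fintype X] [DecidableEq X] in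
/-- If `h ^ p` acts trivially on `X` then `(toPerm h) ^ p = 1`. -/
theorem toPerm_pow_eq_one (h : G) (p : ℕ) (hh : ∀ x : X, (h ^ p) • x = x) :
    (MulAction.toPerm h : Equiv.Perm X) ^ p = 1 := by
  ext x
  have : ((MulAction.toPerm h : Equiv.Perm X) ^ p) = MulAction.toPerm (h ^ p) := by
    rw [← MulAction.toPermHom_apply, ← map_pow]
    rfl
  rw [this]
  simpa using hh x

theorem numFixed_toPerm (h : G) :
    numFixed (MulAction.toPerm h : Equiv.Perm X)
      = (Finset.univ.filter fun x : X => h • x = x).card := rfl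

/-- Group action version of `card_add_mul_numFixed_eq`. -/
theorem card_add_mul_fixed_toPerm_eq (h : G) {p : ℕ} (hp : p.Prime)
    (hh : ∀ x : X, (h ^ p) • x = x) :
    Fintype.card X + (p - 1) * (Finset.univ.filter fun x : X => h • x = x).card
      = p * Nat.card (orbitRel.Quotient
          (Subgroup.zpowers (MulAction.toPerm h : Equiv.Perm X)) X) :=
  card_add_mul_numFixed_eq (MulAction.toPerm h) hp (toPerm_pow_eq_one h p hh)

end Action

section GenusArithmetic

/-- The final arithmetic of the genus formula: with `n` the degree, `c₂ c₃ c∞` the numbers of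
places over `1728, 0, ∞`, Riemann-Hurwitz gives `2 g - 2 = n - c₂ - c₃ - c∞`; with
`2 c₂ = n + ν₂` and `3 c₃ = n + 2 ν₃` this is the classical formula. -/
theorem genus_arith (n ν₂ ν₃ c₂ c₃ cinf : ℕ) (h2 : 2 * c₂ = n + ν₂) (h3 : 3 * c₃ = n + 2 * ν₃) :
    (1 : ℚ) + ((n : ℚ) - c₂ - c₃ - cinf) / 2
      = 1 + (n : ℚ) / 12 - (ν₂ : ℚ) / 4 - (ν₃ : ℚ) / 3 - (cinf : ℚ) / 2 := by
  have h2' : (c₂ : ℚ) = ((n : ℚ) + ν₂) / 2 := by
    have : (2 : ℚ) * c₂ = n + ν₂ := by exact_mod_cast h2
    linarith
  have h3' : (c₃ : ℚ) = ((n : ℚ) + 2 * ν₃) / 3 := by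
    have : (3 : ℚ) * c₃ = n + 2 * ν₃ := by exact_mod_cast h3
    linarith
  rw [h2', h3']
  ring

end GenusArithmetic

end Fermat.Agent.S24.H37
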