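import Mathlib

set_option autoImplicit false

/-!
Ree-type inequality for a group action on a finite set.

For a group `G` acting on a finite type `X` and `s t : G`, writing `c g` for the number of orbits
of the cyclic group generated by `g` and `o` for the number of orbits of the subgroup generated
by `s` and `t`, we prove `c s + c t + c (s * t) ≤ card X + 2 * o`.

The proof is linear algebra on `X → ℚ`: fixed functions versus coboundaries.
-/

namespace Fermat.Agent.S24.H6

open Module

noncomputable section

variable {G X : Type*} [Group G] [MulAction G X]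

/-- Functions `X → ℚ` invariant under every element of a set `S` of group elements. -/
def fixedFns (S : Set G) : Submodule ℚ (X → ℚ) where
  carrier := {f | ∀ g ∈ S, ∀ x, f (g • x) = f x}
  add_mem' := by
    intro a b ha hb g hg x
    simp only [Pi.add_apply, ha g hg x, hb g hg x]
  zero_mem' := by
    intro g _ x
    rfl
  smul_mem' := by
    intro c a ha g hg x
    simp only [Pi.smul_apply, ha g hg x]

theorem mem_fixedFns {S : Set G} {f : X → ℚ} :
    f ∈ fixedFns (X := X) S ↔ ∀ g ∈ S, ∀ x, f (g • x) = f x := Iff.rfl

theorem fixedFns_anti {S T : Set G} (h : S ⊆ T) : fixedFns (X := X) T ≤ fixedFns S :=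
  fun _ hf g hg x => hf g (h hg) x

/-- Invariance under a set is the same as invariance under the generated subgroup. -/
theorem fixedFns_closure (S : Set G) :
    fixedFns (X := X) ((Subgroup.closure S : Subgroup G) : Set G) = fixedFns S := by
  refine le_antisymm (fixedFns_anti Subgroup.subset_closure) ?_
  intro f hf g hg
  induction hg using Subgroup.closure_induction with
  | mem y hy => exact hf y hy
  | one => intro x; rw [one_smul]
  | mul a b _ _ ha hb => intro x; rw [mul_smul, ha, hb]
  | inv a _ ha =>
    intro x
    have := ha (a⁻¹ • x)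
    rw [smul_inv_smul] at this
    exact this.symm

theorem fixedFns_zpowers (g : G) :
    fixedFns (X := X) ((Subgroup.zpowers g : Subgroup G) : Set G) = fixedFns {g} := by
  rw [Subgroup.zpowers_eq_closure, fixedFns_closure]

theorem fixedFns_pair (s t : G) :
    fixedFns (X := X) ({s, t} : Set G) = fixedFns {s} ⊓ fixedFns {t} := by
  ext f
  simp only [Submodule.mem_inf, mem_fixedFns, Set.mem_insert_iff, Set.mem_singleton_iff]
  constructor
  · intro h
    exact ⟨fun g hg => h g (Or.inl hg), fun g hg => h g (Or.inr hg)⟩
  · rintro ⟨h1, h2⟩ g (hg | hg)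
    · exact h1 g hg
    · exact h2 g hg

/-- The number of orbits of a subgroup `H` acting on `X`. -/
def numOrbits (H : Subgroup G) : ℕ := Nat.card (MulAction.orbitRel.Quotient H X)

variable (X) in
/-- The linear equivalence between `H`-invariant functions and functions on the orbit space. -/
def fixedFnsEquiv (H : Subgroup G) :
    fixedFns (X := X) (H : Set G) ≃ₗ[ℚ] (MulAction.orbitRel.Quotient H X → ℚ) where
  toFun f := fun q => Quotient.liftOn' q f.1 (by
    intro a b hab
    obtain ⟨h, rfl⟩ := hab
    exact f.2 (h : G) h.2 b)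
  map_add' := by
    intro f g
    funext q
    induction q using Quotient.inductionOn' with
    | h a => rfl
  map_smul' := by
    intro c f
    funext q
    induction q using Quotient.inductionOn' with
    | h a => rfl
  invFun φ := ⟨fun x => φ (Quotient.mk'' x), by
    intro g hg x
    have : (Quotient.mk'' (g • x) : MulAction.orbitRel.Quotient H X) = Quotient.mk'' x := by
      apply Quotient.sound'
      exact ⟨⟨g, hg⟩, rfl⟩
    exact congrArg φ this⟩
  left_inv := by
    intro f
    rfl
  right_inv := by
    intro φ
    funext q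
    induction q using Quotient.inductionOn' with
    | h a => rfl

theorem finrank_fixedFns [Finite X] (H : Subgroup G) :
    finrank ℚ (fixedFns (X := X) (H : Set G)) = numOrbits (X := X) H := by
  classical
  have : Fintype (MulAction.orbitRel.Quotient H X) := Fintype.ofFinite _
  rw [LinearEquiv.finrank_eq (fixedFnsEquiv X H), Module.finrank_fintype_fun_eq_card, numOrbits,
    Nat.card_eq_fintype_card]

/-- Translation operator `f ↦ f (g • ·)`. -/
def translate (g : G) : (X → ℚ) →ₗ[ℚ] (X → ℚ) := LinearMap.funLeft ℚ ℚ (fun x => g • x)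

@[simp] theorem translate_apply (g : G) (f : X → ℚ) (x : X) : translate g f x = f (g • x) := rfl

/-- Coboundaries `f (g • ·) - f`. -/
def cobFns (g : G) : Submodule ℚ (X → ℚ) := LinearMap.range (translate (X := X) g - LinearMap.id)

theorem mem_fixedFns_singleton {g : G} {f : X → ℚ} :
    f ∈ fixedFns (X := X) {g} ↔ translate g f = f := by
  constructor
  · intro h
    funext x
    exact h g rfl x
  · intro h g' hg' x
    rw [Set.mem_singleton_iff] at hg'
    subst hg'
    exact congrFun h x

section Fintype

variable [Fintype X]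

/-- The dot product of an invariant function with a coboundary vanishes. -/
theorem dot_fixed_cob {g : G} {f w : X → ℚ} (hf : f ∈ fixedFns (X := X) {g})
    (hw : w ∈ cobFns (X := X) g) : ∑ x, f x * w x = 0 := by
  obtain ⟨u, rfl⟩ := hw
  simp only [LinearMap.sub_apply, LinearMap.id_apply, Pi.sub_apply, translate_apply, mul_sub,
    Finset.sum_sub_distrib]
  rw [sub_eq_zero]
  have h1 : ∑ x, f x * u (g • x) = ∑ x, f (g • x) * u (g • x) := by
    refine Finset.sum_congr rfl fun x _ => ?_
    rw [hf g rfl x]
  rw [h1]
  exact Equiv.sum_comp (MulAction.toPerm g) (fun x => f x * u x)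

theorem disjoint_fixed_cob (s t : G) :
    Disjoint (fixedFns (X := X) {s} ⊔ fixedFns {t}) (cobFns s ⊓ cobFns t) := by
  rw [Submodule.disjoint_def]
  intro u hu hw
  obtain ⟨f1, hf1, f2, hf2, rfl⟩ := Submodule.mem_sup.mp hu
  have h1 := dot_fixed_cob hf1 hw.1
  have h2 := dot_fixed_cob hf2 hw.2
  have h3 : ∑ x, (f1 + f2) x * (f1 + f2) x = 0 := by
    have : ∀ x, (f1 + f2) x * (f1 + f2) x = f1 x * (f1 + f2) x + f2 x * (f1 + f2) x := by
      intro x
      simp only [Pi.add_apply]
      ring
    simp only [this, Finset.sum_add_distrib, h1, h2, add_zero]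
  funext x
  have h4 := (Finset.sum_eq_zero_iff_of_nonneg (fun x _ => mul_self_nonneg ((f1 + f2) x))).mp h3 x
    (Finset.mem_univ x)
  exact mul_self_eq_zero.mp h4

end Fintype

/-- The map `f ↦ f (s • ·) - f` restricted to `s * t`-invariant functions. -/
def phiMap (s t : G) : fixedFns (X := X) {s * t} →ₗ[ℚ] (X → ℚ) :=
  (translate s - LinearMap.id) ∘ₗ (fixedFns (X := X) {s * t}).subtype

theorem range_phiMap_le (s t : G) :
    LinearMap.range (phiMap (X := X) s t) ≤ cobFns s ⊓ cobFns t := by
  rintro _ ⟨f, rfl⟩
  refine ⟨⟨f.1, rfl⟩, ?_⟩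
  refine ⟨-(translate s f.1), ?_⟩
  funext x
  have hf := f.2 (s * t) rfl x
  simp only [LinearMap.sub_apply, LinearMap.id_apply, Pi.sub_apply, translate_apply, map_neg,
    Pi.neg_apply, phiMap, LinearMap.comp_apply, Submodule.subtype_apply]
  rw [← mul_smul, hf]
  ring

theorem finrank_ker_phiMap_le [Finite X] (s t : G) :
    finrank ℚ (LinearMap.ker (phiMap (X := X) s t)) ≤
      finrank ℚ ((fixedFns (X := X) {s} ⊓ fixedFns {t} : Submodule ℚ (X → ℚ))) := by
  have := Fintype.ofFinite X
  let ι : LinearMap.ker (phiMap (X := X) s t) →ₗ[ℚ]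
      (fixedFns (X := X) {s} ⊓ fixedFns {t} : Submodule ℚ (X → ℚ)) :=
    { toFun := fun f => ⟨f.1.1, by
        have hk : phiMap s t f.1 = 0 := f.2
        have hs : translate s f.1.1 = f.1.1 := by
          have : translate s f.1.1 - f.1.1 = 0 := hk
          exact sub_eq_zero.mp this
        refine ⟨mem_fixedFns_singleton.mpr hs, ?_⟩
        intro g hg x
        rw [Set.mem_singleton_iff] at hg
        subst hg
        have h1 := f.1.2 (s * g) rfl x
        rw [mul_smul] at h1
        have h2 := congrFun hs (g • x)
        rw [translate_apply] at h2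
        rw [← h2, h1]⟩
      map_add' := fun _ _ => rfl
      map_smul' := fun _ _ => rfl }
  have hinj : Function.Injective ι := by
    intro a b hab
    apply Subtype.ext
    apply Subtype.ext
    have h := congrArg (fun z : (fixedFns (X := X) {s} ⊓ fixedFns {t} : Submodule ℚ (X → ℚ)) =>
      (z : X → ℚ)) hab
    exact h
  exact LinearMap.finrank_le_finrank_of_injective hinj

/-- Ree-type inequality, in terms of numbers of orbits. -/
theorem ree_inequality [Finite X] (s t : G) :
    numOrbits (X := X) (Subgroup.zpowers s) + numOrbits (X := X) (Subgroup.zpowers t) +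
        numOrbits (X := X) (Subgroup.zpowers (s * t)) ≤
      Nat.card X + 2 * numOrbits (X := X) (Subgroup.closure {s, t}) := by
  classical
  have := Fintype.ofFinite X
  rw [← finrank_fixedFns, ← finrank_fixedFns, ← finrank_fixedFns, ← finrank_fixedFns,
    fixedFns_zpowers, fixedFns_zpowers, fixedFns_zpowers, fixedFns_closure, fixedFns_pair]
  -- dimension of the ambient space
  have hn : finrank ℚ (X → ℚ) = Nat.card X := by
    rw [Module.finrank_fintype_fun_eq_card, Nat.card_eq_fintype_card]
  -- rank-nullity for phiMap
  have hrn := LinearMap.finrank_range_add_finrank_ker (phiMap (X := X) s t)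
  have hker := finrank_ker_phiMap_le (X := X) s t
  have hrange : finrank ℚ (LinearMap.range (phiMap (X := X) s t)) ≤
      finrank ℚ (cobFns (X := X) s ⊓ cobFns t : Submodule ℚ (X → ℚ)) :=
    Submodule.finrank_mono (range_phiMap_le s t)
  -- disjointness
  have hdisj := disjoint_fixed_cob (X := X) s t
  have hsum : finrank ℚ (fixedFns (X := X) {s} ⊔ fixedFns {t} : Submodule ℚ (X → ℚ)) +
      finrank ℚ (cobFns (X := X) s ⊓ cobFns t : Submodule ℚ (X → ℚ)) ≤ finrank ℚ (X → ℚ) := by
    have h1 := Submodule.finrank_sup_add_finrank_inf_eq (fixedFns (X := X) {s} ⊔ fixedFns {t})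
      (cobFns (X := X) s ⊓ cobFns t)
    rw [hdisj.eq_bot, finrank_bot, add_zero] at h1
    rw [← h1]
    exact Submodule.finrank_le _
  have hsupinf := Submodule.finrank_sup_add_finrank_inf_eq (fixedFns (X := X) {s}) (fixedFns {t})
  omega

/-- For a pretransitive subgroup acting on a nonempty type there is exactly one orbit. -/
theorem numOrbits_eq_one_of_isPretransitive [Nonempty X] (H : Subgroup G)
    [MulAction.IsPretransitive H X] : numOrbits (X := X) H = 1 := by
  have : Unique (MulAction.orbitRel.Quotient H X) :=
    (MulAction.pretransitive_iff_unique_quotient_of_nonempty H X).mp inferInstance |>.some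
  exact Nat.card_unique

/-- Ree-type inequality for a pair generating a transitive subgroup. -/
theorem ree_inequality_of_isPretransitive [Finite X] [Nonempty X] (s t : G)
    [MulAction.IsPretransitive (Subgroup.closure {s, t}) X] :
    numOrbits (X := X) (Subgroup.zpowers s) + numOrbits (X := X) (Subgroup.zpowers t) +
        numOrbits (X := X) (Subgroup.zpowers (s * t)) ≤ Nat.card X + 2 := by
  have h := ree_inequality (X := X) s t
  rw [numOrbits_eq_one_of_isPretransitive (X := X) (Subgroup.closure {s, t})] at h
  exact h

/-- Orbits of the cyclic group generated by `g` only depend on the permutation induced by `g`. -/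
theorem numOrbits_zpowers_toPerm [Finite X] (g : G) :
    numOrbits (X := X) (Subgroup.zpowers (MulAction.toPerm g : Equiv.Perm X)) =
      numOrbits (X := X) (Subgroup.zpowers g) := by
  rw [← finrank_fixedFns, ← finrank_fixedFns, fixedFns_zpowers, fixedFns_zpowers]
  have : fixedFns (X := X) ({MulAction.toPerm g} : Set (Equiv.Perm X)) = fixedFns {g} := by
    ext f
    simp only [mem_fixedFns, Set.mem_singleton_iff, forall_eq]
    rfl
  rw [this]

section Perm

open Equiv Equiv.Perm

variable {Y : Type*} [Fintype Y] [DecidableEq Y]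

omit [Fintype Y] [DecidableEq Y] in
theorem orbitRel_zpowers_iff (σ : Perm Y) (x y : Y) :
    MulAction.orbitRel (Subgroup.zpowers σ) Y x y ↔ σ.SameCycle y x := by
  rw [MulAction.orbitRel_apply, MulAction.mem_orbit_iff]
  constructor
  · rintro ⟨⟨g, k, rfl⟩, rfl⟩
    exact ⟨k, rfl⟩
  · rintro ⟨k, rfl⟩
    exact ⟨⟨σ ^ k, k, rfl⟩, rfl⟩

omit [Fintype Y] [DecidableEq Y] in
theorem neg_one_pow_congr_of_even_add {a b : ℕ} (hab : Even (a + b)) :
    (-1 : ℤˣ) ^ a = (-1) ^ b := by
  rcases Nat.even_or_odd a with ha | ha
  · rw [ha.neg_one_pow, ((Nat.even_add.mp hab).mp ha).neg_one_pow]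
  · have hb : Odd b := by
      rw [← Nat.not_even_iff_odd] at ha ⊢
      exact fun h => ha ((Nat.even_add.mp hab).mpr h)
    rw [ha.neg_one_pow, hb.neg_one_pow]

/-- Orbits of `⟨σ⟩` are the nontrivial cycles of `σ` together with its fixed points. -/
theorem numOrbits_perm_add (σ : Perm Y) :
    numOrbits (X := Y) (Subgroup.zpowers σ) + σ.support.card =
      Multiset.card σ.cycleType + Fintype.card Y := by
  classical
  have : Fintype (MulAction.orbitRel.Quotient (Subgroup.zpowers σ) Y) := Fintype.ofFinite _
  let f : Y → MulAction.orbitRel.Quotient (Subgroup.zpowers σ) Y := Quotient.mk''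
  have hf : ∀ x y, f x = f y ↔ σ.SameCycle x y := by
    intro x y
    rw [Quotient.eq'', orbitRel_zpowers_iff]
    exact ⟨SameCycle.symm, SameCycle.symm⟩
  let cyc : MulAction.orbitRel.Quotient (Subgroup.zpowers σ) Y → Perm Y :=
    Quotient.lift (fun x => σ.cycleOf x) (by
      intro x y h
      exact ((orbitRel_zpowers_iff σ x y).mp h).symm.cycleOf_eq)
  have h1 : (Finset.univ : Finset (MulAction.orbitRel.Quotient (Subgroup.zpowers σ) Y)) =
      Finset.image f σ.support ∪ Finset.image f σ.supportᶜ := by
    rw [← Finset.image_union, Finset.union_compl, Finset.image_univ_of_surjective]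
    exact Quotient.mk''_surjective
  have h2 : Disjoint (Finset.image f σ.support) (Finset.image f σ.supportᶜ) := by
    rw [Finset.disjoint_left]
    intro q hq hq'
    obtain ⟨x, hx, rfl⟩ := Finset.mem_image.mp hq
    obtain ⟨y, hy, hxy⟩ := Finset.mem_image.mp hq'
    have h := (hf y x).mp hxy
    rw [Finset.mem_compl] at hy
    exact hy (h.mem_support_iff.mpr hx)
  have h3 : (Finset.image f σ.supportᶜ).card = σ.supportᶜ.card := by
    apply Finset.card_image_of_injOn
    intro x hx y _ hxy
    obtain ⟨k, rfl⟩ := (hf x y).mp hxy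
    have hx' : σ x = x := by simpa using hx
    exact (zpow_apply_eq_self_of_apply_eq_self hx' k).symm
  have h4 : (Finset.image f σ.support).card = σ.cycleFactorsFinset.card := by
    have h5 : σ.cycleFactorsFinset = Finset.image cyc (Finset.image f σ.support) := by
      rw [Finset.image_image]
      ext c
      simp only [Finset.mem_image, Function.comp]
      constructor
      · intro hc
        obtain ⟨a, ha⟩ := (mem_cycleFactorsFinset_iff.mp hc).1.nonempty_support
        exact ⟨a, mem_cycleFactorsFinset_support_le hc ha, (cycle_is_cycleOf ha hc).symm⟩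
      · rintro ⟨a, ha, rfl⟩
        exact cycleOf_mem_cycleFactorsFinset_iff.mpr ha
    rw [h5]
    symm
    apply Finset.card_image_of_injOn
    intro q hq q' hq' h
    obtain ⟨x, hx, rfl⟩ := Finset.mem_image.mp hq
    obtain ⟨y, hy, rfl⟩ := Finset.mem_image.mp hq'
    exact (hf x y).mpr ((sameCycle_iff_cycleOf_eq_of_mem_support hx hy).mpr h)
  have h6 : numOrbits (X := Y) (Subgroup.zpowers σ) =
      σ.cycleFactorsFinset.card + σ.supportᶜ.card := by
    rw [numOrbits, Nat.card_eq_fintype_card, ← Finset.card_univ, h1, Finset.card_union_of_disjoint h2,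
      h3, h4]
  have h7 : Multiset.card σ.cycleType = σ.cycleFactorsFinset.card := by
    rw [cycleType_def, Multiset.card_map]
    rfl
  have h8 : σ.supportᶜ.card + σ.support.card = Fintype.card Y := by
    rw [Finset.card_compl]
    have := Finset.card_le_univ σ.support
    omega
  omega

/-- The sign of a permutation in terms of its number of orbits. -/
theorem sign_eq_neg_one_pow_numOrbits (σ : Perm Y) :
    Perm.sign σ = (-1) ^ (Fintype.card Y + numOrbits (X := Y) (Subgroup.zpowers σ)) := by
  rw [sign_of_cycleType, sum_cycleType]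
  have h := numOrbits_perm_add σ
  apply neg_one_pow_congr_of_even_add
  exact ⟨Multiset.card σ.cycleType + Fintype.card Y, by omega⟩

/-- Parity: `card Y - c s - c t - c (s * t)` is even. -/
theorem ree_parity (s t : Perm Y) :
    Even (Fintype.card Y + Nat.card (MulAction.orbitRel.Quotient (Subgroup.zpowers s) Y) +
      Nat.card (MulAction.orbitRel.Quotient (Subgroup.zpowers t) Y) +
      Nat.card (MulAction.orbitRel.Quotient (Subgroup.zpowers (s * t)) Y)) := by
  have h1 : Perm.sign (s * t) * (Perm.sign s * Perm.sign t) = 1 := by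
    rw [Perm.sign_mul]
    exact Int.units_mul_self _
  rw [sign_eq_neg_one_pow_numOrbits, sign_eq_neg_one_pow_numOrbits, sign_eq_neg_one_pow_numOrbits,
    ← pow_add, ← pow_add] at h1
  have h2 := (neg_one_pow_eq_one_iff_even (R := ℤˣ) (by decide)).mp h1
  obtain ⟨k, hk⟩ := h2
  simp only [numOrbits] at hk
  exact ⟨k - Fintype.card Y, by omega⟩

omit [DecidableEq Y] in
/-- Ree-type inequality for a transitive pair of permutations. -/
theorem ree_inequality_perm [Nonempty Y] (s t : Perm Y)
    (htrans : MulAction.IsPretransitive (Subgroup.closure {s, t}) Y) :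
    Nat.card (MulAction.orbitRel.Quotient (Subgroup.zpowers s) Y) +
      Nat.card (MulAction.orbitRel.Quotient (Subgroup.zpowers t) Y) +
      Nat.card (MulAction.orbitRel.Quotient (Subgroup.zpowers (s * t)) Y) ≤
        Fintype.card Y + 2 := by
  have h := ree_inequality_of_isPretransitive (X := Y) s t
  rw [Nat.card_eq_fintype_card] at h
  exact h

end Perm

/-- Parity for a general group action on a finite type. -/
theorem ree_parity_action [Finite X] (s t : G) :
    Even (Nat.card X + numOrbits (X := X) (Subgroup.zpowers s) +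
      numOrbits (X := X) (Subgroup.zpowers t) + numOrbits (X := X) (Subgroup.zpowers (s * t))) := by
  classical
  have := Fintype.ofFinite X
  have h := ree_parity (Y := X) (MulAction.toPerm s) (MulAction.toPerm t)
  have hmul : (MulAction.toPerm s : Equiv.Perm X) * MulAction.toPerm t = MulAction.toPerm (s * t) :=
    (map_mul (MulAction.toPermHom G X) s t).symm
  rw [hmul] at h
  rw [Nat.card_eq_fintype_card, ← numOrbits_zpowers_toPerm s, ← numOrbits_zpowers_toPerm t,
    ← numOrbits_zpowers_toPerm (s * t)]
  exact h

end

end Fermat.Agent.S24.H6
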