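import Mathlib
import Fermat.Agent.S24.Defs
import Fermat.Agent.S24.H24_RH
import Fermat.Agent.S24.H24_Final
import Fermat.Agent.S24.H24_Group
import Fermat.Agent.S24.H6_Ree
import Fermat.Agent.S24.H37_OrbitCount

set_option autoImplicit false

noncomputable section

namespace Fermat.Agent.S24.H24

open AlgebraicCurve KaehlerDifferential ModularCurve
open scoped MatrixGroups

theorem neg_one_smul_XN (N : ℕ) (x : XN N) : (-1 : SL(2, ℤ)) • x = x := by
  induction x using QuotientGroup.induction_on with
  | H γ =>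
    show ((↑((-1 : SL(2, ℤ)) * γ) : XN N)) = ↑γ
    have h1 : (-1 : SL(2, ℤ)) * γ = γ * (-1) := by
      ext i j
      simp
    rw [h1]
    apply QuotientGroup.mk_mul_of_mem
    rw [CongruenceSubgroup.Gamma0_mem]
    simp

theorem S_sq : ModularGroup.S ^ 2 = (-1 : SL(2, ℤ)) := by
  rw [pow_two]
  apply Subtype.ext
  simpa using ModularGroup.S_mul_S_eq

theorem ST_cube : (ModularGroup.S * ModularGroup.T) ^ 3 = (-1 : SL(2, ℤ)) := by
  apply Subtype.ext
  simp only [pow_succ, pow_zero, one_mul, Matrix.SpecialLinearGroup.coe_mul, ModularGroup.coe_S,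
    ModularGroup.coe_T, Matrix.SpecialLinearGroup.coe_neg, Matrix.SpecialLinearGroup.coe_one]
  ext i j
  fin_cases i <;> fin_cases j <;> simp [Matrix.mul_apply, Fin.sum_univ_two]

theorem perm_S_sq (N : ℕ) : perm N ModularGroup.S ^ 2 = 1 := by
  apply H37.toPerm_pow_eq_one
  intro x
  rw [S_sq]
  exact neg_one_smul_XN N x

theorem perm_ST_cube (N : ℕ) : perm N (ModularGroup.S * ModularGroup.T) ^ 3 = 1 := by
  apply H37.toPerm_pow_eq_one
  intro x
  rw [ST_cube]
  exact neg_one_smul_XN N x

/-- number of orbits of `⟨perm N g⟩` on `XN N` (REE convention). -/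
def orb (N : ℕ) (g : SL(2, ℤ)) : ℕ :=
  Nat.card (MulAction.orbitRel.Quotient (Subgroup.zpowers (perm N g)) (XN N))

/-- The whole theorem from the remaining inputs:
* `hData`: Riemann–Hurwitz data for `jBar N` with degree `card (XN N)` (FF1–FF4 + M1–M3);
* `hunr`, `h0`, `h1728`, `hinf`: M4–M7 (SQZ);
* `hpsi`, `hfixS`, `hfixST`, `hcusp`: COMB. -/
theorem genus_eq_genusFormula_of (N : ℕ) [NeZero N]
    [HasCanonicalDivisor (K := Qbar) (F := FN N)]
    (hData : RH.Data (K := Qbar) (jBar N) (Fintype.card (XN N)))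
    (hunr : ∀ (v : Place Qbar (FN N)) (a : Qbar), a ≠ 0 → a ≠ 1728 →
      0 < v.ord (jBar N - algebraMap Qbar (FN N) a) → v.ord (jBar N - algebraMap Qbar (FN N) a) = 1)
    (h0 : (hData.fib_finite 0).toFinset.card = orb N (ModularGroup.S * ModularGroup.T))
    (h1728 : (hData.fib_finite 1728).toFinset.card = orb N ModularGroup.S)
    (hinf : hData.poles_finite.toFinset.card = orb N ModularGroup.T)
    (hpsi : Fintype.card (XN N) = dedekindPsi N)
    (hfixS : H37.numFixed (perm N ModularGroup.S) = nuTwo N)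
    (hfixST : H37.numFixed (perm N (ModularGroup.S * ModularGroup.T)) = nuThree N)
    (hcusp : orb N ModularGroup.T = cuspCount N) :
    (genus Qbar (FN N) : ℚ) = genusFormula N := by
  have hne : Nonempty (XN N) := ⟨((1 : SL(2, ℤ)) : XN N)⟩
  have hree := H6.ree_inequality_perm (perm N ModularGroup.S) (perm N ModularGroup.T)
    (isPretransitive_closure N)
  have hpar := H6.ree_parity (perm N ModularGroup.S) (perm N ModularGroup.T)
  rw [← perm_mul] at hree hpar
  have h2 := H37.two_mul_natCard_orbits (perm N ModularGroup.S) (perm_S_sq N)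
  have h3 := H37.three_mul_natCard_orbits (perm N (ModularGroup.S * ModularGroup.T))
    (perm_ST_cube N)
  rw [hfixS] at h2
  rw [hfixST] at h3
  exact genus_eq_genusFormula_of_inputs N (Fintype.card (XN N)) hData hunr
    (orb N ModularGroup.S) (orb N (ModularGroup.S * ModularGroup.T)) (orb N ModularGroup.T)
    h0 h1728 hinf hpsi h2 h3 hcusp hree hpar

end Fermat.Agent.S24.H24
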