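import Mathlib
import Fermat.Agent.S20.H86_CuspBridge
import Fermat.Agent.S24.H24_Assembly

set_option autoImplicit false

namespace Fermat.Agent.S24.H86

open ModularCurve CongruenceSubgroup
open scoped MatrixGroups

/-- COMB input `hcusp` of `H24.genus_eq_genusFormula_of`: the number of orbits of `⟨perm N T⟩`
on `XN N = SL(2, ℤ) ⧸ Γ₀(N)` is the number of cusps. -/
theorem orb_T_eq_cuspCount (N : ℕ) [NeZero N] :
    H24.orb N ModularGroup.T = cuspCount N := by
  have h := H6.numOrbits_zpowers_toPerm (X := H24.XN N) (ModularGroup.T : SL(2, ℤ))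
  rw [H6.numOrbits, H6.numOrbits] at h
  rw [H24.orb, H24.perm, h]
  exact Fermat.Agent.S20.H86.card_T_orbits N

end Fermat.Agent.S24.H86
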