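import Mathlib
import Fermat.Prelude.Def_ModularCurve_GenusNumerics
import Fermat.Agent.S24.H24_Group
import Fermat.Agent.S24.H24_Assembly
import Fermat.Agent.S24.H37_OrbitCount
import Fermat.Agent.S24.H86_CuspOrb
import Fermat.Agent.S20.H78_Adapters

set_option autoImplicit false

noncomputable section

namespace Fermat.Agent.S24.H24

open ModularCurve
open scoped MatrixGroups

/-- COMB (a): `#X_N = ψ(N)`. -/
theorem card_XN_eq_dedekindPsi (N : ℕ) [NeZero N] : Fintype.card (XN N) = dedekindPsi N :=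
  Fermat.Agent.S20.H78.fintype_card_quotient_Gamma0 N

/-- COMB (b): `#Fix S = ν₂(N)`. -/
theorem numFixed_S_eq_nuTwo (N : ℕ) [NeZero N] :
    H37.numFixed (perm N ModularGroup.S) = nuTwo N := by
  rw [H37.numFixed_eq_natCard_fixedBy]
  exact Fermat.Agent.S20.H78.card_fixedBy_S N

/-- COMB (c): `#Fix (S*T) = ν₃(N)`. -/
theorem numFixed_ST_eq_nuThree (N : ℕ) [NeZero N] :
    H37.numFixed (perm N (ModularGroup.S * ModularGroup.T)) = nuThree N := by
  rw [H37.numFixed_eq_natCard_fixedBy]
  exact Fermat.Agent.S20.H78.card_fixedBy_ST N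

/-- COMB (d): `#T-orbits = c_∞(N)`. -/
theorem orb_T_eq_cuspCount' (N : ℕ) [NeZero N] : orb N ModularGroup.T = cuspCount N :=
  H86.orb_T_eq_cuspCount N

end Fermat.Agent.S24.H24
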