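import Mathlib

set_option autoImplicit false

namespace Fermat.Agent.S24.H15

open Matrix MatrixGroups UpperHalfPlane

/-- Hermite normal form for `diag(M,1) * γ`, `γ ∈ SL(2,ℤ)`. -/
theorem exists_hermite (M : ℕ) (hM : 0 < M) (γ : SL(2, ℤ)) :
    ∃ (γ' : SL(2, ℤ)) (a b d : ℕ), a * d = M ∧ b < d ∧
      !![(M : ℤ), 0; 0, 1] * (γ : Matrix (Fin 2) (Fin 2) ℤ) =
        (γ' : Matrix (Fin 2) (Fin 2) ℤ) * !![(a : ℤ), (b : ℤ); 0, (d : ℤ)] := by
  set p := γ 0 0 with hp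
  set q := γ 0 1 with hq
  set r := γ 1 0 with hr
  set s := γ 1 1 with hs
  have hdet : p * s - q * r = 1 := by
    have := γ.det_coe
    rw [Matrix.det_fin_two] at this
    simpa [hp, hq, hr, hs] using this
  set x : ℤ := (M : ℤ) * p with hx
  set g : ℕ := Int.gcd x r with hg
  have hg0 : g ≠ 0 := by
    intro h0
    rw [hg, Int.gcd_eq_zero_iff] at h0
    obtain ⟨h1, h2⟩ := h0
    have hM' : (M : ℤ) ≠ 0 := by exact_mod_cast hM.ne'
    have hp0 : p = 0 := by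
      rcases mul_eq_zero.mp h1 with h | h
      · exact absurd h hM'
      · exact h
    rw [hp0, h2] at hdet
    simp at hdet
  have hgpos : (0 : ℤ) < g := by exact_mod_cast Nat.pos_of_ne_zero hg0
  obtain ⟨x', hx'⟩ : (g : ℤ) ∣ x := Int.gcd_dvd_left x r
  obtain ⟨y', hy'⟩ : (g : ℤ) ∣ r := Int.gcd_dvd_right x r
  set u := Int.gcdA x r with hu
  set v := Int.gcdB x r with hv
  have hbez : (g : ℤ) = x * u + r * v := Int.gcd_eq_gcd_ab x r
  have hbez' : x' * u + y' * v = 1 := by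
    have h1 : (g : ℤ) * (x' * u + y' * v) = (g : ℤ) * 1 := by
      calc (g : ℤ) * (x' * u + y' * v) = (g * x') * u + (g * y') * v := by ring
        _ = x * u + r * v := by rw [← hx', ← hy']
        _ = (g : ℤ) * 1 := by rw [← hbez, mul_one]
    exact mul_left_cancel₀ hgpos.ne' h1
  set d0 : ℤ := x' * s - y' * (M * q) with hd0
  have hgd : (g : ℤ) * d0 = M := by
    calc (g : ℤ) * d0 = (g * x') * s - (g * y') * (M * q) := by rw [hd0]; ring
      _ = x * s - r * (M * q) := by rw [← hx', ← hy']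
      _ = M * (p * s - q * r) := by rw [hx]; ring
      _ = M := by rw [hdet, mul_one]
  have hd0pos : 0 < d0 := by
    have hMpos : (0 : ℤ) < M := by exact_mod_cast hM
    by_contra hneg
    rw [not_lt] at hneg
    have : (g : ℤ) * d0 ≤ 0 := mul_nonpos_of_nonneg_of_nonpos hgpos.le hneg
    omega
  set b' : ℤ := u * (M * q) + v * s with hb'
  set t : ℤ := b' / d0 with ht
  set b0 : ℤ := b' % d0 with hb0
  have hb0nn : 0 ≤ b0 := Int.emod_nonneg _ hd0pos.ne'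
  have hb0lt : b0 < d0 := Int.emod_lt_of_pos _ hd0pos
  have hbdecomp : b' = b0 + d0 * t := by
    rw [hb0, ht]; exact (Int.emod_add_mul_ediv b' d0).symm
  -- the matrix γ'
  have hdet' : Matrix.det !![x', x' * t - v; y', y' * t + u] = 1 := by
    rw [Matrix.det_fin_two_of]
    linear_combination hbez'
  refine ⟨⟨!![x', x' * t - v; y', y' * t + u], hdet'⟩, g, b0.toNat, d0.toNat, ?_, ?_, ?_⟩
  · have h1 : ((g * d0.toNat : ℕ) : ℤ) = (M : ℤ) := by
      push_cast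
      rw [Int.toNat_of_nonneg hd0pos.le, hgd]
    exact_mod_cast h1
  · have : (b0.toNat : ℤ) < (d0.toNat : ℤ) := by
      rw [Int.toNat_of_nonneg hd0pos.le, Int.toNat_of_nonneg hb0nn]
      exact hb0lt
    exact_mod_cast this
  · rw [Int.toNat_of_nonneg hd0pos.le, Int.toNat_of_nonneg hb0nn]
    have hγ : (γ : Matrix (Fin 2) (Fin 2) ℤ) = !![p, q; r, s] := by
      ext i j
      fin_cases i <;> fin_cases j <;> simp [hp, hq, hr, hs]
    rw [hγ]
    simp only [Matrix.mul_fin_two]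
    ext i j
    fin_cases i <;> fin_cases j
    · simp
      rw [mul_comm x' (g : ℤ), ← hx']
    · simp
      have : b0 = b' - d0 * t := by rw [hbdecomp]; ring
      rw [this, hb', hd0]
      linear_combination (-(M : ℤ) * q) * hbez'
    · simp
      rw [mul_comm y' (g : ℤ), ← hy']
    · simp
      have : b0 = b' - d0 * t := by rw [hbdecomp]; ring
      rw [this, hb', hd0]
      linear_combination (-s) * hbez'

/-- The affine map `τ ↦ (a τ + b) / d` of the upper half plane. -/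
noncomputable def aff (a b d : ℕ) (ha : 0 < a) (hd : 0 < d) (τ : ℍ) : ℍ :=
  ⟨((a : ℂ) * τ + b) / d, by
    have had : (0 : ℝ) < (a : ℝ) / d := div_pos (by exact_mod_cast ha) (by exact_mod_cast hd)
    have h1 : (((a : ℂ) * τ + b) / d).im = (a : ℝ) / d * τ.im := by
      have : (((a : ℂ) * τ + b) / d) = ((((a : ℝ) / d : ℝ) : ℂ) * τ + (((b : ℝ) / d : ℝ) : ℂ)) := by
        have hd' : (d : ℂ) ≠ 0 := by exact_mod_cast hd.ne'
        push_cast
        field_simp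
      rw [this]
      simp [Complex.add_im, Complex.mul_im]
    rw [h1]
    exact mul_pos had τ.im_pos⟩

@[simp]
theorem coe_aff (a b d : ℕ) (ha : 0 < a) (hd : 0 < d) (τ : ℍ) :
    ((aff a b d ha hd τ : ℍ) : ℂ) = ((a : ℂ) * τ + b) / d := rfl

theorem im_aff (a b d : ℕ) (ha : 0 < a) (hd : 0 < d) (τ : ℍ) :
    (aff a b d ha hd τ).im = (a : ℝ) / d * τ.im := by
  have hd' : (d : ℂ) ≠ 0 := by exact_mod_cast hd.ne'
  have : (((a : ℂ) * τ + b) / d) = ((((a : ℝ) / d : ℝ) : ℂ) * τ + (((b : ℝ) / d : ℝ) : ℂ)) := by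
    push_cast
    field_simp
  show (((a : ℂ) * τ + b) / d).im = _
  rw [this]
  simp [Complex.add_im, Complex.mul_im]

/-- Key identity: `M • (γ • τ) = γ' • ((a τ + b)/d)` from the Hermite normal form. -/
theorem aff_smul_eq (M : ℕ) (hM : 0 < M) (γ γ' : SL(2, ℤ)) (a b d : ℕ) (ha : 0 < a) (hd : 0 < d)
    (h : !![(M : ℤ), 0; 0, 1] * (γ : Matrix (Fin 2) (Fin 2) ℤ) =
        (γ' : Matrix (Fin 2) (Fin 2) ℤ) * !![(a : ℤ), (b : ℤ); 0, (d : ℤ)]) (τ : ℍ) :
    aff M 0 1 hM one_pos (γ • τ) = γ' • aff a b d ha hd τ := by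
  have h00 := congr_fun (congr_fun h 0) 0
  have h01 := congr_fun (congr_fun h 0) 1
  have h10 := congr_fun (congr_fun h 1) 0
  have h11 := congr_fun (congr_fun h 1) 1
  simp only [Matrix.mul_apply, Fin.sum_univ_two, Matrix.of_apply, Matrix.cons_val',
    Matrix.cons_val_zero, Matrix.cons_val_one, Matrix.empty_val', Matrix.cons_val_fin_one,
    zero_mul, one_mul, add_zero, zero_add, mul_zero] at h00 h01 h10 h11
  apply UpperHalfPlane.ext
  rw [coe_aff, coe_specialLinearGroup_apply, coe_specialLinearGroup_apply, coe_aff]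
  have hd' : (d : ℂ) ≠ 0 := by exact_mod_cast hd.ne'
  have hden1 := UpperHalfPlane.denom_ne_zero (γ : GL (Fin 2) ℝ) τ
  have hden2 := UpperHalfPlane.denom_ne_zero (γ' : GL (Fin 2) ℝ) (aff a b d ha hd τ)
  have hD2 : ((algebraMap ℤ ℝ (γ' 1 0) : ℝ) : ℂ) * (((a : ℂ) * τ + b) / d)
      + ((algebraMap ℤ ℝ (γ' 1 1) : ℝ) : ℂ) ≠ 0 := by
    simpa [denom] using hden2
  have hD1 : ((algebraMap ℤ ℝ (γ 1 0) : ℝ) : ℂ) * τ + ((algebraMap ℤ ℝ (γ 1 1) : ℝ) : ℂ) ≠ 0 := by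
    simpa [denom] using hden1
  have e00 : (M : ℂ) * ((algebraMap ℤ ℝ (γ 0 0) : ℝ) : ℂ)
      = ((algebraMap ℤ ℝ (γ' 0 0) : ℝ) : ℂ) * a := by
    have := congrArg (fun z : ℤ => (z : ℂ)) h00
    simpa using this
  have e01 : (M : ℂ) * ((algebraMap ℤ ℝ (γ 0 1) : ℝ) : ℂ)
      = ((algebraMap ℤ ℝ (γ' 0 0) : ℝ) : ℂ) * b + ((algebraMap ℤ ℝ (γ' 0 1) : ℝ) : ℂ) * d := by
    have := congrArg (fun z : ℤ => (z : ℂ)) h01
    simpa using this
  have e10 : ((algebraMap ℤ ℝ (γ 1 0) : ℝ) : ℂ)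
      = ((algebraMap ℤ ℝ (γ' 1 0) : ℝ) : ℂ) * a := by
    have := congrArg (fun z : ℤ => (z : ℂ)) h10
    simpa using this
  have e11 : ((algebraMap ℤ ℝ (γ 1 1) : ℝ) : ℂ)
      = ((algebraMap ℤ ℝ (γ' 1 0) : ℝ) : ℂ) * b + ((algebraMap ℤ ℝ (γ' 1 1) : ℝ) : ℂ) * d := by
    have := congrArg (fun z : ℤ => (z : ℂ)) h11
    simpa using this
  generalize ((algebraMap ℤ ℝ (γ 0 0) : ℝ) : ℂ) = P at *
  generalize ((algebraMap ℤ ℝ (γ 0 1) : ℝ) : ℂ) = Q at *
  generalize ((algebraMap ℤ ℝ (γ 1 0) : ℝ) : ℂ) = R at *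
  generalize ((algebraMap ℤ ℝ (γ 1 1) : ℝ) : ℂ) = S at *
  generalize ((algebraMap ℤ ℝ (γ' 0 0) : ℝ) : ℂ) = P' at *
  generalize ((algebraMap ℤ ℝ (γ' 0 1) : ℝ) : ℂ) = Q' at *
  generalize ((algebraMap ℤ ℝ (γ' 1 0) : ℝ) : ℂ) = R' at *
  generalize ((algebraMap ℤ ℝ (γ' 1 1) : ℝ) : ℂ) = S' at *
  subst e10 e11
  simp only [Nat.cast_zero, add_zero, Nat.cast_one, div_one]
  rw [mul_div_assoc', div_eq_div_iff hD1 hD2]
  field_simp
  linear_combination (↑τ * R' * ↑a + R' * ↑b + S' * ↑d) * (τ * e00 + e01)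

/-- The conjugates of `Jf ∘ (M • ·)` under `SL(2,ℤ)` are the `Jf ∘ aff a b d`. -/
theorem conj_eq (Jf : ℍ → ℂ) (hinv : ∀ (g : SL(2, ℤ)) (τ : ℍ), Jf (g • τ) = Jf τ)
    (M : ℕ) (hM : 0 < M) (γ γ' : SL(2, ℤ)) (a b d : ℕ) (ha : 0 < a) (hd : 0 < d)
    (h : !![(M : ℤ), 0; 0, 1] * (γ : Matrix (Fin 2) (Fin 2) ℤ) =
        (γ' : Matrix (Fin 2) (Fin 2) ℤ) * !![(a : ℤ), (b : ℤ); 0, (d : ℤ)]) (τ : ℍ) :
    Jf (aff M 0 1 hM one_pos (γ • τ)) = Jf (aff a b d ha hd τ) := by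
  rw [aff_smul_eq M hM γ γ' a b d ha hd h τ, hinv]

theorem exists_conj (Jf : ℍ → ℂ) (hinv : ∀ (g : SL(2, ℤ)) (τ : ℍ), Jf (g • τ) = Jf τ)
    (M : ℕ) (hM : 0 < M) (γ : SL(2, ℤ)) :
    ∃ (a b d : ℕ) (ha : 0 < a) (hd : 0 < d), a * d = M ∧ b < d ∧
      ∀ τ : ℍ, Jf (aff M 0 1 hM one_pos (γ • τ)) = Jf (aff a b d ha hd τ) := by
  obtain ⟨γ', a, b, d, had, hbd, h⟩ := exists_hermite M hM γ
  have ha : 0 < a := by
    rcases Nat.eq_zero_or_pos a with h0 | h0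
    · rw [h0, zero_mul] at had; omega
    · exact h0
  have hd : 0 < d := by omega
  exact ⟨a, b, d, ha, hd, had, hbd, fun τ => conj_eq Jf hinv M hM γ γ' a b d ha hd h τ⟩

/-- `aff a b d (τ + d) = aff a b d τ + a`. -/
theorem aff_vadd (a b d : ℕ) (ha : 0 < a) (hd : 0 < d) (τ : ℍ) :
    aff a b d ha hd ((d : ℝ) +ᵥ τ) = (a : ℝ) +ᵥ aff a b d ha hd τ := by
  apply UpperHalfPlane.ext
  have hd' : (d : ℂ) ≠ 0 := by exact_mod_cast hd.ne'
  simp only [coe_aff, UpperHalfPlane.coe_vadd]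
  push_cast
  field_simp
  ring

/-- Periodicity of the conjugates. -/
theorem periodic_conj (Jf : ℍ → ℂ) (hinv : ∀ (g : SL(2, ℤ)) (τ : ℍ), Jf (g • τ) = Jf τ)
    (a b d : ℕ) (ha : 0 < a) (hd : 0 < d) (τ : ℍ) :
    Jf (aff a b d ha hd ((d : ℝ) +ᵥ τ)) = Jf (aff a b d ha hd τ) := by
  rw [aff_vadd]
  have := hinv (ModularGroup.T ^ (a : ℤ)) (aff a b d ha hd τ)
  rw [UpperHalfPlane.modular_T_zpow_smul] at this
  simpa using this

theorem tendsto_aff (a b d : ℕ) (ha : 0 < a) (hd : 0 < d) :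
    Filter.Tendsto (aff a b d ha hd) atImInfty atImInfty := by
  rw [atImInfty, Filter.tendsto_comap_iff]
  have had : (0 : ℝ) < (a : ℝ) / d := div_pos (by exact_mod_cast ha) (by exact_mod_cast hd)
  have : (UpperHalfPlane.im ∘ aff a b d ha hd) = fun τ : ℍ => (a : ℝ) / d * τ.im := by
    funext τ
    exact im_aff a b d ha hd τ
  rw [this]
  exact Filter.Tendsto.const_mul_atTop had Filter.tendsto_comap

open Function.Periodic in
theorem qParam_aff (a b d : ℕ) (ha : 0 < a) (hd : 0 < d) (τ : ℍ) :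
    qParam 1 (aff a b d ha hd τ : ℂ) =
      Complex.exp (2 * Real.pi * Complex.I * b / d) * qParam d (τ : ℂ) ^ a := by
  have hd' : (d : ℂ) ≠ 0 := by exact_mod_cast hd.ne'
  rw [qParam, qParam, ← Complex.exp_nat_mul, ← Complex.exp_add, coe_aff]
  congr 1
  push_cast
  field_simp
  ring

open Function.Periodic in
theorem norm_qParam_aff (a b d : ℕ) (ha : 0 < a) (hd : 0 < d) (τ : ℍ) :
    ‖qParam 1 (aff a b d ha hd τ : ℂ)‖ = Real.exp (-2 * Real.pi * ((a : ℝ) / d) * τ.im) := by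
  rw [norm_qParam]
  have := im_aff a b d ha hd τ
  rw [UpperHalfPlane.im] at this
  rw [this]
  congr 1
  simp only [UpperHalfPlane.im]
  ring

open Function.Periodic in
/-- Auxiliary: the leading exponents of two equal conjugates cannot be strictly ordered. -/
theorem not_ratio_lt (Jf : ℍ → ℂ)
    (hasym : Filter.Tendsto (fun τ : ℍ => qParam 1 (τ : ℂ) * Jf τ) atImInfty (nhds 1))
    (a b d a' b' d' : ℕ) (ha : 0 < a) (hd : 0 < d) (ha' : 0 < a') (hd' : 0 < d')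
    (h : ∀ τ : ℍ, Jf (aff a b d ha hd τ) = Jf (aff a' b' d' ha' hd' τ)) :
    ¬ ((a' : ℝ) / d' < (a : ℝ) / d) := by
  intro hlt
  set F : ℍ → ℂ := fun τ => qParam 1 (τ : ℂ) * Jf τ with hF
  have hF1 : Filter.Tendsto (fun τ => F (aff a b d ha hd τ)) atImInfty (nhds 1) :=
    hasym.comp (tendsto_aff a b d ha hd)
  have hF2 : Filter.Tendsto (fun τ => F (aff a' b' d' ha' hd' τ)) atImInfty (nhds 1) :=
    hasym.comp (tendsto_aff a' b' d' ha' hd')
  have hN1 : Filter.Tendsto (fun τ => ‖F (aff a b d ha hd τ)‖) atImInfty (nhds 1) := by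
    simpa using hF1.norm
  have hN2 : Filter.Tendsto (fun τ => ‖F (aff a' b' d' ha' hd' τ)‖) atImInfty (nhds 1) := by
    simpa using hF2.norm
  have key : ∀ τ : ℍ, ‖F (aff a b d ha hd τ)‖ = ‖F (aff a' b' d' ha' hd' τ)‖ *
      Real.exp (-2 * Real.pi * ((a : ℝ) / d - (a' : ℝ) / d') * τ.im) := by
    intro τ
    simp only [hF, norm_mul, norm_qParam_aff, h τ]
    have hexp : Real.exp (-2 * Real.pi * ((a : ℝ) / d) * τ.im) =
        Real.exp (-2 * Real.pi * ((a' : ℝ) / d') * τ.im) *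
          Real.exp (-2 * Real.pi * ((a : ℝ) / d - (a' : ℝ) / d') * τ.im) := by
      rw [← Real.exp_add]
      congr 1
      ring
    rw [hexp]
    ring
  have hE : Filter.Tendsto (fun τ : ℍ =>
      Real.exp (-2 * Real.pi * ((a : ℝ) / d - (a' : ℝ) / d') * τ.im)) atImInfty (nhds 0) := by
    apply Real.tendsto_exp_atBot.comp
    have hneg : -2 * Real.pi * ((a : ℝ) / d - (a' : ℝ) / d') < 0 := by
      have : 0 < (a : ℝ) / d - (a' : ℝ) / d' := sub_pos.mpr hlt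
      have hpi := Real.pi_pos
      nlinarith
    exact Filter.Tendsto.const_mul_atTop_of_neg hneg Filter.tendsto_comap
  have h0 : Filter.Tendsto (fun τ => ‖F (aff a b d ha hd τ)‖) atImInfty (nhds (1 * 0)) := by
    have := hN2.mul hE
    refine this.congr (fun τ => ?_)
    exact (key τ).symm
  rw [mul_zero] at h0
  exact one_ne_zero (tendsto_nhds_unique hN1 h0)

open Function.Periodic in
/-- Distinctness of the conjugates `Jf ∘ aff a b d`. -/
theorem conj_injective (Jf : ℍ → ℂ)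
    (hasym : Filter.Tendsto (fun τ : ℍ => qParam 1 (τ : ℂ) * Jf τ) atImInfty (nhds 1))
    (a b d a' b' d' : ℕ) (ha : 0 < a) (hd : 0 < d) (ha' : 0 < a') (hd' : 0 < d')
    (hM : a * d = a' * d') (hb : b < d) (hb' : b' < d')
    (h : ∀ τ : ℍ, Jf (aff a b d ha hd τ) = Jf (aff a' b' d' ha' hd' τ)) :
    a = a' ∧ b = b' ∧ d = d' := by
  have h1 := not_ratio_lt Jf hasym a b d a' b' d' ha hd ha' hd' h
  have h2 := not_ratio_lt Jf hasym a' b' d' a b d ha' hd' ha hd (fun τ => (h τ).symm)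
  have heq : (a : ℝ) / d = (a' : ℝ) / d' := le_antisymm (not_lt.mp h1) (not_lt.mp h2)
  have hdR : (d : ℝ) ≠ 0 := by exact_mod_cast hd.ne'
  have hdR' : (d' : ℝ) ≠ 0 := by exact_mod_cast hd'.ne'
  have hcross : a * d' = a' * d := by
    have : (a : ℝ) * d' = a' * d := by
      field_simp at heq
      linarith
    exact_mod_cast this
  have haa : a = a' := by
    have hsq : a * a = a' * a' := by
      apply Nat.eq_of_mul_eq_mul_right hd'
      calc a * a * d' = a * (a * d') := by ring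
        _ = a * (a' * d) := by rw [hcross]
        _ = a' * (a * d) := by ring
        _ = a' * (a' * d') := by rw [hM]
        _ = a' * a' * d' := by ring
    exact Nat.mul_self_inj.mp hsq
  subst haa
  have hdd : d = d' := Nat.eq_of_mul_eq_mul_left ha hM
  subst hdd
  refine ⟨rfl, ?_, rfl⟩
  -- phases
  set F : ℍ → ℂ := fun τ => qParam 1 (τ : ℂ) * Jf τ with hF
  have hF1 : Filter.Tendsto (fun τ => F (aff a b d ha hd τ)) atImInfty (nhds 1) :=
    hasym.comp (tendsto_aff a b d ha hd)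
  have hF2 : Filter.Tendsto (fun τ => F (aff a b' d ha' hd' τ)) atImInfty (nhds 1) :=
    hasym.comp (tendsto_aff a b' d ha' hd')
  have key : ∀ τ : ℍ, F (aff a b d ha hd τ) * Complex.exp (2 * Real.pi * Complex.I * b' / d) =
      F (aff a b' d ha' hd' τ) * Complex.exp (2 * Real.pi * Complex.I * b / d) := by
    intro τ
    simp only [hF, qParam_aff, h τ]
    ring
  have hlim1 : Filter.Tendsto (fun τ => F (aff a b d ha hd τ) *
      Complex.exp (2 * Real.pi * Complex.I * b' / d)) atImInfty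
      (nhds (1 * Complex.exp (2 * Real.pi * Complex.I * b' / d))) := hF1.mul_const _
  have hlim2 : Filter.Tendsto (fun τ => F (aff a b d ha hd τ) *
      Complex.exp (2 * Real.pi * Complex.I * b' / d)) atImInfty
      (nhds (1 * Complex.exp (2 * Real.pi * Complex.I * b / d))) := by
    refine (hF2.mul_const _).congr (fun τ => ?_)
    exact (key τ).symm
  have hexp := tendsto_nhds_unique hlim1 hlim2
  rw [one_mul, one_mul, Complex.exp_eq_exp_iff_exists_int] at hexp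
  obtain ⟨n, hn⟩ := hexp
  have hdC : (d : ℂ) ≠ 0 := by exact_mod_cast hd.ne'
  have hpi : (2 * Real.pi * Complex.I : ℂ) ≠ 0 := Complex.two_pi_I_ne_zero
  have hint : ((b' : ℤ) : ℂ) = ((b : ℤ) + n * d : ℤ) := by
    push_cast
    have h3 : (2 * Real.pi * Complex.I) * ((b' : ℂ) / d) = (2 * Real.pi * Complex.I) * ((b : ℂ) / d + n) := by
      rw [mul_add]
      calc (2 * Real.pi * Complex.I) * ((b' : ℂ) / d) = 2 * Real.pi * Complex.I * b' / d := by ring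
        _ = 2 * Real.pi * Complex.I * b / d + n * (2 * Real.pi * Complex.I) := hn
        _ = _ := by ring
    have h4 := mul_left_cancel₀ hpi h3
    field_simp at h4
    linear_combination h4
  have hint' : (b' : ℤ) = b + n * d := by exact_mod_cast hint
  have hn0 : n = 0 := by
    by_contra hne
    rcases lt_or_gt_of_ne hne with hlt | hgt
    · have : n ≤ -1 := by omega
      have : n * (d : ℤ) ≤ -1 * d := by
        apply mul_le_mul_of_nonneg_right this (by positivity)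
      have hb1 : (b : ℤ) < d := by exact_mod_cast hb
      have hb2 : (0 : ℤ) ≤ b' := by positivity
      linarith
    · have : 1 ≤ n := by omega
      have : 1 * (d : ℤ) ≤ n * d := by
        apply mul_le_mul_of_nonneg_right this (by positivity)
      have hb1 : (b' : ℤ) < d := by exact_mod_cast hb'
      have hb2 : (0 : ℤ) ≤ b := by positivity
      linarith
  rw [hn0, zero_mul, add_zero] at hint'
  exact_mod_cast hint'.symm

/-- If `γ₁ γ₂⁻¹ ∈ Γ₀(M)` then `diag(M,1)` conjugates it into `SL(2,ℤ)`. -/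
theorem exists_diag_comm_of_mem_Gamma0 (M : ℕ) (δ : SL(2, ℤ))
    (hδ : δ ∈ CongruenceSubgroup.Gamma0 M) :
    ∃ δ' : SL(2, ℤ), !![(M : ℤ), 0; 0, 1] * (δ : Matrix (Fin 2) (Fin 2) ℤ) =
      (δ' : Matrix (Fin 2) (Fin 2) ℤ) * !![(M : ℤ), ((0 : ℕ) : ℤ); 0, ((1 : ℕ) : ℤ)] := by
  rw [CongruenceSubgroup.Gamma0_mem, ZMod.intCast_zmod_eq_zero_iff_dvd] at hδ
  obtain ⟨k, hk⟩ := hδ
  have hdet : δ 0 0 * δ 1 1 - δ 0 1 * δ 1 0 = 1 := by
    have := δ.det_coe
    rw [Matrix.det_fin_two] at this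
    exact this
  have hdet' : Matrix.det !![δ 0 0, (M : ℤ) * δ 0 1; k, δ 1 1] = 1 := by
    rw [Matrix.det_fin_two_of]
    rw [hk] at hdet
    linear_combination hdet
  refine ⟨⟨!![δ 0 0, (M : ℤ) * δ 0 1; k, δ 1 1], hdet'⟩, ?_⟩
  ext i j
  fin_cases i <;> fin_cases j
  · simp [Matrix.mul_apply, Fin.sum_univ_two, mul_comm]
  · simp [Matrix.mul_apply, Fin.sum_univ_two]
  · simp [Matrix.mul_apply, Fin.sum_univ_two, hk, mul_comm]
  · simp [Matrix.mul_apply, Fin.sum_univ_two]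

open Function.Periodic in
/-- The conjugates of `Jf ∘ (M • ·)` by `γ₁, γ₂` agree iff `γ₁ γ₂⁻¹ ∈ Γ₀(M)`. -/
theorem conj_eq_iff_mem_Gamma0 (Jf : ℍ → ℂ)
    (hinv : ∀ (g : SL(2, ℤ)) (τ : ℍ), Jf (g • τ) = Jf τ)
    (hasym : Filter.Tendsto (fun τ : ℍ => qParam 1 (τ : ℂ) * Jf τ) atImInfty (nhds 1))
    (M : ℕ) (hM : 0 < M) (γ₁ γ₂ : SL(2, ℤ)) :
    (∀ τ : ℍ, Jf (aff M 0 1 hM one_pos (γ₁ • τ)) = Jf (aff M 0 1 hM one_pos (γ₂ • τ))) ↔
      γ₁ * γ₂⁻¹ ∈ CongruenceSubgroup.Gamma0 M := by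
  constructor
  · intro h
    obtain ⟨g₁, a₁, b₁, d₁, had₁, hbd₁, e₁⟩ := exists_hermite M hM γ₁
    obtain ⟨g₂, a₂, b₂, d₂, had₂, hbd₂, e₂⟩ := exists_hermite M hM γ₂
    have ha₁ : 0 < a₁ := by
      rcases Nat.eq_zero_or_pos a₁ with h0 | h0
      · rw [h0, zero_mul] at had₁; omega
      · exact h0
    have hd₁ : 0 < d₁ := by omega
    have ha₂ : 0 < a₂ := by
      rcases Nat.eq_zero_or_pos a₂ with h0 | h0
      · rw [h0, zero_mul] at had₂; omega
      · exact h0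
    have hd₂ : 0 < d₂ := by omega
    have hconj : ∀ τ : ℍ, Jf (aff a₁ b₁ d₁ ha₁ hd₁ τ) = Jf (aff a₂ b₂ d₂ ha₂ hd₂ τ) := by
      intro τ
      rw [← conj_eq Jf hinv M hM γ₁ g₁ a₁ b₁ d₁ ha₁ hd₁ e₁ τ,
        ← conj_eq Jf hinv M hM γ₂ g₂ a₂ b₂ d₂ ha₂ hd₂ e₂ τ]
      exact h τ
    obtain ⟨haa, hbb, hdd⟩ := conj_injective Jf hasym a₁ b₁ d₁ a₂ b₂ d₂ ha₁ hd₁ ha₂ hd₂
      (had₁.trans had₂.symm) hbd₁ hbd₂ hconj
    subst haa hbb hdd
    set D : Matrix (Fin 2) (Fin 2) ℤ := !![(M : ℤ), 0; 0, 1] with hD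
    set α : Matrix (Fin 2) (Fin 2) ℤ := !![(a₁ : ℤ), (b₁ : ℤ); 0, (d₁ : ℤ)] with hα
    have hα' : α = ((g₂⁻¹ : SL(2, ℤ)) : Matrix (Fin 2) (Fin 2) ℤ) * D *
        (γ₂ : Matrix (Fin 2) (Fin 2) ℤ) := by
      calc α = (((g₂⁻¹ * g₂ : SL(2, ℤ)) : Matrix (Fin 2) (Fin 2) ℤ)) * α := by
            rw [inv_mul_cancel, Matrix.SpecialLinearGroup.coe_one, one_mul]
        _ = ((g₂⁻¹ : SL(2, ℤ)) : Matrix (Fin 2) (Fin 2) ℤ) *
              ((g₂ : Matrix (Fin 2) (Fin 2) ℤ) * α) := by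
            rw [Matrix.SpecialLinearGroup.coe_mul, mul_assoc]
        _ = ((g₂⁻¹ : SL(2, ℤ)) : Matrix (Fin 2) (Fin 2) ℤ) *
              (D * (γ₂ : Matrix (Fin 2) (Fin 2) ℤ)) := by rw [e₂]
        _ = _ := by rw [mul_assoc]
    have hcomm : D * ((γ₁ * γ₂⁻¹ : SL(2, ℤ)) : Matrix (Fin 2) (Fin 2) ℤ) =
        ((g₁ * g₂⁻¹ : SL(2, ℤ)) : Matrix (Fin 2) (Fin 2) ℤ) * D := by
      calc D * ((γ₁ * γ₂⁻¹ : SL(2, ℤ)) : Matrix (Fin 2) (Fin 2) ℤ)
          = (D * (γ₁ : Matrix (Fin 2) (Fin 2) ℤ)) *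
              ((γ₂⁻¹ : SL(2, ℤ)) : Matrix (Fin 2) (Fin 2) ℤ) := by
            rw [Matrix.SpecialLinearGroup.coe_mul, mul_assoc]
        _ = ((g₁ : Matrix (Fin 2) (Fin 2) ℤ) * α) *
              ((γ₂⁻¹ : SL(2, ℤ)) : Matrix (Fin 2) (Fin 2) ℤ) := by rw [e₁]
        _ = (g₁ : Matrix (Fin 2) (Fin 2) ℤ) * ((g₂⁻¹ : SL(2, ℤ)) : Matrix (Fin 2) (Fin 2) ℤ)
              * D * (((γ₂ * γ₂⁻¹ : SL(2, ℤ)) : Matrix (Fin 2) (Fin 2) ℤ)) := by
            rw [hα', Matrix.SpecialLinearGroup.coe_mul]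
            simp only [mul_assoc]
        _ = _ := by
            rw [mul_inv_cancel, Matrix.SpecialLinearGroup.coe_one, mul_one,
              Matrix.SpecialLinearGroup.coe_mul]
    have h10 := congr_fun (congr_fun hcomm 1) 0
    simp only [hD, Matrix.mul_apply, Fin.sum_univ_two, Matrix.of_apply, Matrix.cons_val',
      Matrix.cons_val_zero, Matrix.cons_val_one, Matrix.empty_val', Matrix.cons_val_fin_one,
      zero_mul, one_mul, add_zero, zero_add, mul_zero] at h10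
    rw [CongruenceSubgroup.Gamma0_mem, ZMod.intCast_zmod_eq_zero_iff_dvd]
    exact ⟨_, by rw [h10]; ring⟩
  · intro hmem τ
    obtain ⟨δ', hδ'⟩ := exists_diag_comm_of_mem_Gamma0 M _ hmem
    have h1 := aff_smul_eq M hM (γ₁ * γ₂⁻¹) δ' M 0 1 hM one_pos hδ' (γ₂ • τ)
    rw [← mul_smul, inv_mul_cancel_right] at h1
    rw [h1, hinv]

end Fermat.Agent.S24.H15
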