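import Mathlib
import Fermat.Agent.S24.H15_Conjugates

set_option autoImplicit false

namespace Fermat.Agent.S24.H15

open Matrix MatrixGroups UpperHalfPlane Function.Periodic
open scoped Manifold

/-- Roots of unity in `ℂ` lie in the range of any ring hom from an algebraically closed field
of characteristic zero. -/
theorem rootOfUnity_mem_range {k : Type*} [Field k] [IsAlgClosed k] [CharZero k] (ι : k →+* ℂ)
    (d : ℕ) (hd : 0 < d) (z : ℂ) (hz : z ^ d = 1) : z ∈ Set.range ι := by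
  have : NeZero (d : k) := ⟨by exact_mod_cast hd.ne'⟩
  obtain ⟨η, hη⟩ := HasEnoughRootsOfUnity.exists_primitiveRoot k d
  have hη' : IsPrimitiveRoot (ι η) d := hη.map_of_injective ι.injective
  have : NeZero d := ⟨hd.ne'⟩
  obtain ⟨i, -, hi⟩ := hη'.eq_pow_of_pow_eq_one hz
  exact ⟨η ^ i, by rw [map_pow, hi]⟩


/-- `q_{d e}^e = q_d`. -/
theorem qParam_mul_pow (d e : ℕ) (hd : 0 < d) (he : 0 < e) (z : ℂ) :
    qParam ((d * e : ℕ) : ℝ) z ^ e = qParam (d : ℝ) z := by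
  have hd' : (d : ℂ) ≠ 0 := by exact_mod_cast hd.ne'
  have he' : (e : ℂ) ≠ 0 := by exact_mod_cast he.ne'
  rw [qParam, qParam, ← Complex.exp_nat_mul]
  congr 1
  push_cast
  field_simp

/-- The explicit coefficients of the `q_h`-expansion of a conjugate. -/
noncomputable def conjCoeff (c : ℕ → ℂ) (ζ : ℂ) (K d : ℕ) (m : ℕ) : ℂ :=
  if K ∣ m then c (m / K) * ζ ^ (m / K + (d - 1)) else 0

theorem conjCoeff_mul (c : ℕ → ℂ) (ζ : ℂ) (K d : ℕ) (hK : 0 < K) (n : ℕ) :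
    conjCoeff c ζ K d (K * n) = c n * ζ ^ (n + (d - 1)) := by
  rw [conjCoeff, if_pos (dvd_mul_right K n), Nat.mul_div_cancel_left n hK]

theorem conjCoeff_of_not_dvd (c : ℕ → ℂ) (ζ : ℂ) (K d : ℕ) (m : ℕ) (h : ¬ K ∣ m) :
    conjCoeff c ζ K d m = 0 := by
  rw [conjCoeff, if_neg h]

/-- Transport of a `q`-expansion of `Jf` to the conjugate `τ ↦ Jf ((a τ + b) / d)`, as an
expansion in `q_{d e}` (any `e ≥ 1`). -/
theorem hasSum_conj (Jf : ℍ → ℂ) (c : ℕ → ℂ)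
    (hJ : ∀ τ : ℍ, HasSum (fun n : ℕ => c n * qParam 1 (τ : ℂ) ^ n) (qParam 1 (τ : ℂ) * Jf τ))
    (a b d e : ℕ) (ha : 0 < a) (hd : 0 < d) (he : 0 < e) (τ : ℍ) :
    HasSum (fun m : ℕ => conjCoeff c (Complex.exp (2 * Real.pi * Complex.I * b / d)) (a * e) d m *
        qParam ((d * e : ℕ) : ℝ) (τ : ℂ) ^ m)
      (qParam ((d * e : ℕ) : ℝ) (τ : ℂ) ^ (a * e) * Jf (aff a b d ha hd τ)) := by
  set ζ : ℂ := Complex.exp (2 * Real.pi * Complex.I * b / d) with hζ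
  set q : ℂ := qParam ((d * e : ℕ) : ℝ) (τ : ℂ) with hq
  have hd' : (d : ℂ) ≠ 0 := by exact_mod_cast hd.ne'
  have hζd : ζ ^ d = 1 := by
    rw [hζ, ← Complex.exp_nat_mul]
    have : (d : ℂ) * (2 * Real.pi * Complex.I * b / d) = (b : ℂ) * (2 * Real.pi * Complex.I) := by
      field_simp
    rw [this]
    exact_mod_cast Complex.exp_nat_mul_two_pi_mul_I b
  have hK : 0 < a * e := Nat.mul_pos ha he
  have hQ : qParam 1 (aff a b d ha hd τ : ℂ) = ζ * (q ^ (a * e)) := by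
    rw [qParam_aff, hq, mul_comm a e, pow_mul, qParam_mul_pow d e hd he]
  have h1 := hJ (aff a b d ha hd τ)
  rw [hQ] at h1
  have h2 := h1.mul_left (ζ ^ (d - 1))
  have hζinv : ζ ^ (d - 1) * ζ = 1 := by
    rw [← pow_succ, Nat.sub_add_cancel hd, hζd]
  have h3 : ζ ^ (d - 1) * (ζ * q ^ (a * e) * Jf (aff a b d ha hd τ)) =
      q ^ (a * e) * Jf (aff a b d ha hd τ) := by
    rw [← mul_assoc, ← mul_assoc, hζinv, one_mul]
  rw [h3] at h2
  have hinj : Function.Injective (fun n : ℕ => (a * e) * n) := fun x y hxy =>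
    Nat.eq_of_mul_eq_mul_left hK hxy
  rw [← hinj.hasSum_iff]
  · have hfun : ((fun m : ℕ => conjCoeff c ζ (a * e) d m * q ^ m) ∘ fun n : ℕ => (a * e) * n) =
        fun i : ℕ => ζ ^ (d - 1) * (c i * (ζ * q ^ (a * e)) ^ i) := by
      funext n
      simp only [Function.comp]
      rw [conjCoeff_mul c ζ (a * e) d hK n, mul_pow, pow_add, pow_mul]
      ring
    rw [hfun]
    exact h2
  · intro m hm
    rw [conjCoeff_of_not_dvd, zero_mul]
    rintro ⟨n, rfl⟩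
    exact hm ⟨n, rfl⟩


/-- Coefficient field version: if the `q`-expansion coefficients of `Jf` lie in the image of an
algebraically closed field `k` of characteristic zero (e.g. `ℚ̄`), so do the `q_{d e}`-expansion
coefficients of every conjugate `τ ↦ Jf ((a τ + b) / d)`. -/
theorem exists_hasSum_conj {k : Type*} [Field k] [IsAlgClosed k] [CharZero k] (ι : k →+* ℂ)
    (Jf : ℍ → ℂ) (c : ℕ → k)
    (hJ : ∀ τ : ℍ, HasSum (fun n : ℕ => ι (c n) * qParam 1 (τ : ℂ) ^ n) (qParam 1 (τ : ℂ) * Jf τ))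
    (a b d e : ℕ) (ha : 0 < a) (hd : 0 < d) (he : 0 < e) :
    ∃ c' : ℕ → k, (∀ n : ℕ, ∃ ζ : k, ζ ^ d = 1 ∧ c' (a * e * n) = c n * ζ) ∧
      (∀ m : ℕ, ¬ a * e ∣ m → c' m = 0) ∧
      ∀ τ : ℍ, HasSum (fun m : ℕ => ι (c' m) * qParam ((d * e : ℕ) : ℝ) (τ : ℂ) ^ m)
        (qParam ((d * e : ℕ) : ℝ) (τ : ℂ) ^ (a * e) * Jf (aff a b d ha hd τ)) := by
  set ζ : ℂ := Complex.exp (2 * Real.pi * Complex.I * b / d) with hζ
  have hd' : (d : ℂ) ≠ 0 := by exact_mod_cast hd.ne'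
  have hζd : ζ ^ d = 1 := by
    rw [hζ, ← Complex.exp_nat_mul]
    have : (d : ℂ) * (2 * Real.pi * Complex.I * b / d) = (b : ℂ) * (2 * Real.pi * Complex.I) := by
      field_simp
    rw [this]
    exact_mod_cast Complex.exp_nat_mul_two_pi_mul_I b
  obtain ⟨ζ₀, hζ₀⟩ := rootOfUnity_mem_range ι d hd ζ hζd
  have hζ₀d : ζ₀ ^ d = 1 := by
    apply ι.injective
    rw [map_pow, hζ₀, hζd, map_one]
  have hK : 0 < a * e := Nat.mul_pos ha he
  refine ⟨fun m => if a * e ∣ m then c (m / (a * e)) * ζ₀ ^ (m / (a * e) + (d - 1)) else 0,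
    fun n => ⟨ζ₀ ^ (n + (d - 1)), ?_, ?_⟩, fun m hm => if_neg hm, fun τ => ?_⟩
  · rw [← pow_mul, mul_comm, pow_mul, hζ₀d, one_pow]
  · simp only [if_pos (dvd_mul_right (a * e) n), Nat.mul_div_cancel_left n hK]
  · have h := hasSum_conj Jf (fun n => ι (c n)) hJ a b d e ha hd he τ
    convert h using 2 with m
    rw [conjCoeff]
    by_cases hm : a * e ∣ m
    · simp only [if_pos hm]
      rw [map_mul, map_pow, hζ₀]
    · simp only [if_neg hm]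
      rw [map_zero]

/-- Holomorphy of the conjugates. -/
theorem mdiff_conj (Jf : ℍ → ℂ) (hJf : MDiff Jf) (a b d : ℕ) (ha : 0 < a) (hd : 0 < d) :
    MDiff (fun τ : ℍ => Jf (aff a b d ha hd τ)) := by
  rw [UpperHalfPlane.mdifferentiable_iff] at hJf ⊢
  have hd' : (d : ℂ) ≠ 0 := by exact_mod_cast hd.ne'
  have hmaps : Set.MapsTo (fun z : ℂ => ((a : ℂ) * z + b) / d) {z : ℂ | 0 < z.im}
      {z : ℂ | 0 < z.im} := by
    intro z hz
    exact (aff a b d ha hd ⟨z, hz⟩).2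
  have hdiff : DifferentiableOn ℂ (fun z : ℂ => ((a : ℂ) * z + b) / d) {z : ℂ | 0 < z.im} := by
    intro z _
    exact (((differentiableAt_id.const_mul (a : ℂ)).add_const (b : ℂ)).div_const
      (d : ℂ)).differentiableWithinAt
  refine (hJf.comp hdiff hmaps).congr ?_
  intro z hz
  simp only [Function.comp]
  rw [ofComplex_apply_of_im_pos hz, ofComplex_apply_of_im_pos (hmaps hz)]
  rfl

/-- Growth of the conjugates: from `‖Jf τ‖ ≤ C exp (2π Im τ)` on `Im τ ≥ c₀`. -/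
theorem norm_conj_le (Jf : ℍ → ℂ) (c₀ C : ℝ)
    (hbd : ∀ τ : ℍ, c₀ ≤ τ.im → ‖Jf τ‖ ≤ C * Real.exp (2 * Real.pi * τ.im))
    (a b d : ℕ) (ha : 0 < a) (hd : 0 < d) (τ : ℍ) (hτ : c₀ * d / a ≤ τ.im) :
    ‖Jf (aff a b d ha hd τ)‖ ≤ C * Real.exp (2 * Real.pi * ((a : ℝ) / d) * τ.im) := by
  have ha' : (0 : ℝ) < a := by exact_mod_cast ha
  have hd' : (0 : ℝ) < d := by exact_mod_cast hd
  have him := im_aff a b d ha hd τ
  have h1 : c₀ ≤ (aff a b d ha hd τ).im := by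
    rw [him]
    rw [div_le_iff₀ ha'] at hτ
    rw [div_mul_eq_mul_div, le_div_iff₀ hd']
    linarith
  have h2 := hbd _ h1
  rw [him] at h2
  convert h2 using 3
  ring


theorem aff_vadd_mul (a b d e : ℕ) (ha : 0 < a) (hd : 0 < d) (τ : ℍ) :
    aff a b d ha hd (((d * e : ℕ) : ℝ) +ᵥ τ) = ((a * e : ℕ) : ℝ) +ᵥ aff a b d ha hd τ := by
  apply UpperHalfPlane.ext
  have hd' : (d : ℂ) ≠ 0 := by exact_mod_cast hd.ne'
  simp only [coe_aff, UpperHalfPlane.coe_vadd]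
  push_cast
  field_simp
  ring

/-- `d e`-periodicity of the conjugates. -/
theorem periodic_conj_mul (Jf : ℍ → ℂ) (hinv : ∀ (g : SL(2, ℤ)) (τ : ℍ), Jf (g • τ) = Jf τ)
    (a b d e : ℕ) (ha : 0 < a) (hd : 0 < d) (τ : ℍ) :
    Jf (aff a b d ha hd (((d * e : ℕ) : ℝ) +ᵥ τ)) = Jf (aff a b d ha hd τ) := by
  rw [aff_vadd_mul]
  have := hinv (ModularGroup.T ^ ((a * e : ℕ) : ℤ)) (aff a b d ha hd τ)
  rw [UpperHalfPlane.modular_T_zpow_smul] at this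
  simpa using this

section Level

variable (Jf : ℍ → ℂ) (hinv : ∀ (g : SL(2, ℤ)) (τ : ℍ), Jf (g • τ) = Jf τ)
  (N M : ℕ) (hN : 0 < N) (hMN : M ∣ N) (γ : SL(2, ℤ))

include hinv hMN

/-- The conjugate `τ ↦ Jf (M • (γ • τ))` of `τ ↦ Jf (M • τ)`, for `M ∣ N`, is `N`-periodic. -/
theorem periodic_conj_smul (τ : ℍ) :
    Jf (aff M 0 1 (Nat.pos_of_dvd_of_pos hMN hN) one_pos (γ • (((N : ℕ) : ℝ) +ᵥ τ))) =
      Jf (aff M 0 1 (Nat.pos_of_dvd_of_pos hMN hN) one_pos (γ • τ)) := by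
  obtain ⟨a, b, d, ha, hd, had, -, h⟩ :=
    exists_conj Jf hinv M (Nat.pos_of_dvd_of_pos hMN hN) γ
  obtain ⟨e, he⟩ : d ∣ N := (Dvd.intro_left a had).trans hMN
  rw [h, h, he, periodic_conj_mul Jf hinv]

/-- The conjugate `τ ↦ Jf (M • (γ • τ))` is holomorphic. -/
theorem mdiff_conj_smul (hJf : MDiff Jf) :
    MDiff (fun τ : ℍ => Jf (aff M 0 1 (Nat.pos_of_dvd_of_pos hMN hN) one_pos (γ • τ))) := by
  obtain ⟨a, b, d, ha, hd, -, -, h⟩ :=
    exists_conj Jf hinv M (Nat.pos_of_dvd_of_pos hMN hN) γ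
  have : (fun τ : ℍ => Jf (aff M 0 1 (Nat.pos_of_dvd_of_pos hMN hN) one_pos (γ • τ))) =
      fun τ : ℍ => Jf (aff a b d ha hd τ) := funext h
  rw [this]
  exact mdiff_conj Jf hJf a b d ha hd

/-- Growth of the conjugate `τ ↦ Jf (M • (γ • τ))`: `O(exp (2π M Im τ))` on `Im τ ≥ c₀ M`. -/
theorem norm_conj_smul_le (c₀ C : ℝ) (hc₀ : 0 ≤ c₀) (hC : 0 ≤ C)
    (hbd : ∀ τ : ℍ, c₀ ≤ τ.im → ‖Jf τ‖ ≤ C * Real.exp (2 * Real.pi * τ.im))
    (τ : ℍ) (hτ : c₀ * M ≤ τ.im) :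
    ‖Jf (aff M 0 1 (Nat.pos_of_dvd_of_pos hMN hN) one_pos (γ • τ))‖ ≤
      C * Real.exp (2 * Real.pi * M * τ.im) := by
  obtain ⟨a, b, d, ha, hd, had, -, h⟩ :=
    exists_conj Jf hinv M (Nat.pos_of_dvd_of_pos hMN hN) γ
  rw [h]
  have ha' : (1 : ℝ) ≤ a := by exact_mod_cast ha
  have hd' : (1 : ℝ) ≤ d := by exact_mod_cast hd
  have hM' : (M : ℝ) = a * d := by exact_mod_cast had.symm
  have h1 : c₀ * d / a ≤ τ.im := by
    refine le_trans ?_ hτ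
    rw [div_le_iff₀ (by linarith)]
    rw [hM']
    nlinarith [mul_nonneg hc₀ (by linarith : (0:ℝ) ≤ d), mul_nonneg (mul_nonneg hc₀ (by linarith : (0:ℝ) ≤ d)) (by nlinarith : (0:ℝ) ≤ a * a - 1)]
  refine le_trans (norm_conj_le Jf c₀ C hbd a b d ha hd τ h1) ?_
  apply mul_le_mul_of_nonneg_left _ hC
  apply Real.exp_le_exp.mpr
  have hπ := Real.pi_pos
  have him := τ.im_pos
  have : (a : ℝ) / d ≤ M := by
    rw [div_le_iff₀ (by linarith), hM']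
    nlinarith [mul_nonneg (by linarith : (0:ℝ) ≤ a) (by nlinarith : (0:ℝ) ≤ d * d - 1)]
  nlinarith [mul_le_mul_of_nonneg_right this him.le, mul_pos hπ him]

/-- `q_N`-expansion of the conjugate `τ ↦ Jf (M • (γ • τ))`, `M ∣ N`, with coefficients in
the image of `k` (e.g. `ℚ̄`): `q_N^K * Jf (M • (γ • τ)) = ∑ ι (c' m) q_N^m`, with `K ∣ N`... -/
theorem exists_hasSum_conj_smul {k : Type*} [Field k] [IsAlgClosed k] [CharZero k] (ι : k →+* ℂ)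
    (c : ℕ → k)
    (hJ : ∀ τ : ℍ, HasSum (fun n : ℕ => ι (c n) * qParam 1 (τ : ℂ) ^ n) (qParam 1 (τ : ℂ) * Jf τ)) :
    ∃ (K : ℕ) (c' : ℕ → k), 0 < K ∧ (∃ ζ : k, ζ ^ N = 1 ∧ c' 0 = c 0 * ζ) ∧
      ∀ τ : ℍ, HasSum (fun m : ℕ => ι (c' m) * qParam ((N : ℕ) : ℝ) (τ : ℂ) ^ m)
        (qParam ((N : ℕ) : ℝ) (τ : ℂ) ^ K *
          Jf (aff M 0 1 (Nat.pos_of_dvd_of_pos hMN hN) one_pos (γ • τ))) := by
  obtain ⟨a, b, d, ha, hd, had, -, h⟩ :=
    exists_conj Jf hinv M (Nat.pos_of_dvd_of_pos hMN hN) γ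
  obtain ⟨e, he⟩ : d ∣ N := (Dvd.intro_left a had).trans hMN
  have he0 : 0 < e := by
    rcases Nat.eq_zero_or_pos e with h0 | h0
    · rw [h0, mul_zero] at he; omega
    · exact h0
  obtain ⟨c', hc'1, -, hc'3⟩ := exists_hasSum_conj ι Jf c hJ a b d e ha hd he0
  refine ⟨a * e, c', Nat.mul_pos ha he0, ?_, fun τ => ?_⟩
  · obtain ⟨ζ, hζ, hc0⟩ := hc'1 0
    rw [mul_zero] at hc0
    exact ⟨ζ, by rw [he, pow_mul, hζ, one_pow], hc0⟩
  · rw [h τ, he]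
    exact hc'3 τ

end Level

end Fermat.Agent.S24.H15
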