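import Fermat.Agent.S24.H28_JLaurent

/-!
S24 package J1 (helper28): umbrella import.

* `H28_JDef`     : `J`, `J_mdiff`, `J_smul`, `J_sub_1728`, `J_mul_discriminant`
* `H28_Taylor`   : `taylorPS`, multiplicativity, `hasSum_taylorPS`, limits, polynomials
* `H28_EtaProd`  : Taylor series of the Euler product is the formal `etaProd`
* `H28_JBridge`  : `jDisc`, `taylorPS_jDisc`, `hasSum_jNum`
* `H28_JAnalytic`: `exists_norm_J_le`, `tendsto_inv_J_sub_atImInfty`, `J_surjective`
* `H28_JLaurent` : `hasSum_jq`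
-/
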