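import Fermat.Agent.S24.H17_QSum
import Fermat.Agent.S24.Defs
import Fermat.Agent.S24.H24_Group
import Fermat.Agent.S24.H15_Conjugates
import Fermat.Agent.S24.H15_ConjExpansion
import Fermat.Agent.S24.H28_J1
import Fermat.Prelude.Thm_ModularCurve_coeffMap_qExpand

/-!
S24 package T3 (helper17): the ring hom `Theta` from `A = Qbar[j_d : d ∣ N]` to functions on `ℍ`.
-/

set_option autoImplicit false
noncomputable section
namespace Fermat.Agent.S24.H17
open UpperHalfPlane ModularCurve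
open scoped MatrixGroups Manifold
local notation "𝕢" => Function.Periodic.qParam

theorem isAlgebraic_Qbar : Algebra.IsAlgebraic ℚ Qbar := by
  have h := AlgebraicClosure.isAlgebraic ℚ
  have e : (AlgebraicClosure.instAlgebra ℚ : Algebra ℚ (AlgebraicClosure ℚ)) =
      DivisionRing.toRatAlgebra := Subsingleton.elim _ _
  rw [e] at h
  exact h

/-- C4: the fixed embedding of `Qbar` into `ℂ`. -/
def iota : Qbar →+* ℂ :=
  haveI := isAlgebraic_Qbar
  ((IsAlgClosed.lift : Qbar →ₐ[ℚ] ℂ) : Qbar →+* ℂ)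

theorem iota_injective : Function.Injective iota := iota.injective

theorem iota_comp_algebraMap : iota.comp (algebraMap ℚ Qbar) = algebraMap ℚ ℂ :=
  Subsingleton.elim _ _

/-- `J` as a `q`-sum. -/
theorem isQSum_J : IsQSum (coeffMap (algebraMap ℚ ℂ) jq) H28.J := by
  intro τ
  have hq : 𝕢 1 (τ : ℂ) ≠ 0 := Function.Periodic.qParam_ne_zero _
  refine (hasSum_bridge _ 1 ?_ hq _).mpr ?_
  · intro n hn
    rw [coeffMap_coeff, coeff_jq_of_lt (by simpa using hn), map_zero]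
  · have := H28.hasSum_jq τ
    simpa using this

/-- multiplication by `d` on `ℍ`. -/
abbrev mulD (d : ℕ) [NeZero d] : ℍ → ℍ := H15.aff d 0 1 (Nat.pos_of_ne_zero (NeZero.ne d)) one_pos

theorem qParam_mulD (d : ℕ) [NeZero d] (τ : ℍ) :
    𝕢 1 (mulD d τ : ℂ) = 𝕢 1 (τ : ℂ) ^ d := by
  have := H15.qParam_aff d 0 1 (Nat.pos_of_ne_zero (NeZero.ne d)) one_pos τ
  simpa using this

theorem IsQSum.scale {Y : LaurentSeries ℂ} {g : ℍ → ℂ} (h : IsQSum Y g) (d : ℕ) [NeZero d] :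
    IsQSum (qExpand ℂ d Y) (fun τ => g (mulD d τ)) := by
  intro τ
  have h1 := h (mulD d τ)
  rw [qParam_mulD] at h1
  have hinj : Function.Injective (fun k : ℤ => (d : ℤ) * k) :=
    mul_right_injective₀ (by exact_mod_cast NeZero.ne d)
  have h0 : ∀ x : ℤ, x ∉ Set.range (fun k : ℤ => (d : ℤ) * k) →
      (qExpand ℂ d Y).coeff x * 𝕢 1 (τ : ℂ) ^ x = 0 := by
    intro x hx
    rw [qExpand_coeff_of_not_dvd d Y (fun ⟨c, hc⟩ => hx ⟨c, hc.symm⟩), zero_mul]
  rw [← hinj.hasSum_iff h0]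
  have e : ((fun x : ℤ => (qExpand ℂ d Y).coeff x * 𝕢 1 (τ : ℂ) ^ x) ∘ fun k : ℤ => (d : ℤ) * k) =
      fun k : ℤ => Y.coeff k * (𝕢 1 (τ : ℂ) ^ d) ^ k := by
    funext k
    simp only [Function.comp_apply]
    rw [qExpand_coeff_mul, zpow_mul, zpow_natCast]
  rw [e]
  exact h1

theorem mdiff_comp_mulD {g : ℍ → ℂ} (hg : MDiff g) (d : ℕ) [NeZero d] :
    MDiff (fun τ => g (mulD d τ)) := by
  rw [UpperHalfPlane.mdifferentiable_iff] at hg ⊢
  have hd : (0 : ℝ) < d := by exact_mod_cast Nat.pos_of_ne_zero (NeZero.ne d)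
  have hmap : Set.MapsTo (fun z : ℂ => (d : ℂ) * z) {z | 0 < z.im} {z | 0 < z.im} := by
    intro z hz
    simp only [Set.mem_ofPred_eq] at hz ⊢
    rw [Complex.mul_im]
    simp only [Complex.natCast_re, Complex.natCast_im, zero_mul, add_zero]
    exact mul_pos hd hz
  have h1 : DifferentiableOn ℂ (fun z : ℂ => (d : ℂ) * z) {z | 0 < z.im} :=
    (differentiableOn_id.const_mul (d : ℂ))
  have := hg.comp h1 hmap
  refine this.congr ?_
  intro z hz
  simp only [Function.comp, Set.mem_ofPred_eq] at hz ⊢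
  congr 1
  rw [ofComplex_apply_of_im_pos hz, ofComplex_apply_of_im_pos (hmap hz)]
  apply UpperHalfPlane.ext
  simp [mulD]

variable (N : ℕ) [NeZero N]

/-- The generators `j(q^d)`, `d ∣ N`. -/
def gens : Set (FN N) := {x | ∃ (d : ℕ) (_ : NeZero d) (hd : d ∣ N), x = jd N d hd}

/-- `A = Qbar[j_d : d ∣ N]`. -/
def A : Subalgebra Qbar (FN N) := Algebra.adjoin Qbar (gens N)

/-- Evaluation of a Laurent series with `Qbar`-coefficients at `q = exp (2πiτ)`. -/
def evalQ (x : LaurentSeries Qbar) (τ : ℍ) : ℂ :=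
  ∑' n : ℤ, iota (x.coeff n) * 𝕢 1 (τ : ℂ) ^ n

/-- The function on `ℍ` attached to an element of `FN N` (meaningful on `A N`). -/
def Theta (f : FN N) : ℍ → ℂ := evalQ (f : LaurentSeries Qbar)

/-- the property carried through the induction. -/
def Good (x : LaurentSeries Qbar) : Prop :=
  ∃ g : ℍ → ℂ, MDiff g ∧ IsQSum (coeffMap iota x) g

theorem coeffMap_iota_coeffEmb (z : LaurentSeries ℚ) :
    coeffMap iota (coeffEmb Qbar z) = coeffMap (algebraMap ℚ ℂ) z := by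
  rw [coeffEmb, coeffMap_coeffMap]
  exact coeffMap_congr iota_comp_algebraMap z

theorem coeffMap_iota_jd (d : ℕ) [NeZero d] (hd : d ∣ N) :
    coeffMap iota (jd N d hd : LaurentSeries Qbar) =
      qExpand ℂ d (coeffMap (algebraMap ℚ ℂ) jq) := by
  show coeffMap iota (coeffEmb Qbar (qExpand ℚ d jq)) = _
  rw [coeffMap_iota_coeffEmb, ModularCurve.coeffMap_qExpand]

theorem isQSum_jd (d : ℕ) [NeZero d] (hd : d ∣ N) :
    IsQSum (coeffMap iota (jd N d hd : LaurentSeries Qbar)) (fun τ => H28.J (mulD d τ)) := by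
  rw [coeffMap_iota_jd]
  exact isQSum_J.scale d

theorem coe_algebraMap_FN (c : Qbar) :
    ((algebraMap Qbar (FN N) c : FN N) : LaurentSeries Qbar) = HahnSeries.single 0 c := by
  rw [← algebraMap_laurentSeries_eq_single]
  rfl

theorem good_of_mem_A {f : FN N} (hf : f ∈ A N) : Good (f : LaurentSeries Qbar) := by
  induction hf using Algebra.adjoin_induction with
  | mem x hx =>
    obtain ⟨d, hd0, hd, rfl⟩ := hx
    exact ⟨_, mdiff_comp_mulD H28.J_mdiff d, isQSum_jd N d hd⟩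
  | algebraMap c =>
    refine ⟨fun _ => iota c, mdifferentiable_const, ?_⟩
    rw [coe_algebraMap_FN, coeffMap_single]
    exact IsQSum.single_zero _
  | add x y _ _ hx hy =>
    obtain ⟨g, hg, hg'⟩ := hx
    obtain ⟨k, hk, hk'⟩ := hy
    refine ⟨g + k, hg.add hk, ?_⟩
    have : ((x + y : FN N) : LaurentSeries Qbar) = (x : LaurentSeries Qbar) + y := rfl
    rw [this, map_add]
    exact hg'.add hk'
  | mul x y _ _ hx hy =>
    obtain ⟨g, hg, hg'⟩ := hx
    obtain ⟨k, hk, hk'⟩ := hy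
    refine ⟨g * k, hg.mul hk, ?_⟩
    have : ((x * y : FN N) : LaurentSeries Qbar) = (x : LaurentSeries Qbar) * y := rfl
    rw [this, map_mul]
    exact hg'.mul hk'

theorem isQSum_Theta_of_good {f : FN N} (h : Good (f : LaurentSeries Qbar)) :
    MDiff (Theta N f) ∧ IsQSum (coeffMap iota (f : LaurentSeries Qbar)) (Theta N f) := by
  obtain ⟨g, hg, hg'⟩ := h
  have : Theta N f = g := by
    funext τ
    exact (hg'.eq_tsum τ).symm
  rw [this]
  exact ⟨hg, hg'⟩

theorem isQSum_Theta {f : FN N} (hf : f ∈ A N) :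
    IsQSum (coeffMap iota (f : LaurentSeries Qbar)) (Theta N f) :=
  (isQSum_Theta_of_good N (good_of_mem_A N hf)).2

theorem jd_mem_A (d : ℕ) [NeZero d] (hd : d ∣ N) : jd N d hd ∈ A N :=
  Algebra.subset_adjoin ⟨d, ‹_›, hd, rfl⟩

theorem jBar_eq_jd : jBar N = jd N 1 (one_dvd N) := by
  apply Subtype.ext
  simp only [jBar, jd]
  rw [qExpand_one_apply]

theorem jBar_mem_A : jBar N ∈ A N := by
  rw [jBar_eq_jd]; exact jd_mem_A N 1 _

/-- `Θ f` is given by the convergent `q`-series of `f`. -/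
theorem Theta_hasSum {f : FN N} (hf : f ∈ A N) (τ : ℍ) :
    HasSum (fun n : ℤ => iota ((f : LaurentSeries Qbar).coeff n) * 𝕢 1 (τ : ℂ) ^ n)
      (Theta N f τ) := isQSum_Theta N hf τ

theorem Theta_mdiff {f : FN N} (hf : f ∈ A N) : MDiff (Theta N f) :=
  (isQSum_Theta_of_good N (good_of_mem_A N hf)).1

theorem Theta_algebraMap (c : Qbar) : Theta N (algebraMap Qbar (FN N) c) = fun _ => iota c := by
  have h1 := isQSum_Theta N (Subalgebra.algebraMap_mem (A N) c)
  rw [coe_algebraMap_FN, coeffMap_single] at h1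
  exact h1.unique (IsQSum.single_zero _)

theorem Theta_zero : Theta N 0 = 0 := by
  have := Theta_algebraMap N 0
  rw [map_zero, map_zero] at this
  exact this

theorem Theta_one : Theta N 1 = 1 := by
  have := Theta_algebraMap N 1
  rw [map_one, map_one] at this
  exact this

theorem Theta_add {f g : FN N} (hf : f ∈ A N) (hg : g ∈ A N) :
    Theta N (f + g) = Theta N f + Theta N g := by
  have h1 := isQSum_Theta N (add_mem hf hg)
  have h2 := (isQSum_Theta N hf).add (isQSum_Theta N hg)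
  have : ((f + g : FN N) : LaurentSeries Qbar) = (f : LaurentSeries Qbar) + g := rfl
  rw [this, map_add] at h1
  exact h1.unique h2

theorem Theta_mul {f g : FN N} (hf : f ∈ A N) (hg : g ∈ A N) :
    Theta N (f * g) = Theta N f * Theta N g := by
  have h1 := isQSum_Theta N (mul_mem hf hg)
  have h2 := (isQSum_Theta N hf).mul (isQSum_Theta N hg)
  have : ((f * g : FN N) : LaurentSeries Qbar) = (f : LaurentSeries Qbar) * g := rfl
  rw [this, map_mul] at h1
  exact h1.unique h2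

/-- `Θ` as a ring hom on `A`. -/
def ThetaHom : A N →+* (ℍ → ℂ) where
  toFun f := Theta N f.1
  map_one' := Theta_one N
  map_mul' f g := Theta_mul N f.2 g.2
  map_zero' := Theta_zero N
  map_add' f g := Theta_add N f.2 g.2

theorem ThetaHom_apply (f : A N) : ThetaHom N f = Theta N f.1 := rfl

theorem Theta_jd (d : ℕ) [NeZero d] (hd : d ∣ N) (τ : ℍ) :
    Theta N (jd N d hd) τ = H28.J (H15.aff d 0 1 (Nat.pos_of_ne_zero (NeZero.ne d)) one_pos τ) :=
  congrFun ((isQSum_Theta N (jd_mem_A N d hd)).unique (isQSum_jd N d hd)) τ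

theorem mulD_one (τ : ℍ) : mulD 1 τ = τ := by
  apply UpperHalfPlane.ext
  simp [mulD]

theorem Theta_jBar : Theta N (jBar N) = H28.J := by
  funext τ
  rw [jBar_eq_jd, Theta_jd]
  exact congrArg H28.J (mulD_one τ)

theorem coeffMap_iota_injective : Function.Injective (coeffMap iota) := by
  intro x y h
  ext n
  have := congrArg (fun z => z.coeff n) h
  simp only [coeffMap_coeff] at this
  exact iota_injective this

/-- injectivity (uniqueness of `q`-coefficients). -/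
theorem Theta_eq_zero {f : FN N} (hf : f ∈ A N) (h : Theta N f = 0) : f = 0 := by
  have h1 := isQSum_Theta N hf
  rw [h] at h1
  have h2 := IsQSum.eq_zero h1
  have h3 : (f : LaurentSeries Qbar) = 0 := coeffMap_iota_injective (by rw [h2, map_zero])
  exact Subtype.ext h3

theorem ThetaHom_injective : Function.Injective (ThetaHom N) := by
  rw [injective_iff_map_eq_zero]
  intro f hf
  exact Subtype.ext (Theta_eq_zero N f.2 hf)

omit [NeZero N] in
theorem Gamma0_le_of_dvd {d : ℕ} (hd : d ∣ N) {g : SL(2, ℤ)}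
    (hg : g ∈ CongruenceSubgroup.Gamma0 N) : g ∈ CongruenceSubgroup.Gamma0 d := by
  rw [CongruenceSubgroup.Gamma0_mem, ZMod.intCast_zmod_eq_zero_iff_dvd] at hg ⊢
  exact (Int.natCast_dvd_natCast.mpr hd).trans hg

theorem J_mulD_smul (d : ℕ) [NeZero d] {g : SL(2, ℤ)}
    (hg : g ∈ CongruenceSubgroup.Gamma0 d) (τ : ℍ) :
    H28.J (mulD d (g • τ)) = H28.J (mulD d τ) := by
  obtain ⟨g', hg'⟩ := H15.exists_diag_comm_of_mem_Gamma0 d g hg
  have := H15.aff_smul_eq d (Nat.pos_of_ne_zero (NeZero.ne d)) g g' d 0 1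
    (Nat.pos_of_ne_zero (NeZero.ne d)) one_pos hg' τ
  rw [mulD, this, H28.J_smul]

/-- `Γ₀(N)`-invariance. -/
theorem Theta_smul {f : FN N} (hf : f ∈ A N) {g : SL(2, ℤ)}
    (hg : g ∈ CongruenceSubgroup.Gamma0 N) (τ : ℍ) : Theta N f (g • τ) = Theta N f τ := by
  induction hf using Algebra.adjoin_induction with
  | mem x hx =>
    obtain ⟨d, hd0, hd, rfl⟩ := hx
    rw [Theta_jd, Theta_jd]
    exact J_mulD_smul d (Gamma0_le_of_dvd N hd hg) τ
  | algebraMap c => rw [Theta_algebraMap]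
  | add x y hx hy hx' hy' =>
    rw [Theta_add N hx hy, Pi.add_apply, Pi.add_apply, hx', hy']
  | mul x y hx hy hx' hy' =>
    rw [Theta_mul N hx hy, Pi.mul_apply, Pi.mul_apply, hx', hy']

/-- The conjugate by `γ`: `τ ↦ Θ f (γ⁻¹ • τ)` (C2). -/
def thetaConj (γ : SL(2, ℤ)) (f : FN N) : ℍ → ℂ := fun τ => Theta N f (γ⁻¹ • τ)

/-- The conjugate attached to a coset `x = γ Γ₀(N)` (C2). -/
def thetaX (x : H24.XN N) (f : FN N) : ℍ → ℂ := thetaConj N (Quotient.out x) f

/-! ### conjugates (proofs by helper28, from the T3-section statements above) -/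

theorem thetaConj_apply (γ : SL(2, ℤ)) (f : FN N) (τ : ℍ) :
    thetaConj N γ f τ = Theta N f (γ⁻¹ • τ) := rfl

theorem thetaConj_one (f : FN N) : thetaConj N 1 f = Theta N f := by
  funext τ; simp [thetaConj]



theorem thetaConj_mul_right {f : FN N} (hf : f ∈ A N) (γ : SL(2, ℤ)) {g : SL(2, ℤ)}
    (hg : g ∈ CongruenceSubgroup.Gamma0 N) : thetaConj N (γ * g) f = thetaConj N γ f := by
  funext τ
  simp only [thetaConj_apply]
  rw [mul_inv_rev, mul_smul]
  exact Theta_smul N hf (inv_mem hg) _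

theorem thetaX_mk {f : FN N} (hf : f ∈ A N) (γ : SL(2, ℤ)) :
    thetaX N (QuotientGroup.mk γ : H24.XN N) f = thetaConj N γ f := by
  obtain ⟨h, hh⟩ := QuotientGroup.mk_out_eq_mul (CongruenceSubgroup.Gamma0 N) γ
  unfold thetaX
  rw [hh]
  exact thetaConj_mul_right N hf γ h.2

theorem thetaX_smul {f : FN N} (hf : f ∈ A N) (g : SL(2, ℤ)) (x : H24.XN N) (τ : ℍ) :
    thetaX N x f (g⁻¹ • τ) = thetaX N (g • x) f τ := by
  obtain ⟨γ₀, rfl⟩ := QuotientGroup.mk_surjective x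
  have h2 : g • (QuotientGroup.mk γ₀ : H24.XN N) = (QuotientGroup.mk (g * γ₀) : H24.XN N) := rfl
  rw [h2, thetaX_mk N hf, thetaX_mk N hf]
  simp only [thetaConj_apply]
  rw [mul_inv_rev, mul_smul]

/-- the conjugates as ring homs on `A`. -/
def thetaXHom (x : H24.XN N) : A N →+* (ℍ → ℂ) where
  toFun f := thetaX N x f.1
  map_one' := by funext τ; simp [thetaX, thetaConj, Theta_one]
  map_mul' f g := by funext τ; simp [thetaX, thetaConj, Theta_mul N f.2 g.2]
  map_zero' := by funext τ; simp [thetaX, thetaConj, Theta_zero]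
  map_add' f g := by funext τ; simp [thetaX, thetaConj, Theta_add N f.2 g.2]

theorem thetaXHom_apply (x : H24.XN N) (f : A N) : thetaXHom N x f = thetaX N x f.1 := rfl

theorem thetaXHom_injective (x : H24.XN N) : Function.Injective (thetaXHom N x) := by
  rw [injective_iff_map_eq_zero]
  intro f hf
  have h1 : Theta N f.1 = 0 := by
    funext τ
    have := congr_fun hf ((Quotient.out x) • τ)
    simp only [thetaXHom_apply, thetaX, thetaConj_apply, inv_smul_smul] at this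
    simpa using this
  exact Subtype.ext (Theta_eq_zero N f.2 h1)


theorem mdiff_SL_smul (γ : SL(2, ℤ)) : MDiff (fun τ : ℍ => γ • τ) := by
  have := UpperHalfPlane.mdifferentiable_smul (g := ((γ : SL(2, ℤ)) : GL (Fin 2) ℝ)) (by simp)
  exact this

theorem thetaConj_mdiff {f : FN N} (hf : f ∈ A N) (γ : SL(2, ℤ)) : MDiff (thetaConj N γ f) :=
  (Theta_mdiff N hf).comp (mdiff_SL_smul γ⁻¹)

theorem thetaConj_algebraMap (γ : SL(2, ℤ)) (c : Qbar) :
    thetaConj N γ (algebraMap Qbar (FN N) c) = fun _ => iota c := by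
  funext τ
  rw [thetaConj_apply, Theta_algebraMap]

theorem thetaConj_jBar (γ : SL(2, ℤ)) : thetaConj N γ (jBar N) = H28.J := by
  funext τ
  rw [thetaConj_apply, Theta_jBar, H28.J_smul]

theorem adjoin_jBar_le : Algebra.adjoin Qbar {jBar N} ≤ A N :=
  Algebra.adjoin_le (by
    intro x hx
    rw [Set.mem_singleton_iff] at hx
    rw [hx]
    exact jBar_mem_A N)

theorem thetaConj_of_mem_adjoin_jBar {c : FN N} (hc : c ∈ Algebra.adjoin Qbar {jBar N})
    (γ : SL(2, ℤ)) : thetaConj N γ c = Theta N c := by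
  induction hc using Algebra.adjoin_induction with
  | mem x hx =>
    rw [Set.mem_singleton_iff] at hx
    rw [hx, thetaConj_jBar, Theta_jBar]
  | algebraMap r => rw [thetaConj_algebraMap, Theta_algebraMap]
  | add x y hx hy ihx ihy =>
    have hxA := adjoin_jBar_le N hx
    have hyA := adjoin_jBar_le N hy
    funext τ
    have e1 := congr_fun ihx τ
    have e2 := congr_fun ihy τ
    rw [thetaConj_apply] at e1 e2 ⊢
    rw [Theta_add N hxA hyA, Pi.add_apply, Pi.add_apply, e1, e2]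
  | mul x y hx hy ihx ihy =>
    have hxA := adjoin_jBar_le N hx
    have hyA := adjoin_jBar_le N hy
    funext τ
    have e1 := congr_fun ihx τ
    have e2 := congr_fun ihy τ
    rw [thetaConj_apply] at e1 e2 ⊢
    rw [Theta_mul N hxA hyA, Pi.mul_apply, Pi.mul_apply, e1, e2]


omit [NeZero N] in
theorem conj_T_pow_mem_Gamma0 (γ : SL(2, ℤ)) :
    γ⁻¹ * ModularGroup.T ^ (N : ℤ) * γ ∈ CongruenceSubgroup.Gamma0 N := by
  rw [CongruenceSubgroup.Gamma0_mem]
  have hT : ((ModularGroup.T ^ (N : ℤ) : SL(2, ℤ)) : Matrix (Fin 2) (Fin 2) ℤ) =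
      !![1, (N : ℤ); 0, 1] := ModularGroup.coe_T_zpow N
  have hinv : ((γ⁻¹ : SL(2, ℤ)) : Matrix (Fin 2) (Fin 2) ℤ) =
      !![γ 1 1, -γ 0 1; -γ 1 0, γ 0 0] := by
    rw [Matrix.SpecialLinearGroup.coe_inv, Matrix.adjugate_fin_two]
  have h : (γ⁻¹ * ModularGroup.T ^ (N : ℤ) * γ) 1 0 = -((N : ℤ) * (γ 1 0 * γ 1 0)) := by
    simp only [Matrix.SpecialLinearGroup.coe_mul, hT, hinv, Matrix.mul_apply, Fin.sum_univ_two,
      Matrix.of_apply, Matrix.cons_val', Matrix.cons_val_zero, Matrix.cons_val_one,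
      Matrix.empty_val', Matrix.cons_val_fin_one]
    ring
  rw [h]
  push_cast
  simp

theorem thetaConj_vadd {f : FN N} (hf : f ∈ A N) (γ : SL(2, ℤ)) (τ : ℍ) :
    thetaConj N γ f ((N : ℝ) +ᵥ τ) = thetaConj N γ f τ := by
  rw [thetaConj_apply, thetaConj_apply]
  have h1 : ((N : ℝ) +ᵥ τ) = ModularGroup.T ^ (N : ℤ) • τ := by
    rw [UpperHalfPlane.modular_T_zpow_smul]; simp
  rw [h1]
  have h2 : γ⁻¹ • (ModularGroup.T ^ (N : ℤ) • τ) =
      (γ⁻¹ * ModularGroup.T ^ (N : ℤ) * γ) • (γ⁻¹ • τ) := by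
    simp only [mul_smul, smul_inv_smul]
  rw [h2]
  exact Theta_smul N hf (conj_T_pow_mem_Gamma0 N γ) _

theorem thetaConj_jd (γ : SL(2, ℤ)) (d : ℕ) [NeZero d] (hd : d ∣ N) (τ : ℍ) :
    thetaConj N γ (jd N d hd) τ =
      H28.J (H15.aff d 0 1 (Nat.pos_of_ne_zero (NeZero.ne d)) one_pos (γ⁻¹ • τ)) := by
  rw [thetaConj_apply, Theta_jd]

theorem thetaConj_growth_jd (γ : SL(2, ℤ)) (d : ℕ) [NeZero d] (hd : d ∣ N) :
    ∃ (C : ℝ) (M : ℕ), 0 ≤ C ∧ ∀ τ : ℍ, 1 ≤ τ.im →
      ‖thetaConj N γ (jd N d hd) τ‖ ≤ C * Real.exp (2 * Real.pi * M * τ.im) := by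
  have hd0 : 0 < d := Nat.pos_of_ne_zero (NeZero.ne d)
  have hd0' : (0 : ℝ) < d := by exact_mod_cast hd0
  obtain ⟨C, hC, hbd⟩ := H28.exists_norm_J_le (c := 1 / (d : ℝ)) (by positivity)
  refine ⟨C, d, hC, fun τ hτ => ?_⟩
  rw [thetaConj_jd]
  have hN : 0 < N := Nat.pos_of_ne_zero (NeZero.ne N)
  refine H15.norm_conj_smul_le H28.J H28.J_smul N d hN hd γ⁻¹ (1 / (d : ℝ)) C (by positivity) hC
    hbd τ ?_
  rw [one_div, inv_mul_cancel₀ hd0'.ne']
  exact hτ


theorem thetaConj_growth_aux {f : FN N} (hf : f ∈ A N) (γ : SL(2, ℤ)) :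
    ∃ (C : ℝ) (M : ℕ), 0 ≤ C ∧ ∀ τ : ℍ, 1 ≤ τ.im →
      ‖thetaConj N γ f τ‖ ≤ C * Real.exp (2 * Real.pi * M * τ.im) := by
  unfold A at hf
  induction hf using Algebra.adjoin_induction with
  | mem x hx =>
    obtain ⟨d, hd0, hd, rfl⟩ := hx
    exact thetaConj_growth_jd N γ d hd
  | algebraMap r =>
    refine ⟨‖iota r‖, 0, norm_nonneg _, fun τ _ => ?_⟩
    rw [thetaConj_algebraMap]
    simp
  | add x y hx hy ihx ihy =>
    obtain ⟨C₁, M₁, hC₁, h₁⟩ := ihx
    obtain ⟨C₂, M₂, hC₂, h₂⟩ := ihy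
    refine ⟨C₁ + C₂, max M₁ M₂, add_nonneg hC₁ hC₂, fun τ hτ => ?_⟩
    have e : thetaConj N γ (x + y) τ = thetaConj N γ x τ + thetaConj N γ y τ := by
      simp only [thetaConj_apply]
      rw [Theta_add N hx hy, Pi.add_apply]
    rw [e]
    have hπ : 0 ≤ 2 * Real.pi * τ.im := by
      have := Real.pi_pos
      have := τ.im_pos
      positivity
    have m1 : Real.exp (2 * Real.pi * M₁ * τ.im) ≤
        Real.exp (2 * Real.pi * (max M₁ M₂ : ℕ) * τ.im) := by
      apply Real.exp_le_exp.mpr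
      have : (M₁ : ℝ) ≤ (max M₁ M₂ : ℕ) := by exact_mod_cast le_max_left _ _
      nlinarith
    have m2 : Real.exp (2 * Real.pi * M₂ * τ.im) ≤
        Real.exp (2 * Real.pi * (max M₁ M₂ : ℕ) * τ.im) := by
      apply Real.exp_le_exp.mpr
      have : (M₂ : ℝ) ≤ (max M₁ M₂ : ℕ) := by exact_mod_cast le_max_right _ _
      nlinarith
    calc ‖thetaConj N γ x τ + thetaConj N γ y τ‖
        ≤ ‖thetaConj N γ x τ‖ + ‖thetaConj N γ y τ‖ := norm_add_le _ _
      _ ≤ C₁ * Real.exp (2 * Real.pi * M₁ * τ.im) + C₂ * Real.exp (2 * Real.pi * M₂ * τ.im) :=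
          add_le_add (h₁ τ hτ) (h₂ τ hτ)
      _ ≤ C₁ * Real.exp (2 * Real.pi * (max M₁ M₂ : ℕ) * τ.im) +
          C₂ * Real.exp (2 * Real.pi * (max M₁ M₂ : ℕ) * τ.im) :=
          add_le_add (mul_le_mul_of_nonneg_left m1 hC₁) (mul_le_mul_of_nonneg_left m2 hC₂)
      _ = (C₁ + C₂) * Real.exp (2 * Real.pi * (max M₁ M₂ : ℕ) * τ.im) := by ring
  | mul x y hx hy ihx ihy =>
    obtain ⟨C₁, M₁, hC₁, h₁⟩ := ihx
    obtain ⟨C₂, M₂, hC₂, h₂⟩ := ihy
    refine ⟨C₁ * C₂, M₁ + M₂, mul_nonneg hC₁ hC₂, fun τ hτ => ?_⟩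
    have e : thetaConj N γ (x * y) τ = thetaConj N γ x τ * thetaConj N γ y τ := by
      simp only [thetaConj_apply]
      rw [Theta_mul N hx hy, Pi.mul_apply]
    rw [e, norm_mul]
    have hexp : Real.exp (2 * Real.pi * ((M₁ + M₂ : ℕ) : ℝ) * τ.im) =
        Real.exp (2 * Real.pi * M₁ * τ.im) * Real.exp (2 * Real.pi * M₂ * τ.im) := by
      rw [← Real.exp_add]
      congr 1
      push_cast
      ring
    rw [hexp]
    calc ‖thetaConj N γ x τ‖ * ‖thetaConj N γ y τ‖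
        ≤ (C₁ * Real.exp (2 * Real.pi * M₁ * τ.im)) * (C₂ * Real.exp (2 * Real.pi * M₂ * τ.im)) :=
          mul_le_mul (h₁ τ hτ) (h₂ τ hτ) (norm_nonneg _)
            (mul_nonneg hC₁ (Real.exp_pos _).le)
      _ = _ := by ring

theorem thetaConj_growth {f : FN N} (hf : f ∈ A N) (γ : SL(2, ℤ)) :
    ∃ (C : ℝ) (M : ℕ), ∀ τ : ℍ, 1 ≤ τ.im →
      ‖thetaConj N γ f τ‖ ≤ C * Real.exp (2 * Real.pi * M * τ.im) := by
  obtain ⟨C, M, -, h⟩ := thetaConj_growth_aux N hf γ
  exact ⟨C, M, h⟩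


omit [NeZero N] in
theorem tendsto_qParam_mul_J :
    Filter.Tendsto (fun τ : ℍ => 𝕢 1 (τ : ℂ) * H28.J τ) atImInfty (nhds 1) := by
  have h1 : Filter.Tendsto (fun τ : ℍ => 𝕢 1 (τ : ℂ)) atImInfty (nhds 0) :=
    UpperHalfPlane.qParam_tendsto_atImInfty one_pos
  have hc : ContinuousAt H28.jDisc 0 :=
    (H28.differentiableOn_jDisc.differentiableAt (Metric.ball_mem_nhds 0 one_pos)).continuousAt
  have h2 := hc.tendsto.comp h1
  rw [H28.jDisc_zero] at h2
  refine h2.congr fun τ => ?_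
  exact H28.jDisc_qParam τ

theorem thetaConj_jd_eq_iff (γ₁ γ₂ : SL(2, ℤ)) :
    thetaConj N γ₁ (jd N N dvd_rfl) = thetaConj N γ₂ (jd N N dvd_rfl) ↔
      γ₁⁻¹ * γ₂ ∈ CongruenceSubgroup.Gamma0 N := by
  have hN : 0 < N := Nat.pos_of_ne_zero (NeZero.ne N)
  have key := H15.conj_eq_iff_mem_Gamma0 H28.J H28.J_smul tendsto_qParam_mul_J N hN γ₁⁻¹ γ₂⁻¹
  rw [inv_inv] at key
  rw [← key]
  constructor
  · intro h τ
    have := congr_fun h τ
    rwa [thetaConj_jd, thetaConj_jd] at this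
  · intro h
    funext τ
    rw [thetaConj_jd, thetaConj_jd]
    exact h τ

theorem thetaX_jd_injective :
    Function.Injective (fun x : H24.XN N => thetaX N x (jd N N dvd_rfl)) := by
  intro x y hxy
  obtain ⟨γ₁, rfl⟩ := QuotientGroup.mk_surjective x
  obtain ⟨γ₂, rfl⟩ := QuotientGroup.mk_surjective y
  simp only at hxy
  rw [thetaX_mk N (jd_mem_A N N dvd_rfl), thetaX_mk N (jd_mem_A N N dvd_rfl),
    thetaConj_jd_eq_iff] at hxy
  exact QuotientGroup.eq.mpr hxy


end Fermat.Agent.S24.H17
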