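import Mathlib

set_option autoImplicit false

open Polynomial IntermediateField

namespace Fermat.Agent.S24.H40

section Degree

variable {K F : Type*} [Field K] [Field F] [Algebra K F]

/-- A monic polynomial over a subalgebra `A` whose coefficients lie in a smaller subalgebra `B`
descends to a monic polynomial over `B` of the same degree. -/
theorem exists_monic_of_coeff_mem {A B : Subalgebra K F} (P : A[X]) (hP : P.Monic)
    (hcoeff : ∀ i, (P.coeff i : F) ∈ B) :
    ∃ Q : B[X], Q.Monic ∧ Q.natDegree = P.natDegree ∧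
      Q.map (algebraMap B F) = P.map (algebraMap A F) := by
  have hlifts : P.map (algebraMap A F) ∈ lifts (algebraMap B F) := by
    rw [lifts_iff_coeff_lifts]
    intro i
    rw [coeff_map]
    exact ⟨⟨_, hcoeff i⟩, rfl⟩
  obtain ⟨Q, hQ, hdeg, hmon⟩ := lifts_and_natDegree_eq_and_monic hlifts (hP.map _)
  refine ⟨Q, hmon, ?_, hQ⟩
  rw [hdeg, hP.natDegree_map]

/-- If `P` maps to `∏ (X - θ x f)` under an injective `θ x0`, then `f` is a root of `P`. -/
theorem eval_eq_zero_of_map_eq_prod {A R X : Type*} [CommRing A] [CommRing R] [Fintype X]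
    (θ : X → (A →+* R)) (x0 : X) (hinj : Function.Injective (θ x0)) (f : A) (P : A[X])
    (hP : P.map (θ x0) = ∏ x, (Polynomial.X - C (θ x f))) : P.eval f = 0 := by
  apply hinj
  rw [map_zero, ← eval₂_at_apply, ← eval_map, hP, eval_prod]
  apply Finset.prod_eq_zero (Finset.mem_univ x0)
  simp

/-- Clearing denominators: every element of `K(j)[S]` can be scaled by a nonzero element of `K[j]`
into a subalgebra `A` containing `S` and `j`. -/
theorem exists_scale_mem (j : F) (S : Set F) (A : Subalgebra K F) (hjA : j ∈ A) (hSA : S ⊆ A)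
    (α : F) (hα : α ∈ Algebra.adjoin K⟮j⟯ S) :
    ∃ c ∈ Algebra.adjoin K {j}, c ≠ 0 ∧ c * α ∈ A := by
  have hle : Algebra.adjoin K {j} ≤ A := Algebra.adjoin_le (by simpa using hjA)
  induction hα using Algebra.adjoin_induction with
  | mem s hs => exact ⟨1, one_mem _, one_ne_zero, by simpa using hSA hs⟩
  | algebraMap r =>
      obtain ⟨p, q, hpq⟩ := (mem_adjoin_simple_iff K (r : F)).mp r.2
      by_cases hq : aeval j q = 0
      · refine ⟨1, one_mem _, one_ne_zero, ?_⟩
        have : algebraMap K⟮j⟯ F r = 0 := by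
          show (r : F) = 0
          rw [hpq, hq, div_zero]
        rw [this, mul_zero]
        exact zero_mem _
      · refine ⟨aeval j q, aeval_mem_adjoin_singleton K j, hq, ?_⟩
        have : algebraMap K⟮j⟯ F r = aeval j p / aeval j q := hpq
        rw [this, mul_div_cancel₀ _ hq]
        exact hle (aeval_mem_adjoin_singleton K j)
  | add x y _ _ hx hy =>
      obtain ⟨c, hc, hc0, hcx⟩ := hx
      obtain ⟨d, hd, hd0, hdy⟩ := hy
      refine ⟨c * d, mul_mem hc hd, mul_ne_zero hc0 hd0, ?_⟩
      have : c * d * (x + y) = d * (c * x) + c * (d * y) := by ring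
      rw [this]
      exact add_mem (mul_mem (hle hd) hcx) (mul_mem (hle hc) hdy)
  | mul x y _ _ hx hy =>
      obtain ⟨c, hc, hc0, hcx⟩ := hx
      obtain ⟨d, hd, hd0, hdy⟩ := hy
      refine ⟨c * d, mul_mem hc hd, mul_ne_zero hc0 hd0, ?_⟩
      have : c * d * (x * y) = (c * x) * (d * y) := by ring
      rw [this]
      exact mul_mem hcx hdy

/-- A monic polynomial over a subalgebra `A` whose coefficients lie in the range of a ring hom
`φ : B →+* F` descends to a monic polynomial over `B` of the same degree. -/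
theorem exists_monic_lift {A : Subalgebra K F} {B : Type*} [CommRing B] (φ : B →+* F)
    (P : A[X]) (hP : P.Monic) (hcoeff : ∀ i, (P.coeff i : F) ∈ Set.range φ) :
    ∃ Q : B[X], Q.Monic ∧ Q.natDegree = P.natDegree ∧ Q.map φ = P.map (algebraMap A F) := by
  have hlifts : P.map (algebraMap A F) ∈ lifts φ := by
    rw [lifts_iff_coeff_lifts]
    intro i
    rw [coeff_map]
    exact hcoeff i
  obtain ⟨Q, hQ, hdeg, hmon⟩ := lifts_and_natDegree_eq_and_monic hlifts (hP.map _)
  refine ⟨Q, hmon, ?_, hQ⟩
  rw [hdeg, hP.natDegree_map]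

/-- A root `f ∈ A` of a monic polynomial of degree `n` over `A` with coefficients in `K[j]`
is integral over `K(j)` with minimal polynomial of degree `≤ n`. -/
theorem isIntegral_and_natDegree_le {A : Subalgebra K F} (j : F) {n : ℕ} (f : A) (P : A[X])
    (hP : P.Monic) (hdeg : P.natDegree = n)
    (hcoeff : ∀ i, (P.coeff i : F) ∈ Algebra.adjoin K {j}) (hroot : P.eval f = 0) :
    IsIntegral K⟮j⟯ (f : F) ∧ (minpoly K⟮j⟯ (f : F)).natDegree ≤ n := by
  obtain ⟨Q, hQmon, hQdeg, hQmap⟩ := exists_monic_lift (algebraMap K⟮j⟯ F) P hP (fun i =>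
    ⟨⟨_, algebra_adjoin_le_adjoin K {j} (hcoeff i)⟩, rfl⟩)
  have hQroot : aeval (f : F) Q = 0 := by
    rw [aeval_def, ← eval_map, hQmap, eval_map]
    show eval₂ (algebraMap A F) (algebraMap A F f) P = 0
    rw [eval₂_at_apply, hroot, map_zero]
  refine ⟨⟨Q, hQmon, hQroot⟩, ?_⟩
  rw [← hdeg, ← hQdeg]
  exact natDegree_le_natDegree (minpoly.min _ _ hQmon hQroot)

/-- A root `f ∈ A` of a monic polynomial over `A` with coefficients in `K[j]`
is integral over `K[j]`. -/
theorem isIntegral_adjoin_singleton {A : Subalgebra K F} (j : F) (f : A) (P : A[X])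
    (hP : P.Monic) (hcoeff : ∀ i, (P.coeff i : F) ∈ Algebra.adjoin K {j})
    (hroot : P.eval f = 0) : IsIntegral (Algebra.adjoin K {j}) (f : F) := by
  obtain ⟨Q, hQmon, -, hQmap⟩ := exists_monic_lift (algebraMap (Algebra.adjoin K {j}) F) P hP
    (fun i => ⟨⟨_, hcoeff i⟩, rfl⟩)
  refine ⟨Q, hQmon, ?_⟩
  rw [← eval_map, hQmap, eval_map]
  show eval₂ (algebraMap A F) (algebraMap A F f) P = 0
  rw [eval₂_at_apply, hroot, map_zero]

open scoped IntermediateField.algebraAdjoinAdjoin in
/-- Lower bound: if the conjugates `θ x f0` take pairwise distinct values under `ev`, the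
minimal polynomial of `f0` over `K(j)` has degree at least the number of conjugates. -/
theorem card_le_natDegree_minpoly (j : F) (hj : Transcendental K j) (A : Subalgebra K F)
    (hjA : j ∈ A) {X R L : Type*} [Fintype X] [CommRing R] [CommRing L] [IsDomain L]
    (θ : X → (A →+* R)) (x0 : X)
    (hinv : ∀ x (c : A), (c : F) ∈ Algebra.adjoin K {j} → θ x c = θ x0 c)
    (ev : R →+* L) (f0 : A) (hdist : Function.Injective fun x => ev (θ x f0))
    (hint : IsIntegral (Algebra.adjoin K {j}) (f0 : F)) :
    Fintype.card X ≤ (minpoly K⟮j⟯ (f0 : F)).natDegree := by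
  classical
  have : IsIntegrallyClosed (Algebra.adjoin K {j}) :=
    IsIntegrallyClosed.of_equiv (algEquivOfTranscendental K j hj).toRingEquiv
  have hmin := minpoly.isIntegrallyClosed_eq_field_fractions' K⟮j⟯ hint
  have hm_monic := minpoly.monic hint
  set m := minpoly (Algebra.adjoin K {j}) (f0 : F) with hm
  have hle : Algebra.adjoin K {j} ≤ A := Algebra.adjoin_le (by simpa using hjA)
  let incl : Algebra.adjoin K {j} →+* A := (Subalgebra.inclusion hle).toRingHom
  have h0 : m.eval₂ incl f0 = 0 := by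
    apply Subtype.ext
    have h1 : ((m.eval₂ incl f0 : A) : F) = (algebraMap A F) (m.eval₂ incl f0) := rfl
    rw [h1, hom_eval₂]
    have h2 : (algebraMap A F).comp incl = algebraMap (Algebra.adjoin K {j}) F := by
      ext c; rfl
    rw [h2]
    exact minpoly.aeval _ _
  let M : L[X] := m.map ((ev.comp (θ x0)).comp incl)
  have hM_monic : M.Monic := hm_monic.map _
  have hM_deg : M.natDegree = m.natDegree := hm_monic.natDegree_map _
  have hroots : ∀ x, M.IsRoot (ev (θ x f0)) := by
    intro x
    have h3 : (ev.comp (θ x)).comp incl = (ev.comp (θ x0)).comp incl := by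
      ext c
      simp only [RingHom.comp_apply]
      rw [hinv x (incl c) c.2]
    have h4 := congrArg (ev.comp (θ x)) h0
    rw [map_zero, hom_eval₂, h3] at h4
    rw [IsRoot, eval_map]
    exact h4
  rw [hmin, hm_monic.natDegree_map, ← hM_deg]
  have hcard : (Finset.univ.image fun x => ev (θ x f0)).card = Fintype.card X := by
    rw [Finset.card_image_of_injective _ hdist, Finset.card_univ]
  rw [← hcard]
  apply card_le_degree_of_subset_roots
  intro a ha
  rw [Finset.mem_val, Finset.mem_image] at ha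
  obtain ⟨x, -, rfl⟩ := ha
  exact (mem_roots hM_monic.ne_zero).mpr (hroots x)

/-- **Abstract degree theorem (root form).** Let `F / K` be a field extension of characteristic
zero, `j ∈ F` transcendental, `F = K(S)` for a finite set `S` contained in a subalgebra `A ∋ j`.
Suppose every `f ∈ A` is a root of a monic polynomial of degree `n = #X` with coefficients in
`K[j]`, and we are given `n` ring homomorphisms `θ x : A →+* R` ("conjugates") agreeing on
`K[j]`, such that the conjugates of some `f0 ∈ A` are separated by a ring hom `ev` to a domain.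
Then `[F : K(j)] = n`. -/
theorem finrank_eq_card_of_conjugates_root [CharZero K]
    (j : F) (hj : Transcendental K j) (S : Set F) (hS : S.Finite)
    (hgen : IntermediateField.adjoin K S = ⊤)
    (A : Subalgebra K F) (hjA : j ∈ A) (hSA : S ⊆ A)
    {X R L : Type*} [Fintype X] [CommRing R] [CommRing L] [IsDomain L]
    (θ : X → (A →+* R)) (x0 : X)
    (hinv : ∀ x (c : A), (c : F) ∈ Algebra.adjoin K {j} → θ x c = θ x0 c)
    (hroot : ∀ f : A, ∃ P : A[X], P.Monic ∧ P.natDegree = Fintype.card X ∧
        (∀ i, (P.coeff i : F) ∈ Algebra.adjoin K {j}) ∧ P.eval f = 0)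
    (ev : R →+* L) (f0 : A) (hdist : Function.Injective fun x => ev (θ x f0)) :
    FiniteDimensional K⟮j⟯ F ∧ Module.finrank K⟮j⟯ F = Fintype.card X := by
  have hAint : ∀ f : A, IsIntegral K⟮j⟯ (f : F) ∧
      (minpoly K⟮j⟯ (f : F)).natDegree ≤ Fintype.card X := by
    intro f
    obtain ⟨P, hmon, hdeg, hcoeff, hev⟩ := hroot f
    exact isIntegral_and_natDegree_le j f P hmon hdeg hcoeff hev
  have hSint : ∀ s ∈ S, IsIntegral K⟮j⟯ s := fun s hs => (hAint ⟨s, hSA hs⟩).1
  have htop : IntermediateField.adjoin K⟮j⟯ S = ⊤ := adjoin_eq_top_of_adjoin_eq_top K hgen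
  have hfin : Finite S := hS
  have hfd : FiniteDimensional K⟮j⟯ F := by
    have h1 := finiteDimensional_adjoin hSint
    rw [htop] at h1
    exact (topEquiv (F := K⟮j⟯) (E := F)).toLinearEquiv.finiteDimensional
  refine ⟨hfd, le_antisymm ?_ ?_⟩
  · -- upper bound via a primitive element scaled into `A`
    obtain ⟨α, hα⟩ := Field.exists_primitive_element K⟮j⟯ F
    have hα' : α ∈ Algebra.adjoin K⟮j⟯ S := by
      rw [(adjoin_eq_top_iff_of_isAlgebraic (fun s hs => (hSint s hs).isAlgebraic)).mp htop]
      trivial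
    obtain ⟨c, hc, hc0, hcα⟩ := exists_scale_mem j S A hjA hSA α hα'
    have hcK : c ∈ K⟮j⟯ := algebra_adjoin_le_adjoin K {j} hc
    have hβ : K⟮j⟯⟮c * α⟯ = ⊤ := by
      rw [eq_top_iff, ← hα, adjoin_le_iff]
      rintro x rfl
      have h1 : c⁻¹ * (c * x) = x := by field_simp
      have h2 : c⁻¹ * (c * x) ∈ K⟮j⟯⟮c * x⟯ :=
        mul_mem (inv_mem (IntermediateField.algebraMap_mem _ (⟨c, hcK⟩ : K⟮j⟯)))
          (mem_adjoin_simple_self _ _)
      rwa [h1] at h2
    have hint := hAint ⟨c * α, hcα⟩
    calc Module.finrank K⟮j⟯ F = Module.finrank K⟮j⟯ (⊤ : IntermediateField K⟮j⟯ F) :=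
          (finrank_top' (F := K⟮j⟯) (E := F)).symm
      _ = Module.finrank K⟮j⟯ K⟮j⟯⟮c * α⟯ := by rw [hβ]
      _ = (minpoly K⟮j⟯ (c * α)).natDegree := adjoin.finrank hint.1
      _ ≤ Fintype.card X := hint.2
  · -- lower bound via the distinct conjugates of `f0`
    obtain ⟨P, hmon, -, hcoeff, hev⟩ := hroot f0
    have hint0 : IsIntegral (Algebra.adjoin K {j}) (f0 : F) :=
      isIntegral_adjoin_singleton j f0 P hmon hcoeff hev
    exact (card_le_natDegree_minpoly j hj A hjA θ x0 hinv ev f0 hdist hint0).trans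
      (minpoly.natDegree_le _)

/-- **Abstract degree theorem (weak key form).** As `finrank_eq_card_of_conjugates_root`, with
the integrality hypothesis stated via bivariate polynomials over `K`. -/
theorem finrank_eq_card_of_conjugates_weak [CharZero K]
    (j : F) (hj : Transcendental K j) (S : Set F) (hS : S.Finite)
    (hgen : IntermediateField.adjoin K S = ⊤)
    (A : Subalgebra K F) (hjA : j ∈ A) (hSA : S ⊆ A)
    {X R L : Type*} [Fintype X] [CommRing R] [CommRing L] [IsDomain L]
    (θ : X → (A →+* R)) (x0 : X)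
    (hinv : ∀ x (c : A), (c : F) ∈ Algebra.adjoin K {j} → θ x c = θ x0 c)
    (hkey : ∀ f : A, ∃ P : Polynomial (Polynomial K), P.Monic ∧ P.natDegree = Fintype.card X ∧
        Polynomial.eval₂ ((Polynomial.aeval j).toRingHom : Polynomial K →+* F) (f : F) P = 0)
    (ev : R →+* L) (f0 : A) (hdist : Function.Injective fun x => ev (θ x f0)) :
    FiniteDimensional K⟮j⟯ F ∧ Module.finrank K⟮j⟯ F = Fintype.card X := by
  refine finrank_eq_card_of_conjugates_root j hj S hS hgen A hjA hSA θ x0 hinv ?_ ev f0 hdist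
  intro f
  obtain ⟨P₂, hmon, hdeg, hev⟩ := hkey f
  let φ : Polynomial K →+* A := (Polynomial.aeval (⟨j, hjA⟩ : A)).toRingHom
  have hφ : ∀ p : Polynomial K, ((φ p : A) : F) = Polynomial.aeval j p := by
    intro p
    show (A.val (Polynomial.aeval (⟨j, hjA⟩ : A) p) : F) = _
    rw [← Polynomial.aeval_algHom_apply]
    rfl
  refine ⟨P₂.map φ, hmon.map _, ?_, ?_, ?_⟩
  · rw [hmon.natDegree_map, hdeg]
  · intro i
    rw [coeff_map, hφ]
    exact aeval_mem_adjoin_singleton K j
  · apply Subtype.ext
    rw [eval_map]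
    have h1 : ((eval₂ φ f P₂ : A) : F) = (algebraMap A F) (eval₂ φ f P₂) := rfl
    rw [h1, hom_eval₂, ZeroMemClass.coe_zero]
    have h2 : (algebraMap A F).comp φ = ((Polynomial.aeval j).toRingHom : Polynomial K →+* F) := by
      ext p
      · simp [φ]
      · simp [φ]
    rw [h2]
    exact hev

/-- **Abstract degree theorem (product form).** As `finrank_eq_card_of_conjugates_root`, where
the integrality hypothesis is replaced by: for every `f ∈ A` the polynomial `∏ (X - θ x f)` is the
image under an injective `θ x0` of a monic polynomial with coefficients in `K[j]`. -/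
theorem finrank_eq_card_of_conjugates [CharZero K]
    (j : F) (hj : Transcendental K j) (S : Set F) (hS : S.Finite)
    (hgen : IntermediateField.adjoin K S = ⊤)
    (A : Subalgebra K F) (hjA : j ∈ A) (hSA : S ⊆ A)
    {X R L : Type*} [Fintype X] [CommRing R] [CommRing L] [IsDomain L]
    (θ : X → (A →+* R)) (x0 : X) (hinj : Function.Injective (θ x0))
    (hinv : ∀ x (c : A), (c : F) ∈ Algebra.adjoin K {j} → θ x c = θ x0 c)
    (hkey : ∀ f : A, ∃ P : A[X], P.Monic ∧ P.natDegree = Fintype.card X ∧
        (∀ i, (P.coeff i : F) ∈ Algebra.adjoin K {j}) ∧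
        P.map (θ x0) = ∏ x, (Polynomial.X - C (θ x f)))
    (ev : R →+* L) (f0 : A) (hdist : Function.Injective fun x => ev (θ x f0)) :
    FiniteDimensional K⟮j⟯ F ∧ Module.finrank K⟮j⟯ F = Fintype.card X := by
  refine finrank_eq_card_of_conjugates_root j hj S hS hgen A hjA hSA θ x0 hinv ?_ ev f0 hdist
  intro f
  obtain ⟨P, hmon, hdeg, hcoeff, hmap⟩ := hkey f
  exact ⟨P, hmon, hdeg, hcoeff, eval_eq_zero_of_map_eq_prod θ x0 hinj f P hmap⟩

/-- Coefficientwise form of the key hypothesis: if every coefficient of `∏ (X - θ x f)` is the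
image under `θ x0` of an element of `A` lying in `K[j]`, then the product is the image of a monic
polynomial over `A` with coefficients in `K[j]`. -/
theorem exists_poly_of_coeff {A : Subalgebra K F} (j : F) {X R : Type*} [Fintype X] [CommRing R]
    [Nontrivial R] (θ : X → (A →+* R)) (x0 : X) (f : A)
    (hcoeff : ∀ k, ∃ c : A, (c : F) ∈ Algebra.adjoin K {j} ∧
      θ x0 c = (∏ x, (Polynomial.X - C (θ x f))).coeff k) :
    ∃ P : A[X], P.Monic ∧ P.natDegree = Fintype.card X ∧
        (∀ i, (P.coeff i : F) ∈ Algebra.adjoin K {j}) ∧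
        P.map (θ x0) = ∏ x, (Polynomial.X - C (θ x f)) := by
  classical
  choose c hc1 hc2 using hcoeff
  set n := Fintype.card X with hn
  set Q : R[X] := ∏ x, (Polynomial.X - C (θ x f)) with hQ
  have hQmon : Q.Monic := monic_prod_X_sub_C _ _
  have hQdeg : Q.natDegree = n := by
    rw [hQ, natDegree_finsetProd_X_sub_C_eq_card, Finset.card_univ]
  have hlt : (∑ i ∈ Finset.range n, C (c i) * Polynomial.X ^ i : A[X]).degree < n := by
    simp_rw [← Fin.sum_univ_eq_sum_range (fun i => C (c i) * (Polynomial.X : A[X]) ^ i) n]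
    exact degree_sum_fin_lt _
  refine ⟨Polynomial.X ^ n + ∑ i ∈ Finset.range n, C (c i) * Polynomial.X ^ i,
    monic_X_pow_add hlt, ?_, ?_, ?_⟩
  · rw [natDegree_add_eq_left_of_degree_lt (by rwa [degree_X_pow]), natDegree_X_pow]
  · intro i
    rw [coeff_add, coeff_X_pow, finsetSum_coeff]
    simp only [coeff_C_mul, coeff_X_pow, mul_ite, mul_one, mul_zero]
    rw [Finset.sum_ite_eq (Finset.range n) i (fun k => c k)]
    by_cases h1 : i = n
    · subst h1
      simp only [if_true, Finset.mem_range, lt_irrefl, if_false, add_zero]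
      exact one_mem _
    · by_cases h2 : i ∈ Finset.range n
      · simp only [if_neg h1, if_pos h2, zero_add]
        exact hc1 i
      · simp only [if_neg h1, if_neg h2, zero_add]
        exact zero_mem _
  · rw [Polynomial.map_add, Polynomial.map_pow, map_X, Polynomial.map_sum]
    conv_rhs => rw [hQmon.as_sum, hQdeg]
    congr 1
    apply Finset.sum_congr rfl
    intro i _
    rw [Polynomial.map_mul, Polynomial.map_pow, map_X, map_C, hc2 i]

/-- Variant of `finrank_eq_card_of_conjugates` with the key hypothesis stated coefficientwise. -/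
theorem finrank_eq_card_of_conjugates' [CharZero K]
    (j : F) (hj : Transcendental K j) (S : Set F) (hS : S.Finite)
    (hgen : IntermediateField.adjoin K S = ⊤)
    (A : Subalgebra K F) (hjA : j ∈ A) (hSA : S ⊆ A)
    {X R L : Type*} [Fintype X] [CommRing R] [CommRing L] [IsDomain L]
    (θ : X → (A →+* R)) (x0 : X) (hinj : Function.Injective (θ x0))
    (hinv : ∀ x (c : A), (c : F) ∈ Algebra.adjoin K {j} → θ x c = θ x0 c)
    (hkey : ∀ (f : A) (k : ℕ), ∃ c : A, (c : F) ∈ Algebra.adjoin K {j} ∧
      θ x0 c = (∏ x, (Polynomial.X - C (θ x f))).coeff k)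
    (ev : R →+* L) (f0 : A) (hdist : Function.Injective fun x => ev (θ x f0)) :
    FiniteDimensional K⟮j⟯ F ∧ Module.finrank K⟮j⟯ F = Fintype.card X := by
  have : Nontrivial R := (hinj.nontrivial)
  exact finrank_eq_card_of_conjugates j hj S hS hgen A hjA hSA θ x0 hinj hinv
    (fun f => exists_poly_of_coeff j θ x0 f (hkey f)) ev f0 hdist

end Degree

end Fermat.Agent.S24.H40
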