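import Mathlib
import Fermat.Agent.S24.Defs

set_option autoImplicit false

noncomputable section

namespace Fermat.Agent.S24.H40

open ModularCurve IntermediateField

section General

variable (L : Type*) [Field L] [Algebra ℚ L]

/-- `coeffEmb` maps `ℚ(S)` into `L(coeffEmb '' S)`. -/
theorem coeffEmb_mem_adjoin_image (S : Set (LaurentSeries ℚ)) {x : LaurentSeries ℚ}
    (hx : x ∈ IntermediateField.adjoin ℚ S) :
    coeffEmb L x ∈ IntermediateField.adjoin L (⇑(coeffEmb L) '' S) := by
  induction hx using IntermediateField.adjoin_induction with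
  | mem y hy => exact subset_adjoin L _ ⟨y, hy, rfl⟩
  | algebraMap r =>
      have : coeffEmb L (algebraMap ℚ (LaurentSeries ℚ) r)
          = algebraMap L (LaurentSeries L) (algebraMap ℚ L r) := by
        rw [algebraMap_apply_eq_single, algebraMap_laurentSeries_eq_single, coeffEmb,
          coeffMap_single]
      rw [this]
      exact IntermediateField.algebraMap_mem _ _
  | add y z _ _ hy hz => rw [map_add]; exact add_mem hy hz
  | inv y _ hy => rw [map_inv₀]; exact inv_mem hy
  | mul y z _ _ hy hz => rw [map_mul]; exact mul_mem hy hz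

/-- The base change of `ℚ(S)` is `L(coeffEmb '' S)`. -/
theorem laurentBaseChange_adjoin (S : Set (LaurentSeries ℚ)) :
    laurentBaseChange L (IntermediateField.adjoin ℚ S)
      = IntermediateField.adjoin L (⇑(coeffEmb L) '' S) := by
  apply le_antisymm
  · rw [laurentBaseChange, adjoin_le_iff]
    rintro _ ⟨x, hx, rfl⟩
    exact coeffEmb_mem_adjoin_image L S hx
  · rw [laurentBaseChange]
    apply IntermediateField.adjoin.mono
    exact Set.image_mono (subset_adjoin ℚ S)

end General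

variable (N : ℕ) [NeZero N]

/-- The generators `j(q^d)`, `d ∣ N`, of `FN N`. -/
def jdSet : Set (FN N) :=
  {x | ∃ (d : ℕ) (_ : NeZero d) (hd : d ∣ N), x = jd N d hd}

theorem jd_mem_jdSet (d : ℕ) [NeZero d] (hd : d ∣ N) : jd N d hd ∈ jdSet N :=
  ⟨d, ‹_›, hd, rfl⟩

theorem jBar_eq_jd_one : jBar N = jd N 1 (one_dvd N) := by
  apply Subtype.ext
  show coeffEmb Qbar jq = coeffEmb Qbar (qExpand ℚ 1 jq)
  rw [qExpand_one_apply]

theorem jBar_mem_jdSet : jBar N ∈ jdSet N := by
  rw [jBar_eq_jd_one]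
  exact jd_mem_jdSet N 1 (one_dvd N)

theorem val_image_jdSet :
    (Subtype.val '' jdSet N : Set (LaurentSeries Qbar))
      = ⇑(coeffEmb Qbar) '' divisorExpansions N := by
  ext x
  constructor
  · rintro ⟨y, ⟨d, hne, hd, rfl⟩, rfl⟩
    exact ⟨qExpand ℚ d jq, ⟨d, hne, hd, rfl⟩, rfl⟩
  · rintro ⟨y, ⟨d, hne, hd, rfl⟩, rfl⟩
    exact ⟨@jd N _ d hne hd, ⟨d, hne, hd, rfl⟩, rfl⟩

/-- (GEN) `FN N` is generated over `Qbar` by the `j(q^d)`, `d ∣ N`. -/
theorem adjoin_jdSet_eq_top : IntermediateField.adjoin Qbar (jdSet N) = ⊤ := by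
  apply IntermediateField.lift_injective (modularFunctionFieldBar N)
  rw [lift_adjoin, lift_top, val_image_jdSet]
  show _ = laurentBaseChange Qbar (modularFunctionFieldFull N)
  rw [modularFunctionFieldFull, laurentBaseChange_adjoin]

/-- The `Qbar`-subalgebra `A = Qbar[j_d : d ∣ N]` of `FN N`. -/
def AN : Subalgebra Qbar (FN N) := Algebra.adjoin Qbar (jdSet N)

theorem jd_mem_AN (d : ℕ) [NeZero d] (hd : d ∣ N) : jd N d hd ∈ AN N :=
  Algebra.subset_adjoin (jd_mem_jdSet N d hd)

theorem jBar_mem_AN : jBar N ∈ AN N :=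
  Algebra.subset_adjoin (jBar_mem_jdSet N)

/-- Every element of `FN N` is a quotient of two elements of `A`. -/
theorem exists_div_AN (f : FN N) : ∃ a ∈ AN N, ∃ b ∈ AN N, b ≠ 0 ∧ f = a / b := by
  have hf : f ∈ IntermediateField.adjoin Qbar (jdSet N) := by
    rw [adjoin_jdSet_eq_top]; exact IntermediateField.mem_top
  obtain ⟨r, hr, s, hs, rfl⟩ := mem_adjoin_iff_div.mp hf
  by_cases h0 : s = 0
  · refine ⟨0, zero_mem _, 1, one_mem _, one_ne_zero, ?_⟩
    rw [h0, div_zero, zero_div]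
  · exact ⟨r, hr, s, hs, h0, rfl⟩

/-- The generating set is finite. -/
theorem finite_jdSet : (jdSet N).Finite := by
  have : jdSet N ⊆ Set.range (fun d : N.divisors =>
      @jd N _ d.1 ⟨(Nat.pos_of_mem_divisors d.2).ne'⟩ (Nat.dvd_of_mem_divisors d.2)) := by
    rintro _ ⟨d, hne, hd, rfl⟩
    exact ⟨⟨d, Nat.mem_divisors.mpr ⟨hd, NeZero.ne N⟩⟩, rfl⟩
  exact (Set.finite_range _).subset this

end Fermat.Agent.S24.H40
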