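import Mathlib

set_option autoImplicit false

open UpperHalfPlane
open scoped Manifold

namespace Fermat.Agent.S24.H40

/-- Finitely many pairwise distinct holomorphic functions on `ℍ` take pairwise distinct values
at some point. -/
theorem exists_injective_eval {X : Type*} [Finite X] (g : X → ℍ → ℂ)
    (hg : ∀ x, MDiff (g x)) (hinj : Function.Injective g) :
    ∃ τ : ℍ, Function.Injective (fun x => g x τ) := by
  classical
  haveI := Fintype.ofFinite X
  let s : Finset (X × X) := Finset.univ.filter (fun p => p.1 ≠ p.2)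
  have hf : ∀ p ∈ s, MDiff (fun τ => g p.1 τ - g p.2 τ) := fun p _ => (hg p.1).sub (hg p.2)
  have hne : ∏ p ∈ s, (fun τ => g p.1 τ - g p.2 τ) ≠ 0 := by
    intro h0
    obtain ⟨p, hp, hp0⟩ := (UpperHalfPlane.prod_eq_zero_iff hf).mp h0
    have hp' : p.1 ≠ p.2 := (Finset.mem_filter.mp hp).2
    apply hp'
    apply hinj
    funext τ
    have := congrFun hp0 τ
    simpa [sub_eq_zero] using this
  obtain ⟨τ, hτ⟩ := Function.ne_iff.mp hne
  refine ⟨τ, fun x y hxy => ?_⟩
  by_contra hne'
  apply hτ
  rw [Finset.prod_apply, Pi.zero_apply]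
  apply Finset.prod_eq_zero (i := (x, y)) (Finset.mem_filter.mpr ⟨Finset.mem_univ _, hne'⟩)
  simpa [sub_eq_zero] using hxy

end Fermat.Agent.S24.H40
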