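import Mathlib
import Fermat.Agent.S24.Defs

set_option autoImplicit false

noncomputable section

namespace Fermat.Agent.S24.H40

open ModularCurve Polynomial

/-- `coeffEmb L jq ^ n` has coefficient `1` at `-n`. -/
theorem coeff_coeffEmb_jq_pow_self (L : Type*) [Field L] [Algebra ℚ L] (n : ℕ) :
    ((coeffEmb L jq) ^ n).coeff (-(n : ℤ)) = 1 := by
  rw [← map_pow, coeffEmb_coeff, coeff_jq_pow_self, map_one]

/-- `coeffEmb L jq ^ n` has vanishing coefficients below `-n`. -/
theorem coeff_coeffEmb_jq_pow_of_lt (L : Type*) [Field L] [Algebra ℚ L] {n : ℕ} {m : ℤ}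
    (hm : m < -(n : ℤ)) : ((coeffEmb L jq) ^ n).coeff m = 0 := by
  rw [← map_pow, coeffEmb_coeff, coeff_jq_pow_of_lt hm, map_zero]

/-- The lowest coefficient of `p(j)` is the leading coefficient of `p`. -/
theorem coeff_aeval_coeffEmb_jq (L : Type*) [Field L] [Algebra ℚ L] (p : L[X]) :
    (aeval (coeffEmb L jq) p).coeff (-(p.natDegree : ℤ)) = p.leadingCoeff := by
  rw [aeval_eq_sum_range, HahnSeries.coeff_sum, Finset.sum_range_succ]
  rw [Finset.sum_eq_zero, zero_add]
  · rw [Algebra.smul_def, algebraMap_laurentSeries_eq_single, HahnSeries.coeff_single_zero_mul,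
      coeff_coeffEmb_jq_pow_self, mul_one]
    rfl
  · intro k hk
    rw [Finset.mem_range] at hk
    rw [Algebra.smul_def, algebraMap_laurentSeries_eq_single, HahnSeries.coeff_single_zero_mul,
      coeff_coeffEmb_jq_pow_of_lt, mul_zero]
    omega

/-- `j` (with coefficients in any field `L ⊇ ℚ`) is transcendental over `L` in `L((q))`. -/
theorem transcendental_coeffEmb_jq (L : Type*) [Field L] [Algebra ℚ L] :
    Transcendental L (coeffEmb L jq) := by
  rintro ⟨p, hp0, hp⟩
  have h := coeff_aeval_coeffEmb_jq L p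
  rw [hp, HahnSeries.coeff_zero] at h
  exact hp0 (leadingCoeff_eq_zero.mp h.symm)

/-- (M1) `jBar N` is transcendental over `Qbar`. -/
theorem transcendental_jBar (N : ℕ) [NeZero N] : Transcendental Qbar (jBar N) := by
  intro h
  apply transcendental_coeffEmb_jq Qbar
  have := h.algHom (modularFunctionFieldBar N).val
  exact this

end Fermat.Agent.S24.H40
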