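import Mathlib
import Fermat.Agent.S24.Defs
import Fermat.Agent.S24.H24_Group
import Fermat.Agent.S24.H40_Transcendental
import Fermat.Agent.S24.H40_Generation
import Fermat.Agent.S24.H40_Separation
import Fermat.Agent.S24.H40_Degree

set_option autoImplicit false

noncomputable section

namespace Fermat.Agent.S24.H40

open UpperHalfPlane ModularCurve IntermediateField
open scoped Manifold MatrixGroups

/-- (M2 + M3) from the analytic inputs: `n = #X_N` conjugate embeddings `θ x` of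
`A = Qbar[j_d : d ∣ N]` into holomorphic functions on `ℍ`, agreeing on `Qbar[j]`, with the
conjugates of `j_N` pairwise distinct, plus the weak KEY (every `f ∈ A` is a root of a monic
polynomial of degree `#X_N` over `Qbar[j]`). -/
theorem finrank_FN_of_conjugates (N : ℕ) [NeZero N]
    (θ : H24.XN N → (AN N →+* (ℍ → ℂ)))
    (hmdiff : ∀ x, MDiff (θ x ⟨jd N N dvd_rfl, jd_mem_AN N N dvd_rfl⟩))
    (hinv : ∀ (x y : H24.XN N) (c : AN N), (c : FN N) ∈ Algebra.adjoin Qbar {jBar N} →
      θ x c = θ y c)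
    (hdist : Function.Injective fun x => θ x ⟨jd N N dvd_rfl, jd_mem_AN N N dvd_rfl⟩)
    (hkey : ∀ f : AN N, ∃ P : Polynomial (Polynomial Qbar), P.Monic ∧
      P.natDegree = Nat.card (H24.XN N) ∧
      Polynomial.eval₂ ((Polynomial.aeval (jBar N)).toRingHom : Polynomial Qbar →+* FN N)
        (f : FN N) P = 0) :
    FiniteDimensional Qbar⟮jBar N⟯ (FN N) ∧
      Module.finrank Qbar⟮jBar N⟯ (FN N) = Nat.card (H24.XN N) := by
  obtain ⟨τ₁, hτ₁⟩ := exists_injective_eval
    (fun x => θ x ⟨jd N N dvd_rfl, jd_mem_AN N N dvd_rfl⟩) hmdiff hdist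
  have hcard : Nat.card (H24.XN N) = Fintype.card (H24.XN N) := Nat.card_eq_fintype_card
  rw [hcard]
  refine finrank_eq_card_of_conjugates_weak (jBar N) (transcendental_jBar N) (jdSet N)
    (finite_jdSet N) (adjoin_jdSet_eq_top N) (AN N) (jBar_mem_AN N) Algebra.subset_adjoin θ
    (QuotientGroup.mk 1 : H24.XN N) (fun x c hc => hinv x _ c hc) ?_
    (Pi.evalRingHom (fun _ : ℍ => ℂ) τ₁) ⟨jd N N dvd_rfl, jd_mem_AN N N dvd_rfl⟩ hτ₁
  intro f
  obtain ⟨P, hmon, hdeg, hev⟩ := hkey f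
  exact ⟨P, hmon, hdeg.trans hcard, hev⟩

end Fermat.Agent.S24.H40
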