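import Mathlib
import Fermat.Prelude.Def_ModularCurve_LaurentCoeff

set_option autoImplicit false

noncomputable section

namespace Fermat.Agent.S24.H24.KeyB

open ModularCurve Polynomial

variable {K : Type*} [Field K]

/-- A `K`-linear retraction of `ι : K →+* ℂ` (where `K` acts on `ℂ` through `ι`). -/
theorem exists_retraction (ι : K →+* ℂ) :
    ∃ π : ℂ →+ K, (∀ a : K, π (ι a) = a) ∧ ∀ (a : K) (c : ℂ), π (ι a * c) = a * π c := by
  letI : Algebra K ℂ := ι.toAlgebra
  have hinj : LinearMap.ker (Algebra.linearMap K ℂ) = ⊥ := by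
    rw [LinearMap.ker_eq_bot]
    exact ι.injective
  obtain ⟨g, hg⟩ := LinearMap.exists_leftInverse_of_injective (Algebra.linearMap K ℂ) hinj
  refine ⟨g.toAddMonoidHom, ?_, ?_⟩
  · intro a
    have := LinearMap.congr_fun hg a
    exact this
  · intro a c
    have h := g.map_smul a c
    rw [Algebra.smul_def] at h
    exact h

/-- Apply an additive map coefficientwise to a Laurent series. -/
def mapAdd (π : ℂ →+ K) (s : LaurentSeries ℂ) : LaurentSeries K := s.map π

@[simp] theorem mapAdd_coeff (π : ℂ →+ K) (s : LaurentSeries ℂ) (r : ℤ) :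
    (mapAdd π s).coeff r = π (s.coeff r) := rfl

theorem mapAdd_add (π : ℂ →+ K) (s t : LaurentSeries ℂ) :
    mapAdd π (s + t) = mapAdd π s + mapAdd π t := by
  ext r
  simp

theorem mapAdd_zero (π : ℂ →+ K) : mapAdd π 0 = 0 := by
  ext r
  simp

theorem mapAdd_sum (π : ℂ →+ K) {α : Type*} (s : Finset α) (f : α → LaurentSeries ℂ) :
    mapAdd π (∑ i ∈ s, f i) = ∑ i ∈ s, mapAdd π (f i) := by
  classical
  induction s using Finset.induction_on with
  | empty => simp [mapAdd_zero]
  | insert a s ha ih => rw [Finset.sum_insert ha, Finset.sum_insert ha, mapAdd_add, ih]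

theorem mapAdd_C_mul (ι : K →+* ℂ) (π : ℂ →+ K)
    (hπ : ∀ (a : K) (c : ℂ), π (ι a * c) = a * π c) (c : ℂ) (g : LaurentSeries K) :
    mapAdd π (HahnSeries.C c * coeffMap ι g) = HahnSeries.C (π c) * g := by
  ext r
  rw [mapAdd_coeff, HahnSeries.C_mul_eq_smul, HahnSeries.C_mul_eq_smul, HahnSeries.coeff_smul,
    HahnSeries.coeff_smul, coeffMap_coeff, smul_eq_mul, smul_eq_mul, mul_comm, hπ, mul_comm]

/-- Apply an additive map coefficientwise to a polynomial. -/
def mapP {R S : Type*} [Semiring R] [Semiring S] (π : R →+ S) (p : R[X]) : S[X] :=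
  ∑ l ∈ p.support, monomial l (π (p.coeff l))

@[simp] theorem mapP_coeff {R S : Type*} [Semiring R] [Semiring S] (π : R →+ S) (p : R[X])
    (l : ℕ) : (mapP π p).coeff l = π (p.coeff l) := by
  classical
  rw [mapP, Polynomial.finsetSum_coeff]
  simp only [coeff_monomial]
  rw [Finset.sum_ite_eq' p.support l]
  split_ifs with h
  · rfl
  · rw [Polynomial.mem_support_iff, not_not] at h
    rw [h, map_zero]

/-- `mapP` as an additive homomorphism. -/
def mapPHom {R S : Type*} [Semiring R] [Semiring S] (π : R →+ S) : R[X] →+ S[X] where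
  toFun := mapP π
  map_zero' := by
    ext l
    simp
  map_add' p q := by
    ext l
    simp

@[simp] theorem mapPHom_apply {R S : Type*} [Semiring R] [Semiring S] (π : R →+ S) (p : R[X]) :
    mapPHom π p = mapP π p := rfl

theorem mapP_monomial {R S : Type*} [Semiring R] [Semiring S] (π : R →+ S) (k : ℕ) (c : R) :
    mapP π (monomial k c) = monomial k (π c) := by
  ext l
  rw [mapP_coeff, coeff_monomial, coeff_monomial]
  split_ifs <;> simp

/-- The key compatibility: evaluating at `(ι j, ι f)` and then applying `π` coefficientwise is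
the same as applying `π` to the coefficients and evaluating at `(j, f)`. -/
theorem mapAdd_eval₂ (ι : K →+* ℂ) (π : ℂ →+ K)
    (hπ : ∀ (a : K) (c : ℂ), π (ι a * c) = a * π c) (j f : LaurentSeries K)
    (P : Polynomial (Polynomial ℂ)) :
    mapAdd π (Polynomial.eval₂ (Polynomial.eval₂RingHom HahnSeries.C (coeffMap ι j))
      (coeffMap ι f) P) =
    Polynomial.eval₂ (Polynomial.eval₂RingHom HahnSeries.C j) f (mapP (mapPHom π) P) := by
  induction P using Polynomial.induction_on' with
  | add p q hp hq =>
    have h : mapP (mapPHom π) (p + q) = mapP (mapPHom π) p + mapP (mapPHom π) q :=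
      (mapPHom (mapPHom π)).map_add p q
    rw [Polynomial.eval₂_add, mapAdd_add, hp, hq, h, Polynomial.eval₂_add]
  | monomial k p =>
    rw [mapP_monomial, Polynomial.eval₂_monomial, Polynomial.eval₂_monomial, mapPHom_apply]
    induction p using Polynomial.induction_on' with
    | add p q hp hq =>
      have h : mapP π (p + q) = mapP π p + mapP π q := (mapPHom π).map_add p q
      rw [map_add, add_mul, mapAdd_add, hp, hq, h, map_add, add_mul]
    | monomial l c =>
      rw [mapP_monomial, Polynomial.coe_eval₂RingHom, Polynomial.coe_eval₂RingHom,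
        Polynomial.eval₂_monomial, Polynomial.eval₂_monomial, ← map_pow, ← map_pow, mul_assoc,
        ← map_mul, mapAdd_C_mul ι π hπ, mul_assoc]

theorem exists_descent (ι : K →+* ℂ) (j f : LaurentSeries K) (P : Polynomial (Polynomial ℂ))
    (hP : P.Monic)
    (h0 : Polynomial.eval₂ (Polynomial.eval₂RingHom HahnSeries.C (coeffMap ι j))
      (coeffMap ι f) P = 0) :
    ∃ Q : Polynomial (Polynomial K), Q.Monic ∧ Q.natDegree = P.natDegree ∧
      Polynomial.eval₂ (Polynomial.eval₂RingHom HahnSeries.C j) f Q = 0 := by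
  obtain ⟨π, hπ1, hπ⟩ := exists_retraction ι
  have hone : mapP π (1 : Polynomial ℂ) = 1 := by
    ext l
    rw [mapP_coeff, Polynomial.coeff_one, Polynomial.coeff_one]
    split_ifs
    · simpa using hπ1 1
    · simp
  have hdeg : (mapP (mapPHom π) P).natDegree ≤ P.natDegree := by
    rw [Polynomial.natDegree_le_iff_coeff_eq_zero]
    intro k hk
    rw [mapP_coeff, Polynomial.coeff_eq_zero_of_natDegree_lt hk]
    exact (mapPHom π).map_zero
  have hlead : (mapP (mapPHom π) P).coeff P.natDegree = 1 := by
    rw [mapP_coeff, Polynomial.Monic.coeff_natDegree hP, mapPHom_apply, hone]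
  refine ⟨mapP (mapPHom π) P, Polynomial.monic_of_natDegree_le_of_coeff_eq_one _ hdeg hlead,
    Polynomial.natDegree_eq_of_le_of_coeff_ne_zero hdeg (by rw [hlead]; exact one_ne_zero), ?_⟩
  rw [← mapAdd_eval₂ ι π hπ, h0, mapAdd_zero]

end Fermat.Agent.S24.H24.KeyB
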