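import Mathlib

/-!
# S24 / T1 : the `q_h`-expansion homomorphism

For a real `h > 0` we consider functions `f : ℍ → ℂ` that are holomorphic, `h`-periodic and
"meromorphic at `i∞`" (some `𝕢 h ^ M * f` is bounded at `i∞`).  They form a `ℂ`-subalgebra of
`ℍ → ℂ`, and `qhExpansion h : (ℍ → ℂ) → LaurentSeries ℂ` restricted to it is an injective
`ℂ`-algebra homomorphism, compatible with `h ∣ h'`.
-/

set_option autoImplicit false

open Complex Filter Function
open UpperHalfPlane hiding I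
open scoped Real Topology Manifold

noncomputable section

namespace Fermat.Agent.S24.H4

local notation "𝕢" => Periodic.qParam

/-! ## The function `q_h` on the upper half plane -/

/-- The function `τ ↦ 𝕢 h τ` on the upper half plane. -/
def qFun (h : ℝ) : ℍ → ℂ := fun τ => 𝕢 h (τ : ℂ)

lemma qFun_apply (h : ℝ) (τ : ℍ) : qFun h τ = 𝕢 h (τ : ℂ) := rfl

lemma qFun_ne_zero (h : ℝ) (τ : ℍ) : qFun h τ ≠ 0 := Periodic.qParam_ne_zero _

lemma norm_qFun_lt_one {h : ℝ} (hh : 0 < h) (τ : ℍ) : ‖qFun h τ‖ < 1 :=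
  Periodic.norm_qParam_lt_one hh τ.im_pos

lemma norm_qFun (h : ℝ) (τ : ℍ) : ‖qFun h τ‖ = Real.exp (-2 * π * τ.im / h) := by
  rw [qFun_apply, Periodic.norm_qParam]; rfl

lemma mdiff_qFun (h : ℝ) : MDiff (qFun h) := by
  intro τ
  rw [UpperHalfPlane.mdifferentiableAt_iff]
  have : DifferentiableAt ℂ (fun z : ℂ => 𝕢 h z) (τ : ℂ) := by
    unfold Periodic.qParam
    fun_prop
  refine this.congr_of_eventuallyEq ?_
  filter_upwards [(UpperHalfPlane.isOpen_upperHalfPlaneSet).mem_nhds τ.2] with z hz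
  simp [qFun, Function.comp, UpperHalfPlane.ofComplex_apply_of_im_pos hz]

/-- Periodicity of a function on `ℍ` (extended to `ℂ` by `ofComplex`) in terms of values on `ℍ`. -/
lemma periodic_comp_ofComplex_iff {f : ℍ → ℂ} {h : ℝ} :
    Periodic (f ∘ ofComplex) h ↔ ∀ τ : ℍ, f ((h : ℝ) +ᵥ τ) = f τ := by
  constructor
  · intro hf τ
    have := hf (τ : ℂ)
    simp only [Function.comp_apply] at this
    have h1 : (0 : ℝ) < ((τ : ℂ) + (h : ℂ)).im := by simpa using τ.im_pos
    rw [ofComplex_apply_of_im_pos h1, ofComplex_apply] at this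
    convert this using 2
    ext
    simp [add_comm]
  · intro hf z
    simp only [Function.comp_apply]
    by_cases hz : 0 < z.im
    · have h1 : (0 : ℝ) < (z + (h : ℂ)).im := by simpa using hz
      rw [ofComplex_apply_of_im_pos h1, ofComplex_apply_of_im_pos hz]
      have := hf ⟨z, hz⟩
      convert this using 2
      ext
      simp [add_comm]
    · have h1 : (z + (h : ℂ)).im ≤ 0 := by simpa using not_lt.mp hz
      rw [ofComplex_apply_of_im_nonpos h1, ofComplex_apply_of_im_nonpos (not_lt.mp hz)]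

lemma qFun_vadd {h : ℝ} (hh : h ≠ 0) (τ : ℍ) : qFun h ((h : ℝ) +ᵥ τ) = qFun h τ := by
  simp only [qFun, UpperHalfPlane.coe_vadd, Periodic.qParam]
  have hh' : (h : ℂ) ≠ 0 := by exact_mod_cast hh
  have : 2 * (π : ℂ) * I * ((h : ℂ) + (τ : ℂ)) / (h : ℂ) = 2 * π * I * (τ : ℂ) / h + 2 * π * I := by
    field_simp
    ring
  rw [this, Complex.exp_add, Complex.exp_two_pi_mul_I, mul_one]

lemma periodic_qFun {h : ℝ} (hh : h ≠ 0) : Periodic (qFun h ∘ ofComplex) h :=
  periodic_comp_ofComplex_iff.mpr (qFun_vadd hh)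


lemma isBoundedAtImInfty_qFun_pow {h : ℝ} (hh : 0 < h) (k : ℕ) :
    IsBoundedAtImInfty (qFun h ^ k) := by
  rw [isBoundedAtImInfty_iff]
  refine ⟨1, 0, fun τ _ => ?_⟩
  simp only [Pi.pow_apply, norm_pow]
  exact pow_le_one₀ (norm_nonneg _) (norm_qFun_lt_one hh τ).le

/-! ## Holomorphic periodic functions bounded at `i∞` -/

/-- `f` is holomorphic on `ℍ`, `h`-periodic and bounded at `i∞`. -/
structure IsHoloPeriodic (h : ℝ) (f : ℍ → ℂ) : Prop where
  mdiff : MDiff f
  periodic : Periodic (f ∘ ofComplex) h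
  bdd : IsBoundedAtImInfty f

namespace IsHoloPeriodic

variable {h : ℝ} {f g : ℍ → ℂ}

lemma vadd (hf : IsHoloPeriodic h f) (τ : ℍ) : f ((h : ℝ) +ᵥ τ) = f τ :=
  periodic_comp_ofComplex_iff.mp hf.periodic τ

lemma analyticAt (hf : IsHoloPeriodic h f) (hh : 0 < h) : AnalyticAt ℂ (cuspFunction h f) 0 :=
  analyticAt_cuspFunction_zero hh hf.periodic hf.mdiff hf.bdd

lemma hasSum (hf : IsHoloPeriodic h f) (hh : 0 < h) (τ : ℍ) :
    HasSum (fun m : ℕ => (qExpansion h f).coeff m * qFun h τ ^ m) (f τ) := by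
  simpa [qFun, smul_eq_mul] using hasSum_qExpansion hh hf.periodic hf.mdiff hf.bdd τ

lemma const (h : ℝ) (c : ℂ) : IsHoloPeriodic h (fun _ => c) where
  mdiff := mdifferentiable_const
  periodic := periodic_comp_ofComplex_iff.mpr fun _ => rfl
  bdd := const_boundedAtFilter _ c

lemma zero (h : ℝ) : IsHoloPeriodic h 0 := const h 0

lemma one (h : ℝ) : IsHoloPeriodic h 1 := const h 1

lemma add (hf : IsHoloPeriodic h f) (hg : IsHoloPeriodic h g) : IsHoloPeriodic h (f + g) where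
  mdiff := hf.mdiff.add hg.mdiff
  periodic := periodic_comp_ofComplex_iff.mpr fun τ => by simp [hf.vadd, hg.vadd]
  bdd := hf.bdd.add hg.bdd

lemma neg (hf : IsHoloPeriodic h f) : IsHoloPeriodic h (-f) where
  mdiff := hf.mdiff.neg
  periodic := periodic_comp_ofComplex_iff.mpr fun τ => by simp [hf.vadd]
  bdd := hf.bdd.neg

lemma sub (hf : IsHoloPeriodic h f) (hg : IsHoloPeriodic h g) : IsHoloPeriodic h (f - g) := by
  simpa [sub_eq_add_neg] using hf.add hg.neg

lemma mul (hf : IsHoloPeriodic h f) (hg : IsHoloPeriodic h g) : IsHoloPeriodic h (f * g) where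
  mdiff := hf.mdiff.mul hg.mdiff
  periodic := periodic_comp_ofComplex_iff.mpr fun τ => by simp [hf.vadd, hg.vadd]
  bdd := hf.bdd.mul hg.bdd

lemma smul (c : ℂ) (hf : IsHoloPeriodic h f) : IsHoloPeriodic h (c • f) := by
  have : c • f = (fun _ => c) * f := by ext τ; simp
  rw [this]
  exact (const h c).mul hf

lemma qFun_pow (hh : 0 < h) (k : ℕ) : IsHoloPeriodic h (qFun h ^ k) where
  mdiff := by
    induction k with
    | zero => rw [pow_zero]; exact (mdifferentiable_const : MDiff (fun _ : ℍ => (1 : ℂ)))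
    | succ k ih => rw [pow_succ]; exact ih.mul (mdiff_qFun h)
  periodic := periodic_comp_ofComplex_iff.mpr fun τ => by simp [qFun_vadd hh.ne']
  bdd := isBoundedAtImInfty_qFun_pow hh k

end IsHoloPeriodic

lemma hasSum_qFun_pow (h : ℝ) (k : ℕ) (τ : ℍ) :
    HasSum (fun m : ℕ => (if m = k then (1 : ℂ) else 0) • 𝕢 h τ ^ m) ((qFun h ^ k) τ) := by
  have := hasSum_ite_eq k (qFun h τ ^ k)
  rw [Pi.pow_apply]
  convert this using 2 with m
  by_cases hm : m = k <;> simp [hm, qFun]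


/-- Version of `UpperHalfPlane.qExpansion_coeff_unique` for plain functions. -/
lemma qExpansion_coeff_unique' {h : ℝ} {f : ℍ → ℂ} {c : ℕ → ℂ} (hh : 0 < h)
    (hfanalytic : AnalyticAt ℂ (cuspFunction h f) 0)
    (hf : ∀ τ : ℍ, HasSum (fun m ↦ c m • 𝕢 h τ ^ m) (f τ)) (m : ℕ) :
    c m = (qExpansion h f).coeff m := by
  let _ : FunLike (ℍ → ℂ) ℍ ℂ := ⟨fun f => f, fun _ _ h => h⟩
  exact qExpansion_coeff_unique (F := ℍ → ℂ) f hh hfanalytic hf m

/-- The `q`-expansion of `q_h ^ k` is `X ^ k`. -/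
lemma qExpansion_qFun_pow {h : ℝ} (hh : 0 < h) (k : ℕ) :
    qExpansion h (qFun h ^ k) = (PowerSeries.X : PowerSeries ℂ) ^ k := by
  refine PowerSeries.ext fun m => ?_
  have key := qExpansion_coeff_unique' hh
    ((IsHoloPeriodic.qFun_pow hh k).analyticAt hh) (hasSum_qFun_pow h k) m
  rw [← key, PowerSeries.coeff_X_pow]


/-! ## Holomorphic periodic functions meromorphic at `i∞` -/

/-- `f` is holomorphic on `ℍ`, `h`-periodic and meromorphic at `i∞`: some `q_h ^ M * f` is bounded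
at `i∞`. -/
structure IsMeroPeriodic (h : ℝ) (f : ℍ → ℂ) : Prop where
  mdiff : MDiff f
  periodic : Periodic (f ∘ ofComplex) h
  exists_bdd : ∃ M : ℕ, IsBoundedAtImInfty (qFun h ^ M * f)

lemma isBoundedAtImInfty_qFun_pow_mul_of_le {h : ℝ} (hh : 0 < h) {f : ℍ → ℂ} {M M' : ℕ}
    (hMM' : M ≤ M') (hM : IsBoundedAtImInfty (qFun h ^ M * f)) :
    IsBoundedAtImInfty (qFun h ^ M' * f) := by
  obtain ⟨k, rfl⟩ := Nat.exists_eq_add_of_le hMM'
  have : qFun h ^ (M + k) * f = qFun h ^ k * (qFun h ^ M * f) := by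
    rw [pow_add]; ring
  rw [this]
  exact (isBoundedAtImInfty_qFun_pow hh k).mul hM

namespace IsMeroPeriodic

variable {h : ℝ} {f g : ℍ → ℂ}

lemma vadd (hf : IsMeroPeriodic h f) (τ : ℍ) : f ((h : ℝ) +ᵥ τ) = f τ :=
  periodic_comp_ofComplex_iff.mp hf.periodic τ

lemma isHoloPeriodic (hf : IsMeroPeriodic h f) (hh : 0 < h) {M : ℕ}
    (hM : IsBoundedAtImInfty (qFun h ^ M * f)) : IsHoloPeriodic h (qFun h ^ M * f) where
  mdiff := (IsHoloPeriodic.qFun_pow hh M).mdiff.mul hf.mdiff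
  periodic := periodic_comp_ofComplex_iff.mpr fun τ => by
    simp [qFun_vadd hh.ne', hf.vadd]
  bdd := hM

end IsMeroPeriodic

lemma IsHoloPeriodic.isMeroPeriodic {h : ℝ} {f : ℍ → ℂ} (hf : IsHoloPeriodic h f) :
    IsMeroPeriodic h f where
  mdiff := hf.mdiff
  periodic := hf.periodic
  exists_bdd := ⟨0, by simpa using hf.bdd⟩

/-! ## The `q_h`-expansion as a Laurent series -/

open Classical in
/-- The `q_h`-expansion of `f` as a Laurent series (junk value `0` if `f` is not meromorphic at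
`i∞`). -/
def qhExpansion (h : ℝ) (f : ℍ → ℂ) : LaurentSeries ℂ :=
  if hf : ∃ M : ℕ, IsBoundedAtImInfty (qFun h ^ M * f) then
    HahnSeries.single (-(Nat.find hf : ℤ)) (1 : ℂ) *
      HahnSeries.ofPowerSeries ℤ ℂ (qExpansion h (qFun h ^ Nat.find hf * f))
  else 0

/-- Key formula: any admissible pole bound `M` computes `qhExpansion`. -/
theorem qhExpansion_eq {h : ℝ} (hh : 0 < h) {f : ℍ → ℂ} (hf : IsMeroPeriodic h f) {M : ℕ}
    (hM : IsBoundedAtImInfty (qFun h ^ M * f)) :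
    qhExpansion h f = HahnSeries.single (-(M : ℤ)) (1 : ℂ) *
      HahnSeries.ofPowerSeries ℤ ℂ (qExpansion h (qFun h ^ M * f)) := by
  classical
  have hex : ∃ M : ℕ, IsBoundedAtImInfty (qFun h ^ M * f) := ⟨M, hM⟩
  rw [qhExpansion, dif_pos hex]
  have h0 := Nat.find_spec hex
  have hle : Nat.find hex ≤ M := Nat.find_min' hex hM
  generalize Nat.find hex = M₀ at h0 hle
  obtain ⟨k, rfl⟩ := Nat.exists_eq_add_of_le hle
  have e1 : qFun h ^ (M₀ + k) * f = qFun h ^ k * (qFun h ^ M₀ * f) := by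
    rw [pow_add]; ring
  rw [e1, qExpansion_mul ((IsHoloPeriodic.qFun_pow hh k).analyticAt hh)
    ((hf.isHoloPeriodic hh h0).analyticAt hh), qExpansion_qFun_pow hh k, map_mul,
    HahnSeries.ofPowerSeries_X_pow, ← mul_assoc, HahnSeries.single_mul_single]
  have e2 : (-((M₀ + k : ℕ) : ℤ) + (k : ℤ)) = -(M₀ : ℤ) := by push_cast; ring
  rw [e2, mul_one]


/-! ## Closure properties -/

namespace IsMeroPeriodic

variable {h : ℝ} {f g : ℍ → ℂ}

lemma const (h : ℝ) (c : ℂ) : IsMeroPeriodic h (fun _ => c) :=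
  (IsHoloPeriodic.const h c).isMeroPeriodic

lemma zero (h : ℝ) : IsMeroPeriodic h 0 := const h 0

lemma one (h : ℝ) : IsMeroPeriodic h 1 := const h 1

lemma qFun_pow (hh : 0 < h) (k : ℕ) : IsMeroPeriodic h (qFun h ^ k) :=
  (IsHoloPeriodic.qFun_pow hh k).isMeroPeriodic

/-- Two meromorphic periodic functions have a common pole bound. -/
lemma exists_common_bdd (hh : 0 < h) (hf : IsMeroPeriodic h f) (hg : IsMeroPeriodic h g) :
    ∃ M : ℕ, IsBoundedAtImInfty (qFun h ^ M * f) ∧ IsBoundedAtImInfty (qFun h ^ M * g) := by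
  obtain ⟨M, hM⟩ := hf.exists_bdd
  obtain ⟨N, hN⟩ := hg.exists_bdd
  exact ⟨M + N, isBoundedAtImInfty_qFun_pow_mul_of_le hh (Nat.le_add_right M N) hM,
    isBoundedAtImInfty_qFun_pow_mul_of_le hh (Nat.le_add_left N M) hN⟩

lemma add (hh : 0 < h) (hf : IsMeroPeriodic h f) (hg : IsMeroPeriodic h g) :
    IsMeroPeriodic h (f + g) where
  mdiff := hf.mdiff.add hg.mdiff
  periodic := periodic_comp_ofComplex_iff.mpr fun τ => by simp [hf.vadd, hg.vadd]
  exists_bdd := by
    obtain ⟨M, hM, hN⟩ := exists_common_bdd hh hf hg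
    refine ⟨M, ?_⟩
    rw [mul_add]
    exact hM.add hN

lemma neg (hf : IsMeroPeriodic h f) : IsMeroPeriodic h (-f) where
  mdiff := hf.mdiff.neg
  periodic := periodic_comp_ofComplex_iff.mpr fun τ => by simp [hf.vadd]
  exists_bdd := by
    obtain ⟨M, hM⟩ := hf.exists_bdd
    refine ⟨M, ?_⟩
    rw [mul_neg]
    exact hM.neg

lemma sub (hh : 0 < h) (hf : IsMeroPeriodic h f) (hg : IsMeroPeriodic h g) :
    IsMeroPeriodic h (f - g) := by
  simpa [sub_eq_add_neg] using hf.add hh hg.neg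

lemma mul (hf : IsMeroPeriodic h f) (hg : IsMeroPeriodic h g) : IsMeroPeriodic h (f * g) where
  mdiff := hf.mdiff.mul hg.mdiff
  periodic := periodic_comp_ofComplex_iff.mpr fun τ => by simp [hf.vadd, hg.vadd]
  exists_bdd := by
    obtain ⟨M, hM⟩ := hf.exists_bdd
    obtain ⟨N, hN⟩ := hg.exists_bdd
    refine ⟨M + N, ?_⟩
    have : qFun h ^ (M + N) * (f * g) = (qFun h ^ M * f) * (qFun h ^ N * g) := by
      rw [pow_add]; ring
    rw [this]
    exact hM.mul hN

lemma smul (c : ℂ) (hf : IsMeroPeriodic h f) : IsMeroPeriodic h (c • f) := by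
  have : c • f = (fun _ => c) * f := by ext τ; simp
  rw [this]
  exact (const h c).mul hf

lemma pow (hf : IsMeroPeriodic h f) (n : ℕ) : IsMeroPeriodic h (f ^ n) := by
  induction n with
  | zero => rw [pow_zero]; exact one h
  | succ n ih => rw [pow_succ]; exact ih.mul hf

end IsMeroPeriodic

/-- The `ℂ`-algebra of holomorphic `h`-periodic functions on `ℍ` that are meromorphic at `i∞`. -/
def meroPeriodic (h : ℝ) (hh : 0 < h) : Subalgebra ℂ (ℍ → ℂ) where
  carrier := {f | IsMeroPeriodic h f}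
  mul_mem' hf hg := hf.mul hg
  one_mem' := IsMeroPeriodic.one h
  add_mem' hf hg := hf.add hh hg
  zero_mem' := IsMeroPeriodic.zero h
  algebraMap_mem' c := IsMeroPeriodic.const h c

lemma mem_meroPeriodic {h : ℝ} {hh : 0 < h} {f : ℍ → ℂ} :
    f ∈ meroPeriodic h hh ↔ IsMeroPeriodic h f := Iff.rfl

lemma IsMeroPeriodic.sum {h : ℝ} (hh : 0 < h) {ι : Type*} (s : Finset ι) {f : ι → ℍ → ℂ}
    (hf : ∀ i ∈ s, IsMeroPeriodic h (f i)) : IsMeroPeriodic h (∑ i ∈ s, f i) :=
  (meroPeriodic h hh).sum_mem hf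

lemma IsMeroPeriodic.prod {h : ℝ} (hh : 0 < h) {ι : Type*} (s : Finset ι) {f : ι → ℍ → ℂ}
    (hf : ∀ i ∈ s, IsMeroPeriodic h (f i)) : IsMeroPeriodic h (∏ i ∈ s, f i) :=
  (meroPeriodic h hh).prod_mem hf

/-! ## Algebraic properties of `qhExpansion` -/

section algebra

variable {h : ℝ} {f g : ℍ → ℂ}

theorem qhExpansion_add (hh : 0 < h) (hf : IsMeroPeriodic h f) (hg : IsMeroPeriodic h g) :
    qhExpansion h (f + g) = qhExpansion h f + qhExpansion h g := by
  obtain ⟨M, hM, hN⟩ := IsMeroPeriodic.exists_common_bdd hh hf hg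
  have hMN : IsBoundedAtImInfty (qFun h ^ M * (f + g)) := by
    rw [mul_add]; exact hM.add hN
  rw [qhExpansion_eq hh (hf.add hh hg) hMN, qhExpansion_eq hh hf hM, qhExpansion_eq hh hg hN,
    mul_add (qFun h ^ M) f g, qExpansion_add ((hf.isHoloPeriodic hh hM).analyticAt hh)
      ((hg.isHoloPeriodic hh hN).analyticAt hh), map_add, mul_add]

theorem qhExpansion_mul (hh : 0 < h) (hf : IsMeroPeriodic h f) (hg : IsMeroPeriodic h g) :
    qhExpansion h (f * g) = qhExpansion h f * qhExpansion h g := by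
  obtain ⟨M, hM⟩ := hf.exists_bdd
  obtain ⟨N, hN⟩ := hg.exists_bdd
  have e : qFun h ^ (M + N) * (f * g) = (qFun h ^ M * f) * (qFun h ^ N * g) := by
    rw [pow_add]; ring
  have hMN : IsBoundedAtImInfty (qFun h ^ (M + N) * (f * g)) := by
    rw [e]; exact hM.mul hN
  have e2 : HahnSeries.single (-((M + N : ℕ) : ℤ)) (1 : ℂ)
      = HahnSeries.single (-(M : ℤ)) (1 : ℂ) * HahnSeries.single (-(N : ℤ)) (1 : ℂ) := by
    have e3 : -((M + N : ℕ) : ℤ) = -(M : ℤ) + -(N : ℤ) := by push_cast; ring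
    rw [HahnSeries.single_mul_single, mul_one, e3]
  rw [qhExpansion_eq hh (hf.mul hg) hMN, qhExpansion_eq hh hf hM, qhExpansion_eq hh hg hN, e,
    qExpansion_mul ((hf.isHoloPeriodic hh hM).analyticAt hh)
      ((hg.isHoloPeriodic hh hN).analyticAt hh), map_mul, e2]
  ring

theorem qhExpansion_of_isHoloPeriodic (hh : 0 < h) (hf : IsHoloPeriodic h f) :
    qhExpansion h f = HahnSeries.ofPowerSeries ℤ ℂ (qExpansion h f) := by
  have h0 : IsBoundedAtImInfty (qFun h ^ 0 * f) := by simpa using hf.bdd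
  rw [qhExpansion_eq hh hf.isMeroPeriodic h0]
  simp

theorem qExpansion_const (h : ℝ) (c : ℂ) :
    qExpansion h (fun _ => c) = PowerSeries.C c := by
  have h1 : (fun _ : ℍ => c) = c • (1 : ℍ → ℂ) := by ext τ; simp
  have h2 : AnalyticAt ℂ (cuspFunction h (1 : ℍ → ℂ)) 0 := by
    have : cuspFunction h (1 : ℍ → ℂ) = 1 := by
      ext q
      rcases eq_or_ne q 0 with rfl | hq
      · simpa [cuspFunction, Periodic.cuspFunction] using! tendsto_const_nhds.limUnder_eq
      · simp [cuspFunction, Periodic.cuspFunction_eq_of_nonzero h _ hq]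
    rw [this]
    exact analyticAt_const
  rw [h1, qExpansion_smul h2, qExpansion_one]
  ext n
  simp [PowerSeries.coeff_C, PowerSeries.coeff_one]

theorem qhExpansion_const (hh : 0 < h) (c : ℂ) :
    qhExpansion h (fun _ => c) = HahnSeries.C c := by
  rw [qhExpansion_of_isHoloPeriodic hh (IsHoloPeriodic.const h c), qExpansion_const,
    HahnSeries.ofPowerSeries_C]

theorem qhExpansion_zero (hh : 0 < h) : qhExpansion h 0 = 0 :=
  (qhExpansion_const hh 0).trans (map_zero _)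

theorem qhExpansion_one (hh : 0 < h) : qhExpansion h 1 = 1 :=
  (qhExpansion_const hh 1).trans (map_one _)

theorem qhExpansion_smul (hh : 0 < h) (c : ℂ) (hf : IsMeroPeriodic h f) :
    qhExpansion h (c • f) = c • qhExpansion h f := by
  have : c • f = (fun _ => c) * f := by ext τ; simp
  rw [this, qhExpansion_mul hh (IsMeroPeriodic.const h c) hf, qhExpansion_const hh,
    HahnSeries.C_mul_eq_smul]

theorem qhExpansion_neg (hh : 0 < h) (hf : IsMeroPeriodic h f) :
    qhExpansion h (-f) = -qhExpansion h f := by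
  have : -f = (-1 : ℂ) • f := by simp
  rw [this, qhExpansion_smul hh _ hf]
  exact neg_one_smul ℂ (qhExpansion h f)

theorem qhExpansion_sub (hh : 0 < h) (hf : IsMeroPeriodic h f) (hg : IsMeroPeriodic h g) :
    qhExpansion h (f - g) = qhExpansion h f - qhExpansion h g := by
  rw [sub_eq_add_neg, qhExpansion_add hh hf hg.neg, qhExpansion_neg hh hg, sub_eq_add_neg]

theorem qhExpansion_qFun_pow (hh : 0 < h) (k : ℕ) :
    qhExpansion h (qFun h ^ k) = HahnSeries.single (k : ℤ) (1 : ℂ) := by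
  rw [qhExpansion_of_isHoloPeriodic hh (IsHoloPeriodic.qFun_pow hh k), qExpansion_qFun_pow hh,
    HahnSeries.ofPowerSeries_X_pow]

/-- The `q_h`-expansion as an algebra homomorphism. -/
def qhExpansionHom (h : ℝ) (hh : 0 < h) : meroPeriodic h hh →ₐ[ℂ] LaurentSeries ℂ where
  toFun f := qhExpansion h f
  map_one' := qhExpansion_one hh
  map_mul' f g := qhExpansion_mul hh f.2 g.2
  map_zero' := qhExpansion_zero hh
  map_add' f g := qhExpansion_add hh f.2 g.2
  commutes' c := by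
    have e : algebraMap ℂ (LaurentSeries ℂ) c = HahnSeries.C c := by
      rw [HahnSeries.algebraMap_apply']
      simp
    rw [e]
    exact qhExpansion_const hh c

@[simp] lemma qhExpansionHom_apply (hh : 0 < h) (f : meroPeriodic h hh) :
    qhExpansionHom h hh f = qhExpansion h f := rfl

theorem qhExpansion_pow (hh : 0 < h) (hf : IsMeroPeriodic h f) (n : ℕ) :
    qhExpansion h (f ^ n) = qhExpansion h f ^ n :=
  map_pow (qhExpansionHom h hh) ⟨f, hf⟩ n

theorem qhExpansion_sum (hh : 0 < h) {ι : Type*} (s : Finset ι) {f : ι → ℍ → ℂ}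
    (hf : ∀ i ∈ s, IsMeroPeriodic h (f i)) :
    qhExpansion h (∑ i ∈ s, f i) = ∑ i ∈ s, qhExpansion h (f i) := by
  classical
  induction s using Finset.induction_on with
  | empty => simpa using qhExpansion_zero hh
  | insert a s ha ih =>
    rw [Finset.sum_insert ha, Finset.sum_insert ha,
      qhExpansion_add hh (hf a (Finset.mem_insert_self a s))
        (IsMeroPeriodic.sum hh s fun i hi => hf i (Finset.mem_insert_of_mem hi)),
      ih fun i hi => hf i (Finset.mem_insert_of_mem hi)]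

theorem qhExpansion_prod (hh : 0 < h) {ι : Type*} (s : Finset ι) {f : ι → ℍ → ℂ}
    (hf : ∀ i ∈ s, IsMeroPeriodic h (f i)) :
    qhExpansion h (∏ i ∈ s, f i) = ∏ i ∈ s, qhExpansion h (f i) := by
  classical
  induction s using Finset.induction_on with
  | empty => simpa using qhExpansion_one hh
  | insert a s ha ih =>
    rw [Finset.prod_insert ha, Finset.prod_insert ha,
      qhExpansion_mul hh (hf a (Finset.mem_insert_self a s))
        (IsMeroPeriodic.prod hh s fun i hi => hf i (Finset.mem_insert_of_mem hi)),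
      ih fun i hi => hf i (Finset.mem_insert_of_mem hi)]

end algebra


/-! ## Coefficients, convergence, uniqueness, injectivity -/

section coeff

variable {h : ℝ} {f g : ℍ → ℂ}

lemma ofPowerSeries_coeff_of_neg (P : PowerSeries ℂ) {n : ℤ} (hn : n < 0) :
    (HahnSeries.ofPowerSeries ℤ ℂ P).coeff n = 0 := by
  rw [HahnSeries.ofPowerSeries_apply]
  apply HahnSeries.embDomain_of_notMem_range
  rintro ⟨m, hm⟩
  have : (0 : ℤ) ≤ n := by rw [← hm]; exact Int.natCast_nonneg m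
  omega

theorem qhExpansion_coeff_sub (hh : 0 < h) (hf : IsMeroPeriodic h f) {M : ℕ}
    (hM : IsBoundedAtImInfty (qFun h ^ M * f)) (m : ℕ) :
    (qhExpansion h f).coeff ((m : ℤ) - M) = (qExpansion h (qFun h ^ M * f)).coeff m := by
  rw [qhExpansion_eq hh hf hM, sub_eq_add_neg, HahnSeries.coeff_single_mul_add, one_mul,
    HahnSeries.ofPowerSeries_apply_coeff]

theorem qhExpansion_coeff_of_lt (hh : 0 < h) (hf : IsMeroPeriodic h f) {M : ℕ}
    (hM : IsBoundedAtImInfty (qFun h ^ M * f)) {n : ℤ} (hn : n < -(M : ℤ)) :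
    (qhExpansion h f).coeff n = 0 := by
  have e : n = (n + M) + (-(M : ℤ)) := by ring
  rw [qhExpansion_eq hh hf hM, e, HahnSeries.coeff_single_mul_add, one_mul,
    ofPowerSeries_coeff_of_neg _ (by omega)]

/-- Convergence of the `q_h`-expansion (after clearing the pole). -/
theorem hasSum_qhExpansion (hh : 0 < h) (hf : IsMeroPeriodic h f) {M : ℕ}
    (hM : IsBoundedAtImInfty (qFun h ^ M * f)) (τ : ℍ) :
    HasSum (fun m : ℕ => (qhExpansion h f).coeff ((m : ℤ) - M) * qFun h τ ^ m)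
      (qFun h τ ^ M * f τ) := by
  simp_rw [qhExpansion_coeff_sub hh hf hM]
  exact (hf.isHoloPeriodic hh hM).hasSum hh τ

/-- Convergence of the `q_h`-expansion as a sum over `ℤ`. -/
theorem hasSum_qhExpansion_int (hh : 0 < h) (hf : IsMeroPeriodic h f) (τ : ℍ) :
    HasSum (fun n : ℤ => (qhExpansion h f).coeff n * qFun h τ ^ n) (f τ) := by
  obtain ⟨M, hM⟩ := hf.exists_bdd
  have hq : qFun h τ ≠ 0 := qFun_ne_zero h τ
  have h1 := (hasSum_qhExpansion hh hf hM τ).mul_right ((qFun h τ ^ M)⁻¹)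
  have e1 : qFun h τ ^ M * f τ * (qFun h τ ^ M)⁻¹ = f τ := by
    field_simp
  rw [e1] at h1
  let ι : ℕ → ℤ := fun m => (m : ℤ) - M
  have hι : Function.Injective ι := fun a b hab => by
    simp only [ι] at hab; omega
  have h2 : ∀ n ∉ Set.range ι, (qhExpansion h f).coeff n * qFun h τ ^ n = 0 := by
    intro n hn
    have : n < -(M : ℤ) := by
      by_contra hcon
      rw [not_lt] at hcon
      exact hn ⟨(n + M).toNat, by simp only [ι]; omega⟩
    rw [qhExpansion_coeff_of_lt hh hf hM this, zero_mul]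
  have e2 : ((fun n : ℤ => (qhExpansion h f).coeff n * qFun h τ ^ n) ∘ ι) =
      fun i : ℕ => (qhExpansion h f).coeff (↑i - ↑M) * qFun h τ ^ i * (qFun h τ ^ M)⁻¹ := by
    funext m
    simp only [Function.comp_apply, ι]
    rw [zpow_sub₀ hq, zpow_natCast, zpow_natCast]
    field_simp
  rw [← hι.hasSum_iff h2, e2]
  exact h1

/-- A holomorphic periodic function that has a convergent expansion `q^M f = ∑ c_m q^m` is
meromorphic at `i∞`. -/
theorem IsMeroPeriodic.of_hasSum (hh : 0 < h) (hmd : MDiff f) (hper : Periodic (f ∘ ofComplex) h)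
    {M : ℕ} {c : ℕ → ℂ}
    (hsum : ∀ τ : ℍ, HasSum (fun m : ℕ => c m * qFun h τ ^ m) (qFun h τ ^ M * f τ)) :
    IsMeroPeriodic h f :=
  ⟨hmd, hper, M, isBoundedAtImInfty_of_hasSum_qExpansion hh (c := c)
    (by simpa [smul_eq_mul, qFun] using hsum)⟩

/-- Uniqueness: a convergent expansion `q^M f = ∑ c_m q^m` computes `qhExpansion`. -/
theorem qhExpansion_eq_of_hasSum (hh : 0 < h) (hmd : MDiff f) (hper : Periodic (f ∘ ofComplex) h)
    {M : ℕ} {c : ℕ → ℂ}
    (hsum : ∀ τ : ℍ, HasSum (fun m : ℕ => c m * qFun h τ ^ m) (qFun h τ ^ M * f τ)) :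
    qhExpansion h f = HahnSeries.single (-(M : ℤ)) (1 : ℂ) *
      HahnSeries.ofPowerSeries ℤ ℂ (PowerSeries.mk c) := by
  have hf := IsMeroPeriodic.of_hasSum hh hmd hper hsum
  have hsum' : ∀ τ : ℍ, HasSum (fun m : ℕ => c m • 𝕢 h τ ^ m) ((qFun h ^ M * f) τ) := by
    simpa [smul_eq_mul, qFun] using hsum
  have hM : IsBoundedAtImInfty (qFun h ^ M * f) :=
    isBoundedAtImInfty_of_hasSum_qExpansion hh hsum'
  rw [qhExpansion_eq hh hf hM]
  congr 2
  refine PowerSeries.ext fun m => ?_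
  rw [PowerSeries.coeff_mk]
  exact (qExpansion_coeff_unique' hh ((hf.isHoloPeriodic hh hM).analyticAt hh) hsum' m).symm

theorem qhExpansion_coeff_of_hasSum (hh : 0 < h) (hmd : MDiff f)
    (hper : Periodic (f ∘ ofComplex) h) {M : ℕ} {c : ℕ → ℂ}
    (hsum : ∀ τ : ℍ, HasSum (fun m : ℕ => c m * qFun h τ ^ m) (qFun h τ ^ M * f τ)) (m : ℕ) :
    (qhExpansion h f).coeff ((m : ℤ) - M) = c m := by
  rw [qhExpansion_eq_of_hasSum hh hmd hper hsum, sub_eq_add_neg, HahnSeries.coeff_single_mul_add,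
    one_mul, HahnSeries.ofPowerSeries_apply_coeff, PowerSeries.coeff_mk]

/-- Injectivity of the `q_h`-expansion. -/
theorem qhExpansion_eq_zero_iff (hh : 0 < h) (hf : IsMeroPeriodic h f) :
    qhExpansion h f = 0 ↔ f = 0 := by
  constructor
  · intro H
    ext τ
    have := hasSum_qhExpansion_int hh hf τ
    simp only [H, HahnSeries.coeff_zero, zero_mul] at this
    simpa using this.unique hasSum_zero
  · rintro rfl
    exact qhExpansion_zero hh

theorem qhExpansion_inj (hh : 0 < h) (hf : IsMeroPeriodic h f) (hg : IsMeroPeriodic h g)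
    (H : qhExpansion h f = qhExpansion h g) : f = g := by
  have := (qhExpansion_eq_zero_iff hh (hf.sub hh hg)).mp (by
    rw [qhExpansion_sub hh hf hg, H, sub_self])
  exact sub_eq_zero.mp this

theorem qhExpansionHom_injective (hh : 0 < h) : Function.Injective (qhExpansionHom h hh) :=
  fun f g H => Subtype.ext (qhExpansion_inj hh f.2 g.2 H)

end coeff


/-! ## Growth bounds -/

section growth

variable {h : ℝ} {f g : ℍ → ℂ}

lemma norm_qFun_pow (h : ℝ) (M : ℕ) (τ : ℍ) :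
    ‖qFun h τ‖ ^ M = Real.exp (-(2 * π * M * τ.im / h)) := by
  rw [norm_qFun, ← Real.exp_nat_mul]
  congr 1
  ring

/-- A holomorphic periodic function of at most exponential growth is meromorphic at `i∞`. -/
theorem IsMeroPeriodic.of_growth (hmd : MDiff f) (hper : Periodic (f ∘ ofComplex) h)
    {A C : ℝ} {M : ℕ}
    (hgr : ∀ τ : ℍ, A ≤ τ.im → ‖f τ‖ ≤ C * Real.exp (2 * π * M * τ.im / h)) :
    IsMeroPeriodic h f := by
  refine ⟨hmd, hper, M, ?_⟩
  rw [isBoundedAtImInfty_iff]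
  refine ⟨C, A, fun τ hτ => ?_⟩
  simp only [Pi.mul_apply, Pi.pow_apply, norm_mul, norm_pow]
  rw [norm_qFun_pow]
  have h1 := hgr τ hτ
  have h2 : (0 : ℝ) < Real.exp (-(2 * π * M * τ.im / h)) := Real.exp_pos _
  calc Real.exp (-(2 * π * M * τ.im / h)) * ‖f τ‖
      ≤ Real.exp (-(2 * π * M * τ.im / h)) * (C * Real.exp (2 * π * M * τ.im / h)) :=
        mul_le_mul_of_nonneg_left h1 h2.le
    _ = C * (Real.exp (-(2 * π * M * τ.im / h)) * Real.exp (2 * π * M * τ.im / h)) := by ring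
    _ = C := by rw [← Real.exp_add]; simp

/-- If `q_h ^ M * f` is bounded at `i∞` then it is bounded on every half plane `Im τ ≥ c > 0`. -/
theorem IsHoloPeriodic.exists_bound (hh : 0 < h) (hf : IsHoloPeriodic h f) {c : ℝ} (hc : 0 < c) :
    ∃ C : ℝ, ∀ τ : ℍ, c ≤ τ.im → ‖f τ‖ ≤ C := by
  have hdiff := differentiableOn_cuspFunction_ball hh hf.periodic hf.mdiff hf.bdd
  set r : ℝ := Real.exp (-2 * π * c / h) with hr
  have hr1 : r < 1 := by
    rw [hr, Real.exp_lt_one_iff]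
    have : 0 < 2 * π * c / h := by positivity
    have e : -2 * π * c / h = -(2 * π * c / h) := by ring
    rw [e]; linarith
  have hsub : Metric.closedBall (0 : ℂ) r ⊆ Metric.ball 0 1 := Metric.closedBall_subset_ball hr1
  obtain ⟨C, hC⟩ := (isCompact_closedBall (0 : ℂ) r).exists_bound_of_continuousOn
    (hdiff.continuousOn.mono hsub)
  refine ⟨C, fun τ hτ => ?_⟩
  have h1 : ‖qFun h τ‖ ≤ r := by
    rw [norm_qFun, hr]
    apply Real.exp_le_exp.mpr
    have : -2 * π * τ.im / h = -(2 * π / h) * τ.im := by ring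
    have : -2 * π * c / h = -(2 * π / h) * c := by ring
    have h3 : 0 < 2 * π / h := by positivity
    nlinarith
  have h2 := hC (qFun h τ) (by simpa [Metric.mem_closedBall, dist_zero_right] using h1)
  rwa [qFun_apply, eq_cuspFunction τ hh.ne' hf.periodic] at h2

/-- Exponential growth bound on half planes `Im τ ≥ c > 0` from a pole bound at `i∞`. -/
theorem IsMeroPeriodic.exists_growth (hh : 0 < h) (hf : IsMeroPeriodic h f) {M : ℕ}
    (hM : IsBoundedAtImInfty (qFun h ^ M * f)) {c : ℝ} (hc : 0 < c) :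
    ∃ C : ℝ, ∀ τ : ℍ, c ≤ τ.im → ‖f τ‖ ≤ C * Real.exp (2 * π * M * τ.im / h) := by
  obtain ⟨C, hC⟩ := (hf.isHoloPeriodic hh hM).exists_bound hh hc
  refine ⟨C, fun τ hτ => ?_⟩
  have h1 := hC τ hτ
  simp only [Pi.mul_apply, Pi.pow_apply, norm_mul, norm_pow] at h1
  rw [norm_qFun_pow] at h1
  have h2 : (0 : ℝ) < Real.exp (2 * π * M * τ.im / h) := Real.exp_pos _
  calc ‖f τ‖ = (Real.exp (-(2 * π * M * τ.im / h)) * ‖f τ‖) * Real.exp (2 * π * M * τ.im / h) := by
        rw [mul_comm (Real.exp (-(2 * π * M * τ.im / h))), mul_assoc, ← Real.exp_add]; simp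
    _ ≤ C * Real.exp (2 * π * M * τ.im / h) := mul_le_mul_of_nonneg_right h1 h2.le

theorem IsMeroPeriodic.exists_growth' (hh : 0 < h) (hf : IsMeroPeriodic h f) {c : ℝ} (hc : 0 < c) :
    ∃ (C : ℝ) (M : ℕ), ∀ τ : ℍ, c ≤ τ.im → ‖f τ‖ ≤ C * Real.exp (2 * π * M * τ.im / h) := by
  obtain ⟨M, hM⟩ := hf.exists_bdd
  obtain ⟨C, hC⟩ := hf.exists_growth hh hM hc
  exact ⟨C, M, hC⟩

end growth


/-! ## Boundedness at `i∞` in terms of coefficients -/

section bounded

variable {h : ℝ} {f g : ℍ → ℂ}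

theorem isBoundedAtImInfty_iff_coeff (hh : 0 < h) (hf : IsMeroPeriodic h f) :
    IsBoundedAtImInfty f ↔ ∀ n : ℤ, n < 0 → (qhExpansion h f).coeff n = 0 := by
  constructor
  · intro hb n hn
    rw [qhExpansion_of_isHoloPeriodic hh ⟨hf.mdiff, hf.periodic, hb⟩]
    exact ofPowerSeries_coeff_of_neg _ hn
  · intro H
    obtain ⟨M, hM⟩ := hf.exists_bdd
    refine isBoundedAtImInfty_of_hasSum_qExpansion hh
      (c := fun m : ℕ => (qhExpansion h f).coeff (m : ℤ)) fun τ => ?_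
    have hq : qFun h τ ≠ 0 := qFun_ne_zero h τ
    have h1 := hasSum_qhExpansion hh hf hM τ
    rw [← hasSum_nat_add_iff' M] at h1
    have h2 : ∑ i ∈ Finset.range M, (qhExpansion h f).coeff ((i : ℤ) - M) * qFun h τ ^ i = 0 := by
      refine Finset.sum_eq_zero fun i hi => ?_
      rw [H _ (by have := Finset.mem_range.mp hi; omega), zero_mul]
    rw [h2, sub_zero] at h1
    have h3 := h1.mul_right ((qFun h τ ^ M)⁻¹)
    have e1 : qFun h τ ^ M * f τ * (qFun h τ ^ M)⁻¹ = f τ := by field_simp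
    rw [e1] at h3
    have e2 : (fun m : ℕ => (qhExpansion h f).coeff (m : ℤ) • 𝕢 h τ ^ m) =
        fun i : ℕ => (qhExpansion h f).coeff (((i + M : ℕ) : ℤ) - M) * qFun h τ ^ (i + M) *
          (qFun h τ ^ M)⁻¹ := by
      funext m
      have : (((m + M : ℕ) : ℤ) - M) = m := by push_cast; ring
      rw [this, smul_eq_mul, pow_add, ← qFun_apply]
      field_simp
    rw [e2]
    exact h3

theorem isBoundedAtImInfty_qFun_pow_mul_iff (hh : 0 < h) (hf : IsMeroPeriodic h f) (M : ℕ) :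
    IsBoundedAtImInfty (qFun h ^ M * f) ↔
      ∀ n : ℤ, n < -(M : ℤ) → (qhExpansion h f).coeff n = 0 := by
  constructor
  · intro hM n hn
    exact qhExpansion_coeff_of_lt hh hf hM hn
  · intro H
    rw [isBoundedAtImInfty_iff_coeff hh ((IsMeroPeriodic.qFun_pow hh M).mul hf)]
    intro n hn
    rw [qhExpansion_mul hh (IsMeroPeriodic.qFun_pow hh M) hf, qhExpansion_qFun_pow hh]
    have e : n = (n - M) + (M : ℤ) := by ring
    rw [e, HahnSeries.coeff_single_mul_add, one_mul]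
    exact H _ (by omega)

end bounded

/-! ## Change of period `h ↦ d * h` -/

section period

variable {h : ℝ} {f g : ℍ → ℂ}

lemma qFun_nat_mul_pow (h : ℝ) {d : ℕ} (hd : d ≠ 0) (τ : ℍ) :
    qFun ((d : ℝ) * h) τ ^ d = qFun h τ := by
  simp only [qFun, Periodic.qParam]
  rw [← Complex.exp_nat_mul]
  congr 1
  have hd' : (d : ℂ) ≠ 0 := by exact_mod_cast hd
  push_cast
  rw [mul_div_assoc', mul_div_mul_left _ _ hd']

theorem IsMeroPeriodic.nat_mul (hf : IsMeroPeriodic h f) {d : ℕ} (hd : d ≠ 0) :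
    IsMeroPeriodic ((d : ℝ) * h) f where
  mdiff := hf.mdiff
  periodic := by
    have := hf.periodic.nat_mul d
    simpa using this
  exists_bdd := by
    obtain ⟨M, hM⟩ := hf.exists_bdd
    refine ⟨d * M, ?_⟩
    have : qFun ((d : ℝ) * h) ^ (d * M) = qFun h ^ M := by
      funext τ
      simp only [Pi.pow_apply]
      rw [pow_mul, qFun_nat_mul_pow h hd]
    rwa [this]

/-- The `q`-expansion for the period `d * h` is obtained from that for `h` by `q_h = q_{dh} ^ d`:
coefficients at multiples of `d`. -/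
theorem qhExpansion_nat_mul_coeff_aux (hh : 0 < h) (hf : IsMeroPeriodic h f) {d : ℕ} (hd : d ≠ 0)
    (n : ℤ) :
    ((qhExpansion ((d : ℝ) * h) f).coeff ((d : ℤ) * n) = (qhExpansion h f).coeff n) ∧
    (∀ k : ℤ, ¬ (d : ℤ) ∣ k → (qhExpansion ((d : ℝ) * h) f).coeff k = 0) := by
  have hd0 : 0 < d := Nat.pos_of_ne_zero hd
  have hdh : 0 < (d : ℝ) * h := by positivity
  obtain ⟨M, hM⟩ := hf.exists_bdd
  set a : ℕ → ℂ := fun m => (qhExpansion h f).coeff ((m : ℤ) - M) with ha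
  set c : ℕ → ℂ := fun k => if d ∣ k then a (k / d) else 0 with hc
  have hsum : ∀ τ : ℍ, HasSum (fun k : ℕ => c k * qFun ((d : ℝ) * h) τ ^ k)
      (qFun ((d : ℝ) * h) τ ^ (d * M) * f τ) := by
    intro τ
    have h1 := hasSum_qhExpansion hh hf hM τ
    rw [pow_mul, qFun_nat_mul_pow h hd]
    let ι : ℕ → ℕ := fun m => d * m
    have hι : Function.Injective ι := fun x y hxy => Nat.eq_of_mul_eq_mul_left hd0 hxy
    have h2 : ∀ k ∉ Set.range ι, c k * qFun ((d : ℝ) * h) τ ^ k = 0 := by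
      intro k hk
      have : ¬ d ∣ k := fun ⟨m, hm⟩ => hk ⟨m, hm.symm⟩
      simp [hc, this]
    rw [← hι.hasSum_iff h2]
    have e : ((fun k : ℕ => c k * qFun ((d : ℝ) * h) τ ^ k) ∘ ι) =
        fun m : ℕ => (qhExpansion h f).coeff ((m : ℤ) - M) * qFun h τ ^ m := by
      funext m
      simp only [Function.comp_apply, ι, hc, ha, dvd_mul_right, if_true,
        Nat.mul_div_cancel_left m hd0]
      rw [pow_mul, qFun_nat_mul_pow h hd]
    rw [e]
    exact h1
  have hf' := hf.nat_mul hd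
  have hcoeff := qhExpansion_coeff_of_hasSum hdh hf'.mdiff hf'.periodic hsum
  have hM' : IsBoundedAtImInfty (qFun ((d : ℝ) * h) ^ (d * M) * f) :=
    (IsMeroPeriodic.of_hasSum hdh hf'.mdiff hf'.periodic hsum) |> fun _ =>
      isBoundedAtImInfty_of_hasSum_qExpansion hdh (c := c)
        (by simpa [smul_eq_mul, qFun] using hsum)
  constructor
  · by_cases hn : n < -(M : ℤ)
    · rw [qhExpansion_coeff_of_lt hh hf hM hn, qhExpansion_coeff_of_lt hdh hf' hM']
      push_cast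
      have : (d : ℤ) * n < (d : ℤ) * (-(M : ℤ)) :=
        mul_lt_mul_of_pos_left hn (by exact_mod_cast hd0)
      linarith
    · rw [not_lt] at hn
      obtain ⟨m, hm⟩ : ∃ m : ℕ, (m : ℤ) = n + M := ⟨(n + M).toNat, by omega⟩
      have h3 := hcoeff (d * m)
      have e1 : (((d * m : ℕ) : ℤ) - ((d * M : ℕ) : ℤ)) = (d : ℤ) * n := by
        push_cast; rw [hm]; ring
      rw [e1] at h3
      rw [h3]
      simp only [hc, ha, dvd_mul_right, if_true, Nat.mul_div_cancel_left m hd0]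
      congr 1
      omega
  · intro k hk
    by_cases hn : k < -((d * M : ℕ) : ℤ)
    · exact qhExpansion_coeff_of_lt hdh hf' hM' hn
    · rw [not_lt] at hn
      obtain ⟨m, hm⟩ : ∃ m : ℕ, (m : ℤ) = k + ((d * M : ℕ) : ℤ) := ⟨(k + (d * M : ℕ)).toNat, by omega⟩
      have h3 := hcoeff m
      have e1 : ((m : ℤ) - ((d * M : ℕ) : ℤ)) = k := by rw [hm]; ring
      rw [e1] at h3
      rw [h3]
      have : ¬ d ∣ m := by
        intro hdm
        apply hk
        have h4 : (d : ℤ) ∣ (m : ℤ) := by exact_mod_cast hdm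
        have h5 : (d : ℤ) ∣ ((d * M : ℕ) : ℤ) := by push_cast; exact dvd_mul_right _ _
        have : k = (m : ℤ) - ((d * M : ℕ) : ℤ) := by rw [hm]; ring
        rw [this]
        exact dvd_sub h4 h5
      simp [hc, this]

theorem qhExpansion_nat_mul_coeff (hh : 0 < h) (hf : IsMeroPeriodic h f) {d : ℕ} (hd : d ≠ 0)
    (n : ℤ) :
    (qhExpansion ((d : ℝ) * h) f).coeff ((d : ℤ) * n) = (qhExpansion h f).coeff n :=
  (qhExpansion_nat_mul_coeff_aux hh hf hd n).1

theorem qhExpansion_nat_mul_coeff_of_not_dvd (hh : 0 < h) (hf : IsMeroPeriodic h f) {d : ℕ}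
    (hd : d ≠ 0) {k : ℤ} (hk : ¬ (d : ℤ) ∣ k) :
    (qhExpansion ((d : ℝ) * h) f).coeff k = 0 :=
  (qhExpansion_nat_mul_coeff_aux hh hf hd 0).2 k hk

/-- Multiplication by a positive natural number as an order embedding of `ℤ`. -/
def mulEmb (d : ℕ) (hd : d ≠ 0) : ℤ ↪o ℤ :=
  OrderEmbedding.ofStrictMono (fun n => (d : ℤ) * n) fun _ _ hab =>
    mul_lt_mul_of_pos_left hab (by exact_mod_cast Nat.pos_of_ne_zero hd)

@[simp] lemma mulEmb_apply (d : ℕ) (hd : d ≠ 0) (n : ℤ) : mulEmb d hd n = (d : ℤ) * n := rfl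

/-- Bundled form of the change of period: `X ↦ X ^ d` on Laurent series. -/
theorem qhExpansion_nat_mul (hh : 0 < h) (hf : IsMeroPeriodic h f) {d : ℕ} (hd : d ≠ 0) :
    qhExpansion ((d : ℝ) * h) f = HahnSeries.embDomain (mulEmb d hd) (qhExpansion h f) := by
  ext k
  by_cases hk : (d : ℤ) ∣ k
  · obtain ⟨n, rfl⟩ := hk
    rw [qhExpansion_nat_mul_coeff hh hf hd, ← mulEmb_apply d hd n, HahnSeries.embDomain_coeff]
  · rw [qhExpansion_nat_mul_coeff_of_not_dvd hh hf hd hk,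
      HahnSeries.embDomain_of_notMem_range]
    rintro ⟨n, rfl⟩
    exact hk ⟨n, rfl⟩

end period

/-! ## Composition with an affine map `τ ↦ a τ + b` -/

section affine

variable {h : ℝ} {f g : ℍ → ℂ}

lemma qFun_affine {h a b : ℝ} (ha : a ≠ 0) {φ : ℍ → ℍ}
    (hφ : ∀ τ : ℍ, ((φ τ : ℍ) : ℂ) = (a : ℂ) * τ + b) (τ : ℍ) :
    qFun h (φ τ) = 𝕢 h (b : ℂ) * qFun (h / a) τ := by
  simp only [qFun, Periodic.qParam, hφ]
  rw [← Complex.exp_add]
  congr 1
  have ha' : (a : ℂ) ≠ 0 := by exact_mod_cast ha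
  push_cast
  by_cases hh : (h : ℂ) = 0
  · simp [hh]
  · field_simp
    ring

theorem IsMeroPeriodic.comp_affine_aux (hh : 0 < h) (hf : IsMeroPeriodic h f) {a b : ℝ} (ha : 0 < a)
    {φ : ℍ → ℍ} (hφ : ∀ τ : ℍ, ((φ τ : ℍ) : ℂ) = (a : ℂ) * τ + b) :
    IsMeroPeriodic (h / a) (f ∘ φ) ∧
      ∀ n : ℤ, (qhExpansion (h / a) (f ∘ φ)).coeff n = 𝕢 h (b : ℂ) ^ n * (qhExpansion h f).coeff n := by
  have hha : 0 < h / a := div_pos hh ha
  have ha' : (a : ℂ) ≠ 0 := by exact_mod_cast ha.ne'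
  -- holomorphy
  have hmd : MDiff (f ∘ φ) := by
    rw [UpperHalfPlane.mdifferentiable_iff]
    have h1 := UpperHalfPlane.mdifferentiable_iff.mp hf.mdiff
    have h2 : DifferentiableOn ℂ (fun z : ℂ => (a : ℂ) * z + b) {z | 0 < z.im} := by
      fun_prop
    have h3 : Set.MapsTo (fun z : ℂ => (a : ℂ) * z + b) {z | 0 < z.im} {z | 0 < z.im} := by
      intro z hz
      simp only [Set.mem_ofPred_eq] at hz ⊢
      simp [ha, hz]
    refine (h1.comp h2 h3).congr fun z hz => ?_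
    simp only [Set.mem_ofPred_eq] at hz
    simp only [Function.comp_apply]
    congr 1
    apply UpperHalfPlane.ext
    rw [hφ, ofComplex_apply_of_im_pos hz, ofComplex_apply_of_im_pos (h3 hz)]
  -- periodicity
  have hper : Periodic ((f ∘ φ) ∘ ofComplex) (h / a : ℝ) := by
    rw [periodic_comp_ofComplex_iff]
    intro τ
    simp only [Function.comp_apply]
    rw [← hf.vadd (φ τ)]
    congr 1
    apply UpperHalfPlane.ext
    rw [hφ, UpperHalfPlane.coe_vadd, UpperHalfPlane.coe_vadd, hφ]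
    push_cast
    field_simp
    ring
  obtain ⟨M, hM⟩ := hf.exists_bdd
  set ζ : ℂ := 𝕢 h (b : ℂ) with hζ
  have hζ0 : ζ ≠ 0 := Periodic.qParam_ne_zero _
  set c : ℕ → ℂ := fun m => (qhExpansion h f).coeff ((m : ℤ) - M) * ζ ^ ((m : ℤ) - M) with hc
  have hsum : ∀ τ : ℍ, HasSum (fun m : ℕ => c m * qFun (h / a) τ ^ m)
      (qFun (h / a) τ ^ M * (f ∘ φ) τ) := by
    intro τ
    have h1 := (hasSum_qhExpansion hh hf hM (φ τ)).mul_right ((ζ ^ M)⁻¹)
    rw [qFun_affine ha.ne' hφ τ] at h1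
    have e1 : (ζ * qFun (h / a) τ) ^ M * f (φ τ) * (ζ ^ M)⁻¹ = qFun (h / a) τ ^ M * (f ∘ φ) τ := by
      simp only [Function.comp_apply, mul_pow]
      field_simp
    rw [e1] at h1
    have e2 : (fun m : ℕ => c m * qFun (h / a) τ ^ m) = fun i : ℕ =>
        (qhExpansion h f).coeff ((i : ℤ) - M) * (ζ * qFun (h / a) τ) ^ i * (ζ ^ M)⁻¹ := by
      funext m
      simp only [hc, mul_pow]
      rw [zpow_sub₀ hζ0, zpow_natCast, zpow_natCast]
      field_simp
    rw [e2]
    exact h1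
  have hfφ := IsMeroPeriodic.of_hasSum hha hmd hper hsum
  refine ⟨hfφ, fun n => ?_⟩
  have hM' : IsBoundedAtImInfty (qFun (h / a) ^ M * (f ∘ φ)) :=
    isBoundedAtImInfty_of_hasSum_qExpansion hha (c := c)
      (by simpa [smul_eq_mul, qFun] using hsum)
  by_cases hn : n < -(M : ℤ)
  · rw [qhExpansion_coeff_of_lt hh hf hM hn, qhExpansion_coeff_of_lt hha hfφ hM' hn, mul_zero]
  · rw [not_lt] at hn
    obtain ⟨m, hm⟩ : ∃ m : ℕ, (m : ℤ) = n + M := ⟨(n + M).toNat, by omega⟩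
    have h3 := qhExpansion_coeff_of_hasSum hha hmd hper hsum m
    have e : (m : ℤ) - M = n := by omega
    simp only [hc] at h3
    rw [e] at h3
    rw [h3, mul_comm]

/-- If `φ : ℍ → ℍ` is the affine map `τ ↦ a τ + b` (`a > 0`, `b` real) and `f` is `h`-periodic,
holomorphic and meromorphic at `i∞`, then `f ∘ φ` is so for the period `h / a`. -/
theorem IsMeroPeriodic.comp_affine (hh : 0 < h) (hf : IsMeroPeriodic h f) {a b : ℝ} (ha : 0 < a)
    {φ : ℍ → ℍ} (hφ : ∀ τ : ℍ, ((φ τ : ℍ) : ℂ) = (a : ℂ) * τ + b) :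
    IsMeroPeriodic (h / a) (f ∘ φ) :=
  (hf.comp_affine_aux hh ha hφ).1

/-- The `q_{h/a}`-expansion of `τ ↦ f (a τ + b)`: the `n`-th coefficient of `f` is multiplied by
`exp (2 π i n b / h)`. -/
theorem qhExpansion_comp_affine_coeff (hh : 0 < h) (hf : IsMeroPeriodic h f) {a b : ℝ} (ha : 0 < a)
    {φ : ℍ → ℍ} (hφ : ∀ τ : ℍ, ((φ τ : ℍ) : ℂ) = (a : ℂ) * τ + b) (n : ℤ) :
    (qhExpansion (h / a) (f ∘ φ)).coeff n = 𝕢 h (b : ℂ) ^ n * (qhExpansion h f).coeff n :=
  (hf.comp_affine_aux hh ha hφ).2 n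

theorem IsMeroPeriodic.comp_vadd (hh : 0 < h) (hf : IsMeroPeriodic h f) (b : ℝ) :
    IsMeroPeriodic h (fun τ : ℍ => f (b +ᵥ τ)) := by
  have := hf.comp_affine hh (a := 1) (b := b) one_pos (φ := fun τ => b +ᵥ τ)
    (fun τ => by simp [UpperHalfPlane.coe_vadd, add_comm])
  rwa [div_one] at this

theorem qhExpansion_comp_vadd_coeff (hh : 0 < h) (hf : IsMeroPeriodic h f) (b : ℝ) (n : ℤ) :
    (qhExpansion h (fun τ : ℍ => f (b +ᵥ τ))).coeff n =
      𝕢 h (b : ℂ) ^ n * (qhExpansion h f).coeff n := by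
  have := qhExpansion_comp_affine_coeff hh hf (a := 1) (b := b) one_pos (φ := fun τ => b +ᵥ τ)
    (fun τ => by simp [UpperHalfPlane.coe_vadd, add_comm]) n
  rwa [div_one] at this

end affine

end Fermat.Agent.S24.H4
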