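import Mathlib

set_option autoImplicit false

/-!
Structure theorem for level one modular functions (package J2 of the S24 project).

A holomorphic `SL(2, ℤ)`-invariant function on the upper half plane which is
`O(exp (2 π M Im τ))` at `i∞` is a polynomial of degree at most `M` in `J = E₄ ^ 3 / Δ`.
-/

namespace Fermat.Agent.S24.H6

open UpperHalfPlane ModularForm EisensteinSeries MatrixGroups SlashInvariantForm
  ModularFormClass CuspFormClass Filter Asymptotics OnePoint
open scoped Manifold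

noncomputable section

/-- Every level one modular form of weight `12 * M` is `P(J) * Δ ^ M` with `deg P ≤ M`. -/
theorem exists_polynomial_of_modularForm (M : ℕ) :
    ∀ (k : ℤ), k = 12 * (M : ℤ) → ∀ F : ModularForm 𝒮ℒ k,
      ∃ P : Polynomial ℂ, P.natDegree ≤ M ∧
        ∀ τ : ℍ, F τ = P.eval (E₄ τ ^ 3 / discriminant τ) * discriminant τ ^ M := by
  induction M with
  | zero =>
    intro k hk F
    have hk0 : k = 0 := by simpa using hk
    subst hk0
    obtain ⟨c, hc⟩ := ModularFormClass.levelOne_weight_zero_const F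
    refine ⟨Polynomial.C c, by simp, fun τ => ?_⟩
    simp [hc]
  | succ M ih =>
    intro k hk F
    let E : ModularForm 𝒮ℒ k :=
      ModularForm.mcast (by rw [hk]; push_cast; ring) (E₄.pow (3 * (M + 1)))
    have hE0 : (qExpansion 1 E).coeff 0 = 1 := by
      have h1 : qExpansion 1 E = qExpansion 1 (E₄.pow (3 * (M + 1))) := rfl
      rw [h1, ModularForm.qExpansion_pow one_pos one_mem_strictPeriods_SL,
        PowerSeries.coeff_zero_eq_constantCoeff_apply, map_pow,
        ← PowerSeries.coeff_zero_eq_constantCoeff_apply,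
        E_qExpansion_coeff_zero (by norm_num) ⟨2, rfl⟩, one_pow]
    have hcusp := ModularForm.sub_smul_isCuspForm F E hE0
    rw [isCuspForm_iff_coeffZero_eq_zero] at hcusp
    obtain ⟨P₁, hP₁deg, hP₁⟩ := ih (k - 12) (by rw [hk]; push_cast; ring)
      (CuspForm.discriminantEquiv (toCuspForm (F - (qExpansion 1 F).coeff 0 • E) hcusp))
    refine ⟨Polynomial.C ((qExpansion 1 F).coeff 0) * Polynomial.X ^ (M + 1) + P₁, ?_, fun τ => ?_⟩
    · refine (Polynomial.natDegree_add_le _ _).trans (max_le ?_ (by omega))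
      exact Polynomial.natDegree_C_mul_X_pow_le _ _
    · have h1 : discriminant τ *
          (CuspForm.discriminantEquiv (toCuspForm (F - (qExpansion 1 F).coeff 0 • E) hcusp)) τ =
          F τ - (qExpansion 1 F).coeff 0 * E₄ τ ^ (3 * (M + 1)) := by
        rw [discriminant_mul_discriminantEquiv_apply]
        have h0 : (E₄.pow (3 * (M + 1))) τ = E₄ τ ^ (3 * (M + 1)) := by
          rw [ModularForm.coe_pow, Pi.pow_apply]
        have h00 : E τ = E₄ τ ^ (3 * (M + 1)) := h0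
        simp [h00]
      have hΔ : discriminant τ ≠ 0 := discriminant_ne_zero τ
      rw [hP₁ τ] at h1
      simp only [Polynomial.eval_add, Polynomial.eval_mul, Polynomial.eval_C, Polynomial.eval_pow,
        Polynomial.eval_X]
      have h2 : E₄ τ ^ (3 * (M + 1)) = (E₄ τ ^ 3 / discriminant τ) ^ (M + 1) *
          discriminant τ ^ (M + 1) := by
        rw [← mul_pow, div_mul_cancel₀ _ hΔ, ← pow_mul]
      rw [h2] at h1
      linear_combination (-1 : ℂ) * h1

/-- Growth of order `exp (2 π M Im τ)` is cancelled by `Δ ^ M`. -/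
theorem isBoundedAtImInfty_mul_discriminant_pow (c : ℍ → ℂ) (M : ℕ) (C : ℝ)
    (hgrowth : ∀ τ : ℍ, 1 ≤ τ.im → ‖c τ‖ ≤ C * Real.exp (2 * Real.pi * M * τ.im)) :
    IsBoundedAtImInfty (fun τ => c τ * discriminant τ ^ M) := by
  have h1 : c =O[atImInfty] fun τ : ℍ => Real.exp (2 * Real.pi * M * τ.im) := by
    refine IsBigO.of_bound C ((atImInfty_mem _).mpr ⟨1, fun τ hτ => ?_⟩)
    simpa [Real.norm_eq_abs, abs_of_pos (Real.exp_pos _)] using hgrowth τ hτ
  have h2 : (discriminant : ℍ → ℂ) =O[atImInfty]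
      fun τ : ℍ => Real.exp (-2 * Real.pi * τ.im / 1) :=
    CuspFormClass.exp_decay_atImInfty (f := CuspForm.discriminant) one_pos one_mem_strictPeriods_SL
  have h3 := h1.mul (h2.pow M)
  rw [IsBoundedAtImInfty, BoundedAtFilter]
  refine h3.trans (IsBigO.of_bound 1 (Eventually.of_forall fun τ => ?_))
  have h4 : Real.exp (2 * Real.pi * M * τ.im) * Real.exp (-2 * Real.pi * τ.im / 1) ^ M = 1 := by
    rw [← Real.exp_nat_mul, ← Real.exp_add]
    convert Real.exp_zero using 2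
    ring
  rw [h4]
  simp

theorem slash_mul_discriminant_pow (c : ℍ → ℂ)
    (hinv : ∀ (γ : SL(2, ℤ)) (τ : ℍ), c (γ • τ) = c τ) (M : ℕ) (γ : SL(2, ℤ)) :
    (fun τ => c τ * discriminant τ ^ M) ∣[(12 * (M : ℤ))] γ =
      fun τ => c τ * discriminant τ ^ M := by
  have hk : (12 * (M : ℤ)) = 0 + M * 12 := by ring
  have hfun : (fun τ => c τ * discriminant τ ^ M) =
      c * ⇑((CuspForm.discriminant : ModularForm 𝒮ℒ 12).pow M) := by
    funext τ
    rw [ModularForm.coe_pow]
    rfl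
  rw [hk, hfun, mul_slash_SL2]
  congr 1
  · funext τ
    rw [SL_slash_apply, hinv γ τ]
    simp
  · rw [SL_slash]
    exact ((CuspForm.discriminant : ModularForm 𝒮ℒ 12).pow M).slash_action_eq' _ ⟨γ, rfl⟩

/-- `c * Δ ^ M` as a modular form of weight `12 * M`. -/
def mulDiscriminantPow (c : ℍ → ℂ) (hc : MDiff c)
    (hinv : ∀ (γ : SL(2, ℤ)) (τ : ℍ), c (γ • τ) = c τ) (M : ℕ) (C : ℝ)
    (hgrowth : ∀ τ : ℍ, 1 ≤ τ.im → ‖c τ‖ ≤ C * Real.exp (2 * Real.pi * M * τ.im)) :
    ModularForm 𝒮ℒ (12 * (M : ℤ)) where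
  toFun τ := c τ * discriminant τ ^ M
  slash_action_eq' A hA := by
    obtain ⟨γ, rfl⟩ := hA
    exact slash_mul_discriminant_pow c hinv M γ
  holo' := hc.mul (CuspForm.discriminant.holo'.pow M)
  bdd_at_cusps' {x} hx := by
    rw [Subgroup.IsArithmetic.isCusp_iff_isCusp_SL2Z] at hx
    rw [isBoundedAt_iff_forall_SL2Z hx]
    intro γ _
    rw [slash_mul_discriminant_pow c hinv M γ]
    exact isBoundedAtImInfty_mul_discriminant_pow c M C hgrowth

/-- **Structure theorem** (package J2): a holomorphic `SL(2, ℤ)`-invariant function of growth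
`O(exp (2 π M Im τ))` is a polynomial of degree at most `M` in `E₄ ^ 3 / Δ`. -/
theorem exists_polynomial_eq_of_invariant (c : ℍ → ℂ) (hc : MDiff c)
    (hinv : ∀ (γ : SL(2, ℤ)) (τ : ℍ), c (γ • τ) = c τ) (M : ℕ) (C : ℝ)
    (hgrowth : ∀ τ : ℍ, 1 ≤ τ.im → ‖c τ‖ ≤ C * Real.exp (2 * Real.pi * M * τ.im)) :
    ∃ P : Polynomial ℂ, P.natDegree ≤ M ∧
      ∀ τ : ℍ, c τ = P.eval (E₄ τ ^ 3 / discriminant τ) := by
  obtain ⟨P, hP, h⟩ := exists_polynomial_of_modularForm M _ rfl
    (mulDiscriminantPow c hc hinv M C hgrowth)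
  refine ⟨P, hP, fun τ => ?_⟩
  have h1 : c τ * discriminant τ ^ M =
      P.eval (E₄ τ ^ 3 / discriminant τ) * discriminant τ ^ M := h τ
  exact mul_right_cancel₀ (pow_ne_zero M (discriminant_ne_zero τ)) h1

/-- The same statement against an abstract `J` with `J = E₄ ^ 3 / Δ`. -/
theorem exists_polynomial_eq_of_invariant' (J : ℍ → ℂ)
    (hJ : ∀ τ : ℍ, J τ = E₄ τ ^ 3 / discriminant τ) (c : ℍ → ℂ) (hc : MDiff c)
    (hinv : ∀ (γ : SL(2, ℤ)) (τ : ℍ), c (γ • τ) = c τ) (M : ℕ) (C : ℝ)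
    (hgrowth : ∀ τ : ℍ, 1 ≤ τ.im → ‖c τ‖ ≤ C * Real.exp (2 * Real.pi * M * τ.im)) :
    ∃ P : Polynomial ℂ, P.natDegree ≤ M ∧ ∀ τ : ℍ, c τ = P.eval (J τ) := by
  obtain ⟨P, hP, h⟩ := exists_polynomial_eq_of_invariant c hc hinv M C hgrowth
  exact ⟨P, hP, fun τ => by rw [hJ τ]; exact h τ⟩

end

end Fermat.Agent.S24.H6
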