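import Mathlib
import Fermat.Agent.S24.H6_JStructure

set_option autoImplicit false

/-!
Package KEY-a of the S24 project: the characteristic polynomial of a family of conjugates.

Given a finite `SL(2, ℤ)`-set `X` and holomorphic functions `g x` on the upper half plane which are
permuted by the modular group and have uniform exponential growth at `i∞`, the polynomial
`∏ x, (X - C (g x τ))` has coefficients which are polynomials in `J τ = E₄ τ ^ 3 / Δ τ`.
-/

namespace Fermat.Agent.S24.H6

open UpperHalfPlane ModularForm EisensteinSeries MatrixGroups Polynomial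
open scoped Manifold

noncomputable section

variable {X : Type*} [DecidableEq X]

/-- The product `∏ x ∈ s, (X - C (g x τ))`. -/
def conjProd (g : X → ℍ → ℂ) (s : Finset X) (τ : ℍ) : ℂ[X] :=
  ∏ x ∈ s, (Polynomial.X - Polynomial.C (g x τ))

omit [DecidableEq X] in
theorem conjProd_empty (g : X → ℍ → ℂ) (τ : ℍ) : conjProd g ∅ τ = 1 := by
  simp [conjProd]

theorem conjProd_insert (g : X → ℍ → ℂ) {a : X} {s : Finset X} (ha : a ∉ s) (τ : ℍ) :
    conjProd g (insert a s) τ = (Polynomial.X - Polynomial.C (g a τ)) * conjProd g s τ := by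
  simp [conjProd, Finset.prod_insert ha]

theorem conjProd_insert_coeff_zero (g : X → ℍ → ℂ) {a : X} {s : Finset X} (ha : a ∉ s) (τ : ℍ) :
    (conjProd g (insert a s) τ).coeff 0 = -(g a τ * (conjProd g s τ).coeff 0) := by
  rw [conjProd_insert g ha, sub_mul, coeff_sub, coeff_X_mul_zero, coeff_C_mul, zero_sub]

theorem conjProd_insert_coeff_succ (g : X → ℍ → ℂ) {a : X} {s : Finset X} (ha : a ∉ s) (τ : ℍ)
    (k : ℕ) : (conjProd g (insert a s) τ).coeff (k + 1) =
      (conjProd g s τ).coeff k - g a τ * (conjProd g s τ).coeff (k + 1) := by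
  rw [conjProd_insert g ha, coeff_X_sub_C_mul]

/-- The coefficients of `conjProd` are holomorphic. -/
theorem mdiff_conjProd_coeff (g : X → ℍ → ℂ) (hhol : ∀ x, MDiff (g x)) (s : Finset X) :
    ∀ k : ℕ, MDiff (fun τ => (conjProd g s τ).coeff k) := by
  induction s using Finset.induction_on with
  | empty =>
    intro k
    simp only [conjProd_empty]
    exact mdifferentiable_const
  | insert a s ha ih =>
    intro k
    cases k with
    | zero =>
      simp only [conjProd_insert_coeff_zero g ha]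
      exact ((hhol a).mul (ih 0)).neg
    | succ k =>
      simp only [conjProd_insert_coeff_succ g ha]
      exact (ih k).sub ((hhol a).mul (ih (k + 1)))

/-- A crude uniform bound for the coefficients of `conjProd`. -/
theorem norm_conjProd_coeff_le (g : X → ℍ → ℂ) (τ : ℍ) (D : ℝ) (hD : 1 ≤ D)
    (hg : ∀ x, ‖g x τ‖ ≤ D) (s : Finset X) :
    ∀ k : ℕ, ‖(conjProd g s τ).coeff k‖ ≤ (2 * D) ^ s.card := by
  have hD0 : 0 ≤ D := le_trans zero_le_one hD
  induction s using Finset.induction_on with
  | empty =>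
    intro k
    simp only [conjProd_empty, Finset.card_empty, pow_zero, coeff_one]
    split_ifs <;> simp
  | insert a s ha ih =>
    intro k
    have hpow : 0 ≤ (2 * D) ^ s.card := by positivity
    rw [Finset.card_insert_of_notMem ha, pow_succ]
    cases k with
    | zero =>
      rw [conjProd_insert_coeff_zero g ha, norm_neg, norm_mul]
      calc ‖g a τ‖ * ‖(conjProd g s τ).coeff 0‖ ≤ D * (2 * D) ^ s.card :=
            mul_le_mul (hg a) (ih 0) (norm_nonneg _) hD0
        _ ≤ (2 * D) ^ s.card * (2 * D) := by nlinarith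
    | succ k =>
      rw [conjProd_insert_coeff_succ g ha]
      calc ‖(conjProd g s τ).coeff k - g a τ * (conjProd g s τ).coeff (k + 1)‖
          ≤ ‖(conjProd g s τ).coeff k‖ + ‖g a τ * (conjProd g s τ).coeff (k + 1)‖ := norm_sub_le _ _
        _ ≤ (2 * D) ^ s.card + D * (2 * D) ^ s.card := by
            rw [norm_mul]
            exact add_le_add (ih k) (mul_le_mul (hg a) (ih (k + 1)) (norm_nonneg _) hD0)
        _ ≤ (2 * D) ^ s.card * (2 * D) := by nlinarith

variable [Fintype X] [MulAction SL(2, ℤ) X]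

omit [DecidableEq X] in
/-- Invariance of the full product under the modular group. -/
theorem conjProd_univ_smul (g : X → ℍ → ℂ)
    (hequiv : ∀ (γ : SL(2, ℤ)) (x : X) (τ : ℍ), g (γ • x) τ = g x (γ⁻¹ • τ))
    (γ : SL(2, ℤ)) (τ : ℍ) : conjProd g Finset.univ (γ • τ) = conjProd g Finset.univ τ := by
  unfold conjProd
  have h : ∀ x, g x (γ • τ) = g (γ⁻¹ • x) τ := by
    intro x
    rw [hequiv γ⁻¹ x τ, inv_inv]
  simp only [h]
  exact Equiv.prod_comp (MulAction.toPerm γ⁻¹ : Equiv.Perm X)
    (fun x => (Polynomial.X - Polynomial.C (g x τ) : ℂ[X]))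

/-- **KEY-a**, abstract `J`. -/
theorem exists_charpoly_of_conjugates' (J : ℍ → ℂ)
    (hJ : ∀ τ : ℍ, J τ = E₄ τ ^ 3 / discriminant τ) (g : X → ℍ → ℂ)
    (hhol : ∀ x, MDiff (g x))
    (hequiv : ∀ (γ : SL(2, ℤ)) (x : X) (τ : ℍ), g (γ • x) τ = g x (γ⁻¹ • τ)) (M : ℕ) (C : ℝ)
    (hgrowth : ∀ (x : X) (τ : ℍ), 1 ≤ τ.im → ‖g x τ‖ ≤ C * Real.exp (2 * Real.pi * M * τ.im)) :
    ∃ P : Polynomial (Polynomial ℂ), P.Monic ∧ P.natDegree = Fintype.card X ∧
      (∀ k, (P.coeff k).natDegree ≤ M * Fintype.card X) ∧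
      ∀ τ : ℍ, P.map (Polynomial.evalRingHom (J τ)) =
        ∏ x, (Polynomial.X - Polynomial.C (g x τ)) := by
  classical
  set n := Fintype.card X with hn
  -- each coefficient is a polynomial in `J`
  have hcoeff : ∀ k : ℕ, ∃ Pk : ℂ[X], Pk.natDegree ≤ M * n ∧
      ∀ τ : ℍ, (conjProd g Finset.univ τ).coeff k = Pk.eval (J τ) := by
    intro k
    refine exists_polynomial_eq_of_invariant' J hJ (fun τ => (conjProd g Finset.univ τ).coeff k)
      (mdiff_conjProd_coeff g hhol Finset.univ k) (fun γ τ => ?_) (M * n)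
      ((2 * (|C| + 1)) ^ n) (fun τ hτ => ?_)
    · simp only [conjProd_univ_smul g hequiv γ τ]
    · have hexp : 1 ≤ Real.exp (2 * Real.pi * M * τ.im) := by
        apply Real.one_le_exp
        have := Real.pi_pos
        have hM : (0 : ℝ) ≤ M := Nat.cast_nonneg M
        have him : 0 ≤ τ.im := le_trans zero_le_one hτ
        positivity
      have hD : 1 ≤ (|C| + 1) * Real.exp (2 * Real.pi * M * τ.im) := by
        have h1 : 1 ≤ |C| + 1 := by linarith [abs_nonneg C]
        calc (1 : ℝ) = 1 * 1 := (mul_one 1).symm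
          _ ≤ (|C| + 1) * Real.exp (2 * Real.pi * M * τ.im) :=
            mul_le_mul h1 hexp zero_le_one (by linarith)
      have hg : ∀ x, ‖g x τ‖ ≤ (|C| + 1) * Real.exp (2 * Real.pi * M * τ.im) := by
        intro x
        refine (hgrowth x τ hτ).trans ?_
        apply mul_le_mul_of_nonneg_right _ (Real.exp_pos _).le
        linarith [le_abs_self C]
      have hb := norm_conjProd_coeff_le g τ _ hD hg Finset.univ k
      rw [Finset.card_univ] at hb
      refine hb.trans (le_of_eq ?_)
      rw [← mul_assoc, mul_pow, ← Real.exp_nat_mul]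
      congr 2
      push_cast
      ring
  choose Pk hPkdeg hPk using hcoeff
  have hmonic : ∀ τ, (conjProd g Finset.univ τ).Monic := fun τ =>
    monic_prod_of_monic _ _ fun x _ => monic_X_sub_C (g x τ)
  have hdeg : ∀ τ, (conjProd g Finset.univ τ).natDegree = n := fun τ => by
    unfold conjProd
    rw [natDegree_finsetProd_X_sub_C_eq_card, Finset.card_univ]
  have hlt : (∑ i ∈ Finset.range n, Polynomial.C (Pk i) * Polynomial.X ^ i :
      Polynomial (Polynomial ℂ)).degree < n := by
    rw [← Polynomial.mem_degreeLT]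
    refine Submodule.sum_mem _ fun i hi => ?_
    rw [Polynomial.mem_degreeLT]
    refine (degree_C_mul_X_pow_le i (Pk i)).trans_lt ?_
    exact_mod_cast Finset.mem_range.mp hi
  refine ⟨Polynomial.X ^ n + ∑ i ∈ Finset.range n, Polynomial.C (Pk i) * Polynomial.X ^ i,
    monic_X_pow_add hlt, ?_, ?_, ?_⟩
  · have h2 : (∑ i ∈ Finset.range n, Polynomial.C (Pk i) * Polynomial.X ^ i :
        Polynomial (Polynomial ℂ)).degree < (Polynomial.X ^ n : Polynomial (Polynomial ℂ)).degree := by
      rw [degree_X_pow]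
      exact hlt
    rw [natDegree_add_eq_left_of_degree_lt h2, natDegree_X_pow]
  · intro k
    rw [coeff_add, coeff_X_pow, finsetSum_coeff]
    simp only [coeff_C_mul_X_pow]
    refine (natDegree_add_le _ _).trans (max_le ?_ ?_)
    · split_ifs <;> simp
    · refine (natDegree_sum_le_of_forall_le _ _ (n := M * n) ?_)
      intro i _
      split_ifs
      · exact hPkdeg i
      · simp
  · intro τ
    have h1 := (hmonic τ).as_sum
    rw [hdeg τ] at h1
    change _ = conjProd g Finset.univ τ
    rw [h1, Polynomial.map_add, Polynomial.map_pow, Polynomial.map_X, Polynomial.map_sum]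
    congr 1
    refine Finset.sum_congr rfl fun i _ => ?_
    rw [Polynomial.map_mul, Polynomial.map_C, Polynomial.map_pow, Polynomial.map_X,
      Polynomial.coe_evalRingHom, hPk i τ]

/-- **KEY-a** with `J τ` written out as `E₄ τ ^ 3 / discriminant τ`. -/
theorem exists_charpoly_of_conjugates (g : X → ℍ → ℂ)
    (hhol : ∀ x, MDiff (g x))
    (hequiv : ∀ (γ : SL(2, ℤ)) (x : X) (τ : ℍ), g (γ • x) τ = g x (γ⁻¹ • τ)) (M : ℕ) (C : ℝ)
    (hgrowth : ∀ (x : X) (τ : ℍ), 1 ≤ τ.im → ‖g x τ‖ ≤ C * Real.exp (2 * Real.pi * M * τ.im)) :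
    ∃ P : Polynomial (Polynomial ℂ), P.Monic ∧ P.natDegree = Fintype.card X ∧
      ∀ τ : ℍ, P.map (Polynomial.evalRingHom (E₄ τ ^ 3 / discriminant τ)) =
        ∏ x, (Polynomial.X - Polynomial.C (g x τ)) := by
  obtain ⟨P, h1, h2, _, h4⟩ := exists_charpoly_of_conjugates'
    (fun τ => E₄ τ ^ 3 / discriminant τ) (fun _ => rfl) g hhol hequiv M C hgrowth
  exact ⟨P, h1, h2, h4⟩

end

end Fermat.Agent.S24.H6
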