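import Mathlib
import Fermat.Agent.S24.Defs
import Fermat.Agent.S24.H24_Group
import Fermat.Agent.S24.H28_J1
import Fermat.Agent.S24.H6_KeyA
import Fermat.Agent.S24.H24_KeyB
import Fermat.Agent.S24.H4_QhExpansion

set_option autoImplicit false

/-!
S24: abstract assembly of the KEY statements from a short list of facts about `Theta` and its
conjugates (structure `ThetaData`), KEY-a (`H6_KeyA`), KEY-b (`H24_KeyB`) and the `q`-expansion
hom of T1 (`H4_QhExpansion`). Independent of the concrete construction of `Theta`.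
-/

noncomputable section

namespace Fermat.Agent.S24.H6

open UpperHalfPlane ModularCurve
open scoped MatrixGroups Manifold

local notation "𝕢" => Function.Periodic.qParam

/-- A convergent `ℤ`-indexed `q`-expansion with bounded-below support computes `qhExpansion`. -/
theorem qhExpansion_coeff_of_hasSum_int {F : ℍ → ℂ} (hmd : MDiff F)
    (hper : Function.Periodic (F ∘ ofComplex) ((1 : ℝ) : ℂ)) (a : ℤ → ℂ) (M : ℕ)
    (ha : ∀ n : ℤ, n < -(M : ℤ) → a n = 0)
    (hsum : ∀ τ : ℍ, HasSum (fun n : ℤ => a n * 𝕢 1 (τ : ℂ) ^ n) (F τ)) :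
    H4.IsMeroPeriodic 1 F ∧ ∀ n : ℤ, (H4.qhExpansion 1 F).coeff n = a n := by
  have hsum' : ∀ τ : ℍ, HasSum (fun m : ℕ => a ((m : ℤ) - M) * H4.qFun 1 τ ^ m)
      (H4.qFun 1 τ ^ M * F τ) := by
    intro τ
    have hq : H4.qFun 1 τ ≠ 0 := H4.qFun_ne_zero 1 τ
    let ι : ℕ → ℤ := fun m => (m : ℤ) - M
    have hι : Function.Injective ι := fun x y hxy => by
      simp only [ι] at hxy
      omega
    have h2 : ∀ n ∉ Set.range ι, a n * 𝕢 1 (τ : ℂ) ^ n = 0 := by
      intro n hn
      have : n < -(M : ℤ) := by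
        by_contra hcon
        rw [not_lt] at hcon
        exact hn ⟨(n + M).toNat, by simp only [ι]; omega⟩
      rw [ha n this, zero_mul]
    have h3 := (hι.hasSum_iff h2).mpr (hsum τ)
    have h4 := h3.mul_left (H4.qFun 1 τ ^ M)
    have e : (fun m : ℕ => a ((m : ℤ) - M) * H4.qFun 1 τ ^ m) =
        fun m => H4.qFun 1 τ ^ M * (((fun n : ℤ => a n * 𝕢 1 (τ : ℂ) ^ n) ∘ ι) m) := by
      funext m
      simp only [Function.comp, ι]
      rw [← H4.qFun_apply, zpow_sub₀ hq, zpow_natCast, zpow_natCast]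
      field_simp
    rw [e]
    exact h4
  have hmp := H4.IsMeroPeriodic.of_hasSum one_pos hmd hper hsum'
  have hM : IsBoundedAtImInfty (H4.qFun 1 ^ M * F) :=
    isBoundedAtImInfty_of_hasSum_qExpansion one_pos (c := fun m : ℕ => a ((m : ℤ) - M))
      (by simpa [smul_eq_mul, H4.qFun] using hsum')
  refine ⟨hmp, fun n => ?_⟩
  by_cases hn : n < -(M : ℤ)
  · rw [ha n hn, H4.qhExpansion_coeff_of_lt one_pos hmp hM hn]
  · have hn' : n = ((n + M).toNat : ℤ) - M := by omega
    rw [hn', H4.qhExpansion_coeff_of_hasSum one_pos hmd hper hsum']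

variable (N : ℕ) [NeZero N]

/-- The facts about `Θ` and its conjugates `θX x` (indexed by the coset space) that the KEY
statements need. `A` is the set of elements on which `Θ` is meaningful. -/
structure ThetaData (ι : Qbar →+* ℂ) (A : Set (FN N)) (Θ : FN N → ℍ → ℂ)
    (θX : H24.XN N → FN N → ℍ → ℂ) : Prop where
  hasSum : ∀ f ∈ A, ∀ τ : ℍ,
    HasSum (fun n : ℤ => ι ((f : LaurentSeries Qbar).coeff n) * 𝕢 1 (τ : ℂ) ^ n) (Θ f τ)
  mdiff : ∀ f ∈ A, MDiff (Θ f)
  periodic : ∀ f ∈ A, ∀ τ : ℍ, Θ f ((1 : ℝ) +ᵥ τ) = Θ f τ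
  jBar_mem : jBar N ∈ A
  theta_jBar : Θ (jBar N) = H28.J
  conj_one : ∀ f ∈ A, θX (QuotientGroup.mk (1 : SL(2, ℤ))) f = Θ f
  conj_smul : ∀ f ∈ A, ∀ (g : SL(2, ℤ)) (x : H24.XN N) (τ : ℍ),
    θX x f (g⁻¹ • τ) = θX (g • x) f τ
  conj_mdiff : ∀ f ∈ A, ∀ x : H24.XN N, MDiff (θX x f)
  conj_growth : ∀ f ∈ A, ∀ x : H24.XN N, ∃ (C : ℝ) (M : ℕ), ∀ τ : ℍ, 1 ≤ τ.im →
    ‖θX x f τ‖ ≤ C * Real.exp (2 * Real.pi * M * τ.im)

namespace ThetaData

variable {N} {ι : Qbar →+* ℂ} {A : Set (FN N)} {Θ : FN N → ℍ → ℂ}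
  {θX : H24.XN N → FN N → ℍ → ℂ}

/-- The `q`-expansion of `Θ g` is the coefficientwise image of `g`. -/
theorem qhExpansion_Theta (h : ThetaData N ι A Θ θX) {g : FN N} (hg : g ∈ A) :
    H4.IsMeroPeriodic 1 (Θ g) ∧
      H4.qhExpansion 1 (Θ g) = coeffMap ι (g : LaurentSeries Qbar) := by
  have hper : Function.Periodic (Θ g ∘ ofComplex) ((1 : ℝ) : ℂ) := by
    rw [H4.periodic_comp_ofComplex_iff]
    exact h.periodic g hg
  obtain ⟨M, hM⟩ : ∃ M : ℕ, ∀ n : ℤ, n < -(M : ℤ) → (g : LaurentSeries Qbar).coeff n = 0 := by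
    refine ⟨(-(g : LaurentSeries Qbar).order).toNat, fun n hn =>
      HahnSeries.coeff_eq_zero_of_lt_order ?_⟩
    omega
  obtain ⟨h1, h2⟩ := qhExpansion_coeff_of_hasSum_int (h.mdiff g hg) hper
    (fun n => ι ((g : LaurentSeries Qbar).coeff n)) M
    (fun n hn => by simp [hM n hn]) (h.hasSum g hg)
  refine ⟨h1, ?_⟩
  ext n
  rw [h2 n, coeffMap_coeff]

/-- Uniform growth of the finitely many conjugates. -/
theorem exists_uniform_growth (h : ThetaData N ι A Θ θX) {f : FN N} (hf : f ∈ A) :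
    ∃ (C : ℝ) (M : ℕ), ∀ (x : H24.XN N) (τ : ℍ), 1 ≤ τ.im →
      ‖θX x f τ‖ ≤ C * Real.exp (2 * Real.pi * M * τ.im) := by
  choose C M hCM using fun x : H24.XN N => h.conj_growth f hf x
  refine ⟨∑ x, |C x|, ∑ x, M x, fun x τ hτ => ?_⟩
  refine (hCM x τ hτ).trans ?_
  have h1 : C x ≤ ∑ y, |C y| := (le_abs_self _).trans
    (Finset.single_le_sum (f := fun y => |C y|) (fun y _ => abs_nonneg _) (Finset.mem_univ x))
  have h2 : M x ≤ ∑ y, M y :=
    Finset.single_le_sum (f := M) (fun y _ => Nat.zero_le _) (Finset.mem_univ x)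
  have h3 : Real.exp (2 * Real.pi * M x * τ.im) ≤
      Real.exp (2 * Real.pi * ((∑ y, M y : ℕ) : ℝ) * τ.im) := by
    apply Real.exp_le_exp.mpr
    have h4 : (M x : ℝ) ≤ ((∑ y, M y : ℕ) : ℝ) := by exact_mod_cast h2
    have hτ0 : 0 ≤ τ.im := by linarith
    have hpi := Real.pi_pos
    gcongr
  have h0 : 0 ≤ ∑ y, |C y| := Finset.sum_nonneg (fun y _ => abs_nonneg _)
  calc C x * Real.exp (2 * Real.pi * M x * τ.im)
      ≤ (∑ y, |C y|) * Real.exp (2 * Real.pi * M x * τ.im) :=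
        mul_le_mul_of_nonneg_right h1 (Real.exp_pos _).le
    _ ≤ (∑ y, |C y|) * Real.exp (2 * Real.pi * ((∑ y, M y : ℕ) : ℝ) * τ.im) :=
        mul_le_mul_of_nonneg_left h3 h0

/-- KEY, function form: the characteristic polynomial of the conjugates of `f ∈ A` is the
specialisation at `J τ` of a monic polynomial over `ℂ[J]` of degree `#X_N`. -/
theorem key_charpoly (h : ThetaData N ι A Θ θX) {f : FN N} (hf : f ∈ A) :
    ∃ P : Polynomial (Polynomial ℂ), P.Monic ∧ P.natDegree = Fintype.card (H24.XN N) ∧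
      ∀ τ : ℍ, P.map (Polynomial.evalRingHom (H28.J τ)) =
        ∏ x : H24.XN N, (Polynomial.X - Polynomial.C (θX x f τ)) := by
  obtain ⟨C, M, hCM⟩ := h.exists_uniform_growth hf
  exact exists_charpoly_of_conjugates (fun x => θX x f)
    (fun x => h.conj_mdiff f hf x) (fun γ x τ => (h.conj_smul f hf γ x τ).symm) M C hCM

/-- KEY (function form): the coefficients of `∏_x (X - θ_x f)` are polynomials in `J`. -/
theorem key_coeff (h : ThetaData N ι A Θ θX) {f : FN N} (hf : f ∈ A) (k : ℕ) :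
    ∃ p : Polynomial ℂ, ∀ τ : ℍ,
      (∏ x : H24.XN N, (Polynomial.X - Polynomial.C (θX x f))).coeff k τ =
        p.eval (H28.J τ) := by
  obtain ⟨P, -, -, hP⟩ := h.key_charpoly hf
  refine ⟨P.coeff k, fun τ => ?_⟩
  have h1 : ((∏ x : H24.XN N, (Polynomial.X - Polynomial.C (θX x f))).map
      (Pi.evalRingHom (fun _ : ℍ => ℂ) τ)) =
      ∏ x : H24.XN N, (Polynomial.X - Polynomial.C (θX x f τ)) := by
    rw [Polynomial.map_prod]
    refine Finset.prod_congr rfl fun x _ => ?_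
    simp
  have h2 := congrArg (fun Q => Q.coeff k) h1
  simp only [Polynomial.coeff_map, Pi.evalRingHom_apply] at h2
  rw [h2, ← hP τ, Polynomial.coeff_map, Polynomial.coe_evalRingHom]

/-- KEY (weak form): every `f ∈ A` is a root of a monic polynomial of degree `#X_N`
with coefficients in `Qbar[j]`. -/
theorem key_weak (h : ThetaData N ι A Θ θX) {f : FN N} (hf : f ∈ A) :
    ∃ P : Polynomial (Polynomial Qbar), P.Monic ∧ P.natDegree = Nat.card (H24.XN N) ∧
      Polynomial.eval₂ ((Polynomial.aeval (jBar N)).toRingHom : Polynomial Qbar →+* FN N) f P = 0 := by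
  obtain ⟨P, hPm, hPd, hP⟩ := h.key_charpoly hf
  have hA : ∀ τ : ℍ, (P.map (Polynomial.evalRingHom (H28.J τ))).eval (Θ f τ) = 0 := by
    intro τ
    rw [hP τ, Polynomial.eval_prod]
    apply Finset.prod_eq_zero (Finset.mem_univ (QuotientGroup.mk (1 : SL(2, ℤ)) : H24.XN N))
    rw [Polynomial.eval_sub, Polynomial.eval_X, Polynomial.eval_C, h.conj_one f hf, sub_self]
  obtain ⟨hΘmp, hΘexp⟩ := h.qhExpansion_Theta hf
  obtain ⟨hJmp, hJexp⟩ := h.qhExpansion_Theta h.jBar_mem
  rw [h.theta_jBar] at hJmp hJexp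
  let J' : H4.meroPeriodic 1 one_pos := ⟨H28.J, H4.mem_meroPeriodic.mpr hJmp⟩
  let Θ' : H4.meroPeriodic 1 one_pos := ⟨Θ f, H4.mem_meroPeriodic.mpr hΘmp⟩
  let φ : Polynomial ℂ →+* H4.meroPeriodic 1 one_pos :=
    Polynomial.eval₂RingHom (algebraMap ℂ (H4.meroPeriodic 1 one_pos)) J'
  have hE : Polynomial.eval₂ φ Θ' P = 0 := by
    apply Subtype.ext
    funext τ
    let ev : H4.meroPeriodic 1 one_pos →+* ℂ :=
      (Pi.evalRingHom (fun _ : ℍ => ℂ) τ).comp (H4.meroPeriodic 1 one_pos).val.toRingHom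
    change ev (Polynomial.eval₂ φ Θ' P) = 0
    rw [Polynomial.hom_eval₂]
    have hcomp : ev.comp φ = Polynomial.evalRingHom (H28.J τ) := by
      apply Polynomial.ringHom_ext
      · intro c
        simp [ev, φ]
      · simp [ev, φ, J']
    rw [hcomp, Polynomial.eval₂_eq_eval_map]
    exact hA τ
  have hC : Polynomial.eval₂ (Polynomial.eval₂RingHom HahnSeries.C
      (coeffMap ι ((jBar N : FN N) : LaurentSeries Qbar)))
      (coeffMap ι (f : LaurentSeries Qbar)) P = 0 := by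
    have h1 := congrArg (H4.qhExpansionHom 1 one_pos) hE
    rw [map_zero] at h1
    have h2 : (H4.qhExpansionHom 1 one_pos) (Polynomial.eval₂ φ Θ' P) =
        Polynomial.eval₂ (((H4.qhExpansionHom 1 one_pos : H4.meroPeriodic 1 one_pos →ₐ[ℂ]
          LaurentSeries ℂ) : H4.meroPeriodic 1 one_pos →+* LaurentSeries ℂ).comp φ)
          ((H4.qhExpansionHom 1 one_pos) Θ') P :=
      Polynomial.hom_eval₂ P φ ((H4.qhExpansionHom 1 one_pos : H4.meroPeriodic 1 one_pos →ₐ[ℂ]
          LaurentSeries ℂ) : H4.meroPeriodic 1 one_pos →+* LaurentSeries ℂ) Θ'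
    rw [h2] at h1
    have hcomp : ((H4.qhExpansionHom 1 one_pos : H4.meroPeriodic 1 one_pos →ₐ[ℂ]
          LaurentSeries ℂ) : H4.meroPeriodic 1 one_pos →+* LaurentSeries ℂ).comp φ =
        Polynomial.eval₂RingHom HahnSeries.C
          (coeffMap ι ((jBar N : FN N) : LaurentSeries Qbar)) := by
      apply Polynomial.ringHom_ext
      · intro c
        simp only [φ, RingHom.comp_apply, Polynomial.coe_eval₂RingHom, Polynomial.eval₂_C,
          RingHom.coe_coe, AlgHom.commutes]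
        rw [ModularCurve.algebraMap_laurentSeries_eq_single]
        rfl
      · simp only [φ, RingHom.comp_apply, Polynomial.coe_eval₂RingHom, Polynomial.eval₂_X,
          RingHom.coe_coe]
        exact hJexp
    rw [hcomp] at h1
    have hΘ'' : (H4.qhExpansionHom 1 one_pos) Θ' = coeffMap ι (f : LaurentSeries Qbar) := hΘexp
    rwa [hΘ''] at h1
  obtain ⟨Q, hQm, hQd, hQ⟩ := H24.KeyB.exists_descent ι _ _ P hPm hC
  refine ⟨Q, hQm, ?_, ?_⟩
  · rw [hQd, hPd, Nat.card_eq_fintype_card]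
  · have hinj : Function.Injective ((modularFunctionFieldBar N).val :
        FN N → LaurentSeries Qbar) := Subtype.val_injective
    apply hinj
    rw [map_zero]
    have h3 := Polynomial.hom_eval₂ Q
      ((Polynomial.aeval (jBar N)).toRingHom : Polynomial Qbar →+* FN N)
      ((modularFunctionFieldBar N).val.toRingHom) f
    have hcomp : ((modularFunctionFieldBar N).val.toRingHom).comp
        ((Polynomial.aeval (jBar N)).toRingHom : Polynomial Qbar →+* FN N) =
        Polynomial.eval₂RingHom HahnSeries.C ((jBar N : FN N) : LaurentSeries Qbar) := by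
      apply Polynomial.ringHom_ext
      · intro c
        simp only [RingHom.comp_apply, AlgHom.toRingHom_eq_coe,
          RingHom.coe_coe, Polynomial.aeval_C, AlgHom.commutes, Polynomial.coe_eval₂RingHom,
          Polynomial.eval₂_C]
        rw [ModularCurve.algebraMap_laurentSeries_eq_single]
        rfl
      · simp
    rw [hcomp] at h3
    exact h3.trans hQ

end ThetaData

end Fermat.Agent.S24.H6
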