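import Mathlib
import Fermat.Agent.S24.H17_Theta
import Fermat.Agent.S24.H6_KeyAbstract
import Fermat.Agent.S24.H40_DegreeFN

set_option autoImplicit false

/-!
S24, package T6 (helper40): the instantiation M2 + M3.

`FN N` is finite-dimensional over `Qbar(j)` of degree `#X_N = [SL(2,ℤ) : Γ₀(N)]`, obtained from
`H40.finrank_FN_of_conjugates` with helper17's `Theta` / conjugates (`H17_Theta`) and helper6's
KEY statement (`H6_KeyAbstract`).
-/

noncomputable section

namespace Fermat.Agent.S24.H40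

open UpperHalfPlane ModularCurve IntermediateField
open scoped Manifold MatrixGroups

theorem T_mem_Gamma0' (N : ℕ) : ModularGroup.T ∈ CongruenceSubgroup.Gamma0 N := by
  rw [CongruenceSubgroup.Gamma0_mem]
  simp [ModularGroup.T]

/-- helper17's `Theta` and `thetaX` satisfy helper6's `ThetaData`. -/
theorem thetaData (N : ℕ) [NeZero N] :
    H6.ThetaData N H17.iota (H17.A N : Set (FN N)) (H17.Theta N) (H17.thetaX N) where
  hasSum f hf τ := H17.Theta_hasSum N hf τ
  mdiff f hf := H17.Theta_mdiff N hf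
  periodic f hf τ := by
    have h := H17.Theta_smul N hf (T_mem_Gamma0' N) τ
    rwa [UpperHalfPlane.modular_T_smul] at h
  jBar_mem := H17.jBar_mem_A N
  theta_jBar := H17.Theta_jBar N
  conj_one f hf := by rw [H17.thetaX_mk N hf, H17.thetaConj_one]
  conj_smul f hf := H17.thetaX_smul N hf
  conj_mdiff f hf x := H17.thetaConj_mdiff N hf _
  conj_growth f hf x := H17.thetaConj_growth N hf _

/-- (M2 + M3) `FN N` is finite over `Qbar(j)` of degree `#X_N = [SL(2,ℤ) : Γ₀(N)]`. -/
theorem finrank_FN (N : ℕ) [NeZero N] :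
    FiniteDimensional Qbar⟮jBar N⟯ (FN N) ∧
      Module.finrank Qbar⟮jBar N⟯ (FN N) = Nat.card (H24.XN N) := by
  refine finrank_FN_of_conjugates N (fun x => H17.thetaXHom N x) ?_ ?_ ?_ ?_
  · intro x
    exact H17.thetaConj_mdiff N (H17.jd_mem_A N N dvd_rfl) (Quotient.out x)
  · intro x y c hc
    show H17.thetaConj N (Quotient.out x) c.1 = H17.thetaConj N (Quotient.out y) c.1
    rw [H17.thetaConj_of_mem_adjoin_jBar N hc, H17.thetaConj_of_mem_adjoin_jBar N hc]
  · exact H17.thetaX_jd_injective N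
  · intro f
    exact (thetaData N).key_weak f.2

/-- (M2) -/
theorem finiteDimensional_FN (N : ℕ) [NeZero N] : FiniteDimensional Qbar⟮jBar N⟯ (FN N) :=
  (finrank_FN N).1

/-- (M3), `Nat.card` form. -/
theorem finrank_FN_eq_natCard (N : ℕ) [NeZero N] :
    Module.finrank Qbar⟮jBar N⟯ (FN N) = Nat.card (H24.XN N) :=
  (finrank_FN N).2

/-- (M3), `Fintype.card` form. -/
theorem finrank_FN_eq (N : ℕ) [NeZero N] :
    Module.finrank Qbar⟮jBar N⟯ (FN N) = Fintype.card (H24.XN N) := by
  rw [(finrank_FN N).2, Nat.card_eq_fintype_card]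

/-- (M3), the `hcard` shape used by `H81.exists_point_of_place` / `H95.exists_cusp_of_place`. -/
theorem card_XN_eq_finrank (N : ℕ) [NeZero N] :
    Fintype.card (H24.XN N) = Module.finrank Qbar⟮jBar N⟯ (FN N) :=
  (finrank_FN_eq N).symm

end Fermat.Agent.S24.H40
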