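import Fermat.Agent.S24.H28_JAnalytic

set_option autoImplicit false

noncomputable section

open Filter Topology Metric UpperHalfPlane ModularForm MatrixGroups Function
open scoped Real

local notation "𝕢" => Periodic.qParam

namespace Fermat.Agent.S24.H28

theorem coeff_jq_nat_sub_one (n : ℕ) :
    ModularCurve.jq.coeff ((n : ℤ) - 1) = ((ModularCurve.jNum.coeff n : ℤ) : ℚ) := by
  rw [ModularCurve.jq, HahnSeries.coeff_single_mul, one_mul,
    show ((n : ℤ) - 1 - (-1)) = (n : ℤ) by ring, HahnSeries.ofPowerSeries_apply_coeff,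
    ModularCurve.jNumQ, PowerSeries.coeff_map]
  simp

theorem coeff_jq_of_lt_neg_one {k : ℤ} (hk : k < -1) : ModularCurve.jq.coeff k = 0 :=
  ModularCurve.coeff_jq_of_lt hk

theorem hasSum_jq (τ : ℍ) :
    HasSum (fun n : ℕ => ((ModularCurve.jq.coeff ((n : ℤ) - 1) : ℚ) : ℂ) * 𝕢 1 τ ^ n)
      (𝕢 1 τ * J τ) := by
  simpa [coeff_jq_nat_sub_one] using hasSum_jNum τ

theorem summable_norm_jNum (τ : ℍ) :
    Summable (fun n : ℕ => ‖((ModularCurve.jNum.coeff n : ℤ) : ℂ) * 𝕢 1 τ ^ n‖) :=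
  (hasSum_jNum τ).summable.norm

theorem summable_norm_taylorPS {g : ℂ → ℂ} (hg : DifferentiableOn ℂ g (ball 0 1)) {q : ℂ}
    (hq : ‖q‖ < 1) : Summable (fun m : ℕ => ‖(taylorPS g).coeff m * q ^ m‖) :=
  (hasSum_taylorPS hg hq).summable.norm

end Fermat.Agent.S24.H28
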