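import Fermat.Agent.S24.H8_SerreDeriv

/-!
Ramanujan's identities for the level one Eisenstein series:
`D E₄ = (E₂ E₄ - E₆) / 3`, `D E₆ = (E₂ E₆ - E₄²) / 2`, `D Δ = E₂ Δ`,
where `D = (2πi)⁻¹ d/dτ`.
-/

set_option autoImplicit false

open UpperHalfPlane hiding I
open Real Complex Filter Topology Function
open scoped Manifold MatrixGroups ModularForm
open Derivative ModularForm EisensteinSeries

namespace Fermat.Agent.S24.H8

local notation "𝕢" => Periodic.qParam

variable {k : ℤ}

/-- limit at `i∞` of a function given by a convergent `q`-expansion. -/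
theorem tendsto_atImInfty_of_hasSum {f : ℍ → ℂ} {c : ℕ → ℂ}
    (hfper : Periodic (f ∘ ofComplex) 1) (hfhol : MDiff f)
    (hf : ∀ τ : ℍ, HasSum (fun m ↦ c m • 𝕢 1 τ ^ m) (f τ)) : Tendsto f atImInfty (𝓝 (c 0)) := by
  have hbdd : IsBoundedAtImInfty f := isBoundedAtImInfty_of_hasSum_qExpansion one_pos hf
  have han : AnalyticAt ℂ (cuspFunction 1 f) 0 :=
    analyticAt_cuspFunction_zero one_pos hfper hfhol hbdd
  have hps := hasFPowerSeriesOnBall_cuspFunction one_pos han hf
  have h0 : cuspFunction 1 f 0 = c 0 := by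
    have := hps.coeff_zero (fun _ => 0)
    simpa using this.symm
  have := han.continuousAt.tendsto.comp (qParam_tendsto_atImInfty one_pos)
  rw [h0] at this
  refine this.congr fun τ => ?_
  exact eq_cuspFunction τ one_ne_zero hfper

theorem E2_periodic : Periodic (E2 ∘ ofComplex) 1 := by
  intro w
  by_cases hw : 0 < w.im
  · have hw1 : 0 < (w + 1).im := by simpa using hw
    simp only [comp_apply, ofComplex_apply_of_im_pos hw, ofComplex_apply_of_im_pos hw1]
    rw [E2_eq_tsum_cexp, E2_eq_tsum_cexp]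
    have : cexp (2 * π * I * ((⟨w + 1, hw1⟩ : ℍ) : ℂ)) =
        cexp (2 * π * I * ((⟨w, hw⟩ : ℍ) : ℂ)) := by
      change cexp (2 * π * I * (w + 1)) = cexp (2 * π * I * w)
      rw [mul_add, Complex.exp_add, mul_one, Complex.exp_two_pi_mul_I, mul_one]
    rw [this]
  · have hw1 : ¬ 0 < (w + 1).im := by simpa using hw
    simp [comp_apply, ofComplex_apply_of_im_nonpos (not_lt.mp hw),
      ofComplex_apply_of_im_nonpos (not_lt.mp hw1)]

theorem tendsto_E2_atImInfty : Tendsto E2 atImInfty (𝓝 1) := by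
  have := tendsto_atImInfty_of_hasSum (f := E2)
    (c := fun m : ℕ => (if m = 0 then 1 else -24 * (ArithmeticFunction.sigma 1 m : ℂ)))
    E2_periodic E2_mdifferentiable (fun τ => by
      simpa only [Function.Periodic.qParam, ofReal_one, div_one] using
        hasSum_qExpansion_E2 (z := τ))
  simpa using this

/-- A level one modular form tends to the constant term of its `q`-expansion at `i∞`. -/
theorem tendsto_modularForm_atImInfty (f : ModularForm 𝒮ℒ k) :
    Tendsto f atImInfty (𝓝 ((qExpansion 1 f).coeff 0)) := by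
  have hper : Periodic ((f : ℍ → ℂ) ∘ ofComplex) 1 :=
    SlashInvariantFormClass.periodic_comp_ofComplex f one_mem_strictPeriods_SL
  have han : AnalyticAt ℂ (cuspFunction 1 f) 0 :=
    ModularFormClass.analyticAt_cuspFunction_zero f one_pos one_mem_strictPeriods_SL
  have h0 : (qExpansion 1 f).coeff 0 = cuspFunction 1 f 0 := by
    simp [qExpansion_coeff]
  rw [h0]
  refine (han.continuousAt.tendsto.comp (qParam_tendsto_atImInfty one_pos)).congr fun τ => ?_
  exact eq_cuspFunction τ one_ne_zero hper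

theorem tendsto_E₄_atImInfty : Tendsto E₄ atImInfty (𝓝 1) := by
  have := tendsto_modularForm_atImInfty E₄
  rwa [E_qExpansion_coeff_zero _ ⟨2, rfl⟩] at this

theorem tendsto_E₆_atImInfty : Tendsto E₆ atImInfty (𝓝 1) := by
  have := tendsto_modularForm_atImInfty E₆
  rwa [E_qExpansion_coeff_zero _ ⟨3, rfl⟩] at this

/-- limit of the Serre derivative at `i∞`. -/
theorem tendsto_serreD_atImInfty (f : ModularForm 𝒮ℒ k) {a : ℂ}
    (hf : Tendsto f atImInfty (𝓝 a)) :
    Tendsto (serreD f) atImInfty (𝓝 (-((k : ℂ) * 12⁻¹ * a))) := by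
  have hper : Periodic ((f : ℍ → ℂ) ∘ ofComplex) 1 :=
    SlashInvariantFormClass.periodic_comp_ofComplex f one_mem_strictPeriods_SL
  have hD : Tendsto (D f) atImInfty (𝓝 0) :=
    isZeroAtImInfty_normalizedDeriv hper (ModularFormClass.holo f)
      (ModularFormClass.bdd_at_infty f)
  have h2 : Tendsto (fun z => (k : ℂ) * 12⁻¹ * E2 z * f z) atImInfty
      (𝓝 ((k : ℂ) * 12⁻¹ * 1 * a)) :=
    ((tendsto_const_nhds.mul tendsto_E2_atImInfty).mul hf)
  have := hD.sub h2
  simp only [mul_one, zero_sub] at this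
  exact this.congr fun z => (serreD_apply f z).symm

/-- In a one-dimensional space of level one modular forms, a form is determined by its limit
at `i∞`. -/
theorem eq_smul_of_rank_one (hr : Module.rank ℂ (ModularForm 𝒮ℒ k) = 1)
    (f g : ModularForm 𝒮ℒ k) {a b : ℂ} (hf : Tendsto f atImInfty (𝓝 a))
    (hg : Tendsto g atImInfty (𝓝 b)) (hb : b ≠ 0) : f = (a / b) • g := by
  have hg0 : g ≠ 0 := by
    rintro rfl
    have h0 : Tendsto ((0 : ModularForm 𝒮ℒ k) : ℍ → ℂ) atImInfty (𝓝 0) :=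
      (tendsto_const_nhds : Tendsto (fun _ : ℍ => (0 : ℂ)) atImInfty (𝓝 0)).congr
        fun z => by simp
    exact hb (tendsto_nhds_unique hg h0)
  have hfr : Module.finrank ℂ (ModularForm 𝒮ℒ k) = 1 :=
    Module.finrank_eq_of_rank_eq hr
  obtain ⟨c, hc⟩ := exists_smul_eq_of_finrank_eq_one hfr hg0 f
  have hlim : Tendsto f atImInfty (𝓝 (c * b)) := by
    rw [← hc]
    exact (hg.const_mul c).congr fun z => by simp
  have hcb : a = c * b := tendsto_nhds_unique hf hlim
  rw [← hc, hcb, mul_div_assoc, div_self hb, mul_one]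

local notation "Δ" => ModularForm.discriminant

theorem levelOne_weight_eight_rank_one : Module.rank ℂ (ModularForm 𝒮ℒ 8) = 1 := by
  have := dimension_level_one 8 ⟨4, rfl⟩
  simpa [Nat.ModEq] using this

theorem serreD_E₄_apply (z : ℍ) : serreD E₄ z = -(1 / 3) * E₆ z := by
  have h1 := tendsto_serreD_atImInfty E₄ tendsto_E₄_atImInfty
  have key := eq_smul_of_rank_one levelOne_weight_six_rank_one
    (ModularForm.mcast (by norm_num) (serreD E₄)) E₆ h1 tendsto_E₆_atImInfty one_ne_zero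
  have := congrArg (fun f : ModularForm 𝒮ℒ 6 => f z) key
  simp only [ModularForm.mcast_apply, smul_apply, smul_eq_mul] at this
  rw [this]
  push_cast
  ring

theorem serreD_E₆_apply (z : ℍ) : serreD E₆ z = -(1 / 2) * E₄ z ^ 2 := by
  have h1 := tendsto_serreD_atImInfty E₆ tendsto_E₆_atImInfty
  have h2 : Tendsto (ModularForm.mcast (show (4 : ℤ) + 4 = 8 by norm_num) (E₄.mul E₄))
      atImInfty (𝓝 (1 * 1)) :=
    (tendsto_E₄_atImInfty.mul tendsto_E₄_atImInfty).congr fun z => rfl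
  have key := eq_smul_of_rank_one levelOne_weight_eight_rank_one
    (ModularForm.mcast (by norm_num) (serreD E₆))
    (ModularForm.mcast (show (4 : ℤ) + 4 = 8 by norm_num) (E₄.mul E₄)) h1 h2 (by norm_num)
  have := congrArg (fun f : ModularForm 𝒮ℒ 8 => f z) key
  simp only [ModularForm.mcast_apply, smul_apply, smul_eq_mul] at this
  have h3 : (E₄.mul E₄) z = E₄ z * E₄ z := rfl
  rw [h3] at this
  rw [this]
  push_cast
  ring

/-- Ramanujan: `D E₄ = (E₂ E₄ - E₆) / 3`. -/
theorem D_E₄ (z : ℍ) : D E₄ z = (E2 z * E₄ z - E₆ z) / 3 := by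
  have h := serreD_E₄_apply z
  rw [serreD_apply] at h
  push_cast at h
  linear_combination h

/-- Ramanujan: `D E₆ = (E₂ E₆ - E₄²) / 2`. -/
theorem D_E₆ (z : ℍ) : D E₆ z = (E2 z * E₆ z - E₄ z ^ 2) / 2 := by
  have h := serreD_E₆_apply z
  rw [serreD_apply] at h
  push_cast at h
  linear_combination h

/-- Ramanujan: `D Δ = E₂ Δ`. -/
theorem D_discriminant (z : ℍ) : D Δ z = E2 z * Δ z := by
  have h4 : MDiff (E₄ : ℍ → ℂ) := ModularFormClass.holo E₄
  have h6 : MDiff (E₆ : ℍ → ℂ) := ModularFormClass.holo E₆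
  have hΔ : (Δ : ℍ → ℂ) = (1 / 1728 : ℂ) • ((E₄ : ℍ → ℂ) ^ 3 - (E₆ : ℍ → ℂ) ^ 2) := by
    ext w
    simp only [Pi.smul_apply, Pi.sub_apply, Pi.pow_apply, smul_eq_mul]
    rw [discriminant_eq_E₄_cube_sub_E₆_sq w]
    ring
  have hD : D Δ = (1 / 1728 : ℂ) • (((3 : ℕ) : ℍ → ℂ) * (E₄ : ℍ → ℂ) ^ (3 - 1) * D E₄ -
      ((2 : ℕ) : ℍ → ℂ) * (E₆ : ℍ → ℂ) ^ (2 - 1) * D E₆) := by
    rw [hΔ, normalizedDerivOfComplex_smul _ _ ((h4.pow 3).sub (h6.pow 2)),
      normalizedDerivOfComplex_sub _ _ (h4.pow 3) (h6.pow 2),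
      normalizedDerivOfComplex_pow _ _ h4, normalizedDerivOfComplex_pow _ _ h6]
  have := congrFun hD z
  simp only [Pi.smul_apply, Pi.sub_apply, Pi.mul_apply, Pi.pow_apply, smul_eq_mul,
    Pi.natCast_apply] at this
  rw [this, D_E₄, D_E₆, discriminant_eq_E₄_cube_sub_E₆_sq z]
  push_cast
  ring

end Fermat.Agent.S24.H8
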