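import Mathlib

set_option autoImplicit false

noncomputable section

open UpperHalfPlane ModularForm MatrixGroups CongruenceSubgroup Matrix.SpecialLinearGroup
open scoped Real Manifold

namespace Fermat.Agent.S24.H28

/-- The analytic `j`-function (Klein invariant, normalised so that `J = 1/q + 744 + ...`). -/
def J (τ : ℍ) : ℂ := E₄ τ ^ 3 / discriminant τ

theorem J_def (τ : ℍ) : J τ = E₄ τ ^ 3 / discriminant τ := rfl

theorem J_mul_discriminant (τ : ℍ) : J τ * discriminant τ = E₄ τ ^ 3 := by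
  rw [J, div_mul_cancel₀ _ (discriminant_ne_zero τ)]

theorem J_sub_1728 (τ : ℍ) : J τ - 1728 = E₆ τ ^ 2 / discriminant τ := by
  have h := discriminant_eq_E₄_cube_sub_E₆_sq τ
  have hne := discriminant_ne_zero τ
  rw [J, eq_div_iff hne, sub_mul, div_mul_cancel₀ _ hne]
  rw [h]; ring

theorem J_mdiff : MDiff J := by
  have h4 : MDiff (E₄ : ℍ → ℂ) := ModularFormClass.holo E₄
  have hΔ : MDiff (discriminant : ℍ → ℂ) := ModularFormClass.holo CuspForm.discriminant
  rw [UpperHalfPlane.mdifferentiable_iff] at h4 hΔ ⊢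
  refine ((h4.pow 3).div hΔ fun z hz => discriminant_ne_zero _).congr fun z hz => ?_
  simp [J, Function.comp]

theorem J_smul (g : SL(2, ℤ)) (τ : ℍ) : J (g • τ) = J τ := by
  have hmem : (mapGL ℝ g : GL (Fin 2) ℝ) ∈ 𝒮ℒ := ⟨g, rfl⟩
  have h4 := SlashInvariantForm.slash_action_eqn'' E₄ hmem τ
  have hΔ := SlashInvariantForm.slash_action_eqn'' CuspForm.discriminant hmem τ
  have hsm : (mapGL ℝ g : GL (Fin 2) ℝ) • τ = g • τ := rfl
  rw [hsm] at h4 hΔ
  have hd : denom (mapGL ℝ g : GL (Fin 2) ℝ) τ ≠ 0 := denom_ne_zero _ τ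
  rw [J, J, h4]
  change _ / CuspForm.discriminant (g • τ) = _ / CuspForm.discriminant τ
  rw [hΔ]
  have hΔne : CuspForm.discriminant τ ≠ 0 := discriminant_ne_zero τ
  field_simp

end Fermat.Agent.S24.H28
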