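import Fermat.Agent.S24.H28_EtaProd
import Fermat.Agent.S24.H28_JDef

set_option autoImplicit false

noncomputable section

open Filter Topology Metric UpperHalfPlane ModularForm MatrixGroups Function
open scoped Real

local notation "𝕢" => Periodic.qParam

namespace Fermat.Agent.S24.H28

theorem qExpansion_E4 :
    qExpansion 1 E₄ = ModularCurve.eisenstein4.map (Int.castRingHom ℂ) := by
  ext m
  rw [EisensteinSeries.E_qExpansion_coeff _ ⟨2, rfl⟩, PowerSeries.coeff_map,
    ModularCurve.eisenstein4, PowerSeries.coeff_mk]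
  have hb : bernoulli 4 = -1 / 30 := by decide +kernel
  by_cases hm : m = 0
  · simp [hm]
  · simp only [hm, if_false, hb, ArithmeticFunction.sigma_apply]
    simp only [eq_intCast]
    push_cast
    ring

/-- The Euler function `∏ (1 - q^(n+1))` on the unit disc. -/
def eulerPhi (q : ℂ) : ℂ := ∏' n : ℕ, (1 - q ^ (n + 1))

theorem differentiableOn_eulerPhi : DifferentiableOn ℂ eulerPhi (ball 0 1) :=
  ModularForm.differentiableOn_tprod_one_sub_pow

theorem eulerPhi_ne_zero {q : ℂ} (hq : ‖q‖ < 1) : eulerPhi q ≠ 0 := by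
  refine tprod_one_add_ne_zero_of_summable (f := fun n ↦ -q ^ (n + 1)) ?_ ?_
  · intro i h
    have h1 : q ^ (i + 1) = 1 := by
      have : 1 + -q ^ (i + 1) = 0 := h
      linear_combination -this
    have h2 : ‖q‖ ^ (i + 1) = 1 := by rw [← norm_pow, h1, norm_one]
    have h3 : ‖q‖ ^ (i + 1) < 1 := pow_lt_one₀ (norm_nonneg _) hq (Nat.succ_ne_zero i)
    linarith
  · simpa [norm_pow] using
      (summable_nat_add_iff 1).mpr (summable_geometric_of_lt_one (norm_nonneg _) hq)

theorem taylorPS_eulerPhi :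
    taylorPS eulerPhi = ModularCurve.etaProd.map (Int.castRingHom ℂ) :=
  taylorPS_tprod_one_sub_pow

/-- The cusp function of `E₄`. -/
def e4Disc : ℂ → ℂ := cuspFunction 1 E₄

theorem differentiableOn_e4Disc : DifferentiableOn ℂ e4Disc (ball 0 1) := fun _ hq =>
  (ModularFormClass.differentiableAt_cuspFunction E₄ one_pos one_mem_strictPeriods_SL
    (mem_ball_zero_iff.mp hq)).differentiableWithinAt

theorem taylorPS_e4Disc : taylorPS e4Disc = ModularCurve.eisenstein4.map (Int.castRingHom ℂ) :=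
  qExpansion_E4

theorem e4Disc_qParam (τ : ℍ) : e4Disc (𝕢 1 τ) = E₄ τ :=
  SlashInvariantFormClass.eq_cuspFunction E₄ τ one_mem_strictPeriods_SL one_ne_zero

/-- The function on the unit disc whose value at `q = exp (2 π i τ)` is `q * J τ`. -/
def jDisc (q : ℂ) : ℂ := e4Disc q ^ 3 / eulerPhi q ^ 24

theorem differentiableOn_jDisc : DifferentiableOn ℂ jDisc (ball 0 1) :=
  (differentiableOn_e4Disc.pow 3).div (differentiableOn_eulerPhi.pow 24) fun _ hq =>
    pow_ne_zero _ (eulerPhi_ne_zero (mem_ball_zero_iff.mp hq))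

theorem analyticAt_zero_of_differentiableOn_ball {g : ℂ → ℂ}
    (hg : DifferentiableOn ℂ g (ball 0 1)) : AnalyticAt ℂ g 0 :=
  hg.analyticAt (ball_mem_nhds 0 one_pos)

theorem taylorPS_jDisc : taylorPS jDisc = ModularCurve.jNum.map (Int.castRingHom ℂ) := by
  have hφ := analyticAt_zero_of_differentiableOn_ball differentiableOn_eulerPhi
  have he := analyticAt_zero_of_differentiableOn_ball differentiableOn_e4Disc
  have hj := analyticAt_zero_of_differentiableOn_ball differentiableOn_jDisc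
  have hmul : taylorPS jDisc * taylorPS eulerPhi ^ 24 = taylorPS e4Disc ^ 3 := by
    rw [← taylorPS_pow hφ, ← taylorPS_pow he, ← taylorPS_mul hj (hφ.pow 24)]
    refine taylorPS_congr ?_
    filter_upwards [ball_mem_nhds (0 : ℂ) one_pos] with q hq
    have := eulerPhi_ne_zero (mem_ball_zero_iff.mp hq)
    simp only [Pi.mul_apply, Pi.pow_apply, jDisc]
    field_simp
  have hinv : (ModularCurve.etaProd.map (Int.castRingHom ℂ)) ^ 24 *
      ModularCurve.dedekindEtaUnitInv.map (Int.castRingHom ℂ) = 1 := by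
    rw [← map_pow, ← map_mul]
    have := ModularCurve.dedekindEtaUnit_mul_inv
    rw [ModularCurve.dedekindEtaUnit] at this
    rw [this, map_one]
  rw [taylorPS_eulerPhi, taylorPS_e4Disc] at hmul
  calc taylorPS jDisc = taylorPS jDisc * ((ModularCurve.etaProd.map (Int.castRingHom ℂ)) ^ 24 *
        ModularCurve.dedekindEtaUnitInv.map (Int.castRingHom ℂ)) := by rw [hinv, mul_one]
    _ = (taylorPS jDisc * (ModularCurve.etaProd.map (Int.castRingHom ℂ)) ^ 24) *
        ModularCurve.dedekindEtaUnitInv.map (Int.castRingHom ℂ) := by ring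
    _ = _ := by rw [hmul, ModularCurve.jNum, map_mul, map_pow]

theorem jDisc_qParam (τ : ℍ) : jDisc (𝕢 1 τ) = 𝕢 1 τ * J τ := by
  have hq0 : 𝕢 1 (τ : ℂ) ≠ 0 := Periodic.qParam_ne_zero _
  have hΔ : discriminant τ = 𝕢 1 τ * eulerPhi (𝕢 1 τ) ^ 24 := by
    rw [discriminant_eq_q_prod, eulerPhi]
    congr 1
    exact (multipliableLocallyUniformlyOn_eta.multipliable τ.2).tprod_pow 24
  have hφ : eulerPhi (𝕢 1 τ) ≠ 0 := eulerPhi_ne_zero (Periodic.norm_qParam_lt_one one_pos τ.im_pos)
  rw [jDisc, e4Disc_qParam, J, hΔ]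
  field_simp

theorem hasSum_jNum (τ : ℍ) :
    HasSum (fun n : ℕ => ((ModularCurve.jNum.coeff n : ℤ) : ℂ) * 𝕢 1 τ ^ n) (𝕢 1 τ * J τ) := by
  have h := hasSum_taylorPS differentiableOn_jDisc
    (Periodic.norm_qParam_lt_one one_pos τ.im_pos : ‖𝕢 1 (τ : ℂ)‖ < 1)
  rw [jDisc_qParam, taylorPS_jDisc] at h
  simpa using h

end Fermat.Agent.S24.H28
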