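import Mathlib

/-!
S24 (helper17): sums of Laurent `q`-series on the upper half plane (period one).
-/

set_option autoImplicit false

noncomputable section

namespace Fermat.Agent.S24.H17

open UpperHalfPlane
open scoped MatrixGroups Manifold

local notation "𝕢" => Function.Periodic.qParam

/-- `g` is the sum of the Laurent `q`-series `X` everywhere on `ℍ`. -/
def IsQSum (X : LaurentSeries ℂ) (g : ℍ → ℂ) : Prop :=
  ∀ τ : ℍ, HasSum (fun n : ℤ => X.coeff n * 𝕢 1 (τ : ℂ) ^ n) (g τ)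

/-- a lower bound for the support. -/
theorem exists_lowerBound (X : LaurentSeries ℂ) : ∃ M : ℕ, ∀ n : ℤ, n < -(M : ℤ) → X.coeff n = 0 := by
  refine ⟨(-X.order).toNat, fun n hn => HahnSeries.coeff_eq_zero_of_lt_order ?_⟩
  have := Int.self_le_toNat (-X.order)
  omega

/-- reindexing a bounded-below `ℤ`-sum as an `ℕ`-sum. -/
theorem hasSum_int_iff_nat {F : ℤ → ℂ} (K : ℕ) (hF : ∀ n : ℤ, n < -(K : ℤ) → F n = 0) (s : ℂ) :
    HasSum F s ↔ HasSum (fun m : ℕ => F ((m : ℤ) - K)) s := by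
  have hinj : Function.Injective (fun m : ℕ => (m : ℤ) - K) := by
    intro a b h
    simp only [sub_left_inj] at h
    exact_mod_cast h
  have h0 : ∀ x : ℤ, x ∉ Set.range (fun m : ℕ => (m : ℤ) - K) → F x = 0 := by
    intro x hx
    apply hF
    by_contra hlt
    apply hx
    refine ⟨(x + K).toNat, ?_⟩
    have : 0 ≤ x + K := by omega
    simp only
    rw [Int.toNat_of_nonneg this]
    ring
  exact (hinj.hasSum_iff h0).symm

/-- Bridge between the `ℤ`-indexed Laurent sum and the shifted power series sum. -/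
theorem hasSum_bridge (Z : LaurentSeries ℂ) (K : ℕ) (hZ : ∀ n : ℤ, n < -(K : ℤ) → Z.coeff n = 0)
    {q : ℂ} (hq : q ≠ 0) (s : ℂ) :
    HasSum (fun n : ℤ => Z.coeff n * q ^ n) s ↔
      HasSum (fun m : ℕ => Z.coeff ((m : ℤ) - K) * q ^ m) (q ^ K * s) := by
  rw [hasSum_int_iff_nat K (F := fun n : ℤ => Z.coeff n * q ^ n)
    (fun n hn => by simp [hZ n hn]) s]
  have hqK : q ^ K ≠ 0 := pow_ne_zero _ hq
  have key : ∀ m : ℕ, q ^ K * (Z.coeff ((m : ℤ) - K) * q ^ ((m : ℤ) - K)) =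
      Z.coeff ((m : ℤ) - K) * q ^ m := by
    intro m
    rw [zpow_sub₀ hq, zpow_natCast, zpow_natCast]
    field_simp
  constructor
  · intro h
    have := h.mul_left (q ^ K)
    simpa only [key] using this
  · intro h
    have := h.mul_left (q ^ K)⁻¹
    rw [inv_mul_cancel_left₀ hqK] at this
    have e : (fun m : ℕ => Z.coeff ((m : ℤ) - K) * q ^ ((m : ℤ) - K)) =
        fun i : ℕ => (q ^ K)⁻¹ * (Z.coeff ((i : ℤ) - K) * q ^ i) := by
      funext m
      rw [← key m, inv_mul_cancel_left₀ hqK]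
    rw [e]
    exact this

/-- the shifted power series of a Laurent series. -/
def psOf (K : ℕ) (Z : LaurentSeries ℂ) : PowerSeries ℂ :=
  PowerSeries.mk fun m => Z.coeff ((m : ℤ) - K)

@[simp]
theorem coeff_psOf (K : ℕ) (Z : LaurentSeries ℂ) (m : ℕ) :
    (psOf K Z).coeff m = Z.coeff ((m : ℤ) - K) := by
  simp [psOf]

theorem coeff_single_mul_ofPowerSeries (K : ℕ) (p : PowerSeries ℂ) (m : ℕ) :
    (HahnSeries.single (-(K : ℤ)) (1 : ℂ) * HahnSeries.ofPowerSeries ℤ ℂ p).coeff ((m : ℤ) - K) =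
      p.coeff m := by
  rw [HahnSeries.coeff_single_mul, one_mul, show ((m : ℤ) - K - -(K : ℤ)) = (m : ℤ) by ring,
    HahnSeries.ofPowerSeries_apply_coeff]

theorem coeff_single_mul_ofPowerSeries_of_lt (K : ℕ) (p : PowerSeries ℂ) {n : ℤ}
    (hn : n < -(K : ℤ)) :
    (HahnSeries.single (-(K : ℤ)) (1 : ℂ) * HahnSeries.ofPowerSeries ℤ ℂ p).coeff n = 0 := by
  rw [HahnSeries.coeff_single_mul, one_mul, HahnSeries.ofPowerSeries_apply]
  refine HahnSeries.embDomain_of_notMem_range ?_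
  rintro ⟨m, hm⟩
  have h1 : (m : ℤ) = n - -(K : ℤ) := hm
  have h2 : (0 : ℤ) ≤ (m : ℤ) := Int.natCast_nonneg m
  omega

theorem eq_single_mul_psOf (Z : LaurentSeries ℂ) (K : ℕ)
    (hZ : ∀ n : ℤ, n < -(K : ℤ) → Z.coeff n = 0) :
    Z = HahnSeries.single (-(K : ℤ)) (1 : ℂ) * HahnSeries.ofPowerSeries ℤ ℂ (psOf K Z) := by
  ext n
  by_cases hn : n < -(K : ℤ)
  · rw [hZ n hn, coeff_single_mul_ofPowerSeries_of_lt K _ hn]
  · have h0 : 0 ≤ n + K := by omega
    obtain ⟨m, hm⟩ := Int.eq_ofNat_of_zero_le h0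
    have hnm : n = (m : ℤ) - K := by omega
    rw [hnm, coeff_single_mul_ofPowerSeries, coeff_psOf]

/-- Cauchy product of two convergent power series. -/
theorem hasSum_powerSeries_mul {p p' : PowerSeries ℂ} {q s t : ℂ}
    (hp : HasSum (fun m : ℕ => p.coeff m * q ^ m) s)
    (hp' : HasSum (fun m : ℕ => p'.coeff m * q ^ m) t) :
    HasSum (fun m : ℕ => (p * p').coeff m * q ^ m) (s * t) := by
  have hn := hp.summable.norm
  have hn' := hp'.summable.norm
  have h1 := tsum_mul_tsum_eq_tsum_sum_antidiagonal_of_summable_norm hn hn'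
  have h2 := (summable_norm_sum_mul_antidiagonal_of_summable_norm hn hn').of_norm
  rw [hp.tsum_eq, hp'.tsum_eq] at h1
  have h3 := h2.hasSum
  rw [← h1] at h3
  have e : (fun m : ℕ => (p * p').coeff m * q ^ m) = fun n : ℕ =>
      ∑ kl ∈ Finset.HasAntidiagonal.antidiagonal n,
        p.coeff kl.1 * q ^ kl.1 * (p'.coeff kl.2 * q ^ kl.2) := by
    funext m
    rw [PowerSeries.coeff_mul, Finset.sum_mul]
    refine Finset.sum_congr rfl fun kl hkl => ?_
    rw [Finset.HasAntidiagonal.mem_antidiagonal] at hkl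
    rw [← hkl, pow_add]
    ring
  rw [e]
  exact h3

theorem IsQSum.add {X Y : LaurentSeries ℂ} {g g' : ℍ → ℂ} (hX : IsQSum X g) (hY : IsQSum Y g') :
    IsQSum (X + Y) (g + g') := by
  intro τ
  have := (hX τ).add (hY τ)
  simpa [add_mul] using this

theorem IsQSum.mul {X Y : LaurentSeries ℂ} {g g' : ℍ → ℂ} (hX : IsQSum X g) (hY : IsQSum Y g') :
    IsQSum (X * Y) (g * g') := by
  obtain ⟨M, hM⟩ := exists_lowerBound X
  obtain ⟨M', hM'⟩ := exists_lowerBound Y
  have hXY : X * Y = HahnSeries.single (-((M + M' : ℕ) : ℤ)) (1 : ℂ) *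
      HahnSeries.ofPowerSeries ℤ ℂ (psOf M X * psOf M' Y) := by
    conv_lhs => rw [eq_single_mul_psOf X M hM, eq_single_mul_psOf Y M' hM']
    rw [map_mul, mul_mul_mul_comm, HahnSeries.single_mul_single]
    congr 2
    · push_cast; ring_nf
    · ring
  intro τ
  have hq : 𝕢 1 (τ : ℂ) ≠ 0 := Function.Periodic.qParam_ne_zero _
  have h1 := (hasSum_bridge X M hM hq (g τ)).mp (hX τ)
  have h2 := (hasSum_bridge Y M' hM' hq (g' τ)).mp (hY τ)
  have h3 := hasSum_powerSeries_mul (p := psOf M X) (p' := psOf M' Y)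
    (by simpa using h1) (by simpa using h2)
  refine (hasSum_bridge (X * Y) (M + M') ?_ hq _).mpr ?_
  · intro n hn
    rw [hXY]
    exact coeff_single_mul_ofPowerSeries_of_lt _ _ hn
  · have e : 𝕢 1 (τ : ℂ) ^ (M + M') * (g * g') τ =
        𝕢 1 (τ : ℂ) ^ M * g τ * (𝕢 1 (τ : ℂ) ^ M' * g' τ) := by
      rw [pow_add, Pi.mul_apply]; ring
    rw [e]
    have e2 : (fun m : ℕ => (X * Y).coeff ((m : ℤ) - (M + M' : ℕ)) * 𝕢 1 (τ : ℂ) ^ m) =
        fun m : ℕ => (psOf M X * psOf M' Y).coeff m * 𝕢 1 (τ : ℂ) ^ m := by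
      funext m
      rw [hXY, coeff_single_mul_ofPowerSeries]
    rw [e2]
    exact h3

theorem IsQSum.single_zero (c : ℂ) : IsQSum (HahnSeries.single 0 c) (fun _ => c) := by
  intro τ
  have := hasSum_single (f := fun n : ℤ => (HahnSeries.single (0 : ℤ) c).coeff n * 𝕢 1 (τ : ℂ) ^ n) 0
    (fun n hn => by simp [HahnSeries.coeff_single_of_ne hn])
  simpa using this

theorem IsQSum.zero : IsQSum 0 0 := by
  intro τ
  simp [hasSum_zero]

theorem IsQSum.one : IsQSum 1 1 := by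
  have := IsQSum.single_zero 1
  exact this

theorem IsQSum.unique {X : LaurentSeries ℂ} {g g' : ℍ → ℂ} (h : IsQSum X g) (h' : IsQSum X g') :
    g = g' := funext fun τ => (h τ).unique (h' τ)

theorem IsQSum.eq_tsum {X : LaurentSeries ℂ} {g : ℍ → ℂ} (h : IsQSum X g) (τ : ℍ) :
    g τ = ∑' n : ℤ, X.coeff n * 𝕢 1 (τ : ℂ) ^ n := (h τ).tsum_eq.symm

theorem cuspFunction_zero_eq : cuspFunction 1 (0 : ℍ → ℂ) = 0 := by
  funext q
  by_cases hq : q = 0
  · subst hq
    simpa [cuspFunction, Function.Periodic.cuspFunction]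
      using! (tendsto_const_nhds.mono_left nhdsWithin_le_nhds).limUnder_eq
  · simp [cuspFunction, Function.Periodic.cuspFunction, hq]

theorem coeff_unique_zero (c : ℕ → ℂ)
    (hsum : ∀ τ : ℍ, HasSum (fun m : ℕ => c m * 𝕢 (1 : ℝ) (τ : ℂ) ^ m) 0) (m : ℕ) : c m = 0 := by
  have han : AnalyticAt ℂ (cuspFunction 1 (0 : ℍ → ℂ)) 0 := by
    rw [cuspFunction_zero_eq]
    exact analyticAt_const
  have h1 := (hasFPowerSeriesOnBall_cuspFunction (f := (0 : ℍ → ℂ)) (c := c) (h := 1) one_pos han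
    (by simpa using hsum)).hasFPowerSeriesAt
  rw [cuspFunction_zero_eq] at h1
  have h2 := h1.eq_zero
  have := congr_arg (FormalMultilinearSeries.coeff · m) h2
  have h0 : FormalMultilinearSeries.coeff (0 : FormalMultilinearSeries ℂ ℂ ℂ) m = 0 := by
    rw [FormalMultilinearSeries.coeff_eq_zero]; rfl
  simp only [FormalMultilinearSeries.coeff_ofScalars, h0] at this
  exact this

/-- uniqueness of the coefficients. -/
theorem IsQSum.eq_zero {X : LaurentSeries ℂ} (h : IsQSum X 0) : X = 0 := by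
  obtain ⟨K, hK⟩ := exists_lowerBound X
  have hsum : ∀ τ : ℍ, HasSum (fun m : ℕ => X.coeff ((m : ℤ) - K) * 𝕢 (1 : ℝ) (τ : ℂ) ^ m) 0 := by
    intro τ
    have := (hasSum_bridge X K hK (Function.Periodic.qParam_ne_zero _) _).mp (h τ)
    simpa using this
  have hc := coeff_unique_zero _ hsum
  ext n
  by_cases hn : n < -(K : ℤ)
  · simp [hK n hn]
  · have h0 : 0 ≤ n + K := by omega
    obtain ⟨m, hm⟩ := Int.eq_ofNat_of_zero_le h0
    have hnm : n = (m : ℤ) - K := by omega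
    rw [hnm, hc m]
    simp

theorem IsQSum.neg {X : LaurentSeries ℂ} {g : ℍ → ℂ} (hX : IsQSum X g) : IsQSum (-X) (-g) := by
  intro τ
  have := (hX τ).neg
  simpa [neg_mul] using this

theorem IsQSum.sub {X Y : LaurentSeries ℂ} {g g' : ℍ → ℂ} (hX : IsQSum X g) (hY : IsQSum Y g') :
    IsQSum (X - Y) (g - g') := by
  rw [sub_eq_add_neg, sub_eq_add_neg]
  exact hX.add hY.neg

/-- the series is determined by the function. -/
theorem IsQSum.series_unique {X Y : LaurentSeries ℂ} {g : ℍ → ℂ} (hX : IsQSum X g)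
    (hY : IsQSum Y g) : X = Y := by
  have := (hX.sub hY)
  rw [sub_self] at this
  exact sub_eq_zero.mp this.eq_zero

end Fermat.Agent.S24.H17
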