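import Mathlib
import Fermat.Prelude.Def_AlgebraicCurve_DivisorClassGroup
import Fermat.Prelude.Def_AlgebraicCurve_Repartitions

set_option autoImplicit false

noncomputable section

namespace Fermat.Agent.S24.H27

open AlgebraicCurve

/-- An integer valued order function on the nonzero elements of `F`, trivial on `K`.
The value at `0` is never used. -/
structure IsOrdFunction (K : Type*) {F : Type*} [Field K] [Field F] [Algebra K F]
    (w : F → ℤ) : Prop where
  map_mul : ∀ f g : F, f ≠ 0 → g ≠ 0 → w (f * g) = w f + w g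
  map_add : ∀ f g : F, f ≠ 0 → g ≠ 0 → f + g ≠ 0 → min (w f) (w g) ≤ w (f + g)
  map_algebraMap : ∀ a : K, a ≠ 0 → w (algebraMap K F a) = 0
  nontrivial : ∃ f : F, f ≠ 0 ∧ w f ≠ 0

namespace IsOrdFunction

variable {K F : Type*} [Field K] [Field F] [Algebra K F] {w : F → ℤ}

theorem map_one (hw : IsOrdFunction K w) : w 1 = 0 := by
  have h := hw.map_mul 1 1 one_ne_zero one_ne_zero
  rw [mul_one] at h
  omega

theorem map_neg_one (hw : IsOrdFunction K w) : w (-1) = 0 := by
  have h := hw.map_mul (-1) (-1) (neg_ne_zero.mpr one_ne_zero) (neg_ne_zero.mpr one_ne_zero)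
  rw [neg_mul_neg, mul_one, hw.map_one] at h
  omega

theorem map_neg (hw : IsOrdFunction K w) {f : F} (hf : f ≠ 0) : w (-f) = w f := by
  have h := hw.map_mul (-1) f (neg_ne_zero.mpr one_ne_zero) hf
  rw [neg_one_mul, hw.map_neg_one, zero_add] at h
  exact h

theorem map_inv (hw : IsOrdFunction K w) {f : F} (hf : f ≠ 0) : w f⁻¹ = -w f := by
  have h := hw.map_mul f f⁻¹ hf (inv_ne_zero hf)
  rw [mul_inv_cancel₀ hf, hw.map_one] at h
  omega

theorem map_div (hw : IsOrdFunction K w) {f g : F} (hf : f ≠ 0) (hg : g ≠ 0) :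
    w (f / g) = w f - w g := by
  rw [div_eq_mul_inv, hw.map_mul f g⁻¹ hf (inv_ne_zero hg), hw.map_inv hg]
  ring

theorem map_pow (hw : IsOrdFunction K w) {f : F} (hf : f ≠ 0) (n : ℕ) :
    w (f ^ n) = n * w f := by
  induction n with
  | zero => simp [hw.map_one]
  | succ n ih =>
    rw [pow_succ, hw.map_mul _ _ (pow_ne_zero n hf) hf, ih]
    push_cast
    ring

theorem map_zpow (hw : IsOrdFunction K w) {f : F} (hf : f ≠ 0) (n : ℤ) :
    w (f ^ n) = n * w f := by
  cases n with
  | ofNat n => simpa using hw.map_pow hf n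
  | negSucc n =>
    rw [zpow_negSucc, hw.map_inv (pow_ne_zero _ hf), hw.map_pow hf]
    rw [Int.negSucc_eq]
    push_cast
    ring

/-- The valuation subring `{f | f = 0 ∨ 0 ≤ w f}`. -/
def valuationSubring (hw : IsOrdFunction K w) : ValuationSubring F where
  carrier := {f | f = 0 ∨ 0 ≤ w f}
  mul_mem' := by
    rintro f g (rfl | hf) (rfl | hg)
    · exact Or.inl (mul_zero _)
    · exact Or.inl (zero_mul _)
    · exact Or.inl (mul_zero _)
    · by_cases hf0 : f = 0
      · exact Or.inl (by rw [hf0, zero_mul])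
      by_cases hg0 : g = 0
      · exact Or.inl (by rw [hg0, mul_zero])
      · exact Or.inr (by rw [hw.map_mul f g hf0 hg0]; omega)
  one_mem' := Or.inr (by rw [hw.map_one])
  add_mem' := by
    rintro f g hf hg
    by_cases hf0 : f = 0
    · rw [hf0, zero_add]; exact hg
    by_cases hg0 : g = 0
    · rw [hg0, add_zero]; exact hf
    by_cases hfg : f + g = 0
    · exact Or.inl hfg
    · have hf' : 0 ≤ w f := hf.resolve_left hf0
      have hg' : 0 ≤ w g := hg.resolve_left hg0
      exact Or.inr (le_trans (le_min hf' hg') (hw.map_add f g hf0 hg0 hfg))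
  zero_mem' := Or.inl rfl
  neg_mem' := by
    rintro f (rfl | hf)
    · exact Or.inl neg_zero
    · by_cases hf0 : f = 0
      · exact Or.inl (by rw [hf0, neg_zero])
      · exact Or.inr (by rw [hw.map_neg hf0]; exact hf)
  mem_or_inv_mem' := by
    intro f
    by_cases hf0 : f = 0
    · exact Or.inl (Or.inl hf0)
    · rcases le_total 0 (w f) with h | h
      · exact Or.inl (Or.inr h)
      · exact Or.inr (Or.inr (by rw [hw.map_inv hf0]; omega))

theorem mem_valuationSubring_iff (hw : IsOrdFunction K w) {f : F} :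
    f ∈ hw.valuationSubring ↔ f = 0 ∨ 0 ≤ w f := Iff.rfl

theorem mem_valuationSubring_of_ne_zero (hw : IsOrdFunction K w) {f : F} (hf : f ≠ 0) :
    f ∈ hw.valuationSubring ↔ 0 ≤ w f := by
  rw [mem_valuationSubring_iff, or_iff_right hf]

theorem valuationSubring_ne_top (hw : IsOrdFunction K w) : hw.valuationSubring ≠ ⊤ := by
  obtain ⟨f, hf0, hf⟩ := hw.nontrivial
  intro htop
  have h1 : f ∈ hw.valuationSubring := htop ▸ ValuationSubring.mem_top f
  have h2 : f⁻¹ ∈ hw.valuationSubring := htop ▸ ValuationSubring.mem_top f⁻¹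
  rw [hw.mem_valuationSubring_of_ne_zero hf0] at h1
  rw [hw.mem_valuationSubring_of_ne_zero (inv_ne_zero hf0), hw.map_inv hf0] at h2
  omega

theorem isPrincipalIdealRing_valuationSubring (hw : IsOrdFunction K w) :
    IsPrincipalIdealRing hw.valuationSubring := by
  classical
  refine ⟨fun I => ?_⟩
  by_cases hI : I = ⊥
  · rw [hI]; exact bot_isPrincipal
  -- the set of values of nonzero elements of `I`
  have hex : ∃ n : ℕ, ∃ f : hw.valuationSubring, f ∈ I ∧ f ≠ 0 ∧ w (f : F) = n := by
    obtain ⟨f, hfI, hf0⟩ := Submodule.exists_mem_ne_zero_of_ne_bot hI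
    have hfF : (f : F) ≠ 0 := fun h => hf0 (Subtype.ext h)
    have hwf : 0 ≤ w (f : F) := (hw.mem_valuationSubring_of_ne_zero hfF).mp f.2
    exact ⟨(w (f : F)).toNat, f, hfI, hf0, (Int.toNat_of_nonneg hwf).symm⟩
  obtain ⟨f₀, hf₀I, hf₀0, hf₀w⟩ := Nat.find_spec hex
  have hf₀F : (f₀ : F) ≠ 0 := fun h => hf₀0 (Subtype.ext h)
  refine ⟨⟨f₀, le_antisymm ?_ ?_⟩⟩
  · intro g hgI
    rw [Submodule.mem_span_singleton]
    by_cases hg0 : g = 0
    · exact ⟨0, by rw [hg0, zero_smul]⟩
    have hgF : (g : F) ≠ 0 := fun h => hg0 (Subtype.ext h)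
    have hwg : 0 ≤ w (g : F) := (hw.mem_valuationSubring_of_ne_zero hgF).mp g.2
    have hmin : Nat.find hex ≤ (w (g : F)).toNat :=
      Nat.find_min' hex ⟨g, hgI, hg0, (Int.toNat_of_nonneg hwg).symm⟩
    have hle : w (f₀ : F) ≤ w (g : F) := by
      rw [hf₀w]
      have := Int.toNat_of_nonneg hwg
      omega
    have hq : (g : F) / (f₀ : F) ∈ hw.valuationSubring := by
      rw [hw.mem_valuationSubring_of_ne_zero (div_ne_zero hgF hf₀F), hw.map_div hgF hf₀F]
      omega
    refine ⟨⟨(g : F) / (f₀ : F), hq⟩, Subtype.ext ?_⟩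
    show (g : F) / (f₀ : F) * (f₀ : F) = (g : F)
    field_simp
  · rw [Submodule.span_singleton_le_iff_mem]
    exact hf₀I

/-- The place of `F/K` attached to an order function. -/
def place (hw : IsOrdFunction K w) : Place K F where
  toValuationSubring := hw.valuationSubring
  algebraMap_mem' := fun a => by
    by_cases ha : a = 0
    · exact Or.inl (by rw [ha, map_zero])
    · exact Or.inr (by rw [hw.map_algebraMap a ha])
  ne_top' := hw.valuationSubring_ne_top
  isPrincipalIdealRing' := hw.isPrincipalIdealRing_valuationSubring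

@[simp]
theorem place_toValuationSubring (hw : IsOrdFunction K w) :
    hw.place.toValuationSubring = hw.valuationSubring := rfl

theorem mem_place_iff (hw : IsOrdFunction K w) {f : F} :
    f ∈ hw.place.toValuationSubring ↔ f = 0 ∨ 0 ≤ w f := Iff.rfl

/-- units of the valuation ring have value `0`. -/
theorem map_unit (hw : IsOrdFunction K w) (u : hw.place.toValuationSubringˣ) :
    w ((u : hw.place.toValuationSubring) : F) = 0 := by
  have hu0 : ((u : hw.place.toValuationSubring) : F) ≠ 0 := by
    simp [ne_eq, ZeroMemClass.coe_eq_zero]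
  have h1 : 0 ≤ w ((u : hw.place.toValuationSubring) : F) :=
    (hw.mem_valuationSubring_of_ne_zero hu0).mp (u : hw.place.toValuationSubring).2
  have hinv : (((u⁻¹ : hw.place.toValuationSubringˣ) : hw.place.toValuationSubring) : F)
      = (((u : hw.place.toValuationSubring) : F))⁻¹ := by
    have h : ((u : hw.place.toValuationSubring) : F) *
        (((u⁻¹ : hw.place.toValuationSubringˣ) : hw.place.toValuationSubring) : F) = 1 :=
      calc _ = (((u : hw.place.toValuationSubring) *
              ((u⁻¹ : hw.place.toValuationSubringˣ) : hw.place.toValuationSubring) :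
              hw.place.toValuationSubring) : F) := rfl
        _ = ((1 : hw.place.toValuationSubring) : F) := by rw [Units.mul_inv]
        _ = 1 := rfl
    exact eq_inv_of_mul_eq_one_right h
  have h2 : 0 ≤ w ((((u : hw.place.toValuationSubring) : F))⁻¹) := by
    rw [← hinv]
    have hu0' : (((u⁻¹ : hw.place.toValuationSubringˣ) : hw.place.toValuationSubring) : F) ≠ 0 := by
      simp [ne_eq, ZeroMemClass.coe_eq_zero]
    exact (hw.mem_valuationSubring_of_ne_zero hu0').mp
      ((u⁻¹ : hw.place.toValuationSubringˣ) : hw.place.toValuationSubring).2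
  rw [hw.map_inv hu0] at h2
  omega

/-- **Main statement.** The order function is a positive multiple of the normalised
order function of the attached place. -/
theorem exists_pos_mul_ord (hw : IsOrdFunction K w) :
    ∃ m : ℕ, 0 < m ∧ ∀ f : F, f ≠ 0 → w f = m * hw.place.ord f := by
  obtain ⟨π, hπ⟩ := IsDiscreteValuationRing.exists_irreducible hw.place.toValuationSubring
  have hπF : (π : F) ≠ 0 := by
    simpa [ne_eq, ZeroMemClass.coe_eq_zero] using hπ.ne_zero
  have hπ0 : 0 ≤ w (π : F) := (hw.mem_valuationSubring_of_ne_zero hπF).mp π.2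
  have hπpos : 0 < w (π : F) := by
    rcases hπ0.lt_or_eq with h | h
    · exact h
    · exfalso
      apply hπ.not_isUnit
      have hinv : (π : F)⁻¹ ∈ hw.place.toValuationSubring := by
        show (π : F)⁻¹ ∈ hw.valuationSubring
        rw [hw.mem_valuationSubring_of_ne_zero (inv_ne_zero hπF), hw.map_inv hπF]
        omega
      refine isUnit_iff_exists_inv.mpr ⟨⟨(π : F)⁻¹, hinv⟩, Subtype.ext ?_⟩
      show (π : F) * (π : F)⁻¹ = 1
      exact mul_inv_cancel₀ hπF
  refine ⟨(w (π : F)).toNat, by omega, fun f hf => ?_⟩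
  obtain ⟨u, hu⟩ := hw.place.exists_unit_mul_zpow hf hπ
  have hu0 : ((u : hw.place.toValuationSubring) : F) ≠ 0 := by
    simp [ne_eq, ZeroMemClass.coe_eq_zero]
  conv_lhs => rw [hu]
  rw [hw.map_mul _ _ hu0 (zpow_ne_zero _ hπF), hw.map_unit u, zero_add, hw.map_zpow hπF,
    Int.toNat_of_nonneg hπ0]
  ring

/-- the multiplier: positive generator of the value group of `w`. -/
def mult (hw : IsOrdFunction K w) : ℕ := hw.exists_pos_mul_ord.choose

theorem mult_pos (hw : IsOrdFunction K w) : 0 < hw.mult := hw.exists_pos_mul_ord.choose_spec.1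

theorem eq_mult_mul_ord (hw : IsOrdFunction K w) {f : F} (hf : f ≠ 0) :
    w f = hw.mult * hw.place.ord f := hw.exists_pos_mul_ord.choose_spec.2 f hf

theorem mult_eq_one_of_exists (hw : IsOrdFunction K w) (h : ∃ t : F, t ≠ 0 ∧ w t = 1) :
    hw.mult = 1 := by
  obtain ⟨t, ht0, ht⟩ := h
  have h1 := hw.eq_mult_mul_ord ht0
  rw [ht] at h1
  have hdvd : (hw.mult : ℤ) ∣ 1 := ⟨_, h1⟩
  have := Int.eq_one_of_dvd_one (by positivity) hdvd
  exact_mod_cast this

/-- normalised case: if `w` takes the value `1`, it is the order function of its place. -/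
theorem ord_place_eq (hw : IsOrdFunction K w) (h : ∃ t : F, t ≠ 0 ∧ w t = 1) {f : F}
    (hf : f ≠ 0) : hw.place.ord f = w f := by
  rw [hw.eq_mult_mul_ord hf, hw.mult_eq_one_of_exists h]
  simp

theorem ord_place_pos_iff (hw : IsOrdFunction K w) {f : F} (hf : f ≠ 0) :
    0 < hw.place.ord f ↔ 0 < w f := by
  rw [hw.eq_mult_mul_ord hf]
  have := hw.mult_pos
  constructor
  · intro h; positivity
  · intro h
    by_contra hneg
    push Not at hneg
    have : (hw.mult : ℤ) * hw.place.ord f ≤ 0 :=
      mul_nonpos_of_nonneg_of_nonpos (by positivity) hneg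
    omega

theorem ord_place_nonneg_iff (hw : IsOrdFunction K w) {f : F} (hf : f ≠ 0) :
    0 ≤ hw.place.ord f ↔ 0 ≤ w f := by
  rw [hw.eq_mult_mul_ord hf]
  have := hw.mult_pos
  constructor
  · intro h; positivity
  · intro h
    by_contra hneg
    push Not at hneg
    have : (hw.mult : ℤ) * hw.place.ord f < 0 :=
      mul_neg_of_pos_of_neg (by exact_mod_cast this) hneg
    omega

end IsOrdFunction

/-! ## API on an existing place -/

section PlaceAPI

variable {K F : Type*} [Field K] [Field F] [Algebra K F] (v : Place K F)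

theorem coe_unit_ne_zero (u : v.toValuationSubringˣ) :
    ((u : v.toValuationSubring) : F) ≠ 0 := by
  simp [ne_eq, ZeroMemClass.coe_eq_zero]

theorem coe_irreducible_ne_zero {π : v.toValuationSubring} (hπ : Irreducible π) :
    (π : F) ≠ 0 := by
  simpa [ne_eq, ZeroMemClass.coe_eq_zero] using hπ.ne_zero

/-- there is a uniformizer. -/
theorem exists_ord_eq_one : ∃ t : F, t ≠ 0 ∧ v.ord t = 1 := by
  obtain ⟨π, hπ⟩ := IsDiscreteValuationRing.exists_irreducible v.toValuationSubring
  exact ⟨π, coe_irreducible_ne_zero v hπ, v.ord_coe_irreducible hπ⟩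

theorem mem_toValuationSubring_iff {f : F} :
    f ∈ v.toValuationSubring ↔ f = 0 ∨ 0 ≤ v.ord f := by
  by_cases hf : f = 0
  · simp [hf, v.toValuationSubring.zero_mem]
  rw [or_iff_right hf]
  obtain ⟨π, hπ⟩ := IsDiscreteValuationRing.exists_irreducible v.toValuationSubring
  obtain ⟨u, hu⟩ := v.exists_unit_mul_zpow hf hπ
  have hπF := coe_irreducible_ne_zero v hπ
  constructor
  · intro hmem
    by_contra hneg
    push Not at hneg
    -- `π ^ (ord f) = u⁻¹ * f` lies in the valuation ring although `ord f < 0`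
    apply hπ.not_isUnit
    have hk : 0 < (-v.ord f).toNat := by omega
    have hpow : ((π : F) ^ (-v.ord f).toNat)⁻¹ ∈ v.toValuationSubring := by
      have h1 : ((π : F) ^ (-v.ord f).toNat)⁻¹ = (π : F) ^ (v.ord f) := by
        rw [← zpow_natCast, ← zpow_neg, Int.toNat_of_nonneg (by omega), neg_neg]
      have h2 : (π : F) ^ (v.ord f)
          = (((u⁻¹ : v.toValuationSubringˣ) : v.toValuationSubring) : F) * f := by
        conv_rhs => rw [hu]
        rw [← mul_assoc]
        have : (((u⁻¹ : v.toValuationSubringˣ) : v.toValuationSubring) : F)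
            * ((u : v.toValuationSubring) : F) = 1 :=
          calc _ = ((((u⁻¹ : v.toValuationSubringˣ) : v.toValuationSubring) *
                (u : v.toValuationSubring) : v.toValuationSubring) : F) := rfl
            _ = ((1 : v.toValuationSubring) : F) := by rw [Units.inv_mul]
            _ = 1 := rfl
        rw [this, one_mul]
      rw [h1, h2]
      exact v.toValuationSubring.mul_mem _ _
        ((u⁻¹ : v.toValuationSubringˣ) : v.toValuationSubring).2 hmem
    have hunit : IsUnit (π ^ (-v.ord f).toNat) := by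
      refine isUnit_iff_exists_inv.mpr ⟨⟨_, hpow⟩, Subtype.ext ?_⟩
      show (π : F) ^ (-v.ord f).toNat * ((π : F) ^ (-v.ord f).toNat)⁻¹ = 1
      exact mul_inv_cancel₀ (pow_ne_zero _ hπF)
    exact (isUnit_pow_iff hk.ne').mp hunit
  · intro hn
    rw [hu]
    refine v.toValuationSubring.mul_mem _ _ (u : v.toValuationSubring).2 ?_
    have : (π : F) ^ (v.ord f) = (π : F) ^ (v.ord f).toNat := by
      rw [← zpow_natCast, Int.toNat_of_nonneg hn]
    rw [this]
    exact v.toValuationSubring.pow_mem π.2 _

theorem mem_toValuationSubring_of_ne_zero {f : F} (hf : f ≠ 0) :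
    f ∈ v.toValuationSubring ↔ 0 ≤ v.ord f := by
  rw [mem_toValuationSubring_iff, or_iff_right hf]

/-- ultrametric inequality for `ord` (valid as soon as the sum is nonzero). -/
theorem min_ord_le_ord_add {f g : F} (hfg : f + g ≠ 0) :
    min (v.ord f) (v.ord g) ≤ v.ord (f + g) := by
  by_cases hf : f = 0
  · rw [hf, zero_add]; exact min_le_right _ _
  by_cases hg : g = 0
  · rw [hg, add_zero]; exact min_le_left _ _
  have h := Valuation.map_add v.adicValuation f g
  rw [v.adicValuation_eq_exp_neg_ord hfg, v.adicValuation_eq_exp_neg_ord hf,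
    v.adicValuation_eq_exp_neg_ord hg, le_max_iff, WithZero.exp_le_exp, WithZero.exp_le_exp] at h
  rcases h with h | h
  · exact (min_le_left _ _).trans (by omega)
  · exact (min_le_right _ _).trans (by omega)

theorem ord_neg (f : F) : v.ord (-f) = v.ord f := by
  simp only [Place.ord, Valuation.map_neg]

theorem ord_algebraMap (a : K) : v.ord (algebraMap K F a) = 0 := by
  by_cases ha : a = 0
  · rw [ha, map_zero, Place.ord_zero]
  have ha' : algebraMap K F a ≠ 0 := fun h => ha ((map_eq_zero _).mp h)
  have h1 := (mem_toValuationSubring_of_ne_zero v ha').mp (v.algebraMap_mem' a)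
  have h2 := (mem_toValuationSubring_of_ne_zero v (inv_ne_zero ha')).mp
    (by rw [← map_inv₀]; exact v.algebraMap_mem' a⁻¹)
  rw [v.ord_inv] at h2
  omega

/-- the order function of a place is an order function in the sense above. -/
theorem isOrdFunction_ord : IsOrdFunction K v.ord where
  map_mul := fun _ _ hf hg => v.ord_mul hf hg
  map_add := fun _ _ _ _ hfg => min_ord_le_ord_add v hfg
  map_algebraMap := fun a _ => ord_algebraMap v a
  nontrivial := by
    obtain ⟨t, ht0, ht⟩ := exists_ord_eq_one v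
    exact ⟨t, ht0, by rw [ht]; exact one_ne_zero⟩

theorem place_isOrdFunction_ord : (isOrdFunction_ord v).place = v := by
  apply Place.ext
  ext f
  rw [IsOrdFunction.mem_place_iff, mem_toValuationSubring_iff]

/-- positive order means membership in the maximal ideal. -/
theorem ord_pos_iff_mem_maximalIdeal (a : v.toValuationSubring) (ha : a ≠ 0) :
    0 < v.ord (a : F) ↔ a ∈ IsLocalRing.maximalIdeal v.toValuationSubring := by
  have haF : (a : F) ≠ 0 := fun h => ha (Subtype.ext h)
  have h0 : 0 ≤ v.ord (a : F) := (mem_toValuationSubring_of_ne_zero v haF).mp a.2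
  rw [IsLocalRing.mem_maximalIdeal, mem_nonunits_iff]
  constructor
  · intro hpos hunit
    have := v.ord_coe_unit hunit.unit
    rw [IsUnit.unit_spec] at this
    omega
  · intro hnu
    rcases h0.lt_or_eq with h | h
    · exact h
    · exfalso
      apply hnu
      have hinv : (a : F)⁻¹ ∈ v.toValuationSubring := by
        rw [mem_toValuationSubring_of_ne_zero v (inv_ne_zero haF), v.ord_inv]
        omega
      refine isUnit_iff_exists_inv.mpr ⟨⟨_, hinv⟩, Subtype.ext ?_⟩
      show (a : F) * (a : F)⁻¹ = 1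
      exact mul_inv_cancel₀ haF

/-- **Uniqueness.** Valuation rings of places are pairwise incomparable. -/
theorem eq_of_toValuationSubring_le {v v' : Place K F}
    (h : v.toValuationSubring ≤ v'.toValuationSubring) : v = v' := by
  by_contra hne
  have hne' : v.toValuationSubring ≠ v'.toValuationSubring := fun h' => hne (Place.ext h')
  obtain ⟨b, hb', hb⟩ : ∃ b, b ∈ v'.toValuationSubring ∧ b ∉ v.toValuationSubring := by
    by_contra hall
    push Not at hall
    exact hne' (le_antisymm h hall)
  have hb0 : b ≠ 0 := fun h0 => hb (h0 ▸ v.toValuationSubring.zero_mem)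
  have hordb : v.ord b < 0 := by
    by_contra hge
    push Not at hge
    exact hb ((mem_toValuationSubring_of_ne_zero v hb0).mpr hge)
  obtain ⟨π, hπ⟩ := IsDiscreteValuationRing.exists_irreducible v.toValuationSubring
  have hπF := coe_irreducible_ne_zero v hπ
  have hπord : v.ord (π : F) = 1 := v.ord_coe_irreducible hπ
  -- `π⁻¹ ∈ A'`
  have hπinv : (π : F)⁻¹ ∈ v'.toValuationSubring := by
    have hk : 1 ≤ (-v.ord b).toNat := by omega
    have hcne : b * (π : F) ^ (-v.ord b).toNat ≠ 0 := mul_ne_zero hb0 (pow_ne_zero _ hπF)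
    have hc : v.ord (b * (π : F) ^ (-v.ord b).toNat) = 0 := by
      rw [v.ord_mul hb0 (pow_ne_zero _ hπF), ← zpow_natCast, v.ord_zpow, hπord,
        Int.toNat_of_nonneg (by omega)]
      ring
    have hcinv : (b * (π : F) ^ (-v.ord b).toNat)⁻¹ ∈ v.toValuationSubring := by
      rw [mem_toValuationSubring_of_ne_zero v (inv_ne_zero hcne), v.ord_inv, hc]
      simp
    have hkey : (π : F)⁻¹
        = (π : F) ^ ((-v.ord b).toNat - 1) * b * (b * (π : F) ^ (-v.ord b).toNat)⁻¹ := by
      obtain ⟨k, hk'⟩ : ∃ k, (-v.ord b).toNat = k + 1 := ⟨(-v.ord b).toNat - 1, by omega⟩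
      rw [hk', Nat.add_sub_cancel, pow_succ]
      field_simp
    rw [hkey]
    exact v'.toValuationSubring.mul_mem _ _
      (v'.toValuationSubring.mul_mem _ _ (v'.toValuationSubring.pow_mem (h π.2) _) hb')
      (h hcinv)
  apply v'.ne_top'
  refine SetLike.ext fun f => ⟨fun _ => ValuationSubring.mem_top f, fun _ => ?_⟩
  by_cases hf : f = 0
  · rw [hf]; exact v'.toValuationSubring.zero_mem
  obtain ⟨u, hu⟩ := v.exists_unit_mul_zpow hf hπ
  rw [hu]
  refine v'.toValuationSubring.mul_mem _ _ (h (u : v.toValuationSubring).2) ?_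
  rcases le_total 0 (v.ord f) with hn | hn
  · have : (π : F) ^ (v.ord f) = (π : F) ^ (v.ord f).toNat := by
      rw [← zpow_natCast, Int.toNat_of_nonneg hn]
    rw [this]
    exact v'.toValuationSubring.pow_mem (h π.2) _
  · have : (π : F) ^ (v.ord f) = ((π : F)⁻¹) ^ (-v.ord f).toNat := by
      rw [← zpow_natCast, Int.toNat_of_nonneg (by omega), inv_zpow', neg_neg]
    rw [this]
    exact v'.toValuationSubring.pow_mem hπinv _

/-- a place is determined by the set of functions regular at it. -/
theorem eq_of_forall_ord_nonneg {v v' : Place K F}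
    (h : ∀ f : F, f ≠ 0 → 0 ≤ v.ord f → 0 ≤ v'.ord f) : v = v' := by
  apply eq_of_toValuationSubring_le
  intro f hf
  by_cases hf0 : f = 0
  · rw [hf0]; exact v'.toValuationSubring.zero_mem
  · exact (mem_toValuationSubring_of_ne_zero v' hf0).mpr
      (h f hf0 ((mem_toValuationSubring_of_ne_zero v hf0).mp hf))

/-- a place is determined by its order function. -/
theorem eq_of_ord_eq {v v' : Place K F} (h : ∀ f : F, f ≠ 0 → v.ord f = v'.ord f) : v = v' :=
  eq_of_forall_ord_nonneg fun f hf h0 => by rw [← h f hf]; exact h0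

/-- a place is determined by the set of functions vanishing at it. -/
theorem eq_of_forall_ord_pos {v v' : Place K F}
    (h : ∀ f : F, f ≠ 0 → 0 < v.ord f → 0 < v'.ord f) : v = v' := by
  apply eq_of_forall_ord_nonneg
  intro f hf0 hf
  by_contra hneg
  push Not at hneg
  obtain ⟨t, ht0, ht⟩ := exists_ord_eq_one v
  have ht' : 0 < v'.ord t := h t ht0 (by omega)
  -- `t * f ^ k` has positive order at `v` but negative order at `v'` for `k` large
  have hne : t * f ^ (v'.ord t).toNat ≠ 0 := mul_ne_zero ht0 (pow_ne_zero _ hf0)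
  have h1 : 0 < v.ord (t * f ^ (v'.ord t).toNat) := by
    rw [v.ord_mul ht0 (pow_ne_zero _ hf0), ← zpow_natCast, v.ord_zpow, ht]
    have : 0 ≤ ((v'.ord t).toNat : ℤ) * v.ord f := by positivity
    omega
  have h2 := h _ hne h1
  rw [v'.ord_mul ht0 (pow_ne_zero _ hf0), ← zpow_natCast, v'.ord_zpow,
    Int.toNat_of_nonneg ht'.le] at h2
  nlinarith

end PlaceAPI

end Fermat.Agent.S24.H27
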