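import Mathlib
import Fermat.Prelude.Def_AlgebraicCurve_DivisorClassGroup
import Fermat.Agent.S24.H27_PlaceOfValuation

set_option autoImplicit false

/-!
Dictionary between the height one primes of a Dedekind domain `B` with fraction field `F`
(containing the constants `K`) and the places of `F/K` whose valuation ring contains `B`.
-/

namespace Fermat.Agent.S24.H42

open AlgebraicCurve IsDedekindDomain WithZero

variable {K F : Type*} [Field K] [Field F] [Algebra K F]
variable {B : Type*} [CommRing B] [IsDedekindDomain B] [Algebra B F] [IsFractionRing B F]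
  [Algebra K B] [IsScalarTower K B F]

/-- The place of `F/K` attached to a height one prime of `B`. -/
noncomputable abbrev placeOf (w : HeightOneSpectrum B) : Place K F :=
  Place.ofHeightOneSpectrum (K := K) (F := F) w

theorem mem_placeOf_iff (w : HeightOneSpectrum B) (x : F) :
    x ∈ (placeOf (K := K) w).toValuationSubring ↔ w.valuation F x ≤ 1 := by
  rw [Place.ofHeightOneSpectrum_toValuationSubring, Valuation.mem_valuationSubring_iff]

theorem algebraMap_mem_placeOf (w : HeightOneSpectrum B) (b : B) :
    algebraMap B F b ∈ (placeOf (K := K) w).toValuationSubring := by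
  rw [mem_placeOf_iff]
  exact w.valuation_le_one b

theorem isUnit_placeOf_iff (w : HeightOneSpectrum B)
    (x : (placeOf (K := K) (F := F) w).toValuationSubring) :
    IsUnit x ↔ w.valuation F (x : F) = 1 := by
  have hequiv := Valuation.isEquiv_valuation_valuationSubring (w.valuation F)
  have h1 : w.valuation F (x : F) = 1 ↔
      (w.valuation F).valuationSubring.valuation (x : F) = 1 :=
    Valuation.isEquiv_iff_val_eq_one.mp hequiv
  rw [h1]
  exact ValuationSubring.valuation_eq_one_iff _ x


theorem lt_one_iff_le_exp_neg_one {x : ℤᵐ⁰} : x < 1 ↔ x ≤ exp (-1 : ℤ) := by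
  rcases eq_or_ne x 0 with rfl | hx
  · simp
  · rw [← exp_zero (M := ℤ), ← log_lt_iff_lt_exp hx, ← log_le_iff_le_exp hx]
    omega

/-- The order function of the place attached to `w` is the `w`-adic valuation. -/
theorem ord_placeOf (w : HeightOneSpectrum B) (f : F) :
    (placeOf (K := K) w).ord f = -(WithZero.log (w.valuation F f)) := by
  rcases eq_or_ne f 0 with rfl | hf
  · simp
  set v := placeOf (K := K) (F := F) w with hv
  obtain ⟨π, hπ⟩ := w.valuation_exists_uniformizer F
  have hπ0 : π ≠ 0 := by
    rintro rfl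
    rw [map_zero] at hπ
    exact exp_ne_zero hπ.symm
  have hπmem : π ∈ v.toValuationSubring := by
    rw [mem_placeOf_iff, hπ]
    exact (lt_one_iff_le_exp_neg_one.mpr le_rfl).le
  obtain ⟨ϖ, hϖ⟩ := IsDiscreteValuationRing.exists_irreducible v.toValuationSubring
  have hϖ1 : w.valuation F (ϖ : F) ≤ exp (-1 : ℤ) := by
    rw [← lt_one_iff_le_exp_neg_one]
    refine lt_of_le_of_ne ((mem_placeOf_iff (K := K) w _).mp ϖ.2) ?_
    intro h1
    exact hϖ.not_isUnit ((isUnit_placeOf_iff w ϖ).mpr h1)
  -- `c = ϖ / π` lies in the valuation ring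
  have hcmem : (ϖ : F) / π ∈ v.toValuationSubring := by
    rw [mem_placeOf_iff, map_div₀, hπ]
    exact div_le_one_of_le₀ hϖ1 zero_le
  set πv : v.toValuationSubring := ⟨π, hπmem⟩ with hπv
  set c : v.toValuationSubring := ⟨(ϖ : F) / π, hcmem⟩ with hc
  have hmul : ϖ = πv * c := by
    apply Subtype.ext
    simp only [hπv, hc, MulMemClass.coe_mul]
    field_simp
  have hπnu : ¬ IsUnit πv := by
    rw [isUnit_placeOf_iff, hπv]
    simp only [hπ]
    intro h
    have : (-1 : ℤ) = 0 := by simp at h
    omega
  have hcu : IsUnit c := (hϖ.isUnit_or_isUnit hmul).resolve_left hπnu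
  have hπirr : Irreducible πv := by
    have hass : Associated πv ϖ := ⟨hcu.unit, by rw [hmul]; rfl⟩
    exact hass.symm.irreducible hϖ
  obtain ⟨u, hu⟩ := v.exists_unit_mul_zpow hf hπirr
  have hu1 : w.valuation F ((u : v.toValuationSubring) : F) = 1 :=
    (isUnit_placeOf_iff w _).mp u.isUnit
  have hval : w.valuation F f = exp (-(v.ord f)) := by
    conv_lhs => rw [hu]
    rw [map_mul, hu1, one_mul, map_zpow₀]
    show (w.valuation F π) ^ (v.ord f) = _
    rw [hπ, ← exp_zsmul]
    simp
  rw [hval, log_exp, neg_neg]


theorem placeOf_injective :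
    Function.Injective (placeOf (K := K) (F := F) : HeightOneSpectrum B → Place K F) := by
  intro w w' h
  have h1 : (w.valuation F).valuationSubring = (w'.valuation F).valuationSubring :=
    congrArg Place.toValuationSubring h
  exact HeightOneSpectrum.eq_of_valuation_isEquiv_valuation
    ((Valuation.isEquiv_iff_valuationSubring _ _).mpr h1)

/-- Every place whose valuation ring contains `B` comes from a height one prime of `B`. -/
theorem exists_placeOf_eq (v : Place K F)
    (hB : ∀ b : B, algebraMap B F b ∈ v.toValuationSubring) :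
    ∃ w : HeightOneSpectrum B, placeOf (K := K) w = v := by
  classical
  let φ : B →+* v.toValuationSubring :=
    (algebraMap B F).codRestrict v.toValuationSubring.toSubring hB
  have hφ : ∀ b, ((φ b : v.toValuationSubring) : F) = algebraMap B F b := fun _ => rfl
  set P : Ideal B := (IsLocalRing.maximalIdeal v.toValuationSubring).comap φ with hP
  have hPprime : P.IsPrime := Ideal.comap_isPrime φ _
  have hunit : ∀ b : B, b ∉ P → (algebraMap B F b)⁻¹ ∈ v.toValuationSubring := by
    intro b hb
    have hb' : IsUnit (φ b) := by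
      by_contra hnu
      exact hb ((IsLocalRing.mem_maximalIdeal _).mpr hnu)
    obtain ⟨u, hu⟩ := hb'
    have h1 : ((u : v.toValuationSubring) : F) * ((u⁻¹ : (v.toValuationSubring)ˣ) : F) = 1 := by
      rw [← MulMemClass.coe_mul, ← Units.val_mul, mul_inv_cancel]
      rfl
    have h2 : ((u⁻¹ : (v.toValuationSubring)ˣ) : F) = (algebraMap B F b)⁻¹ := by
      rw [← hφ b, ← hu]
      exact eq_inv_of_mul_eq_one_right h1
    rw [← h2]
    exact (u⁻¹ : (v.toValuationSubring)ˣ).1.2
  have hPbot : P ≠ ⊥ := by
    intro hbot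
    apply v.ne_top'
    refine SetLike.ext fun x => ⟨fun _ => ValuationSubring.mem_top x, fun _ => ?_⟩
    obtain ⟨a, s, hs, rfl⟩ := IsFractionRing.div_surjective (A := B) x
    have hs0 : s ≠ 0 := nonZeroDivisors.ne_zero hs
    have hsP : s ∉ P := by
      rw [hbot, Ideal.mem_bot]; exact hs0
    rw [div_eq_mul_inv]
    exact v.toValuationSubring.mul_mem _ _ (hB a) (hunit s hsP)
  let w : HeightOneSpectrum B := ⟨P, hPprime, hPbot⟩
  refine ⟨w, ?_⟩
  apply H27.eq_of_toValuationSubring_le
  intro x hx
  rw [mem_placeOf_iff] at hx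
  obtain ⟨n, d, hnd⟩ := w.exists_primeCompl_mul_eq_of_integer x hx
  have hd : (d : B) ∉ P := d.2
  have hd0 : algebraMap B F (d : B) ≠ 0 := by
    intro h0
    have : (d : B) = 0 := (IsFractionRing.injective B F) (by rw [h0, map_zero])
    exact hd (this ▸ P.zero_mem)
  have hx' : x = algebraMap B F n * (algebraMap B F (d : B))⁻¹ := by
    field_simp
    exact hnd
  rw [hx']
  exact v.toValuationSubring.mul_mem _ _ (hB n) (hunit _ hd)

end Fermat.Agent.S24.H42
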