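import Fermat.Agent.S24.H97_Setup

set_option autoImplicit false

noncomputable section

open IsDedekindDomain Polynomial AlgebraicCurve
open scoped IntermediateField IntermediateField.algebraAdjoinAdjoin

namespace Fermat.Agent.S24.H97

variable {K F : Type*} [Field K] [Field F] [Algebra K F]

section General

/-- The valuation subring of a place, as a `K`-subalgebra of `F`. -/
def placeSubalgebra (v : Place K F) : Subalgebra K F :=
  { v.toValuationSubring.toSubring with
    algebraMap_mem' := v.algebraMap_mem' }

theorem mem_placeSubalgebra (v : Place K F) (x : F) :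
    x ∈ placeSubalgebra v ↔ x ∈ v.toValuationSubring := Iff.rfl

theorem polyRing_le_placeSubalgebra (v : Place K F) {t : F} (ht : t ∈ v.toValuationSubring) :
    polyRing K t ≤ placeSubalgebra v :=
  Algebra.adjoin_le (Set.singleton_subset_iff.mpr (show t ∈ (placeSubalgebra v : Set F) from ht))

/-- Elements integral over `K[t]` lie in the valuation ring of any place containing `t`. -/
theorem mem_of_isIntegral (v : Place K F) {t : F} (ht : t ∈ v.toValuationSubring) {b : F}
    (hb : IsIntegral (polyRing K t) b) : b ∈ v.toValuationSubring := by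
  have hle := polyRing_le_placeSubalgebra v ht
  letI : Algebra (polyRing K t) (placeSubalgebra v) := (Subalgebra.inclusion hle).toAlgebra
  haveI : IsScalarTower (polyRing K t) (placeSubalgebra v) F :=
    Subalgebra.inclusion.isScalarTower_right hle F
  have h1 : IsIntegral (placeSubalgebra v) b := hb.tower_top
  -- the valuation ring is integrally closed
  have h2 : IsIntegral v.toValuationSubring b := by
    obtain ⟨p, hp, hpb⟩ := h1
    exact ⟨p.map (RingHom.id _ : placeSubalgebra v →+* v.toValuationSubring), hp.map _, by
      rw [Polynomial.eval₂_map]; exact hpb⟩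
  obtain ⟨y, hy⟩ := (IsIntegrallyClosed.isIntegral_iff (R := v.toValuationSubring) (K := F)).mp h2
  rw [← hy]
  exact y.2

theorem coe_unit_mul_coe_inv {A : ValuationSubring F} (u : Aˣ) :
    ((u : A) : F) * ((u⁻¹ : Aˣ) : F) = 1 :=
  calc ((u : A) : F) * ((u⁻¹ : Aˣ) : F) = (((u : A) * ((u⁻¹ : Aˣ) : A) : A) : F) := rfl
    _ = ((1 : A) : F) := by rw [Units.mul_inv]
    _ = 1 := rfl

end General

section Main

variable (t : F) [FiniteDimensional K⟮t⟯ F] [CharZero K] [Fact (Transcendental K t)]

instance instIsDedekindDomainIntRing : IsDedekindDomain (intRing K t) :=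
  isDedekindDomain_intRing t Fact.out

instance instIsFractionRingIntRing : IsFractionRing (intRing K t) F :=
  isFractionRing_intRing t

/-- The place of `F/K` attached to a nonzero prime of the integral closure of `K[t]`. -/
def placeOfPrime (w : HeightOneSpectrum (intRing K t)) : Place K F :=
  Place.ofHeightOneSpectrum (K := K) w

@[simp]
theorem placeOfPrime_toValuationSubring (w : HeightOneSpectrum (intRing K t)) :
    (placeOfPrime t w).toValuationSubring = (w.valuation F).valuationSubring := rfl

theorem coe_mem_placeOfPrime (w : HeightOneSpectrum (intRing K t)) (b : intRing K t) :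
    (b : F) ∈ (placeOfPrime t w).toValuationSubring := by
  rw [placeOfPrime_toValuationSubring, Valuation.mem_valuationSubring_iff]
  exact w.valuation_le_one b

omit [FiniteDimensional K⟮t⟯ F] [CharZero K] [Fact (Transcendental K t)] in
theorem self_mem_intRing : t ∈ intRing K t := by
  have h1 : t ∈ polyRing K t := Algebra.self_mem_adjoin_singleton K t
  exact (integralClosure (polyRing K t) F).algebraMap_mem ⟨t, h1⟩

theorem self_mem_placeOfPrime (w : HeightOneSpectrum (intRing K t)) :
    t ∈ (placeOfPrime t w).toValuationSubring :=
  coe_mem_placeOfPrime t w ⟨t, self_mem_intRing t⟩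

theorem placeOfPrime_injective :
    Function.Injective (placeOfPrime (K := K) t) := by
  intro w w' h
  have h1 : (w.valuation F).valuationSubring = (w'.valuation F).valuationSubring :=
    congrArg Place.toValuationSubring h
  exact HeightOneSpectrum.eq_of_valuation_isEquiv_valuation
    ((Valuation.isEquiv_iff_valuationSubring _ _).mpr h1)

omit [FiniteDimensional K⟮t⟯ F] [CharZero K] [Fact (Transcendental K t)] in
theorem coe_mem_of_mem (v : Place K F) (hv : t ∈ v.toValuationSubring) (b : intRing K t) :
    (b : F) ∈ v.toValuationSubring :=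
  mem_of_isIntegral v hv b.2

/-- The inclusion of the integral closure of `K[t]` into the valuation ring of a place at which
`t` is integral. -/
def toPlaceRing (v : Place K F) (hv : t ∈ v.toValuationSubring) :
    intRing K t →+* v.toValuationSubring :=
  ((algebraMap (intRing K t) F).codRestrict v.toValuationSubring.toSubring
    (fun b => coe_mem_of_mem t v hv b))

@[simp]
theorem coe_toPlaceRing (v : Place K F) (hv : t ∈ v.toValuationSubring) (b : intRing K t) :
    ((toPlaceRing t v hv b : v.toValuationSubring) : F) = (b : F) := rfl

/-- The centre on the integral closure of `K[t]` of a place at which `t` is integral. -/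
def primeOfPlace (v : Place K F) (hv : t ∈ v.toValuationSubring) :
    HeightOneSpectrum (intRing K t) where
  asIdeal := (IsLocalRing.maximalIdeal v.toValuationSubring).comap (toPlaceRing t v hv)
  isPrime := Ideal.comap_isPrime _ _
  ne_bot := by
    intro hbot
    apply v.ne_top'
    refine SetLike.ext fun x => ⟨fun _ => ValuationSubring.mem_top x, fun _ => ?_⟩
    obtain ⟨b, c, hc, rfl⟩ := IsFractionRing.div_surjective (A := intRing K t) x
    have hc0 : c ≠ 0 := nonZeroDivisors.ne_zero hc
    have hcu : IsUnit (toPlaceRing t v hv c) := by
      by_contra hnu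
      have : c ∈ (IsLocalRing.maximalIdeal v.toValuationSubring).comap (toPlaceRing t v hv) := by
        rw [Ideal.mem_comap, IsLocalRing.mem_maximalIdeal, mem_nonunits_iff]
        exact hnu
      rw [hbot, Ideal.mem_bot] at this
      exact hc0 this
    obtain ⟨u, hu⟩ := hcu
    have hinv : ((algebraMap (intRing K t) F c))⁻¹ = ((u⁻¹ : (v.toValuationSubring)ˣ) : F) := by
      have h1 : ((u : v.toValuationSubring) : F) = algebraMap (intRing K t) F c := by
        rw [hu]; rfl
      rw [← h1]
      have h2 : ((u : v.toValuationSubring) : F) * ((u⁻¹ : (v.toValuationSubring)ˣ) : F) = 1 :=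
        coe_unit_mul_coe_inv u
      exact inv_eq_of_mul_eq_one_right h2
    rw [div_eq_mul_inv, hinv]
    exact v.toValuationSubring.mul_mem _ _ (coe_mem_of_mem t v hv b) (SetLike.coe_mem _)

theorem placeOfPrime_primeOfPlace (v : Place K F) (hv : t ∈ v.toValuationSubring) :
    placeOfPrime t (primeOfPlace t v hv) = v := by
  apply Place.ext
  rw [placeOfPrime_toValuationSubring]
  set w := primeOfPlace t v hv
  have hle : (w.valuation F).valuationSubring ≤ v.toValuationSubring := by
    intro x hx
    rw [Valuation.mem_valuationSubring_iff] at hx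
    obtain ⟨n, d, hnd⟩ := w.exists_primeCompl_mul_eq_of_integer x hx
    have hdu : IsUnit (toPlaceRing t v hv d) := by
      by_contra hnu
      apply d.2
      show (d : intRing K t) ∈
        (IsLocalRing.maximalIdeal v.toValuationSubring).comap (toPlaceRing t v hv)
      rw [Ideal.mem_comap, IsLocalRing.mem_maximalIdeal, mem_nonunits_iff]
      exact hnu
    obtain ⟨u, hu⟩ := hdu
    have h1 : ((u : v.toValuationSubring) : F) = algebraMap (intRing K t) F d := by
      rw [hu]; rfl
    have h2 : ((u : v.toValuationSubring) : F) * ((u⁻¹ : (v.toValuationSubring)ˣ) : F) = 1 :=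
      coe_unit_mul_coe_inv u
    have hx' : x = algebraMap (intRing K t) F n * ((u⁻¹ : (v.toValuationSubring)ˣ) : F) := by
      rw [← hnd, ← h1, mul_assoc, h2, mul_one]
    rw [hx']
    exact v.toValuationSubring.mul_mem _ _ (coe_mem_of_mem t v hv n) (SetLike.coe_mem _)
  rw [← HeightOneSpectrum.valuationSubringAtPrime_eq_valuationSubring] at hle ⊢
  exact ValuationSubring.eq_of_le_of_ne_top _ hle v.ne_top'

theorem exists_unique_prime_of_mem (v : Place K F) (hv : t ∈ v.toValuationSubring) :
    ∃! w : HeightOneSpectrum (intRing K t), placeOfPrime t w = v :=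
  ⟨primeOfPlace t v hv, placeOfPrime_primeOfPlace t v hv,
    fun w hw => placeOfPrime_injective t (hw.trans (placeOfPrime_primeOfPlace t v hv).symm)⟩

/-- Places of `F/K` at which `t` is integral correspond to nonzero primes of the integral closure
of `K[t]` in `F`. -/
def placeEquiv :
    {v : Place K F // t ∈ v.toValuationSubring} ≃ HeightOneSpectrum (intRing K t) where
  toFun v := primeOfPlace t v.1 v.2
  invFun w := ⟨placeOfPrime t w, self_mem_placeOfPrime t w⟩
  left_inv v := Subtype.ext (placeOfPrime_primeOfPlace t v.1 v.2)
  right_inv w := placeOfPrime_injective t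
    (placeOfPrime_primeOfPlace t (placeOfPrime t w) (self_mem_placeOfPrime t w))

end Main

end Fermat.Agent.S24.H97
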