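import Fermat.Agent.S24.H25_Differentials
import Fermat.Agent.S24.H97_Places
import Fermat.Agent.S24.H42_PlaceDict

set_option autoImplicit false
set_option linter.style.haveILetI false

open KaehlerDifferential Polynomial IntermediateField IsDedekindDomain AlgebraicCurve
open scoped IntermediateField.algebraAdjoinAdjoin

noncomputable section

namespace Fermat.Agent.S24.H25

open Fermat.Agent.S24.H97

universe u v

variable {K : Type u} {F : Type v} [Field K] [Field F] [Algebra K F]

section FiniteType

variable (t : F) [FiniteDimensional K⟮t⟯ F] [CharZero K]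

theorem finite_intRing (ht : Transcendental K t) :
    Module.Finite (polyRing K t) (intRing K t) := by
  haveI := isPrincipalIdealRing_polyRing (K := K) t ht
  haveI : CharZero K⟮t⟯ := charZero_of_injective_algebraMap (algebraMap K K⟮t⟯).injective
  exact IsIntegralClosure.finite (polyRing K t) K⟮t⟯ F (intRing K t)

theorem finiteType_intRing (ht : Transcendental K t) :
    Algebra.FiniteType K (intRing K t) := by
  haveI := finite_intRing (K := K) t ht
  haveI : Algebra.FiniteType K (polyRing K t) := by
    constructor
    rw [Subalgebra.fg_top]
    exact ⟨{t}, by simp⟩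
  haveI : Algebra.FiniteType (polyRing K t) (intRing K t) := inferInstance
  exact Algebra.FiniteType.trans (R := K) (S := polyRing K t) (A := intRing K t)
    inferInstance inferInstance

end FiniteType

section Places

variable (t : F) [FiniteDimensional K⟮t⟯ F] [CharZero K]

/-- Places at which `t` is integral have finite Kähler differentials. -/
theorem finite_kaehler_of_mem (ht : Transcendental K t) (v : Place K F)
    (hv : t ∈ v.toValuationSubring) :
    Module.Finite v.toValuationSubring Ω[v.toValuationSubring⁄K] := by
  haveI : Fact (Transcendental K t) := ⟨ht⟩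
  haveI := finiteType_intRing (K := K) t ht
  have h := placeOfPrime_primeOfPlace (K := K) t v hv
  have key := finite_kaehler_ofHeightOneSpectrum (K := K) (F := F) (R := intRing K t)
    (primeOfPlace t v hv)
  unfold placeOfPrime at h
  rw [h] at key
  exact key

omit [FiniteDimensional K⟮t⟯ F] [CharZero K] in
theorem adjoin_inv_eq : K⟮t⁻¹⟯ = K⟮t⟯ := by
  apply le_antisymm
  · rw [adjoin_simple_le_iff]
    exact inv_mem (mem_adjoin_simple_self K t)
  · rw [adjoin_simple_le_iff]
    have := inv_mem (mem_adjoin_simple_self K t⁻¹)
    rwa [inv_inv] at this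

omit [FiniteDimensional K⟮t⟯ F] [CharZero K] in
theorem transcendental_inv (ht : Transcendental K t) : Transcendental K t⁻¹ := by
  intro h
  apply ht
  have := h.inv
  rwa [inv_inv] at this

/-- Every place of `F/K` has finite Kähler differentials. -/
theorem finite_kaehler_place (ht : Transcendental K t) (v : Place K F) :
    Module.Finite v.toValuationSubring Ω[v.toValuationSubring⁄K] := by
  by_cases hv : t ∈ v.toValuationSubring
  · exact finite_kaehler_of_mem (K := K) t ht v hv
  · have hv' : t⁻¹ ∈ v.toValuationSubring :=
      (v.toValuationSubring.mem_or_inv_mem t).resolve_left hv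
    haveI : FiniteDimensional K⟮t⁻¹⟯ F := by
      rw [adjoin_inv_eq]; infer_instance
    exact finite_kaehler_of_mem (K := K) t⁻¹ (transcendental_inv t ht) v hv'

/-- Field `ord_fin` of `RH.Data`. -/
theorem ordDifferential_D_fin (ht : Transcendental K t) (hdeg : ∀ v : Place K F, v.deg = 1)
    (v : Place K F) (a : K) (h : 0 < v.ord (t - algebraMap K F a)) :
    v.ordDifferential (D K F t) = v.ord (t - algebraMap K F a) - 1 := by
  haveI := finite_kaehler_place (K := K) t ht v
  exact ordDifferential_D_of_zero (K := K) t ht (residueTrivial_of_deg_eq_one v (hdeg v)) h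

/-- Field `ord_pole` of `RH.Data`. -/
theorem ordDifferential_D_pole (ht : Transcendental K t) (hdeg : ∀ v : Place K F, v.deg = 1)
    (v : Place K F) (h : v.ord t < 0) :
    v.ordDifferential (D K F t) = v.ord t - 1 := by
  haveI := finite_kaehler_place (K := K) t ht v
  exact ordDifferential_D_of_pole (K := K) t ht (residueTrivial_of_deg_eq_one v (hdeg v)) h

/-- Field `span` of `RH.Data`. -/
theorem exists_eq_smul_D (ht : Transcendental K t) (ω : Ω[F⁄K]) :
    ∃ f : F, ω = f • D K F t :=
  ⟨_, eq_smul_D (K := K) t ht ω⟩

end Places

end Fermat.Agent.S24.H25
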