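import Mathlib
import Fermat.Prelude.Def_AlgebraicCurve_DivisorClassGroup
import Fermat.Agent.S24.H42_PlaceDict

set_option autoImplicit false

/-!
Residue fields of the places attached to height one primes of a Dedekind domain `B`
with fraction field `F`: `B ⧸ w ≃ₐ[K] κ(placeOf w)`.
-/

namespace Fermat.Agent.S24.H42

open AlgebraicCurve IsDedekindDomain WithZero

variable {K F : Type*} [Field K] [Field F] [Algebra K F]
variable {B : Type*} [CommRing B] [IsDedekindDomain B] [Algebra B F] [IsFractionRing B F]
  [Algebra K B] [IsScalarTower K B F]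

/-- The inclusion of `B` in the valuation ring of the place attached to `w`. -/
noncomputable def toPlaceRing (w : HeightOneSpectrum B) :
    B →+* (placeOf (K := K) (F := F) w).toValuationSubring :=
  (algebraMap B F).codRestrict (placeOf (K := K) (F := F) w).toValuationSubring.toSubring
    (algebraMap_mem_placeOf w)

@[simp]
theorem coe_toPlaceRing (w : HeightOneSpectrum B) (b : B) :
    ((toPlaceRing (K := K) (F := F) w b : (placeOf (K := K) (F := F) w).toValuationSubring) : F)
      = algebraMap B F b := rfl

/-- The reduction map `B → κ(placeOf w)` as a `K`-algebra homomorphism. -/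
noncomputable def toResidue (w : HeightOneSpectrum B) :
    B →ₐ[K] (placeOf (K := K) (F := F) w).ResidueField :=
  { ((IsLocalRing.residue (placeOf (K := K) (F := F) w).toValuationSubring).comp
      (toPlaceRing (K := K) (F := F) w)) with
    commutes' := by
      intro a
      show IsLocalRing.residue _ (toPlaceRing (K := K) (F := F) w (algebraMap K B a)) =
        IsLocalRing.residue _ (algebraMap K (placeOf (K := K) (F := F) w).toValuationSubring a)
      congr 1
      apply Subtype.ext
      rw [coe_toPlaceRing, Place.coe_algebraMap, ← IsScalarTower.algebraMap_apply] }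

theorem toResidue_apply (w : HeightOneSpectrum B) (b : B) :
    toResidue (K := K) (F := F) w b =
      IsLocalRing.residue _ (toPlaceRing (K := K) (F := F) w b) := rfl

theorem residue_eq_zero_iff_valuation_lt_one (w : HeightOneSpectrum B)
    (x : (placeOf (K := K) (F := F) w).toValuationSubring) :
    IsLocalRing.residue _ x = 0 ↔ w.valuation F (x : F) < 1 := by
  rw [IsLocalRing.residue_eq_zero_iff, IsLocalRing.mem_maximalIdeal, mem_nonunits_iff,
    isUnit_placeOf_iff]
  have hle : w.valuation F (x : F) ≤ 1 := (mem_placeOf_iff (K := K) w _).mp x.2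
  constructor
  · intro h
    exact lt_of_le_of_ne hle h
  · intro h
    exact h.ne

theorem toResidue_eq_zero_iff (w : HeightOneSpectrum B) (b : B) :
    toResidue (K := K) (F := F) w b = 0 ↔ b ∈ w.asIdeal := by
  rw [toResidue_apply, residue_eq_zero_iff_valuation_lt_one, coe_toPlaceRing,
    HeightOneSpectrum.valuation_lt_one_iff_mem]

theorem ker_toResidue (w : HeightOneSpectrum B) :
    RingHom.ker (toResidue (K := K) (F := F) w) = w.asIdeal := by
  ext b
  rw [RingHom.mem_ker]
  exact toResidue_eq_zero_iff w b

theorem toResidue_surjective (w : HeightOneSpectrum B) :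
    Function.Surjective (toResidue (K := K) (F := F) w) := by
  intro y
  obtain ⟨x, rfl⟩ := IsLocalRing.residue_surjective y
  have hx : w.valuation F (x : F) ≤ 1 := (mem_placeOf_iff (K := K) w _).mp x.2
  obtain ⟨n, d, hnd⟩ := w.exists_primeCompl_mul_eq_of_integer (x : F) hx
  have hd : (d : B) ∉ w.asIdeal := d.2
  -- invert `d` modulo the maximal ideal `w`
  have hmax : w.asIdeal.IsMaximal := w.isMaximal
  obtain ⟨d', hd'⟩ : ∃ d' : B, (d : B) * d' - 1 ∈ w.asIdeal := by
    obtain ⟨d', hd'⟩ := Ideal.Quotient.exists_inv (I := w.asIdeal)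
      (a := Ideal.Quotient.mk w.asIdeal (d : B))
      (by rwa [ne_eq, Ideal.Quotient.eq_zero_iff_mem])
    obtain ⟨d'', rfl⟩ := Ideal.Quotient.mk_surjective d'
    refine ⟨d'', ?_⟩
    rw [← Ideal.Quotient.eq_zero_iff_mem, map_sub, map_mul, hd', map_one, sub_self]
  refine ⟨n * d', ?_⟩
  rw [toResidue_apply, ← sub_eq_zero, ← map_sub, residue_eq_zero_iff_valuation_lt_one]
  have hdv : w.valuation F (algebraMap B F (d : B)) = 1 :=
    (HeightOneSpectrum.valuation_eq_one_iff_notMem w).mpr hd
  have hd0 : algebraMap B F (d : B) ≠ 0 := by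
    intro h0
    rw [h0, map_zero] at hdv
    exact zero_ne_one hdv
  have hkey : algebraMap B F (n * d') - (x : F)
      = (x : F) * algebraMap B F ((d : B) * d' - 1) := by
    rw [map_sub, map_mul, map_mul, map_one, ← hnd]
    ring
  have : ((toPlaceRing (K := K) (F := F) w (n * d') - x :
      (placeOf (K := K) (F := F) w).toValuationSubring) : F)
      = (x : F) * algebraMap B F ((d : B) * d' - 1) := by
    rw [← hkey]
    rfl
  rw [this, map_mul]
  calc w.valuation F (x : F) * w.valuation F (algebraMap B F ((d : B) * d' - 1))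
      ≤ 1 * w.valuation F (algebraMap B F ((d : B) * d' - 1)) :=
        mul_le_mul_left hx _
    _ = w.valuation F (algebraMap B F ((d : B) * d' - 1)) := one_mul _
    _ < 1 := (HeightOneSpectrum.valuation_lt_one_iff_mem w _).mpr hd'

/-- `B ⧸ w ≃ₐ[K] κ(placeOf w)`. -/
noncomputable def residueEquiv (w : HeightOneSpectrum B) :
    (B ⧸ w.asIdeal) ≃ₐ[K] (placeOf (K := K) (F := F) w).ResidueField :=
  (Ideal.quotientEquivAlgOfEq K (ker_toResidue (K := K) (F := F) w).symm).trans
    (Ideal.quotientKerAlgEquivOfSurjective (toResidue_surjective (K := K) (F := F) w))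

theorem residueEquiv_mk (w : HeightOneSpectrum B) (b : B) :
    residueEquiv (K := K) (F := F) w (Ideal.Quotient.mk w.asIdeal b)
      = IsLocalRing.residue _ (toPlaceRing (K := K) (F := F) w b) := rfl

theorem deg_placeOf (w : HeightOneSpectrum B) :
    (placeOf (K := K) (F := F) w).deg = Module.finrank K (B ⧸ w.asIdeal) :=
  (residueEquiv (K := K) (F := F) w).toLinearEquiv.finrank_eq.symm

end Fermat.Agent.S24.H42
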