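import Mathlib
import Fermat.Prelude.Def_AlgebraicCurve_DivisorClassGroup
import Fermat.Agent.S24.H42_PlaceDict
import Fermat.Agent.S24.H42_Residue

set_option autoImplicit false
set_option linter.unusedSectionVars false
set_option linter.style.haveILetI false

/-!
The fundamental identity `∑ e f = n` in the language of places:
for a finite extension of Dedekind domains `A ⊆ B`, `Frac B = F`, `K ⊆ A` a field mapping
isomorphically onto `A ⧸ (π)`, the places `v` of `F/K` with `B ⊆ O_v` and `ord_v π > 0` satisfy
`∑ ord_v π * deg v = rank_A B`.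
-/

namespace Fermat.Agent.S24.H42

open AlgebraicCurve IsDedekindDomain WithZero

variable {K F : Type*} [Field K] [Field F] [Algebra K F]
variable {A B : Type*} [CommRing A] [IsDedekindDomain A] [CommRing B] [IsDedekindDomain B]
  [Algebra K A] [Algebra K B] [Algebra A B] [IsScalarTower K A B]
  [Algebra B F] [IsFractionRing B F] [IsScalarTower K B F]

/-- `ord` of an element of `B` at the place of `w` is the multiplicity of `w` in `(b)`. -/
theorem ord_placeOf_algebraMap (w : HeightOneSpectrum B) {b : B} (hb : b ≠ 0) :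
    (placeOf (K := K) (F := F) w).ord (algebraMap B F b)
      = (multiplicity w.asIdeal (Ideal.span {b}) : ℤ) := by
  rw [ord_placeOf, HeightOneSpectrum.valuation_of_algebraMap,
    HeightOneSpectrum.intValuation_eq_exp_neg_multiplicity w hb, log_exp, neg_neg]

theorem ord_placeOf_pos_iff (w : HeightOneSpectrum B) (b : B) (hb : b ≠ 0) :
    0 < (placeOf (K := K) (F := F) w).ord (algebraMap B F b) ↔ b ∈ w.asIdeal := by
  rw [ord_placeOf, ← HeightOneSpectrum.valuation_lt_one_iff_mem (K := F)]
  have h0 : w.valuation F (algebraMap B F b) ≠ 0 := by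
    rw [ne_eq, map_eq_zero]
    intro h
    exact hb ((IsFractionRing.injective B F) (by rw [h, map_zero]))
  rw [← exp_zero (M := ℤ), ← log_lt_iff_lt_exp h0]
  omega

/-- Ramification index = order of the uniformiser of the base. -/
theorem ramificationIdx_eq_ord (w : HeightOneSpectrum B) (π : A)
    (hπ : algebraMap A B π ≠ 0) [w.asIdeal.LiesOver (Ideal.span {π})] :
    ((w.asIdeal.ramificationIdx A : ℕ) : ℤ)
      = (placeOf (K := K) (F := F) w).ord (algebraMap B F (algebraMap A B π)) := by
  have hmap : (Ideal.span {π}).map (algebraMap A B) = Ideal.span {algebraMap A B π} := by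
    rw [Ideal.map_span, Set.image_singleton]
  have hne : (Ideal.span {π}).map (algebraMap A B) ≠ ⊥ := by
    rw [hmap, ne_eq, Ideal.span_singleton_eq_bot]
    exact hπ
  have := w.isPrime
  rw [Ideal.IsDedekindDomain.ramificationIdx_eq_multiplicity (Ideal.span {π}) w.asIdeal hne, hmap,
    ord_placeOf_algebraMap w hπ]

/-- Inertia degree = degree of the place, when the base residue field is `K`. -/
theorem inertiaDeg_eq_deg (w : HeightOneSpectrum B) (p : Ideal A) [p.IsMaximal]
    [w.asIdeal.LiesOver p] (hres : Function.Surjective (algebraMap K (A ⧸ p))) :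
    w.asIdeal.inertiaDeg A = (placeOf (K := K) (F := F) w).deg := by
  have := w.isMaximal
  rw [Ideal.inertiaDeg_eq_of_isMaximal p w.asIdeal, deg_placeOf]
  letI : Field (A ⧸ p) := Ideal.Quotient.field p
  have hbij : Function.Bijective (algebraMap K (A ⧸ p)) :=
    ⟨(algebraMap K (A ⧸ p)).injective, hres⟩
  symm
  refine Algebra.finrank_eq_of_equiv_equiv (RingEquiv.ofBijective (algebraMap K (A ⧸ p)) hbij)
    (RingEquiv.refl (B ⧸ w.asIdeal)) ?_
  ext x
  simp only [RingHom.coe_comp, Function.comp_apply, RingEquiv.toRingHom_eq_coe,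
    RingHom.coe_coe, RingEquiv.ofBijective_apply, RingEquiv.refl_apply]
  rw [← IsScalarTower.algebraMap_apply K (A ⧸ p) (B ⧸ w.asIdeal)]

variable [Module.Finite A B] [FaithfulSMul A B]

/-- **Fundamental identity** for places: the places of `F/K` whose valuation ring contains `B` and
at which `π` vanishes form a finite set, and `∑ ord_v π * deg v = rank_A B`. -/
theorem exists_finset_sum_ord_mul_deg (π : A) (hπ : π ≠ 0)
    (hmax : (Ideal.span {π}).IsMaximal)
    (hres : Function.Surjective (algebraMap K (A ⧸ Ideal.span {π}))) :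
    ∃ s : Finset (Place K F),
      (∀ v : Place K F, v ∈ s ↔ (∀ b : B, algebraMap B F b ∈ v.toValuationSubring) ∧
          0 < v.ord (algebraMap B F (algebraMap A B π))) ∧
      ∑ v ∈ s, v.ord (algebraMap B F (algebraMap A B π)) * (v.deg : ℤ)
        = (Module.finrank A B : ℤ) := by
  classical
  set p : Ideal A := Ideal.span {π} with hp
  have hp0 : p ≠ ⊥ := by
    rw [hp, ne_eq, Ideal.span_singleton_eq_bot]
    exact hπ
  have hinj : Function.Injective (algebraMap A B) := FaithfulSMul.algebraMap_injective A B
  have hπB : algebraMap A B π ≠ 0 := by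
    intro h
    exact hπ (hinj (by rw [h, map_zero]))
  haveI : Fintype (p.primesOver B) := (Algebra.QuasiFinite.finite_primesOver p).fintype
  let g : p.primesOver B → Place K F := fun q =>
    placeOf (K := K) (F := F) ⟨q.1, q.2.1, Ideal.ne_bot_of_mem_primesOver hp0 q.2⟩
  have hg : Function.Injective g := by
    intro q q' h
    have := placeOf_injective (K := K) (F := F) h
    apply Subtype.ext
    exact congrArg HeightOneSpectrum.asIdeal this
  refine ⟨Finset.univ.map ⟨g, hg⟩, ?_, ?_⟩
  · intro v
    simp only [Finset.mem_map, Finset.mem_univ, true_and, Function.Embedding.coeFn_mk]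
    constructor
    · rintro ⟨q, rfl⟩
      refine ⟨fun b => algebraMap_mem_placeOf _ b, ?_⟩
      rw [ord_placeOf_pos_iff _ _ hπB]
      have : q.1.LiesOver p := q.2.2
      show algebraMap A B π ∈ q.1
      rw [← Ideal.mem_of_liesOver q.1 p]
      exact Ideal.subset_span rfl
    · rintro ⟨hB, hpos⟩
      obtain ⟨w, rfl⟩ := exists_placeOf_eq v hB
      rw [ord_placeOf_pos_iff _ _ hπB] at hpos
      have hle : p ≤ w.asIdeal.under A := by
        rw [hp, Ideal.span_le, Set.singleton_subset_iff]
        exact hpos
      have hne : w.asIdeal.under A ≠ ⊤ := by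
        have := w.isPrime
        exact (Ideal.IsPrime.under A w.asIdeal).ne_top
      have heq : p = w.asIdeal.under A := hmax.eq_of_le hne hle
      have hlo : w.asIdeal.LiesOver p := ⟨heq⟩
      refine ⟨⟨w.asIdeal, w.isPrime, hlo⟩, ?_⟩
      rfl
  · rw [Finset.sum_map]
    simp only [Function.Embedding.coeFn_mk]
    rw [← Ideal.sum_ramification_inertia_eq_finrank p B]
    push_cast
    refine Finset.sum_congr rfl fun q _ => ?_
    have : q.1.LiesOver p := q.2.2
    have hlo : (⟨q.1, q.2.1, Ideal.ne_bot_of_mem_primesOver hp0 q.2⟩ :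
        HeightOneSpectrum B).asIdeal.LiesOver (Ideal.span {π}) := q.2.2
    rw [← ramificationIdx_eq_ord (K := K) (F := F)
        ⟨q.1, q.2.1, Ideal.ne_bot_of_mem_primesOver hp0 q.2⟩ π hπB,
      ← inertiaDeg_eq_deg (K := K) (F := F)
        ⟨q.1, q.2.1, Ideal.ne_bot_of_mem_primesOver hp0 q.2⟩ p hres]

end Fermat.Agent.S24.H42
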