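import Mathlib
import Fermat.Prelude.Def_AlgebraicCurve_DivisorClassGroup
import Fermat.Agent.S24.H42_FundId
import Fermat.Agent.S24.H97_Places
import Fermat.Agent.S24.H25_Glue
import Fermat.Agent.S24.H24_RH

set_option autoImplicit false
set_option linter.unusedSectionVars false
set_option linter.style.haveILetI false

/-!
FF2: the fundamental identity for a function field `F/K` with separating element `t`:
`∑_{v : ord_v (t - a) > 0} ord_v (t - a) * deg v = [F : K(t)]`.
-/

open IsDedekindDomain Polynomial AlgebraicCurve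
open scoped IntermediateField IntermediateField.algebraAdjoinAdjoin

noncomputable section

namespace Fermat.Agent.S24.H42

open Fermat.Agent.S24.H97

variable {K F : Type*} [Field K] [Field F] [Algebra K F]

section poly

variable (t : F)

/-- `t - a` as an element of `K[t]`. -/
def linElt (a : K) : polyRing K t :=
  ⟨t - algebraMap K F a,
    sub_mem (Algebra.self_mem_adjoin_singleton K t) (Subalgebra.algebraMap_mem _ a)⟩

@[simp] theorem coe_linElt (a : K) : ((linElt t a : polyRing K t) : F) = t - algebraMap K F a := rfl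

theorem exists_aeval_eq (x : polyRing K t) : ∃ p : K[X], aeval t p = (x : F) := by
  have hx : (x : F) ∈ Algebra.adjoin K {t} := x.2
  rw [Algebra.adjoin_singleton_eq_range_aeval] at hx
  exact hx

theorem aeval_mem_polyRing (p : K[X]) : aeval t p ∈ polyRing K t := by
  show aeval t p ∈ Algebra.adjoin K {t}
  rw [Algebra.adjoin_singleton_eq_range_aeval]
  exact ⟨p, rfl⟩

/-- Every element of `K[t]` is congruent to a constant modulo `t - a`. -/
theorem exists_sub_algebraMap_mem (a : K) (x : polyRing K t) :
    ∃ c : K, x - algebraMap K (polyRing K t) c ∈ Ideal.span {linElt t a} := by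
  obtain ⟨p, hp⟩ := exists_aeval_eq t x
  obtain ⟨q, hq⟩ := X_sub_C_dvd_sub_C_eval (a := a) (p := p)
  refine ⟨p.eval a, ?_⟩
  rw [Ideal.mem_span_singleton']
  refine ⟨⟨aeval t q, aeval_mem_polyRing t q⟩, ?_⟩
  apply Subtype.ext
  have h1 := congrArg (aeval t) hq
  simp only [map_sub, map_mul, aeval_X, aeval_C] at h1
  show aeval t q * (t - algebraMap K F a) = (x : F) - algebraMap K F (p.eval a)
  rw [← hp, h1, mul_comm]

theorem linElt_ne_zero (ht : Transcendental K t) (a : K) : linElt t a ≠ 0 := by
  intro h
  have h1 : t - algebraMap K F a = 0 := congrArg Subtype.val h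
  apply ht
  rw [sub_eq_zero.mp h1]
  exact isAlgebraic_algebraMap a

theorem not_isUnit_linElt (ht : Transcendental K t) (a : K) : ¬ IsUnit (linElt t a) := by
  rintro ⟨u, hu⟩
  obtain ⟨q, hq⟩ := exists_aeval_eq t (↑u⁻¹ : polyRing K t)
  have h1 : ((linElt t a * (↑u⁻¹ : polyRing K t) : polyRing K t) : F) = 1 := by
    rw [← hu, Units.mul_inv]
    rfl
  have h2 : aeval t ((X - C a) * q - 1) = 0 := by
    simp only [map_sub, map_mul, aeval_X, aeval_C, map_one, hq]
    rw [sub_eq_zero, ← h1]
    rfl
  have h3 : (X - C a) * q - 1 = 0 :=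
    (transcendental_iff_injective.mp ht) (by rw [h2, map_zero])
  have h4 := congrArg (Polynomial.eval a) h3
  simp at h4

theorem span_linElt_ne_top (ht : Transcendental K t) (a : K) :
    Ideal.span {linElt t a} ≠ ⊤ := by
  rw [ne_eq, Ideal.span_singleton_eq_top]
  exact not_isUnit_linElt t ht a

theorem algebraMap_quotient_surjective (a : K) :
    Function.Surjective (algebraMap K (polyRing K t ⧸ Ideal.span {linElt t a})) := by
  intro y
  obtain ⟨x, rfl⟩ := Ideal.Quotient.mk_surjective y
  obtain ⟨c, hc⟩ := exists_sub_algebraMap_mem t a x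
  refine ⟨c, ?_⟩
  rw [IsScalarTower.algebraMap_apply K (polyRing K t) (polyRing K t ⧸ Ideal.span {linElt t a}),
    Ideal.Quotient.algebraMap_eq]
  exact (Ideal.Quotient.eq.mpr hc).symm

theorem span_linElt_isMaximal (ht : Transcendental K t) (a : K) :
    (Ideal.span {linElt t a}).IsMaximal := by
  have hnt : Nontrivial (polyRing K t ⧸ Ideal.span {linElt t a}) :=
    Ideal.Quotient.nontrivial_iff.mpr (span_linElt_ne_top t ht a)
  have hbij : Function.Bijective (algebraMap K (polyRing K t ⧸ Ideal.span {linElt t a})) :=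
    ⟨(algebraMap K _).injective, algebraMap_quotient_surjective t a⟩
  apply Ideal.Quotient.maximal_of_isField
  exact (RingEquiv.ofBijective _ hbij).symm.toMulEquiv.isField (Field.toIsField K)

end poly

section main

variable (t : F) [FiniteDimensional K⟮t⟯ F] [CharZero K]

/-- **FF2 (zeros).** The places over `t = a` form a finite set and
`∑ ord_v (t - a) * deg v = [F : K(t)]`. -/
theorem exists_finset_fib (ht : Transcendental K t) (a : K) :
    ∃ s : Finset (Place K F),
      (∀ v : Place K F, v ∈ s ↔ 0 < v.ord (t - algebraMap K F a)) ∧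
      ∑ v ∈ s, v.ord (t - algebraMap K F a) * (v.deg : ℤ) = (Module.finrank K⟮t⟯ F : ℤ) := by
  haveI : Fact (Transcendental K t) := ⟨ht⟩
  haveI := isDedekindDomain_polyRing (K := K) t ht
  haveI := H25.finite_intRing (K := K) t ht
  obtain ⟨s, hs, hsum⟩ := exists_finset_sum_ord_mul_deg (K := K) (F := F)
    (A := polyRing K t) (B := intRing K t) (linElt t a) (linElt_ne_zero t ht a)
    (span_linElt_isMaximal t ht a) (algebraMap_quotient_surjective t a)
  have hcoe : algebraMap (intRing K t) F (algebraMap (polyRing K t) (intRing K t) (linElt t a))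
      = t - algebraMap K F a := rfl
  rw [hcoe] at hsum
  simp only [hcoe] at hs
  refine ⟨s, ?_, ?_⟩
  · intro v
    rw [hs v]
    constructor
    · exact fun h => h.2
    · intro h
      refine ⟨?_, h⟩
      -- `t ∈ O_v`
      have hne : t - algebraMap K F a ≠ 0 := by
        intro h0
        rw [h0, Place.ord_zero] at h
        exact lt_irrefl _ h
      have hmem : t - algebraMap K F a ∈ v.toValuationSubring :=
        (H27.mem_toValuationSubring_of_ne_zero v hne).mpr h.le
      have htv : t ∈ v.toValuationSubring := by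
        have := v.toValuationSubring.add_mem _ _ hmem (v.algebraMap_mem' a)
        simpa using this
      intro b
      exact coe_mem_of_mem t v htv b
  · rw [hsum]
    congr 1
    exact (IsFractionRing.finrank_eq (polyRing K t) K⟮t⟯ (intRing K t) F).symm

/-- **FF2 (zeros of `t`).** -/
theorem exists_finset_zeros (ht : Transcendental K t) :
    ∃ s : Finset (Place K F),
      (∀ v : Place K F, v ∈ s ↔ 0 < v.ord t) ∧
      ∑ v ∈ s, v.ord t * (v.deg : ℤ) = (Module.finrank K⟮t⟯ F : ℤ) := by
  obtain ⟨s, hs, hsum⟩ := exists_finset_fib (K := K) t ht 0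
  simp only [map_zero, sub_zero] at hs hsum
  exact ⟨s, hs, hsum⟩

theorem finrank_adjoin_inv : Module.finrank K⟮t⁻¹⟯ F = Module.finrank K⟮t⟯ F :=
  congrArg (fun E : IntermediateField K F => Module.finrank E F) (H25.adjoin_inv_eq (K := K) t)

/-- **FF2 (poles of `t`).** The poles of `t` form a finite set and
`∑ ord_v t * deg v = -[F : K(t)]`. -/
theorem exists_finset_poles (ht : Transcendental K t) :
    ∃ s : Finset (Place K F),
      (∀ v : Place K F, v ∈ s ↔ v.ord t < 0) ∧
      ∑ v ∈ s, v.ord t * (v.deg : ℤ) = -(Module.finrank K⟮t⟯ F : ℤ) := by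
  haveI : FiniteDimensional K⟮t⁻¹⟯ F := by
    rw [H25.adjoin_inv_eq]; infer_instance
  obtain ⟨s, hs, hsum⟩ := exists_finset_zeros (K := K) t⁻¹ (H25.transcendental_inv t ht)
  refine ⟨s, ?_, ?_⟩
  · intro v
    rw [hs v, Place.ord_inv]
    omega
  · rw [finrank_adjoin_inv] at hsum
    rw [← hsum, ← Finset.sum_neg_distrib]
    refine Finset.sum_congr rfl fun v _ => ?_
    rw [Place.ord_inv]
    ring

/-- `F` is finite over `K(f)` for every transcendental `f`. -/
theorem finiteDimensional_adjoin_of_transcendental (ht : Transcendental K t) {f : F}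
    (hf : Transcendental K f) : FiniteDimensional K⟮f⟯ F := by
  haveI : Algebra.IsAlgebraic K⟮t⟯ F := inferInstance
  haveI := H25.isAlgebraic_adjoin_of_transcendental (K := K) t ht hf
  haveI : Algebra.EssFiniteType K K⟮t⟯ :=
    IntermediateField.essFiniteType_iff.mpr
      (IntermediateField.fg_adjoin_of_finite (Set.finite_singleton t))
  haveI : Algebra.EssFiniteType K⟮t⟯ F := inferInstance
  haveI : Algebra.EssFiniteType K F := Algebra.EssFiniteType.comp K K⟮t⟯ F
  haveI : Algebra.EssFiniteType K⟮f⟯ F := Algebra.EssFiniteType.of_comp K K⟮f⟯ F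
  exact Algebra.finite_of_essFiniteType_of_isAlgebraic

/-- **FF2c.** Every nonzero function has a divisor, of degree zero. -/
theorem exists_divisor_degree_zero (ht : Transcendental K t) (f : F) :
    ∃ Df : Divisor K F, (∀ v, Df v = v.ord f) ∧ Divisor.degree Df = 0 := by
  classical
  by_cases hf : IsAlgebraic K f
  · refine ⟨0, fun v => ?_, map_zero _⟩
    rw [H25.ord_eq_zero_of_isAlgebraic v hf]
    rfl
  · have hftr : Transcendental K f := hf
    haveI := finiteDimensional_adjoin_of_transcendental (K := K) t ht hftr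
    obtain ⟨s, hs, hsum⟩ := exists_finset_zeros (K := K) f hftr
    obtain ⟨s', hs', hsum'⟩ := exists_finset_poles (K := K) f hftr
    have hdisj : Disjoint s s' := by
      rw [Finset.disjoint_left]
      intro v hv hv'
      have h1 := (hs v).mp hv
      have h2 := (hs' v).mp hv'
      omega
    let Df : Divisor K F := Finsupp.onFinset (s ∪ s') (fun v => v.ord f) (by
      intro v hv
      rw [Finset.mem_union, hs, hs']
      omega)
    refine ⟨Df, fun v => rfl, ?_⟩
    have h1 : Divisor.degree Df = Df.sum fun v k => k * (v.deg : ℤ) := by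
      simp [Divisor.degree, Finsupp.liftAddHom_apply]
    rw [h1, Finsupp.onFinset_sum _ (fun v => by simp), Finset.sum_union hdisj, hsum, hsum']
    ring

/-- Field `principal` of `H24.RH.Data`. -/
theorem principal (ht : Transcendental K t) :
    ∀ f : F, f ≠ 0 → ∃ Df : Divisor K F, (∀ v, Df v = v.ord f) ∧ Divisor.degree Df = 0 :=
  fun f _ => exists_divisor_degree_zero (K := K) t ht f

/-- Field `fib_finite` of `H24.RH.Data`. -/
theorem fib_finite (ht : Transcendental K t) (a : K) : (H24.RH.fib (K := K) t a).Finite := by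
  obtain ⟨s, hs, -⟩ := exists_finset_fib (K := K) t ht a
  refine s.finite_toSet.subset ?_
  intro v hv
  exact (hs v).mpr hv

/-- Field `poles_finite` of `H24.RH.Data`. -/
theorem poles_finite (ht : Transcendental K t) : (H24.RH.poles (K := K) t).Finite := by
  obtain ⟨s, hs, -⟩ := exists_finset_poles (K := K) t ht
  refine s.finite_toSet.subset ?_
  intro v hv
  exact (hs v).mpr hv

/-- Weighted fibre sum over the canonical finset. -/
theorem fib_sum_deg (ht : Transcendental K t) (a : K) :
    ∑ v ∈ (fib_finite (K := K) t ht a).toFinset, v.ord (t - algebraMap K F a) * (v.deg : ℤ)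
      = (Module.finrank K⟮t⟯ F : ℤ) := by
  obtain ⟨s, hs, hsum⟩ := exists_finset_fib (K := K) t ht a
  have : (fib_finite (K := K) t ht a).toFinset = s := by
    ext v
    rw [Set.Finite.mem_toFinset, hs v]
    rfl
  rw [this, hsum]

/-- Weighted pole sum over the canonical finset. -/
theorem poles_sum_deg (ht : Transcendental K t) :
    ∑ v ∈ (poles_finite (K := K) t ht).toFinset, v.ord t * (v.deg : ℤ)
      = -(Module.finrank K⟮t⟯ F : ℤ) := by
  obtain ⟨s, hs, hsum⟩ := exists_finset_poles (K := K) t ht
  have : (poles_finite (K := K) t ht).toFinset = s := by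
    ext v
    rw [Set.Finite.mem_toFinset, hs v]
    rfl
  rw [this, hsum]

/-- Field `fib_sum` of `H24.RH.Data` (all places of degree one). -/
theorem fib_sum (ht : Transcendental K t) (hdeg : ∀ v : Place K F, v.deg = 1) (a : K) :
    ∑ v ∈ (fib_finite (K := K) t ht a).toFinset, v.ord (t - algebraMap K F a)
      = (Module.finrank K⟮t⟯ F : ℤ) := by
  rw [← fib_sum_deg (K := K) t ht a]
  refine Finset.sum_congr rfl fun v _ => ?_
  rw [hdeg v]; simp

/-- Field `poles_sum` of `H24.RH.Data` (all places of degree one). -/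
theorem poles_sum (ht : Transcendental K t) (hdeg : ∀ v : Place K F, v.deg = 1) :
    ∑ v ∈ (poles_finite (K := K) t ht).toFinset, v.ord t
      = -(Module.finrank K⟮t⟯ F : ℤ) := by
  rw [← poles_sum_deg (K := K) t ht]
  refine Finset.sum_congr rfl fun v _ => ?_
  rw [hdeg v]; simp

end main

end Fermat.Agent.S24.H42
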