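import Fermat.Agent.S24.H25_Glue
import Fermat.Agent.S24.H42_Residue
import Fermat.Agent.S24.H42_FundId
import Fermat.Agent.S24.H42_FF2
import Fermat.Agent.S24.H24_RH

set_option autoImplicit false
set_option linter.style.haveILetI false

open KaehlerDifferential Polynomial IntermediateField IsDedekindDomain AlgebraicCurve
open scoped IntermediateField.algebraAdjoinAdjoin

noncomputable section

namespace Fermat.Agent.S24.H25

open Fermat.Agent.S24.H97 Fermat.Agent.S24.H24

universe u v

variable {K : Type u} {F : Type v} [Field K] [Field F] [Algebra K F]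

section DegOne

/-- Over an algebraically closed field, the place attached to a height-one prime of a
finitely generated Dedekind `K`-algebra has degree one. -/
theorem deg_placeOf_eq_one [IsAlgClosed K] {B : Type*} [CommRing B] [IsDedekindDomain B]
    [Algebra B F] [IsFractionRing B F] [Algebra K B] [IsScalarTower K B F]
    [Algebra.FiniteType K B] (w : HeightOneSpectrum B) :
    (H42.placeOf (K := K) (F := F) w).deg = 1 := by
  rw [H42.deg_placeOf]
  haveI := w.isMaximal
  letI : Field (B ⧸ w.asIdeal) := Ideal.Quotient.field _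
  haveI : Algebra.FiniteType K (B ⧸ w.asIdeal) :=
    Algebra.FiniteType.of_surjective (Ideal.Quotient.mkₐ K w.asIdeal)
      (Ideal.Quotient.mkₐ_surjective K w.asIdeal)
  haveI : Module.Finite K (B ⧸ w.asIdeal) := finite_of_finite_type_of_isJacobsonRing K _
  haveI : Algebra.IsIntegral K (B ⧸ w.asIdeal) := Algebra.IsIntegral.of_finite K _
  have hbij : Function.Bijective (algebraMap K (B ⧸ w.asIdeal)) :=
    IsAlgClosed.algebraMap_bijective_of_isIntegral
  have e : K ≃ₗ[K] (B ⧸ w.asIdeal) :=
    LinearEquiv.ofBijective (Algebra.linearMap K (B ⧸ w.asIdeal)) hbij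
  rw [← e.finrank_eq, Module.finrank_self]

variable (t : F) [FiniteDimensional K⟮t⟯ F] [CharZero K]

theorem deg_eq_one_of_mem [IsAlgClosed K] (ht : Transcendental K t) (v : Place K F)
    (hv : t ∈ v.toValuationSubring) : v.deg = 1 := by
  haveI : Fact (Transcendental K t) := ⟨ht⟩
  haveI := finiteType_intRing (K := K) t ht
  have h := placeOfPrime_primeOfPlace (K := K) t v hv
  have key := deg_placeOf_eq_one (K := K) (F := F) (B := intRing K t) (primeOfPlace t v hv)
  unfold placeOfPrime at h
  unfold H42.placeOf at key
  rw [h] at key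
  exact key

/-- Field `deg_eq_one` of `RH.Data`. -/
theorem deg_eq_one [IsAlgClosed K] (ht : Transcendental K t) (v : Place K F) : v.deg = 1 := by
  by_cases hv : t ∈ v.toValuationSubring
  · exact deg_eq_one_of_mem (K := K) t ht v hv
  · have hv' : t⁻¹ ∈ v.toValuationSubring :=
      (v.toValuationSubring.mem_or_inv_mem t).resolve_left hv
    haveI : FiniteDimensional K⟮t⁻¹⟯ F := by
      rw [adjoin_inv_eq]; infer_instance
    exact deg_eq_one_of_mem (K := K) t⁻¹ (transcendental_inv t ht) v hv'

end DegOne

section Value

/-- A nonzero element of the maximal ideal of `𝒪_v` has positive order. -/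
theorem ord_pos_of_residue_eq_zero (v : Place K F) (y : v.toValuationSubring)
    (hy0 : (y : F) ≠ 0) (hy : IsLocalRing.residue v.toValuationSubring y = 0) :
    0 < v.ord (y : F) := by
  have h1 : 0 ≤ v.ord (y : F) := (PlaceLemmas.mem_iff_ord_nonneg v hy0).mp y.2
  rcases h1.lt_or_eq with h | h
  · exact h
  · exfalso
    have h2 : 0 ≤ v.ord (y : F)⁻¹ := by rw [v.ord_inv, ← h]; simp
    have h3 : (y : F)⁻¹ ∈ v.toValuationSubring :=
      (PlaceLemmas.mem_iff_ord_nonneg v (inv_ne_zero hy0)).mpr h2
    have hu : IsUnit y := by
      refine IsUnit.of_mul_eq_one (⟨(y : F)⁻¹, h3⟩ : v.toValuationSubring) ?_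
      apply Subtype.ext
      simp [hy0]
    rw [IsLocalRing.residue_eq_zero_iff, IsLocalRing.mem_maximalIdeal, mem_nonunits_iff] at hy
    exact hy hu

/-- Field `value` of `RH.Data`, for places with trivial residue field. -/
theorem value_of_residueTrivial (t : F) (ht : Transcendental K t) (v : Place K F)
    (hres : ResidueTrivial v) :
    v.ord t < 0 ∨ ∃ a : K, 0 < v.ord (t - algebraMap K F a) := by
  by_cases h : v.ord t < 0
  · exact Or.inl h
  · right
    rw [not_lt] at h
    have ht0 : t ≠ 0 := by
      rintro rfl
      exact ht isAlgebraic_zero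
    have hmem : t ∈ v.toValuationSubring := (PlaceLemmas.mem_iff_ord_nonneg v ht0).mpr h
    obtain ⟨a, ha⟩ := hres (IsLocalRing.residue _ ⟨t, hmem⟩)
    refine ⟨a, ?_⟩
    obtain ⟨y, hy⟩ : ∃ y : v.toValuationSubring,
        y = ⟨t, hmem⟩ - algebraMap K v.toValuationSubring a := ⟨_, rfl⟩
    have hyF : (y : F) = t - algebraMap K F a := by
      rw [hy]
      rfl
    have h0 : IsLocalRing.residue v.toValuationSubring y = 0 := by
      rw [hy, map_sub, ← ha, sub_eq_zero]
      rfl
    have hne : t - algebraMap K F a ≠ 0 := by
      intro h1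
      apply ht
      rw [sub_eq_zero.mp h1]
      exact isAlgebraic_algebraMap a
    rw [← hyF] at hne ⊢
    exact ord_pos_of_residue_eq_zero v y hne h0

variable (t : F) [FiniteDimensional K⟮t⟯ F] [CharZero K]

/-- Field `value` of `RH.Data`. -/
theorem value [IsAlgClosed K] (ht : Transcendental K t) (v : Place K F) :
    v.ord t < 0 ∨ ∃ a : K, 0 < v.ord (t - algebraMap K F a) :=
  value_of_residueTrivial t ht v (residueTrivial_of_deg_eq_one v (deg_eq_one (K := K) t ht v))

end Value

section Wire

variable (x : F) [FiniteDimensional K⟮x⟯ F] [CharZero K] [IsAlgClosed K]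

/-- **FF-WIRE.** All the function-field inputs of the Riemann–Hurwitz computation, for a
function field `F` of one variable over an algebraically closed field `K` of characteristic
zero with a transcendental element `x`. -/
theorem rhData (hx : Transcendental K x) :
    H24.RH.Data (K := K) x (Module.finrank K⟮x⟯ F) where
  deg_eq_one := deg_eq_one (K := K) x hx
  dcoord := dCoordGenerates (K := K) x hx
  nontrivial := nontrivial_omega (K := K) x hx
  span := exists_eq_smul_D (K := K) x hx
  principal := H42.principal (K := K) x hx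
  value := value (K := K) x hx
  ord_fin := ordDifferential_D_fin (K := K) x hx (deg_eq_one (K := K) x hx)
  ord_pole := ordDifferential_D_pole (K := K) x hx (deg_eq_one (K := K) x hx)
  fib_finite := H42.fib_finite (K := K) x hx
  fib_sum := H42.fib_sum (K := K) x hx (deg_eq_one (K := K) x hx)
  poles_finite := H42.poles_finite (K := K) x hx
  poles_sum := H42.poles_sum (K := K) x hx (deg_eq_one (K := K) x hx)

end Wire

end Fermat.Agent.S24.H25
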