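import Mathlib
import Fermat.Prelude.Def_AlgebraicCurve_CanonicalDivisor

set_option autoImplicit false
set_option linter.style.haveILetI false

open KaehlerDifferential Polynomial IntermediateField

noncomputable section

namespace Fermat.Agent.S24.H25

universe u v

variable {K : Type u} {F : Type v} [Field K] [Field F] [Algebra K F]

section RankOne

variable (x : F)

/-- `K[X]`-algebra structure on `F` by `X ↦ x`. -/
@[reducible] def polyAlg : Algebra K[X] F := (aeval (R := K) x).toAlgebra

/-- `K[X]`-algebra structure on `K⟮x⟯` by `X ↦ x`. -/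
@[reducible] def polyAlgAdjoin : Algebra K[X] K⟮x⟯ :=
  (aeval (R := K) (AdjoinSimple.gen K x)).toAlgebra

theorem isFractionRing_adjoin (hx : Transcendental K x) :
    letI := polyAlgAdjoin (K := K) x
    IsFractionRing K[X] K⟮x⟯ := by
  letI := polyAlgAdjoin (K := K) x
  have hinj : Function.Injective (algebraMap K[X] K⟮x⟯) := by
    intro p q hpq
    have h1 : aeval x p = aeval x q := by
      have := congrArg (algebraMap K⟮x⟯ F) hpq
      simpa [RingHom.algebraMap_toAlgebra, aeval_algebraMap_apply] using this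
    exact (transcendental_iff_injective.mp hx) h1
  haveI : FaithfulSMul K[X] K⟮x⟯ := (faithfulSMul_iff_algebraMap_injective _ _).mpr hinj
  refine IsFractionRing.of_field (R := K[X]) (K := K⟮x⟯) ?_
  intro z
  obtain ⟨r, s, hz⟩ := (mem_adjoin_simple_iff K (z : F)).mp z.2
  refine ⟨r, s, ?_⟩
  apply Subtype.ext
  simp only [RingHom.algebraMap_toAlgebra]
  push_cast
  rw [hz]
  simp

theorem formallyEtale_poly [CharZero K] (hx : Transcendental K x)
    [Algebra.IsAlgebraic K⟮x⟯ F] :
    letI := polyAlg (K := K) x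
    Algebra.FormallyEtale K[X] F := by
  letI := polyAlg (K := K) x
  letI := polyAlgAdjoin (K := K) x
  haveI : IsScalarTower K[X] K⟮x⟯ F := IsScalarTower.of_algebraMap_eq fun p => by
    simp [RingHom.algebraMap_toAlgebra]
  haveI := isFractionRing_adjoin (K := K) x hx
  haveI : Algebra.FormallyEtale K[X] K⟮x⟯ :=
    Algebra.FormallyEtale.of_isLocalization (nonZeroDivisors K[X])
  haveI : CharZero K⟮x⟯ := charZero_of_injective_algebraMap (algebraMap K K⟮x⟯).injective
  haveI : Algebra.IsSeparable K⟮x⟯ F := inferInstance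
  haveI : Algebra.FormallyEtale K⟮x⟯ F := Algebra.FormallyEtale.of_isSeparable _ _
  exact Algebra.FormallyEtale.comp K[X] K⟮x⟯ F

/-- The `F`-linear equivalence `Ω[F⁄K] ≃ F` sending `D x` to `1`, for `x` transcendental with
`F/K(x)` algebraic, in characteristic zero. -/
def omegaEquiv [CharZero K] (hx : Transcendental K x) [Algebra.IsAlgebraic K⟮x⟯ F] :
    Ω[F⁄K] ≃ₗ[F] F :=
  letI := polyAlg (K := K) x
  haveI : IsScalarTower K K[X] F := IsScalarTower.of_algebraMap_eq fun a => by
    simp [RingHom.algebraMap_toAlgebra]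
  haveI := formallyEtale_poly (K := K) x hx
  (tensorKaehlerEquivOfFormallyEtale K K[X] F).symm ≪≫ₗ
    (TensorProduct.AlgebraTensorModule.congr (LinearEquiv.refl F F) (polynomialEquiv K)) ≪≫ₗ
    (TensorProduct.AlgebraTensorModule.rid K[X] F F)

theorem omegaEquiv_D [CharZero K] (hx : Transcendental K x) [Algebra.IsAlgebraic K⟮x⟯ F] :
    omegaEquiv (K := K) x hx (D K F x) = 1 := by
  letI := polyAlg (K := K) x
  haveI : IsScalarTower K K[X] F := IsScalarTower.of_algebraMap_eq fun a => by
    simp [RingHom.algebraMap_toAlgebra]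
  haveI := formallyEtale_poly (K := K) x hx
  have h1 : (D K F x) = D K F (algebraMap K[X] F X) := by
    simp [RingHom.algebraMap_toAlgebra]
  unfold omegaEquiv
  simp only [LinearEquiv.trans_apply]
  rw [h1, tensorKaehlerEquivOfFormallyEtale_symm_D_algebraMap]
  simp [polynomialEquiv_D]

theorem D_ne_zero [CharZero K] (hx : Transcendental K x) [Algebra.IsAlgebraic K⟮x⟯ F] :
    D K F x ≠ 0 := by
  intro h
  have := omegaEquiv_D (K := K) x hx
  rw [h, map_zero] at this
  exact zero_ne_one this

theorem eq_smul_D [CharZero K] (hx : Transcendental K x) [Algebra.IsAlgebraic K⟮x⟯ F]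
    (ω : Ω[F⁄K]) : ω = (omegaEquiv (K := K) x hx ω) • D K F x := by
  apply (omegaEquiv (K := K) x hx).injective
  rw [map_smul, omegaEquiv_D, smul_eq_mul, mul_one]

theorem span_D_eq_top [CharZero K] (hx : Transcendental K x) [Algebra.IsAlgebraic K⟮x⟯ F] :
    Submodule.span F {D K F x} = ⊤ := by
  rw [eq_top_iff]
  intro ω _
  rw [eq_smul_D (K := K) x hx ω]
  exact Submodule.smul_mem _ _ (Submodule.mem_span_singleton_self _)

theorem finrank_omega [CharZero K] (hx : Transcendental K x) [Algebra.IsAlgebraic K⟮x⟯ F] :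
    Module.finrank F Ω[F⁄K] = 1 := by
  rw [(omegaEquiv (K := K) x hx).finrank_eq, Module.finrank_self]

theorem nontrivial_omega [CharZero K] (hx : Transcendental K x) [Algebra.IsAlgebraic K⟮x⟯ F] :
    Nontrivial Ω[F⁄K] :=
  ⟨⟨D K F x, 0, D_ne_zero (K := K) x hx⟩⟩

/-- Exchange: if `F/K(x)` is algebraic with `x` transcendental, then `F/K(y)` is algebraic for
every transcendental `y`. -/
theorem isAlgebraic_adjoin_of_transcendental (hx : Transcendental K x)
    [Algebra.IsAlgebraic K⟮x⟯ F] {y : F} (hy : Transcendental K y) :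
    Algebra.IsAlgebraic K⟮y⟯ F := by
  have hxi : AlgebraicIndependent K (fun _ : PUnit.{v + 1} => x) :=
    algebraicIndependent_unique_type_iff.mpr hx
  have hyi : AlgebraicIndependent K (fun _ : PUnit.{v + 1} => y) :=
    algebraicIndependent_unique_type_iff.mpr hy
  have hxb : IsTranscendenceBasis K (fun _ : PUnit.{v + 1} => x) := by
    rw [hxi.isTranscendenceBasis_iff_isAlgebraic]
    have hr : Set.range (fun _ : PUnit.{v + 1} => x) = {x} := by
      ext z; simp
    rw [hr]
    open algebraAdjoinAdjoin in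
    exact Algebra.IsAlgebraic.trans (Algebra.adjoin K {x}) K⟮x⟯ F
  have htr : Algebra.trdeg K F = 1 := by
    rw [← hxb.cardinalMk_eq_trdeg]; simp
  have hyb : IsTranscendenceBasis K (fun _ : PUnit.{v + 1} => y) :=
    hyi.isTranscendenceBasis_of_trdeg_le_of_finite (by rw [htr]; simp)
  have := hyb.isAlgebraic_field
  have hr : Set.range (fun _ : PUnit.{v + 1} => y) = {y} := by
    ext z; simp
  rwa [hr] at this

end RankOne

section Local

open AlgebraicCurve

variable (v : Place K F)

local notation "𝒪" => v.toValuationSubring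

/-- Elements of `F` algebraic over `K` have `ord = 0` at every place. -/
theorem ord_eq_zero_of_isAlgebraic {f : F} (hf : IsAlgebraic K f) : v.ord f = 0 := by
  rcases eq_or_ne f 0 with rfl | hf0
  · simp
  have hmem : ∀ g : F, IsAlgebraic K g → g ∈ 𝒪 := by
    intro g hg
    have h1 : IsIntegral K g := hg.isIntegral
    have h2 : IsIntegral 𝒪 g := h1.tower_top
    obtain ⟨y, hy⟩ := IsIntegrallyClosed.algebraMap_eq_of_integral h2
    rw [← hy]
    exact y.2
  have h1 := hmem f hf
  have h2 := hmem f⁻¹ hf.inv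
  have hu : IsUnit (⟨f, h1⟩ : 𝒪) := by
    refine IsUnit.of_mul_eq_one (⟨f⁻¹, h2⟩ : 𝒪) ?_
    apply Subtype.ext
    simp [hf0]
  have := v.ord_coe_unit hu.unit
  simpa using this

/-- A function with nonzero order at some place is transcendental over `K`. -/
theorem transcendental_of_ord_ne_zero {f : F} (hf : v.ord f ≠ 0) : Transcendental K f :=
  fun h => hf (ord_eq_zero_of_isAlgebraic v h)

/-- The residue field of the place `v` is `K` itself. -/
def ResidueTrivial : Prop := Function.Surjective (algebraMap K v.ResidueField)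

theorem residueTrivial_of_deg_eq_one (h : v.deg = 1) : ResidueTrivial v := by
  intro z
  have h1 : Module.finrank K v.ResidueField = 1 := h
  obtain ⟨c, hc⟩ := (finrank_eq_one_iff_of_nonzero' (1 : v.ResidueField) one_ne_zero).mp h1 z
  exact ⟨c, by rw [Algebra.algebraMap_eq_smul_one, hc]⟩

variable {v}

theorem exists_sub_eq_mul (hres : ResidueTrivial v) {π : 𝒪} (hπ : Irreducible π) (y : 𝒪) :
    ∃ (a : K) (y' : 𝒪), y = algebraMap K 𝒪 a + π * y' := by
  obtain ⟨a, ha⟩ := hres (IsLocalRing.residue 𝒪 y)
  have h0 : IsLocalRing.residue 𝒪 (y - algebraMap K 𝒪 a) = 0 := by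
    rw [map_sub, ← ha, sub_eq_zero]
    rfl
  rw [IsLocalRing.residue_eq_zero_iff, hπ.maximalIdeal_eq, Ideal.mem_span_singleton] at h0
  obtain ⟨y', hy'⟩ := h0
  exact ⟨a, y', by rw [← hy']; ring⟩

/-- Nakayama: `Ω[𝒪_v⁄K]` is generated by `dπ`. -/
theorem span_D_uniformizer_eq_top [Module.Finite 𝒪 Ω[𝒪⁄K]] (hres : ResidueTrivial v)
    {π : 𝒪} (hπ : Irreducible π) :
    Submodule.span 𝒪 {D K 𝒪 π} = ⊤ := by
  rw [eq_top_iff]
  refine Submodule.le_of_le_smul_of_le_jacobson_bot (I := IsLocalRing.maximalIdeal 𝒪)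
    Module.Finite.fg_top (IsLocalRing.maximalIdeal_le_jacobson ⊥) ?_
  rw [← KaehlerDifferential.span_range_derivation K 𝒪, Submodule.span_le]
  rintro _ ⟨y, rfl⟩
  obtain ⟨a, y', rfl⟩ := exists_sub_eq_mul hres hπ y
  have : D K 𝒪 (algebraMap K 𝒪 a + π * y') = y' • D K 𝒪 π + π • D K 𝒪 y' := by
    rw [map_add, Derivation.map_algebraMap, zero_add, Derivation.leibniz, add_comm]
  rw [SetLike.mem_coe, this]
  refine Submodule.add_mem_sup ?_ ?_
  · exact Submodule.smul_mem _ _ (Submodule.mem_span_singleton_self _)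
  · refine Submodule.smul_mem_smul ?_ ?_
    · rw [hπ.maximalIdeal_eq]; exact Ideal.mem_span_singleton_self π
    · rw [KaehlerDifferential.span_range_derivation]; trivial

/-- The derivation `d/dπ` preserves the valuation ring. -/
theorem exists_coeff_mem [Module.Finite 𝒪 Ω[𝒪⁄K]] (hres : ResidueTrivial v)
    {π : 𝒪} (hπ : Irreducible π) (y : 𝒪) :
    ∃ c : 𝒪, D K F (y : F) = (c : F) • D K F (π : F) := by
  have hy : D K 𝒪 y ∈ Submodule.span 𝒪 {D K 𝒪 π} := by
    rw [span_D_uniformizer_eq_top hres hπ]; trivial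
  obtain ⟨c, hc⟩ := Submodule.mem_span_singleton.mp hy
  refine ⟨c, ?_⟩
  have := congrArg (KaehlerDifferential.map K K 𝒪 F) hc
  rw [map_smul, KaehlerDifferential.map_D, KaehlerDifferential.map_D] at this
  exact this.symm

/-- Key computation: `d(u π^n) = (w π^(n-1)) dπ` with `w` a unit, for `n ≠ 0` in char. 0. -/
theorem D_unit_mul_zpow [CharZero K] [Module.Finite 𝒪 Ω[𝒪⁄K]] (hres : ResidueTrivial v)
    {π : 𝒪} (hπ : Irreducible π) (u : 𝒪ˣ) {n : ℤ} (hn : n ≠ 0) :
    ∃ w : 𝒪ˣ, D K F (((u : 𝒪) : F) * (π : F) ^ n) =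
      (((w : 𝒪) : F) * (π : F) ^ (n - 1)) • D K F (π : F) := by
  obtain ⟨c, hc⟩ := exists_coeff_mem hres hπ (u : 𝒪)
  have hπ0 : (π : F) ≠ 0 := by
    simpa [ne_eq, ZeroMemClass.coe_eq_zero] using hπ.ne_zero
  -- the unit `w = π c + n u`
  have hnK : (n : K) ≠ 0 := Int.cast_ne_zero.mpr hn
  have hnu : IsUnit (algebraMap K 𝒪 (n : K) * (u : 𝒪)) :=
    ((isUnit_iff_ne_zero.mpr hnK).map (algebraMap K 𝒪)).mul u.isUnit
  have hπc : π * c ∈ IsLocalRing.maximalIdeal 𝒪 := by
    rw [hπ.maximalIdeal_eq]
    exact Ideal.mul_mem_right _ _ (Ideal.mem_span_singleton_self π)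
  have hw : IsUnit (π * c + algebraMap K 𝒪 (n : K) * (u : 𝒪)) := by
    by_contra hcon
    have h1 : π * c + algebraMap K 𝒪 (n : K) * (u : 𝒪) ∈ IsLocalRing.maximalIdeal 𝒪 := hcon
    have h2 := (Ideal.add_mem_iff_right _ hπc).mp h1
    exact h2 hnu
  refine ⟨hw.unit, ?_⟩
  have hwF : ((hw.unit : 𝒪) : F) = (π : F) * (c : F) + (n : F) * ((u : 𝒪) : F) := by
    rw [IsUnit.unit_spec]
    push_cast
    rw [v.coe_algebraMap]
    simp
  rw [hwF, Derivation.leibniz, Derivation.leibniz_zpow, hc, ← Int.cast_smul_eq_zsmul F n]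
  simp only [smul_smul, ← add_smul]
  congr 1
  have : (π : F) ^ n = (π : F) * (π : F) ^ (n - 1) := by
    rw [← zpow_one_add₀ hπ0]; congr 1; ring
  rw [this]
  ring

variable (x : F)

/-- Under the standing hypotheses every place has `DCoordGenerates`. -/
theorem dCoordGenerates [CharZero K] (hx : Transcendental K x) [Algebra.IsAlgebraic K⟮x⟯ F]
    (v : Place K F) : v.DCoordGenerates := by
  constructor
  have hirr := (IsDiscreteValuationRing.exists_irreducible v.toValuationSubring).choose_spec
  set π := (IsDiscreteValuationRing.exists_irreducible v.toValuationSubring).choose with hπdef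
  have hd : v.dCoord = D K F (π : F) := rfl
  have hord : v.ord (π : F) = 1 := v.ord_coe_irreducible hirr
  have htr : Transcendental K (π : F) :=
    transcendental_of_ord_ne_zero v (by rw [hord]; exact one_ne_zero)
  haveI := isAlgebraic_adjoin_of_transcendental (K := K) x hx htr
  rw [hd]
  exact span_D_eq_top (K := K) (π : F) htr

/-- **Local formula**: if `ord_v g ≠ 0` then `ord_v(dg) = ord_v g - 1` (char. 0, residue field
`K`, `Ω[𝒪_v⁄K]` finite). -/
theorem ordDifferential_D [CharZero K] (hx : Transcendental K x) [Algebra.IsAlgebraic K⟮x⟯ F]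
    {v : Place K F} [Module.Finite v.toValuationSubring Ω[v.toValuationSubring⁄K]]
    (hres : ResidueTrivial v) {g : F} (hg : v.ord g ≠ 0) :
    v.ordDifferential (D K F g) = v.ord g - 1 := by
  haveI := dCoordGenerates (K := K) x hx v
  haveI := nontrivial_omega (K := K) x hx
  have hirr := (IsDiscreteValuationRing.exists_irreducible v.toValuationSubring).choose_spec
  set π := (IsDiscreteValuationRing.exists_irreducible v.toValuationSubring).choose with hπdef
  have hd : v.dCoord = D K F (π : F) := rfl
  have hg0 : g ≠ 0 := by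
    rintro rfl; simp at hg
  obtain ⟨u, hu⟩ := v.exists_unit_mul_zpow hg0 hirr
  obtain ⟨w, hw⟩ := D_unit_mul_zpow hres hirr u hg
  rw [← hu, ← hd] at hw
  rw [Place.ordDifferential, v.differentialCoeff_unique hw, v.ord_unit_smul_zpow w hirr]

/-- Zero version: if `f - a` vanishes at `v` (`a : K`), then `ord_v(df) = ord_v(f - a) - 1`. -/
theorem ordDifferential_D_of_zero [CharZero K] (hx : Transcendental K x)
    [Algebra.IsAlgebraic K⟮x⟯ F]
    {v : Place K F} [Module.Finite v.toValuationSubring Ω[v.toValuationSubring⁄K]]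
    (hres : ResidueTrivial v) {f : F} {a : K} (h : 0 < v.ord (f - algebraMap K F a)) :
    v.ordDifferential (D K F f) = v.ord (f - algebraMap K F a) - 1 := by
  have := ordDifferential_D (K := K) x hx hres (g := f - algebraMap K F a) (ne_of_gt h)
  rwa [map_sub, Derivation.map_algebraMap, sub_zero] at this

/-- Pole version: if `f` has a pole at `v`, then `ord_v(df) = ord_v f - 1`. -/
theorem ordDifferential_D_of_pole [CharZero K] (hx : Transcendental K x)
    [Algebra.IsAlgebraic K⟮x⟯ F]
    {v : Place K F} [Module.Finite v.toValuationSubring Ω[v.toValuationSubring⁄K]]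
    (hres : ResidueTrivial v) {f : F} (h : v.ord f < 0) :
    v.ordDifferential (D K F f) = v.ord f - 1 :=
  ordDifferential_D (K := K) x hx hres (ne_of_lt h)

end Local

section Finiteness

open AlgebraicCurve IsDedekindDomain IsDedekindDomain.HeightOneSpectrum

variable {R : Type*} [CommRing R] [IsDedekindDomain R] [Algebra R F] [IsFractionRing R F]
  [Algebra K R] [IsScalarTower K R F]

theorem finite_kaehler_aux [Algebra.EssFiniteType K R] (w : HeightOneSpectrum R)
    (A : ValuationSubring F) (hA : valuationSubringAtPrime F w = A)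
    (hK : ∀ a : K, algebraMap K F a ∈ A) :
    letI : Algebra K A := ((algebraMap K F).codRestrict A.toSubring hK).toAlgebra
    Module.Finite A Ω[A⁄K] := by
  subst hA
  letI : Algebra K (valuationSubringAtPrime F w) :=
    ((algebraMap K F).codRestrict (valuationSubringAtPrime F w).toSubring hK).toAlgebra
  haveI : IsScalarTower K R (valuationSubringAtPrime F w) :=
    IsScalarTower.of_algebraMap_eq fun a => Subtype.ext (by
      show algebraMap K F a = algebraMap R F (algebraMap K R a)
      rw [← IsScalarTower.algebraMap_apply])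
  haveI : Algebra.EssFiniteType R (valuationSubringAtPrime F w) :=
    Algebra.EssFiniteType.of_isLocalization _ w.asIdeal.primeCompl
  haveI : Algebra.EssFiniteType K (valuationSubringAtPrime F w) :=
    Algebra.EssFiniteType.comp K R _
  infer_instance

/-- For places coming from a height-one prime of an essentially-finite-type Dedekind `K`-algebra
with fraction field `F`, the Kähler differentials of the valuation ring are a finite module. -/
theorem finite_kaehler_ofHeightOneSpectrum [Algebra.EssFiniteType K R] (w : HeightOneSpectrum R) :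
    Module.Finite (Place.ofHeightOneSpectrum (K := K) (F := F) w).toValuationSubring
      Ω[(Place.ofHeightOneSpectrum (K := K) (F := F) w).toValuationSubring⁄K] :=
  finite_kaehler_aux (K := K) w _ (valuationSubringAtPrime_eq_valuationSubring w)
    (Place.ofHeightOneSpectrum (K := K) (F := F) w).algebraMap_mem'

end Finiteness

end Fermat.Agent.S24.H25
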