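import Fermat.Agent.S24.H97_Finite
import Fermat.Agent.S24.H24_Basic
import Fermat.Agent.S24.H25_Differentials

set_option autoImplicit false

noncomputable section

open IsDedekindDomain Polynomial AlgebraicCurve WithZero
open scoped IntermediateField IntermediateField.algebraAdjoinAdjoin

namespace Fermat.Agent.S24.H97

variable {K F : Type*} [Field K] [Field F] [Algebra K F]

section Transfer

variable (t : F)

/-- `K(t⁻¹) = K(t)`. -/
theorem adjoin_inv_eq : K⟮t⁻¹⟯ = K⟮t⟯ := by
  apply le_antisymm
  · rw [IntermediateField.adjoin_simple_le_iff]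
    exact inv_mem (IntermediateField.mem_adjoin_simple_self K t)
  · rw [IntermediateField.adjoin_simple_le_iff]
    have := inv_mem (IntermediateField.mem_adjoin_simple_self K t⁻¹)
    rwa [inv_inv] at this

/-- `K(t - a) = K(t)`. -/
theorem adjoin_sub_algebraMap_eq (a : K) : K⟮t - algebraMap K F a⟯ = K⟮t⟯ := by
  apply le_antisymm
  · rw [IntermediateField.adjoin_simple_le_iff]
    exact sub_mem (IntermediateField.mem_adjoin_simple_self K t) (algebraMap_mem _ a)
  · rw [IntermediateField.adjoin_simple_le_iff]
    have := add_mem (IntermediateField.mem_adjoin_simple_self K (t - algebraMap K F a))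
      (algebraMap_mem K⟮t - algebraMap K F a⟯ a)
    rwa [sub_add_cancel] at this

theorem finrank_adjoin_inv : Module.finrank K⟮t⁻¹⟯ F = Module.finrank K⟮t⟯ F := by
  rw [adjoin_inv_eq]

theorem finrank_adjoin_sub_algebraMap (a : K) :
    Module.finrank K⟮t - algebraMap K F a⟯ F = Module.finrank K⟮t⟯ F := by
  rw [adjoin_sub_algebraMap_eq]

theorem finiteDimensional_adjoin_inv [h : FiniteDimensional K⟮t⟯ F] :
    FiniteDimensional K⟮t⁻¹⟯ F := by
  rw [adjoin_inv_eq]; exact h

theorem finiteDimensional_adjoin_sub_algebraMap [h : FiniteDimensional K⟮t⟯ F] (a : K) :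
    FiniteDimensional K⟮t - algebraMap K F a⟯ F := by
  rw [adjoin_sub_algebraMap_eq]; exact h

variable {t}

theorem transcendental_inv (ht : Transcendental K t) : Transcendental K t⁻¹ := by
  intro h
  apply ht
  have := h.inv
  rwa [inv_inv] at this

theorem transcendental_sub_algebraMap (ht : Transcendental K t) (a : K) :
    Transcendental K (t - algebraMap K F a) := by
  intro h
  apply ht
  have := h.add (isAlgebraic_algebraMap (R := K) (A := F) a)
  rwa [sub_add_cancel] at this

theorem ne_zero_of_transcendental (ht : Transcendental K t) : t ≠ 0 := by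
  rintro rfl
  exact ht isAlgebraic_zero

theorem sub_algebraMap_ne_zero (ht : Transcendental K t) (a : K) : t - algebraMap K F a ≠ 0 :=
  ne_zero_of_transcendental (transcendental_sub_algebraMap ht a)

/-- If `F/K(t)` is finite with `t` transcendental, then `F/K(f)` is finite for every
transcendental `f`. -/
theorem finiteDimensional_adjoin_of_transcendental [FiniteDimensional K⟮t⟯ F]
    (ht : Transcendental K t) {f : F} (hf : Transcendental K f) :
    FiniteDimensional K⟮f⟯ F := by
  have halg : Algebra.IsAlgebraic K⟮f⟯ F :=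
    H25.isAlgebraic_adjoin_of_transcendental t ht hf
  have hint : IsIntegral K⟮f⟯ t := (Algebra.IsAlgebraic.isAlgebraic t).isIntegral
  let E : IntermediateField K⟮f⟯ F := K⟮f⟯⟮t⟯
  have h1 : FiniteDimensional K⟮f⟯ E := IntermediateField.adjoin.finiteDimensional hint
  have hle : K⟮t⟯ ≤ E.restrictScalars K := by
    rw [IntermediateField.adjoin_simple_le_iff]
    exact IntermediateField.mem_adjoin_simple_self K⟮f⟯ t
  letI : Algebra K⟮t⟯ E :=
    ((algebraMap K⟮t⟯ F).codRestrict E (fun x => hle x.2)).toAlgebra
  haveI : IsScalarTower K⟮t⟯ E F := IsScalarTower.of_algebraMap_eq (fun x => rfl)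
  have h2 : FiniteDimensional E F := Module.Finite.of_restrictScalars_finite K⟮t⟯ E F
  exact Module.Finite.trans E F

end Transfer

end Fermat.Agent.S24.H97
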