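import Mathlib

/-!
# Extensions of a valuation subring to a finite separable extension (helper46, S24/T4-ALG)

Pure valuation theory, only Mathlib.

Main result `exists_eq_comap`: let `F / k` be a finite separable field extension of degree `n`,
`L` a field with a valuation subring `OL`, `[Algebra k L]`, and `σ : ι → (F →ₐ[k] L)` a family of
`n` distinct `k`-embeddings.  Then every valuation subring `O` of `F` lying over
`OL ∩ k` (i.e. `O.comap (algebraMap k F) = OL.comap (algebraMap k L)`) is of the form
`OL.comap (σ i)` for some `i`.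
-/

set_option autoImplicit false

namespace Fermat.Agent.S24.H46

open Polynomial

section ValuationComputation

variable {F Γ : Type*} [Field F] [LinearOrderedCommGroupWithZero Γ]

/-- The test element attached to a relation `∑ b j x^j = 0` and an index `K`. -/
def testElt (b : ℕ → F) (x : F) (K d : ℕ) : F :=
  ∑ j ∈ Finset.range (d + 1 - K), b (K + j) * x ^ j

theorem pow_mul_testElt (b : ℕ → F) (x : F) {K d : ℕ} (hK : K ≤ d)
    (h0 : ∑ j ∈ Finset.range (d + 1), b j * x ^ j = 0) :
    x ^ K * testElt b x K d = - ∑ j ∈ Finset.range K, b j * x ^ j := by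
  have hsplit : d + 1 = K + (d + 1 - K) := by omega
  rw [hsplit, Finset.sum_range_add] at h0
  rw [testElt, Finset.mul_sum, eq_neg_iff_add_eq_zero, add_comm, ← h0]
  congr 1
  refine Finset.sum_congr rfl fun j _ => ?_
  rw [pow_add]; ring

variable (v : Valuation F Γ)

theorem testElt_of_le_one (b : ℕ → F) (x : F) {K d : ℕ} (hK : K ≤ d)
    (h2 : b K = 1) (h3 : ∀ j, K < j → v (b j) < 1)
    (hx : v x ≤ 1) : v (testElt b x K d) = 1 := by
  have hsplit : d + 1 - K = (d - K) + 1 := by omega
  rw [testElt, hsplit, Finset.sum_range_succ', Nat.add_zero, h2, pow_zero, mul_one, add_comm]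
  apply Valuation.map_one_add_of_lt
  apply Valuation.map_sum_lt v one_ne_zero
  intro j _
  rw [map_mul, map_pow]
  calc v (b (K + (j + 1))) * v x ^ (j + 1) ≤ v (b (K + (j + 1))) * 1 := by
        gcongr
        exact pow_le_one₀ zero_le hx
    _ < 1 := by rw [mul_one]; exact h3 _ (by omega)

theorem testElt_of_one_lt (b : ℕ → F) (x : F) {K d : ℕ} (hK : K ≤ d)
    (h0 : ∑ j ∈ Finset.range (d + 1), b j * x ^ j = 0)
    (h1 : ∀ j, v (b j) ≤ 1) (hx : 1 < v x) :
    v (testElt b x K d) < 1 ∧ v (x * testElt b x K d) ≤ 1 := by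
  have hx0 : v x ≠ 0 := (zero_lt_one.trans hx).ne'
  have hxK : v x ^ K ≠ 0 := pow_ne_zero _ hx0
  have key := pow_mul_testElt b x hK h0
  have hv : v x ^ K * v (testElt b x K d) = v (∑ j ∈ Finset.range K, b j * x ^ j) := by
    rw [← map_pow, ← map_mul, key, Valuation.map_neg]
  constructor
  · have hlt : v (∑ j ∈ Finset.range K, b j * x ^ j) < v x ^ K := by
      apply Valuation.map_sum_lt v hxK
      intro j hj
      rw [Finset.mem_range] at hj
      rw [map_mul, map_pow]
      calc v (b j) * v x ^ j ≤ 1 * v x ^ j := by gcongr; exact h1 j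
        _ = v x ^ j := one_mul _
        _ < v x ^ K := pow_lt_pow_right₀ hx hj
    rw [← hv] at hlt
    by_contra hcon
    rw [not_lt] at hcon
    have : v x ^ K * 1 ≤ v x ^ K * v (testElt b x K d) := by gcongr
    rw [mul_one] at this
    exact absurd hlt (not_lt.mpr this)
  · have hle : v (∑ j ∈ Finset.range K, b j * x ^ j) * v x ≤ v x ^ K := by
      rw [← map_mul, Finset.sum_mul]
      apply Valuation.map_sum_le v
      intro j hj
      rw [Finset.mem_range] at hj
      rw [map_mul, map_mul, map_pow]
      calc v (b j) * v x ^ j * v x ≤ 1 * v x ^ j * v x := by gcongr; exact h1 j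
        _ = v x ^ (j + 1) := by rw [one_mul, pow_succ]
        _ ≤ v x ^ K := pow_le_pow_right₀ hx.le hj
    rw [← hv] at hle
    rw [map_mul]
    by_contra hcon
    rw [not_le] at hcon
    have h' : v x ^ K * 1 < v x ^ K * (v x * v (testElt b x K d)) :=
      mul_lt_mul_of_pos_left hcon (zero_lt_iff.mpr hxK)
    rw [mul_one] at h'
    have : v x ^ K * (v x * v (testElt b x K d)) = v x ^ K * v (testElt b x K d) * v x := by
      rw [mul_comm (v x) _, ← mul_assoc]
    rw [this] at h'
    exact absurd h' (not_lt.mpr hle)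

theorem testElt_le_one_of_le_one (b : ℕ → F) (x : F) (K d : ℕ)
    (h1 : ∀ j, v (b j) ≤ 1) (hx : v x ≤ 1) : v (testElt b x K d) ≤ 1 := by
  rw [testElt]
  apply Valuation.map_sum_le v
  intro j _
  rw [map_mul, map_pow]
  calc v (b (K + j)) * v x ^ j ≤ 1 * 1 := by
        gcongr
        · exact h1 _
        · exact pow_le_one₀ zero_le hx
    _ = 1 := one_mul 1

end ValuationComputation

section TestElement

variable {k F : Type*} [Field k] [Field F] [Algebra k F]

theorem comap_mem_iff {V : ValuationSubring F} {R₀ : ValuationSubring k}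
    (hV : V.comap (algebraMap k F) = R₀) (c : k) :
    algebraMap k F c ∈ V ↔ c ∈ R₀ := by
  rw [← hV, ValuationSubring.mem_comap]

theorem comap_nonunits_iff {V : ValuationSubring F} {R₀ : ValuationSubring k}
    (hV : V.comap (algebraMap k F) = R₀) (c : k) :
    algebraMap k F c ∈ V.nonunits ↔ c ∈ R₀.nonunits := by
  rw [ValuationSubring.mem_nonunits_iff_or, ValuationSubring.mem_nonunits_iff_or,
    ← map_inv₀, comap_mem_iff hV, map_eq_zero]

/-- The key test element: for `x : F` algebraic over `k` there is `y : F` lying in every valuation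
subring `V` of `F` over `R₀`, and which is a unit of `V` exactly when `x ∈ V`. -/
theorem exists_test_element [Algebra.IsAlgebraic k F] (R₀ : ValuationSubring k) (x : F) :
    ∃ y : F, ∀ V : ValuationSubring F, V.comap (algebraMap k F) = R₀ →
      y ∈ V ∧ (x ∈ V ↔ y ∉ V.nonunits) := by
  have hxint : IsIntegral k x := Algebra.IsIntegral.isIntegral x
  set p := minpoly k x with hp
  have hmonic : p.Monic := minpoly.monic hxint
  set d := p.natDegree with hd
  set v₀ := R₀.valuation with hv₀
  -- choose the largest index with maximal valuation (lexicographic maximum)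
  obtain ⟨K, hKr, hKlex⟩ := Finset.exists_max_image (Finset.range (d + 1))
    (fun j => toLex (v₀ (p.coeff j), j)) ⟨0, by simp⟩
  have hKd : K ≤ d := by simpa [Nat.lt_succ_iff] using hKr
  have hKmax : ∀ l ∈ Finset.range (d + 1), v₀ (p.coeff l) ≤ v₀ (p.coeff K) := by
    intro l hl
    exact (Prod.Lex.toLex_le_toLex'.mp (hKlex l hl)).1
  have hone : (1 : R₀.ValueGroup) ≤ v₀ (p.coeff K) := by
    have := hKmax d (by simp)
    rwa [hd, hmonic.coeff_natDegree, map_one] at this
  have hcK0 : v₀ (p.coeff K) ≠ 0 := (zero_lt_one.trans_le hone).ne'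
  have hcK : p.coeff K ≠ 0 := by
    intro h; rw [h, map_zero] at hcK0; exact hcK0 rfl
  have hmaxall : ∀ j, v₀ (p.coeff j) ≤ v₀ (p.coeff K) := by
    intro j
    by_cases hj : j ≤ d
    · exact hKmax j (by simpa [Nat.lt_succ_iff] using hj)
    · rw [coeff_eq_zero_of_natDegree_lt (by omega), map_zero]; exact zero_le
  have hlt : ∀ j, K < j → v₀ (p.coeff j) < v₀ (p.coeff K) := by
    intro j hj
    by_cases hjd : j ≤ d
    · have h := Prod.Lex.toLex_le_toLex'.mp
        (hKlex j (by simpa [Nat.lt_succ_iff] using hjd))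
      refine lt_of_le_of_ne h.1 fun heq => ?_
      have := h.2 heq
      simp only at this
      omega
    · rw [coeff_eq_zero_of_natDegree_lt (by omega), map_zero]; exact zero_lt_iff.mpr hcK0
  -- normalised coefficients
  set a : ℕ → k := fun j => p.coeff j / p.coeff K with ha
  have ha1 : ∀ j, v₀ (a j) ≤ 1 := by
    intro j
    rw [ha, map_div₀]
    exact (div_le_one₀ (zero_lt_iff.mpr hcK0)).mpr (hmaxall j)
  have ha3 : ∀ j, K < j → v₀ (a j) < 1 := by
    intro j hj
    rw [ha, map_div₀]
    exact (div_lt_one₀ (zero_lt_iff.mpr hcK0)).mpr (hlt j hj)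
  have haK : a K = 1 := div_self hcK
  set b : ℕ → F := fun j => algebraMap k F (a j) with hb
  have h0 : ∑ j ∈ Finset.range (d + 1), b j * x ^ j = 0 := by
    have hx0 : aeval x p = 0 := minpoly.aeval k x
    rw [aeval_eq_sum_range] at hx0
    have : ∑ j ∈ Finset.range (d + 1), b j * x ^ j
        = algebraMap k F (p.coeff K)⁻¹ * ∑ j ∈ Finset.range (d + 1), p.coeff j • x ^ j := by
      rw [Finset.mul_sum]
      refine Finset.sum_congr rfl fun j _ => ?_
      show algebraMap k F (p.coeff j / p.coeff K) * x ^ j = _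
      rw [Algebra.smul_def, div_eq_mul_inv, map_mul]
      ring
    rw [this, hx0, mul_zero]
  refine ⟨testElt b x K d, fun V hV => ?_⟩
  set v := V.valuation with hv
  have h1 : ∀ j, v (b j) ≤ 1 := by
    intro j
    rw [hv, ValuationSubring.valuation_le_one_iff, hb, comap_mem_iff hV,
      ← ValuationSubring.valuation_le_one_iff]
    exact ha1 j
  have h3 : ∀ j, K < j → v (b j) < 1 := by
    intro j hj
    rw [hv, ← ValuationSubring.mem_nonunits_iff, hb, comap_nonunits_iff hV,
      ValuationSubring.mem_nonunits_iff]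
    exact ha3 j hj
  have h2 : b K = 1 := by rw [hb]; simp only; rw [haK, map_one]
  by_cases hxV : x ∈ V
  · have hx1 : v x ≤ 1 := (V.valuation_le_one_iff x).mpr hxV
    have hy1 : v (testElt b x K d) = 1 := testElt_of_le_one v b x hKd h2 h3 hx1
    refine ⟨(V.valuation_le_one_iff _).mp hy1.le, fun _ => ?_, fun _ => hxV⟩
    rw [ValuationSubring.mem_nonunits_iff, ← hv, hy1]
    exact lt_irrefl 1
  · have hx1 : 1 < v x := by
      rw [← not_le, hv, ValuationSubring.valuation_le_one_iff]; exact hxV
    have hy := (testElt_of_one_lt v b x hKd h0 h1 hx1).1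
    refine ⟨(V.valuation_le_one_iff _).mp hy.le, fun h => absurd h hxV, fun h => ?_⟩
    exact absurd (V.mem_nonunits_iff.mpr hy) h

end TestElement

section Embeddings

variable {k F L : Type*} [Field k] [Field F] [Field L] [Algebra k F] [Algebra k L]

/-- A root of a monic polynomial over `k` whose coefficients lie in the valuation subring `V`
lies in `V`. -/
theorem mem_of_monic_root (V : ValuationSubring F) (p : k[X]) (hp : p.Monic)
    (hc : ∀ n, algebraMap k F (p.coeff n) ∈ V) (g : F) (hg : aeval g p = 0) : g ∈ V := by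
  have hl : p.map (algebraMap k F) ∈ lifts (algebraMap V F) := by
    rw [lifts_iff_coeff_lifts]
    intro n
    rw [coeff_map]
    exact ⟨⟨_, hc n⟩, rfl⟩
  obtain ⟨q, hq, -, hqm⟩ := lifts_and_natDegree_eq_and_monic hl (hp.map _)
  have hint : IsIntegral V g := by
    refine ⟨q, hqm, ?_⟩
    rw [eval₂_eq_eval_map, hq, eval_map_algebraMap, hg]
  obtain ⟨y, hy⟩ := IsIntegrallyClosed.isIntegral_iff.mp hint
  rw [← hy]
  exact y.2

variable [FiniteDimensional k F] [Algebra.IsSeparable k F]
variable {ι : Type*} [Fintype ι] (σ : ι → (F →ₐ[k] L))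

/-- `n = [F : k]` distinct embeddings into `L` exhaust the embeddings into the algebraic closure
of `L`. -/
theorem exists_eq_comp (hσ : Function.Injective σ)
    (hcard : Fintype.card ι = Module.finrank k F) (τ : F →ₐ[k] AlgebraicClosure L) :
    ∃ i, τ = (IsScalarTower.toAlgHom k L (AlgebraicClosure L)).comp (σ i) := by
  classical
  let Φ : ι → (F →ₐ[k] AlgebraicClosure L) :=
    fun i => (IsScalarTower.toAlgHom k L (AlgebraicClosure L)).comp (σ i)
  have hΦ : Function.Injective Φ := by
    intro i j hij
    apply hσ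
    ext x
    have h := DFunLike.congr_fun hij x
    exact (algebraMap L (AlgebraicClosure L)).injective h
  have hbij : Function.Bijective Φ :=
    (Fintype.bijective_iff_injective_and_card Φ).mpr ⟨hΦ, by rw [hcard, AlgHom.card]⟩
  obtain ⟨i, hi⟩ := hbij.2 τ
  exact ⟨i, hi.symm⟩

/-- If all conjugates `σ i g` lie in `OL`, the minimal polynomial of `g` has coefficients in
`OL ∩ k`. -/
theorem coeff_minpoly_mem (OL : ValuationSubring L) (hσ : Function.Injective σ)
    (hcard : Fintype.card ι = Module.finrank k F) (g : F) (hg : ∀ i, σ i g ∈ OL) (n : ℕ) :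
    algebraMap k L ((minpoly k g).coeff n) ∈ OL := by
  have hmonic : (minpoly k g).Monic := minpoly.monic (Algebra.IsIntegral.isIntegral g)
  have hsplit : ((minpoly k g).map (algebraMap k (AlgebraicClosure L))).Splits :=
    IsAlgClosed.splits _
  let i : OL →+* AlgebraicClosure L := (algebraMap L (AlgebraicClosure L)).comp OL.subtype
  have hroots : ∀ a ∈ ((minpoly k g).map (algebraMap k (AlgebraicClosure L))).roots,
      a ∈ i.range := by
    intro a ha
    have ha' : a ∈ (minpoly k g).rootSet (AlgebraicClosure L) := by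
      rw [mem_rootSet_of_ne hmonic.ne_zero]
      have := (mem_roots (hmonic.map _).ne_zero).mp ha
      rwa [IsRoot.def, eval_map_algebraMap] at this
    rw [← Algebra.IsAlgebraic.range_eval_eq_rootSet_minpoly (AlgebraicClosure L) g] at ha'
    obtain ⟨τ, rfl⟩ := ha'
    obtain ⟨j, rfl⟩ := exists_eq_comp σ hσ hcard τ
    exact ⟨⟨σ j g, hg j⟩, rfl⟩
  have hl := hsplit.mem_lift_of_roots_mem_range (hmonic.map _) i hroots
  rw [lifts_iff_coeff_lifts] at hl
  obtain ⟨r, hr⟩ := hl n
  rw [coeff_map, IsScalarTower.algebraMap_apply k L (AlgebraicClosure L)] at hr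
  have := (algebraMap L (AlgebraicClosure L)).injective hr
  rw [← this]
  exact r.2

/-- An element all of whose conjugates lie in `OL` lies in every valuation subring of `F`
containing `OL ∩ k`. -/
theorem mem_of_forall_mem (OL : ValuationSubring L) (hσ : Function.Injective σ)
    (hcard : Fintype.card ι = Module.finrank k F) (V : ValuationSubring F)
    (hV : OL.comap (algebraMap k L) ≤ V.comap (algebraMap k F))
    (g : F) (hg : ∀ i, σ i g ∈ OL) : g ∈ V := by
  refine mem_of_monic_root V (minpoly k g) (minpoly.monic (Algebra.IsIntegral.isIntegral g))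
    (fun n => ?_) g (minpoly.aeval k g)
  have := coeff_minpoly_mem σ OL hσ hcard g hg n
  exact hV (ValuationSubring.mem_comap.mpr this)

end Embeddings

section Centre

variable {F A : Type*} [Field F] [CommRing A] [Algebra A F] (S : Subalgebra A F)

/-- The centre on `S` of a valuation subring `V ⊇ S`: the prime ideal `𝔪_V ∩ S`. -/
def centre (V : ValuationSubring F) (h : ∀ g ∈ S, g ∈ V) : Ideal S :=
  (IsLocalRing.maximalIdeal V).comap
    ((S.val : S →+* F).codRestrict V (fun g => h g g.2))

theorem mem_centre_iff {V : ValuationSubring F} {h : ∀ g ∈ S, g ∈ V} (g : S) :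
    g ∈ centre S V h ↔ (g : F) ∈ V.nonunits := by
  rw [centre, Ideal.mem_comap, ← ValuationSubring.coe_mem_nonunits_iff]
  rfl

instance centre_isPrime (V : ValuationSubring F) (h : ∀ g ∈ S, g ∈ V) :
    (centre S V h).IsPrime :=
  Ideal.comap_isPrime _ _

end Centre

section Main

variable {k F L : Type*} [Field k] [Field F] [Field L] [Algebra k F] [Algebra k L]
variable [FiniteDimensional k F] [Algebra.IsSeparable k F]
variable {ι : Type*} [Fintype ι] (σ : ι → (F →ₐ[k] L))

/-- **Extensions of a valuation are conjugate.**  If `F / k` is finite separable of degree `n`,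
and `σ` is a family of `n` distinct `k`-embeddings of `F` into a field `L` with a valuation subring
`OL`, then every valuation subring `O` of `F` with `O ∩ k = OL ∩ k` is the pullback of `OL` along
some `σ i`. -/
theorem exists_eq_comap (OL : ValuationSubring L) (hσ : Function.Injective σ)
    (hcard : Fintype.card ι = Module.finrank k F) (O : ValuationSubring F)
    (hO : O.comap (algebraMap k F) = OL.comap (algebraMap k L)) :
    ∃ i, O = OL.comap (σ i : F →+* L) := by
  classical
  set R₀ : ValuationSubring k := OL.comap (algebraMap k L) with hR₀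
  -- the valuation subrings `O_j`
  set Oj : ι → ValuationSubring F := fun j => OL.comap (σ j : F →+* L) with hOj
  have hOjk : ∀ j, (Oj j).comap (algebraMap k F) = R₀ := by
    intro j
    ext c
    simp only [hOj, hR₀, ValuationSubring.mem_comap]
    rw [show ((σ j : F →+* L) (algebraMap k F c)) = algebraMap k L c from (σ j).commutes c]
  have hmemOj : ∀ j (g : F), g ∈ Oj j ↔ σ j g ∈ OL := fun j g => Iff.rfl
  -- the integral closure
  set D : Subalgebra R₀ F := integralClosure R₀ F with hD
  have hD_le : ∀ V : ValuationSubring F, V.comap (algebraMap k F) = R₀ → ∀ g ∈ D, g ∈ V := by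
    intro V hV g hg
    obtain ⟨q, hqm, hq⟩ := hg
    refine mem_of_monic_root V (q.map (algebraMap R₀ k)) (hqm.map _) (fun n => ?_) g ?_
    · rw [coeff_map, comap_mem_iff hV]
      exact (q.coeff n).2
    · rw [aeval_map_algebraMap, aeval_def]
      exact hq
  have hD_ge : ∀ g : F, (∀ j, σ j g ∈ OL) → g ∈ D := by
    intro g hg
    have hl : minpoly k g ∈ lifts (algebraMap R₀ k) := by
      rw [lifts_iff_coeff_lifts]
      intro n
      exact ⟨⟨_, ValuationSubring.mem_comap.mpr (coeff_minpoly_mem σ OL hσ hcard g hg n)⟩, rfl⟩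
    obtain ⟨q, hq, -, hqm⟩ := lifts_and_natDegree_eq_and_monic hl
      (minpoly.monic (Algebra.IsIntegral.isIntegral g))
    refine ⟨q, hqm, ?_⟩
    rw [← aeval_def, ← aeval_map_algebraMap k, hq, minpoly.aeval]
  -- the centres
  have hOD := hD_le O hO
  have hOjD := fun j => hD_le (Oj j) (hOjk j)
  set M : Ideal D := centre D O hOD with hM
  set Mj : ι → Ideal D := fun j => centre D (Oj j) (hOjD j) with hMj
  -- Step 2: `M ⊆ ⋃ Mj`
  have hcover : (M : Set D) ⊆ ⋃ j ∈ ((Finset.univ : Finset ι) : Set ι), (Mj j : Set D) := by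
    intro g hg
    rw [SetLike.mem_coe, hM, mem_centre_iff] at hg
    by_contra hcon
    simp only [Finset.coe_univ, Set.mem_univ, Set.iUnion_true, Set.mem_iUnion, SetLike.mem_coe,
      not_exists, hMj, mem_centre_iff] at hcon
    have hg0 : (g : F) ≠ 0 := by
      intro h0
      obtain ⟨j⟩ : Nonempty ι := by
        rw [← Fintype.card_pos_iff, hcard]
        exact Module.finrank_pos
      exact hcon j (h0 ▸ (Oj j).nonunits.zero_mem)
    have hinv : ((g : F))⁻¹ ∈ D := by
      apply hD_ge
      intro j
      have h2 := hcon j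
      rw [ValuationSubring.mem_nonunits_iff_or, not_or, not_not] at h2
      exact (hmemOj j _).mp h2.2
    have hinvO : ((g : F))⁻¹ ∈ O := hOD _ hinv
    rw [ValuationSubring.mem_nonunits_iff_or] at hg
    rcases hg with hg | hg
    · exact hg0 hg
    · exact hg hinvO
  -- Step 3: prime avoidance
  obtain ⟨i₀⟩ : Nonempty ι := by
    rw [← Fintype.card_pos_iff, hcard]
    exact Module.finrank_pos
  obtain ⟨i, -, hi⟩ := (Ideal.subset_union_prime (s := Finset.univ) (f := Mj) i₀ i₀
    (fun j _ _ _ => by rw [hMj]; infer_instance)).mp hcover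
  -- Step 4: `M` is maximal, hence `M = Mj i`
  have hMmax : M.IsMaximal := by
    apply Ideal.isMaximal_of_isIntegral_of_isMaximal_comap (R := R₀) (S := D) M
    have : M.comap (algebraMap R₀ D) = IsLocalRing.maximalIdeal R₀ := by
      ext c
      rw [Ideal.mem_comap, hM, mem_centre_iff, ← ValuationSubring.coe_mem_nonunits_iff,
        ← comap_nonunits_iff hO]
      rfl
    rw [this]
    exact IsLocalRing.maximalIdeal.isMaximal R₀
  have hMeq : M = Mj i := hMmax.eq_of_le (Ideal.IsPrime.ne_top (by rw [hMj]; infer_instance)) hi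
  -- Step 5
  refine ⟨i, ?_⟩
  ext x
  obtain ⟨y, hy⟩ := exists_test_element R₀ x
  have hyD : y ∈ D := hD_ge y fun j => (hy (Oj j) (hOjk j)).1
  have h1 := (hy O hO).2
  have h2 := (hy (Oj i) (hOjk i)).2
  have h3 : y ∈ O.nonunits ↔ y ∈ (Oj i).nonunits := by
    have e1 := mem_centre_iff D (V := O) (h := hOD) ⟨y, hyD⟩
    have e2 := mem_centre_iff D (V := Oj i) (h := hOjD i) ⟨y, hyD⟩
    rw [← e1, ← e2]
    change _ ∈ M ↔ _ ∈ Mj i
    rw [hMeq]
  rw [h1, h3, ← h2]

end Main

end Fermat.Agent.S24.H46
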