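import Mathlib
import Fermat.Prelude.Def_AlgebraicCurve_DivisorClassGroup
import Fermat.Agent.S24.H46_ValExt

/-!
# Places of a function field from embeddings into a valued field (helper46, S24/T4-ALG)

Specialisation of `H46.exists_eq_comap` to `k = K(T)`: a valuation subring of `F` containing `K`
in which `T - a` is a nonunit is the pullback of `OL` along one of the `n = [F : K(T)]` distinct
embeddings `σ i : F →+* L` (which agree on `K(T)`, map `K` into `OL` and `T - a` to a nonunit).
-/

set_option autoImplicit false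

namespace Fermat.Agent.S24.H46

open Polynomial

section RatFunc

variable {K E : Type*} [Field K] [Field E] [Algebra K E]

theorem mul_mem_nonunits (W : ValuationSubring E) {x y : E} (hx : x ∈ W.nonunits) (hy : y ∈ W) :
    x * y ∈ W.nonunits := by
  rw [ValuationSubring.mem_nonunits_iff] at hx ⊢
  rw [← ValuationSubring.valuation_le_one_iff] at hy
  rw [map_mul]
  calc W.valuation x * W.valuation y ≤ W.valuation x * 1 := by gcongr
    _ = W.valuation x := mul_one _
    _ < 1 := hx

theorem pow_mem_nonunits (W : ValuationSubring E) {x : E} (hx : x ∈ W.nonunits) {n : ℕ}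
    (hn : 0 < n) : x ^ n ∈ W.nonunits := by
  obtain ⟨m, rfl⟩ : ∃ m, n = m + 1 := ⟨n - 1, by omega⟩
  rw [pow_succ']
  exact mul_mem_nonunits W hx (pow_mem (ValuationSubring.nonunits_subset hx) m)

theorem inv_mem_of_not_mem_nonunits (W : ValuationSubring E) {u : E} (hu : u ∉ W.nonunits) :
    u⁻¹ ∈ W := by
  rw [ValuationSubring.mem_nonunits_iff_or, not_or, not_not] at hu
  exact hu.2

theorem aeval_mem_of_mem (W : ValuationSubring E) (hK : ∀ c : K, algebraMap K E c ∈ W) {T : E}
    (hT : T ∈ W) (q : K[X]) : aeval T q ∈ W := by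
  induction q using Polynomial.induction_on' with
  | add p q hp hq => rw [map_add]; exact W.add_mem _ _ hp hq
  | monomial n c => rw [aeval_monomial]; exact W.mul_mem _ _ (hK c) (pow_mem hT n)

theorem aeval_eq_pow_mul_unit (W : ValuationSubring E) (hK : ∀ c : K, algebraMap K E c ∈ W)
    {T : E} {a : K} (hTa : T - algebraMap K E a ∈ W.nonunits) (r : K[X]) (hr : r ≠ 0) :
    ∃ u : E, u ∈ W ∧ u ∉ W.nonunits ∧
      aeval T r = (T - algebraMap K E a) ^ (r.rootMultiplicity a) * u := by
  obtain ⟨q, hq, hndvd⟩ := exists_eq_pow_rootMultiplicity_mul_and_not_dvd r hr a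
  have hT : T ∈ W := by
    have := W.add_mem _ _ (ValuationSubring.nonunits_subset hTa) (hK a)
    simpa using this
  refine ⟨aeval T q, aeval_mem_of_mem W hK hT q, ?_, ?_⟩
  · intro hmem
    have hqa : q.eval a ≠ 0 := by
      intro h0
      exact hndvd (dvd_iff_isRoot.mpr h0)
    obtain ⟨q', hq'⟩ := X_sub_C_dvd_sub_C_eval (a := a) (p := q)
    have h1 : aeval T q = algebraMap K E (q.eval a) + (T - algebraMap K E a) * aeval T q' := by
      have := congrArg (aeval T) hq'
      simp only [map_sub, map_mul, aeval_X, aeval_C] at this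
      rw [← this]; ring
    have h2 : algebraMap K E (q.eval a) ∈ W.nonunits := by
      have h3 : algebraMap K E (q.eval a)
          = aeval T q - (T - algebraMap K E a) * aeval T q' := by rw [h1]; ring
      rw [h3]
      exact W.nonunits.sub_mem hmem (mul_mem_nonunits W hTa (aeval_mem_of_mem W hK hT q'))
    rw [ValuationSubring.mem_nonunits_iff_or] at h2
    rcases h2 with h2 | h2
    · exact hqa ((map_eq_zero _).mp h2)
    · apply h2
      rw [← map_inv₀]
      exact hK _
  · conv_lhs => rw [hq]
    simp only [map_mul, map_pow, map_sub, aeval_X, aeval_C]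

theorem mem_iff_rootMultiplicity_le (W : ValuationSubring E)
    (hK : ∀ c : K, algebraMap K E c ∈ W) {T : E} {a : K}
    (hTa : T - algebraMap K E a ∈ W.nonunits) (r s : K[X]) {x : E}
    (hx : x = aeval T r / aeval T s) (hx0 : x ≠ 0) :
    x ∈ W ↔ s.rootMultiplicity a ≤ r.rootMultiplicity a := by
  have hr0 : aeval T r ≠ 0 := by
    intro h; rw [h, zero_div] at hx; exact hx0 hx
  have hs0 : aeval T s ≠ 0 := by
    intro h; rw [h, div_zero] at hx; exact hx0 hx
  have hr : r ≠ 0 := by rintro rfl; simp at hr0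
  have hs : s ≠ 0 := by rintro rfl; simp at hs0
  obtain ⟨ur, hurW, hurU, hur⟩ := aeval_eq_pow_mul_unit W hK hTa r hr
  obtain ⟨us, husW, husU, hus⟩ := aeval_eq_pow_mul_unit W hK hTa s hs
  set π := T - algebraMap K E a with hπ
  set mr := r.rootMultiplicity a
  set ms := s.rootMultiplicity a
  have hπW : π ∈ W := ValuationSubring.nonunits_subset hTa
  have hur0 : ur ≠ 0 := by rintro rfl; rw [mul_zero] at hur; exact hr0 hur
  have hus0 : us ≠ 0 := by rintro rfl; rw [mul_zero] at hus; exact hs0 hus
  have hπr : π ^ mr ≠ 0 := by intro h; rw [h, zero_mul] at hur; exact hr0 hur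
  have hπs : π ^ ms ≠ 0 := by intro h; rw [h, zero_mul] at hus; exact hs0 hus
  constructor
  · intro hxW
    by_contra hlt
    rw [not_le] at hlt
    have hinv : x⁻¹ = π ^ (ms - mr) * (us * ur⁻¹) := by
      rw [hx, inv_div, hur, hus]
      have : π ^ ms = π ^ (ms - mr) * π ^ mr := by rw [← pow_add]; congr 1; omega
      rw [this]
      field_simp
    have : x⁻¹ ∈ W.nonunits := by
      rw [hinv]
      exact mul_mem_nonunits W (pow_mem_nonunits W hTa (by omega))
        (W.mul_mem _ _ husW (inv_mem_of_not_mem_nonunits W hurU))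
    rw [ValuationSubring.inv_mem_nonunits_iff] at this
    rcases this with h | h
    · exact hx0 h
    · exact h hxW
  · intro hle
    have hxe : x = π ^ (mr - ms) * (ur * us⁻¹) := by
      rw [hx, hur, hus]
      have : π ^ mr = π ^ (mr - ms) * π ^ ms := by rw [← pow_add]; congr 1; omega
      rw [this]
      field_simp
    rw [hxe]
    exact W.mul_mem _ _ (pow_mem hπW _)
      (W.mul_mem _ _ hurW (inv_mem_of_not_mem_nonunits W husU))

/-- A valuation subring of `K(T)` containing `K` in which `T - a` is a nonunit is unique. -/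
theorem valuationSubring_eq_of_gen (T : E)
    (hgen : ∀ x : E, ∃ r s : K[X], x = aeval T r / aeval T s) (a : K)
    (V V' : ValuationSubring E) (hK : ∀ c : K, algebraMap K E c ∈ V)
    (hK' : ∀ c : K, algebraMap K E c ∈ V') (hTa : T - algebraMap K E a ∈ V.nonunits)
    (hTa' : T - algebraMap K E a ∈ V'.nonunits) : V = V' := by
  ext x
  by_cases hx0 : x = 0
  · rw [hx0]; exact ⟨fun _ => V'.zero_mem, fun _ => V.zero_mem⟩
  obtain ⟨r, s, hx⟩ := hgen x
  rw [mem_iff_rootMultiplicity_le V hK hTa r s hx hx0,
    mem_iff_rootMultiplicity_le V' hK' hTa' r s hx hx0]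

end RatFunc

section GeneralBase

variable {K k F L : Type*} [Field K] [Field k] [Field F] [Field L]
  [Algebra K k] [Algebra k F] [Algebra K F] [IsScalarTower K k F]
  [FiniteDimensional k F] [Algebra.IsSeparable k F]

/-- **T4-ALG, general base `k = K(T)`.**  `k` is generated over `K` by `T` as a field
(`hgen`), `F / k` is finite separable of degree `#ι`, and `σ : ι → (F →+* L)` are distinct ring
embeddings which agree on `k`, map `K` into the valuation subring `OL` and `T - a` to a nonunit of
`OL`.  Then any valuation subring `O` of `F` containing `K` with `T - a ∈ 𝔪_O` is the pullback of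
`OL` along some `σ i`. -/
theorem exists_embedding_of_valuationSubring (T : k)
    (hgen : ∀ x : k, ∃ r s : K[X], x = aeval T r / aeval T s)
    (OL : ValuationSubring L) {ι : Type*} [Fintype ι] (σ : ι → (F →+* L))
    (hσ : Function.Injective σ) (hcard : Fintype.card ι = Module.finrank k F)
    (hagree : ∀ i j (x : k), σ i (algebraMap k F x) = σ j (algebraMap k F x))
    (hK : ∀ i (c : K), σ i (algebraMap K F c) ∈ OL) (a : K)
    (ha : ∀ i, σ i (algebraMap k F T - algebraMap K F a) ∈ OL.nonunits)
    (O : ValuationSubring F) (hOK : ∀ c : K, algebraMap K F c ∈ O)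
    (hOa : algebraMap k F T - algebraMap K F a ∈ O.nonunits) :
    ∃ i, ∀ f : F, f ∈ O ↔ σ i f ∈ OL := by
  classical
  obtain ⟨i₀⟩ : Nonempty ι := by
    rw [← Fintype.card_pos_iff, hcard]
    exact Module.finrank_pos
  let _ : Algebra k L := ((σ i₀).comp (algebraMap k F)).toAlgebra
  have halg : ∀ x : k, algebraMap k L x = σ i₀ (algebraMap k F x) := fun x => rfl
  let σ' : ι → (F →ₐ[k] L) := fun i =>
    { (σ i) with commutes' := fun x => by rw [halg]; exact hagree i i₀ x }
  have hσ' : Function.Injective σ' := by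
    intro i j hij
    apply hσ
    ext f
    exact DFunLike.congr_fun hij f
  have hsub : algebraMap k F (T - algebraMap K k a)
      = algebraMap k F T - algebraMap K F a := by
    rw [map_sub, ← IsScalarTower.algebraMap_apply]
  have hO : O.comap (algebraMap k F) = OL.comap (algebraMap k L) := by
    apply valuationSubring_eq_of_gen T hgen a
    · intro c
      rw [ValuationSubring.mem_comap, ← IsScalarTower.algebraMap_apply]
      exact hOK c
    · intro c
      rw [ValuationSubring.mem_comap, halg, ← IsScalarTower.algebraMap_apply]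
      exact hK i₀ c
    · rw [← comap_nonunits_iff (V := O) rfl, hsub]
      exact hOa
    · rw [← comap_nonunits_iff (V := OL) rfl, halg, hsub]
      exact ha i₀
  obtain ⟨i, hi⟩ := exists_eq_comap σ' OL hσ' hcard O hO
  exact ⟨i, fun f => by rw [hi]; rfl⟩

end GeneralBase

section Simple

open IntermediateField

variable {K F L : Type*} [Field K] [Field F] [Field L] [Algebra K F]

theorem adjoinSimple_hgen (t : F) (x : K⟮t⟯) :
    ∃ r s : K[X], x = aeval (AdjoinSimple.gen K t) r / aeval (AdjoinSimple.gen K t) s := by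
  obtain ⟨r, s, h⟩ := (mem_adjoin_simple_iff K (x : F)).mp x.2
  refine ⟨r, s, Subtype.ext ?_⟩
  rw [h]
  simp

/-- **T4-ALG, finite part, valuation-subring form**: `k = K(t) ⊆ F`. -/
theorem exists_embedding_of_valuationSubring_adjoin (t : F) [FiniteDimensional K⟮t⟯ F]
    [Algebra.IsSeparable K⟮t⟯ F] (OL : ValuationSubring L) {ι : Type*} [Fintype ι]
    (σ : ι → (F →+* L)) (hσ : Function.Injective σ)
    (hcard : Fintype.card ι = Module.finrank K⟮t⟯ F)
    (hagree : ∀ i j, ∀ x ∈ K⟮t⟯, σ i x = σ j x)
    (hK : ∀ i (c : K), σ i (algebraMap K F c) ∈ OL) (a : K)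
    (ha : ∀ i, σ i (t - algebraMap K F a) ∈ OL.nonunits)
    (O : ValuationSubring F) (hOK : ∀ c : K, algebraMap K F c ∈ O)
    (hOa : t - algebraMap K F a ∈ O.nonunits) :
    ∃ i, ∀ f : F, f ∈ O ↔ σ i f ∈ OL :=
  exists_embedding_of_valuationSubring (k := K⟮t⟯) (AdjoinSimple.gen K t) (adjoinSimple_hgen t)
    OL σ hσ hcard (fun i j x => hagree i j x x.2) hK a
    (by simpa using ha) O hOK (by simpa using hOa)

end Simple

section Place

open AlgebraicCurve IntermediateField

variable {K F L : Type*} [Field K] [Field F] [Field L] [Algebra K F]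

theorem ord_nonneg_of_mem (v : Place K F) {f : F} (hf : f ∈ v.toValuationSubring) :
    0 ≤ v.ord f := by
  rcases eq_or_ne f 0 with rfl | hf0
  · simp
  obtain ⟨π, hπ⟩ := IsDiscreteValuationRing.exists_irreducible v.toValuationSubring
  obtain ⟨n, u, hu⟩ :=
    IsDiscreteValuationRing.eq_unit_mul_pow_irreducible
      (x := (⟨f, hf⟩ : v.toValuationSubring)) (by simpa [Subtype.ext_iff] using hf0) hπ
  have hcoe : f = ((u : v.toValuationSubring) : F) * ((π : F) ^ (n : ℤ)) := by
    have h := congrArg (Subtype.val) hu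
    push_cast at h
    rw [zpow_natCast]
    exact h
  rw [hcoe, v.ord_unit_smul_zpow u hπ (n : ℤ)]
  exact Int.natCast_nonneg n

theorem mem_nonunits_of_ord_pos (v : Place K F) {f : F} (hf : 0 < v.ord f) :
    f ∈ v.toValuationSubring.nonunits := by
  rw [ValuationSubring.mem_nonunits_iff_or]
  by_contra h
  rw [not_or, not_not] at h
  have := ord_nonneg_of_mem v h.2
  rw [v.ord_inv] at this
  omega

/-- **T4-ALG, finite part (helper17's shape).**  Every place `v` of `F / K` at which `t - a` has
positive order is induced by one of the embeddings `σ i`. -/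
theorem exists_embedding_of_place (t : F) [FiniteDimensional K⟮t⟯ F]
    [Algebra.IsSeparable K⟮t⟯ F] (OL : ValuationSubring L) {ι : Type*} [Fintype ι]
    (σ : ι → (F →+* L)) (hσ : Function.Injective σ)
    (hcard : Fintype.card ι = Module.finrank K⟮t⟯ F)
    (hagree : ∀ i j, ∀ x ∈ K⟮t⟯, σ i x = σ j x)
    (hK : ∀ i (c : K), σ i (algebraMap K F c) ∈ OL) (a : K)
    (ha : ∀ i, σ i (t - algebraMap K F a) ∈ OL.nonunits)
    (v : Place K F) (hv : 0 < v.ord (t - algebraMap K F a)) :
    ∃ i, ∀ f : F, f ∈ v.toValuationSubring ↔ σ i f ∈ OL :=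
  exists_embedding_of_valuationSubring_adjoin t OL σ hσ hcard hagree hK a ha
    v.toValuationSubring v.algebraMap_mem' (mem_nonunits_of_ord_pos v hv)

theorem adjoinSimple_hgen_inv (j : F) (hj : j ≠ 0) (x : K⟮j⟯) :
    ∃ r s : K[X], x = aeval (AdjoinSimple.gen K j)⁻¹ r / aeval (AdjoinSimple.gen K j)⁻¹ s := by
  set g := AdjoinSimple.gen K j with hg
  have hg0 : g ≠ 0 := by
    intro h
    apply hj
    rw [← AdjoinSimple.coe_gen K j, ← hg, h]
    rfl
  obtain ⟨r, s, hx⟩ := adjoinSimple_hgen j x
  rw [← hg] at hx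
  have key : ∀ p : K[X], aeval g p = aeval g⁻¹ p.reverse * g ^ p.natDegree := by
    intro p
    let _ := invertibleOfNonzero hg0
    have := eval₂_reverse_mul_pow (algebraMap K K⟮j⟯) g p
    rw [invOf_eq_inv] at this
    rw [aeval_def, aeval_def, this]
  refine ⟨r.reverse * X ^ s.natDegree, s.reverse * X ^ r.natDegree, ?_⟩
  rw [hx, key r, key s]
  simp only [map_mul, map_pow, aeval_X, inv_pow]
  have h1 : g ^ r.natDegree ≠ 0 := pow_ne_zero _ hg0
  have h2 : g ^ s.natDegree ≠ 0 := pow_ne_zero _ hg0
  by_cases hs : aeval g⁻¹ s.reverse = 0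
  · simp [hs]
  field_simp

/-- **T4-ALG, cusp part.**  Every place `v` of `F / K` at which `j` has a pole is induced by one of
the embeddings `σ i` (all of which send `j` outside `OL`). -/
theorem exists_embedding_of_place_pole (j : F) [FiniteDimensional K⟮j⟯ F]
    [Algebra.IsSeparable K⟮j⟯ F] (OL : ValuationSubring L) {ι : Type*} [Fintype ι]
    (σ : ι → (F →+* L)) (hσ : Function.Injective σ)
    (hcard : Fintype.card ι = Module.finrank K⟮j⟯ F)
    (hagree : ∀ i i', ∀ x ∈ K⟮j⟯, σ i x = σ i' x)
    (hK : ∀ i (c : K), σ i (algebraMap K F c) ∈ OL)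
    (hpole : ∀ i, σ i j ∉ OL)
    (v : Place K F) (hv : v.ord j < 0) :
    ∃ i, ∀ f : F, f ∈ v.toValuationSubring ↔ σ i f ∈ OL := by
  have hj : j ≠ 0 := by
    rintro rfl
    simp at hv
  have hT : algebraMap K⟮j⟯ F (AdjoinSimple.gen K j)⁻¹ - algebraMap K F 0 = j⁻¹ := by
    rw [map_inv₀, AdjoinSimple.algebraMap_gen, map_zero, sub_zero]
  refine exists_embedding_of_valuationSubring (k := K⟮j⟯) (AdjoinSimple.gen K j)⁻¹
    (adjoinSimple_hgen_inv j hj) OL σ hσ hcard (fun i i' x => hagree i i' x x.2) hK 0 ?_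
    v.toValuationSubring v.algebraMap_mem' ?_
  · intro i
    rw [hT, map_inv₀, ValuationSubring.inv_mem_nonunits_iff]
    exact Or.inr (hpole i)
  · rw [hT]
    apply mem_nonunits_of_ord_pos
    rw [v.ord_inv]
    omega

end Place

end Fermat.Agent.S24.H46
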