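import Fermat.Agent.S24.H97_Finiteness
import Fermat.Agent.S24.H27_PlaceOfValuation

set_option autoImplicit false

noncomputable section

open IsDedekindDomain Polynomial AlgebraicCurve WithZero
open scoped IntermediateField IntermediateField.algebraAdjoinAdjoin

namespace Fermat.Agent.S24.H97

variable {K F : Type*} [Field K] [Field F] [Algebra K F]

section Residue

variable (t : F) [FiniteDimensional K⟮t⟯ F] [CharZero K] [Fact (Transcendental K t)]

/-- `toPlaceRing` as a `K`-algebra homomorphism. -/
def toPlaceRingAlgHom (v : Place K F) (hv : t ∈ v.toValuationSubring) :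
    intRing K t →ₐ[K] v.toValuationSubring :=
  { toPlaceRing t v hv with
    commutes' := fun _ => Subtype.ext rfl }

@[simp]
theorem toPlaceRingAlgHom_apply (v : Place K F) (hv : t ∈ v.toValuationSubring)
    (b : intRing K t) : toPlaceRingAlgHom t v hv b = toPlaceRing t v hv b := rfl

/-- The reduction map from the integral closure of `K[t]` to the residue field of a place. -/
def residueHom (v : Place K F) (hv : t ∈ v.toValuationSubring) :
    intRing K t →ₐ[K] v.ResidueField :=
  (IsScalarTower.toAlgHom K v.toValuationSubring v.ResidueField).comp (toPlaceRingAlgHom t v hv)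

theorem residueHom_apply (v : Place K F) (hv : t ∈ v.toValuationSubring) (b : intRing K t) :
    residueHom t v hv b = IsLocalRing.residue v.toValuationSubring (toPlaceRing t v hv b) := rfl

theorem mem_primeOfPlace_iff (v : Place K F) (hv : t ∈ v.toValuationSubring) (b : intRing K t) :
    b ∈ (primeOfPlace t v hv).asIdeal ↔
      toPlaceRing t v hv b ∈ IsLocalRing.maximalIdeal v.toValuationSubring := Iff.rfl

theorem residueHom_surjective (v : Place K F) (hv : t ∈ v.toValuationSubring) :
    Function.Surjective (residueHom t v hv) := by
  intro z
  obtain ⟨y, rfl⟩ := IsLocalRing.residue_surjective z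
  set w := primeOfPlace t v hv with hw
  have hy : w.valuation F (y : F) ≤ 1 := by
    have h1 : (y : F) ∈ (placeOfPrime t w).toValuationSubring := by
      rw [hw, placeOfPrime_primeOfPlace]; exact y.2
    rwa [placeOfPrime_toValuationSubring, Valuation.mem_valuationSubring_iff] at h1
  obtain ⟨n, d, hnd⟩ := w.exists_primeCompl_mul_eq_of_integer (y : F) hy
  obtain ⟨c, i, hi, hci⟩ := (w.isMaximal).exists_inv d.2
  refine ⟨n * c, ?_⟩
  rw [residueHom_apply]
  have hn : toPlaceRing t v hv n = y * toPlaceRing t v hv d := by
    apply Subtype.ext
    rw [coe_toPlaceRing]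
    exact hnd.symm
  have h1 : toPlaceRing t v hv c * toPlaceRing t v hv d + toPlaceRing t v hv i = 1 := by
    rw [← map_mul, ← map_add, hci, map_one]
  have hi' : toPlaceRing t v hv i ∈ IsLocalRing.maximalIdeal v.toValuationSubring :=
    (mem_primeOfPlace_iff t v hv i).mp hi
  show Ideal.Quotient.mk _ _ = Ideal.Quotient.mk _ _
  rw [Ideal.Quotient.eq]
  have h2 : toPlaceRing t v hv (n * c) - y = -(y * toPlaceRing t v hv i) := by
    rw [map_mul, hn]
    linear_combination y * h1
  rw [h2]
  exact neg_mem (Ideal.mul_mem_left _ _ hi')

theorem finite_residueField_of_mem (v : Place K F) (hv : t ∈ v.toValuationSubring) :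
    Module.Finite K v.ResidueField := by
  haveI : Algebra.FiniteType K v.ResidueField :=
    Algebra.FiniteType.of_surjective (residueHom t v hv) (residueHom_surjective t v hv)
  exact finite_of_finite_type_of_isJacobsonRing K v.ResidueField

end Residue

section Global

variable (t : F) [FiniteDimensional K⟮t⟯ F] [CharZero K]

/-- Residue fields of places of a function field in one variable are finite over the constants. -/
theorem finite_residueField (ht : Transcendental K t) (v : Place K F) :
    Module.Finite K v.ResidueField := by
  by_cases hv : t ∈ v.toValuationSubring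
  · haveI : Fact (Transcendental K t) := ⟨ht⟩
    exact finite_residueField_of_mem t v hv
  · haveI := finiteDimensional_adjoin_inv (K := K) t
    haveI : Fact (Transcendental K t⁻¹) := ⟨transcendental_inv ht⟩
    exact finite_residueField_of_mem t⁻¹ v (inv_mem_of_not_mem v hv)

theorem finiteResidue (ht : Transcendental K t) (v : Place K F) : v.FiniteResidue :=
  ⟨finite_residueField t ht v⟩

theorem deg_pos (ht : Transcendental K t) (v : Place K F) : 0 < v.deg := by
  haveI := finite_residueField t ht v
  exact Module.finrank_pos

theorem algebraMap_residueField_surjective [IsAlgClosed K] (ht : Transcendental K t)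
    (v : Place K F) : Function.Surjective (algebraMap K v.ResidueField) := by
  haveI := finite_residueField t ht v
  exact (IsAlgClosed.algebraMap_bijective_of_isIntegral (k := K) (K := v.ResidueField)).2

/-- Over an algebraically closed constant field every place has degree one. -/
theorem deg_eq_one [IsAlgClosed K] (ht : Transcendental K t) (v : Place K F) : v.deg = 1 := by
  have hsurj := algebraMap_residueField_surjective t ht v
  have hbij : Function.Bijective (Algebra.linearMap K v.ResidueField) :=
    ⟨(algebraMap K v.ResidueField).injective, hsurj⟩
  have e : K ≃ₗ[K] v.ResidueField := LinearEquiv.ofBijective _ hbij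
  rw [Place.deg, ← e.finrank_eq, Module.finrank_self]

/-- Over an algebraically closed constant field, a place at which `t` is integral is a zero of
`t - a` for some constant `a`. -/
theorem exists_zero_of_mem [IsAlgClosed K] (ht : Transcendental K t) (v : Place K F)
    (hv : t ∈ v.toValuationSubring) : ∃ a : K, 0 < v.ord (t - algebraMap K F a) := by
  obtain ⟨a, ha⟩ := algebraMap_residueField_surjective t ht v
    (IsLocalRing.residue v.toValuationSubring ⟨t, hv⟩)
  refine ⟨a, ?_⟩
  have h1 : (⟨t, hv⟩ - algebraMap K v.toValuationSubring a : v.toValuationSubring) ∈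
      IsLocalRing.maximalIdeal v.toValuationSubring := by
    rw [← IsLocalRing.residue_eq_zero_iff, map_sub, sub_eq_zero, ← ha]
    rfl
  have h2 : (⟨t, hv⟩ - algebraMap K v.toValuationSubring a : v.toValuationSubring) ≠ 0 := by
    intro h
    apply sub_algebraMap_ne_zero ht a
    have := congrArg (Subtype.val) h
    simpa using this
  have := (H27.ord_pos_iff_mem_maximalIdeal v _ h2).mpr h1
  simpa using this

/-- Over an algebraically closed constant field, every place is a pole of `t` or a zero of
`t - a` for some constant `a` (the field `value` of `RH.Data`). -/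
theorem pole_or_zero [IsAlgClosed K] (ht : Transcendental K t) (v : Place K F) :
    v.ord t < 0 ∨ ∃ a : K, 0 < v.ord (t - algebraMap K F a) := by
  by_cases hv : t ∈ v.toValuationSubring
  · exact Or.inr (exists_zero_of_mem t ht v hv)
  · exact Or.inl ((ord_lt_zero_iff_not_mem v (ne_zero_of_transcendental ht)).mpr hv)

end Global

end Fermat.Agent.S24.H97
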