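import Fermat.Agent.S24.H97_Transfer

set_option autoImplicit false

noncomputable section

open IsDedekindDomain Polynomial AlgebraicCurve WithZero
open scoped IntermediateField IntermediateField.algebraAdjoinAdjoin

namespace Fermat.Agent.S24.H97

variable {K F : Type*} [Field K] [Field F] [Algebra K F]

theorem log_eq_zero_iff {x : ℤᵐ⁰} (hx : x ≠ 0) : log x = 0 ↔ x = 1 := by
  constructor
  · intro h
    have := exp_log hx
    rw [h, exp_zero] at this
    exact this.symm
  · rintro rfl
    exact log_one

section Fin

variable (t : F) [FiniteDimensional K⟮t⟯ F] [CharZero K] [Fact (Transcendental K t)]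

theorem ord_placeOfPrime (w : HeightOneSpectrum (intRing K t)) (f : F) :
    (placeOfPrime t w).ord f = -(log (w.valuation F f)) :=
  ord_ofHeightOneSpectrum w f

theorem adicValuation_placeOfPrime (w : HeightOneSpectrum (intRing K t)) :
    (placeOfPrime t w).adicValuation = w.valuation F :=
  adicValuation_ofHeightOneSpectrum w

theorem ord_placeOfPrime_ne_zero_iff (w : HeightOneSpectrum (intRing K t)) {f : F} (hf : f ≠ 0) :
    (placeOfPrime t w).ord f ≠ 0 ↔ w.valuation F f ≠ 1 := by
  rw [ord_placeOfPrime, ne_eq, neg_eq_zero,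
    log_eq_zero_iff ((Valuation.ne_zero_iff _).mpr hf)]

/-- For `b` in the integral closure of `K[t]`, `0 < ord_w b` iff `b ∈ w`. -/
theorem ord_placeOfPrime_coe_pos_iff (w : HeightOneSpectrum (intRing K t)) {b : intRing K t}
    (hb : b ≠ 0) : 0 < (placeOfPrime t w).ord (b : F) ↔ b ∈ w.asIdeal := by
  have hb' : w.valuation F (b : F) ≠ 0 := by
    rw [Valuation.ne_zero_iff]
    exact fun h => hb (Subtype.ext h)
  rw [ord_placeOfPrime, neg_pos, ← w.valuation_lt_one_iff_mem (K := F),
    log_lt_iff_lt_exp hb', exp_zero]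
  rfl

/-- The places at which `t` is integral and a given nonzero function has nonzero order are
finite in number. -/
theorem finite_ord_ne_zero_of_mem {f : F} (hf : f ≠ 0) :
    {v : Place K F | t ∈ v.toValuationSubring ∧ v.ord f ≠ 0}.Finite := by
  have h1 : {w : HeightOneSpectrum (intRing K t) | w.valuation F f ≠ 1}.Finite := by
    refine ((HeightOneSpectrum.Support.finite (intRing K t) f).union
      (HeightOneSpectrum.Support.finite (intRing K t) f⁻¹)).subset ?_
    intro w hw
    rcases lt_or_gt_of_ne hw with h | h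
    · right
      show 1 < w.valuation F f⁻¹
      rw [map_inv₀]
      exact (one_lt_inv₀ (zero_lt_iff.mpr ((Valuation.ne_zero_iff _).mpr hf))).mpr h
    · left
      exact h
  refine (h1.image (placeOfPrime t)).subset ?_
  rintro v ⟨hv, hne⟩
  refine ⟨primeOfPlace t v hv, ?_, placeOfPrime_primeOfPlace t v hv⟩
  rw [Set.mem_setOf_eq, ← ord_placeOfPrime_ne_zero_iff t _ hf, placeOfPrime_primeOfPlace]
  exact hne

end Fin

section Global

variable (t : F) [FiniteDimensional K⟮t⟯ F] [CharZero K]

omit [FiniteDimensional K⟮t⟯ F] [CharZero K] in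
theorem ord_lt_zero_iff_not_mem (v : Place K F) {f : F} (hf : f ≠ 0) :
    v.ord f < 0 ↔ f ∉ v.toValuationSubring := by
  rw [H24.PlaceLemmas.mem_iff_ord_nonneg v hf, not_le]

omit [FiniteDimensional K⟮t⟯ F] [CharZero K] in
theorem inv_mem_of_not_mem (v : Place K F) {f : F} (hf : f ∉ v.toValuationSubring) :
    f⁻¹ ∈ v.toValuationSubring :=
  (v.toValuationSubring.mem_or_inv_mem f).resolve_left hf

/-- The poles of `t` are finite in number. -/
theorem finite_poles (ht : Transcendental K t) : {v : Place K F | v.ord t < 0}.Finite := by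
  haveI := finiteDimensional_adjoin_inv (K := K) t
  haveI : Fact (Transcendental K t⁻¹) := ⟨transcendental_inv ht⟩
  have ht0 := ne_zero_of_transcendental ht
  refine (finite_ord_ne_zero_of_mem (K := K) t⁻¹ (inv_ne_zero ht0)).subset ?_
  intro v hv
  rw [Set.mem_setOf_eq] at hv
  refine ⟨inv_mem_of_not_mem v ((ord_lt_zero_iff_not_mem v ht0).mp hv), ?_⟩
  rw [v.ord_inv]
  omega

/-- A nonzero function has nonzero order at only finitely many places. -/
theorem finite_ord_ne_zero (ht : Transcendental K t) (f : F) :
    {v : Place K F | v.ord f ≠ 0}.Finite := by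
  rcases eq_or_ne f 0 with rfl | hf
  · simp
  haveI : Fact (Transcendental K t) := ⟨ht⟩
  have ht0 := ne_zero_of_transcendental ht
  refine ((finite_ord_ne_zero_of_mem (K := K) t hf).union (finite_poles t ht)).subset ?_
  intro v hv
  by_cases hmem : t ∈ v.toValuationSubring
  · exact Or.inl ⟨hmem, hv⟩
  · exact Or.inr ((ord_lt_zero_iff_not_mem v ht0).mpr hmem)

/-- The zeros of `t - a` are finite in number. -/
theorem finite_zeros (ht : Transcendental K t) (a : K) :
    {v : Place K F | 0 < v.ord (t - algebraMap K F a)}.Finite :=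
  (finite_ord_ne_zero t ht (t - algebraMap K F a)).subset fun v hv => by
    rw [Set.mem_setOf_eq] at hv ⊢
    omega

/-- The divisor of a function (zero for `f = 0`). -/
def divisorOf (ht : Transcendental K t) (f : F) : Divisor K F :=
  Finsupp.ofSupportFinite (fun v => v.ord f) (finite_ord_ne_zero t ht f)

@[simp]
theorem divisorOf_apply (ht : Transcendental K t) (f : F) (v : Place K F) :
    divisorOf t ht f v = v.ord f := rfl

theorem exists_divisor_ord (ht : Transcendental K t) (f : F) :
    ∃ D : Divisor K F, ∀ v, D v = v.ord f :=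
  ⟨divisorOf t ht f, fun _ => rfl⟩

end Global

end Fermat.Agent.S24.H97
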