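import Mathlib
import Fermat.Agent.S24.Defs
import Fermat.Agent.S24.H24_RH
import Fermat.Agent.S24.H24_Group
import Fermat.Agent.S24.H25_Wire
import Fermat.Agent.S24.H40_Transcendental

set_option autoImplicit false

noncomputable section

namespace Fermat.Agent.S24.H24

open AlgebraicCurve ModularCurve IntermediateField
open scoped MatrixGroups

/-- Input (A) of `genus_eq_genusFormula_of` from the degree statement (M2 + M3). -/
theorem rhData_jBar (N : ℕ) [NeZero N] [FiniteDimensional Qbar⟮jBar N⟯ (FN N)]
    (hdeg : Module.finrank Qbar⟮jBar N⟯ (FN N) = Nat.card (XN N)) :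
    RH.Data (K := Qbar) (jBar N) (Fintype.card (XN N)) := by
  have h := H25.rhData (K := Qbar) (jBar N) (H40.transcendental_jBar N)
  rw [hdeg, Nat.card_eq_fintype_card] at h
  exact h

end Fermat.Agent.S24.H24
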