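import Mathlib

/-!
S24 package J4: invariance of a meromorphic function under an elliptic element forces
divisibility of its order at the fixed point.

Main statements (namespace `Fermat.Agent.S24.H32`):
* `zpow_deriv_eq_one_of_comp_eq`, `dvd_meromorphicOrderAt_of_comp_eq`: local core.
* `two_dvd_meromorphicOrderAt_of_trace_zero`, `three_dvd_meromorphicOrderAt_of_trace_one`:
  for `γ : SL(2, ℤ)` fixing `τ0 : ℍ` with trace `0`, resp. `1` or `-1`.
* `two_dvd_order_of_S_invariant`, `three_dvd_order_of_ST_invariant`: interface shapes.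
* `two_dvd_analyticOrderNatAt_of_trace_zero`, `three_dvd_analyticOrderNatAt_of_trace_one`.
* `trace_S`, `trace_S_mul_T`, `trace_conj`, `trace_conj'`, `conj_smul_eq`, `conj_smul_eq'`.
-/

namespace Fermat.Agent.S24.H32

open Filter Topology UpperHalfPlane
open scoped MatrixGroups Manifold

/-- Core: if `f` is meromorphic of finite order `n` at `z0`, `g` is differentiable at `z0`,
fixes `z0`, has nonzero derivative `w` there, and `f ∘ g = f` on a punctured neighbourhood of `z0`,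
then `w ^ n = 1`. -/
theorem zpow_deriv_eq_one_of_comp_eq {f g : ℂ → ℂ} {z0 : ℂ}
    (hf : MeromorphicAt f z0) (hf0 : meromorphicOrderAt f z0 ≠ ⊤)
    (hg : DifferentiableAt ℂ g z0) (hgz : g z0 = z0) (hw : deriv g z0 ≠ 0)
    (hinv : ∀ᶠ z in 𝓝[≠] z0, f (g z) = f z) :
    deriv g z0 ^ (meromorphicOrderAt f z0).untop₀ = 1 := by
  obtain ⟨h, hh_an, hh_ne, hh_eq⟩ := (meromorphicOrderAt_ne_top_iff hf).1 hf0
  set n : ℤ := (meromorphicOrderAt f z0).untop₀ with hn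
  set k : ℂ → ℂ := dslope g z0 with hk
  have hk_cont : ContinuousAt k z0 := continuousAt_dslope_same.2 hg
  have hk0 : k z0 = deriv g z0 := dslope_same g z0
  have hgk : ∀ z, g z - z0 = (z - z0) * k z := by
    intro z
    have := sub_smul_dslope g z0 z
    rw [hgz] at this
    rw [← this, smul_eq_mul]
  have hg_cont : ContinuousAt g z0 := hg.continuousAt
  -- `k z ≠ 0` near `z0`
  have hk_ne : ∀ᶠ z in 𝓝 z0, k z ≠ 0 := by
    have : k z0 ≠ 0 := by rwa [hk0]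
    exact hk_cont.eventually_ne this
  -- `g` maps the punctured neighbourhood into itself
  have hg_tend : Tendsto g (𝓝[≠] z0) (𝓝[≠] z0) := by
    rw [tendsto_nhdsWithin_iff]
    refine ⟨?_, ?_⟩
    · have : Tendsto g (𝓝 z0) (𝓝 z0) := by
        have := hg_cont.tendsto
        rwa [hgz] at this
      exact this.mono_left nhdsWithin_le_nhds
    · filter_upwards [eventually_nhdsWithin_of_eventually_nhds hk_ne, self_mem_nhdsWithin]
        with z hz hzne
      have h1 : g z - z0 ≠ 0 := by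
        rw [hgk z]
        exact mul_ne_zero (sub_ne_zero.2 hzne) hz
      exact fun hcon => h1 (sub_eq_zero.2 hcon)
  -- the key identity on the punctured neighbourhood
  have hkey : ∀ᶠ z in 𝓝[≠] z0, k z ^ n * h (g z) = h z := by
    have h2 : ∀ᶠ z in 𝓝[≠] z0, f (g z) = (g z - z0) ^ n • h (g z) := hg_tend.eventually hh_eq
    filter_upwards [hh_eq, h2, hinv, self_mem_nhdsWithin] with z e1 e2 e3 hzne
    have hz0 : (z - z0) ^ n ≠ 0 := zpow_ne_zero _ (sub_ne_zero.2 hzne)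
    rw [e3, e1, hgk z, mul_zpow, smul_eq_mul, smul_eq_mul, mul_assoc] at e2
    exact (mul_left_cancel₀ hz0 e2).symm
  -- pass to the limit
  have hlim1 : Tendsto (fun z => k z ^ n * h (g z)) (𝓝[≠] z0) (𝓝 (k z0 ^ n * h z0)) := by
    have t1 : Tendsto k (𝓝[≠] z0) (𝓝 (k z0)) := hk_cont.tendsto.mono_left nhdsWithin_le_nhds
    have t2 : Tendsto (fun z => k z ^ n) (𝓝[≠] z0) (𝓝 (k z0 ^ n)) :=
      t1.zpow₀ n (Or.inl (by rwa [hk0]))
    have t3 : Tendsto (fun z => h (g z)) (𝓝[≠] z0) (𝓝 (h z0)) := by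
      have : Tendsto h (𝓝[≠] z0) (𝓝 (h z0)) :=
        hh_an.continuousAt.tendsto.mono_left nhdsWithin_le_nhds
      exact this.comp hg_tend
    exact t2.mul t3
  have hlim2 : Tendsto (fun z => k z ^ n * h (g z)) (𝓝[≠] z0) (𝓝 (h z0)) := by
    have : Tendsto h (𝓝[≠] z0) (𝓝 (h z0)) :=
      hh_an.continuousAt.tendsto.mono_left nhdsWithin_le_nhds
    exact this.congr' (hkey.mono fun z hz => hz.symm)
  have huniq := tendsto_nhds_unique hlim1 hlim2
  rw [hk0] at huniq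
  have := mul_right_cancel₀ hh_ne (huniq.trans (one_mul _).symm)
  exact this

/-- J4-core: invariance under a local map with multiplier a primitive `s`-th root of unity
forces the order to be divisible by `s`. -/
theorem dvd_meromorphicOrderAt_of_comp_eq {f g : ℂ → ℂ} {z0 : ℂ} {s : ℕ}
    (hf : MeromorphicAt f z0) (hf0 : meromorphicOrderAt f z0 ≠ ⊤)
    (hg : DifferentiableAt ℂ g z0) (hgz : g z0 = z0) (hs : s ≠ 0)
    (hprim : IsPrimitiveRoot (deriv g z0) s)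
    (hinv : ∀ᶠ z in 𝓝[≠] z0, f (g z) = f z) :
    (s : ℤ) ∣ (meromorphicOrderAt f z0).untop₀ :=
  (hprim.zpow_eq_one_iff_dvd _).1
    (zpow_deriv_eq_one_of_comp_eq hf hf0 hg hgz (hprim.ne_zero hs) hinv)

/-- Derivative of a fractional linear map. -/
theorem hasDerivAt_moebius (a b c d z0 : ℂ) (hden : c * z0 + d ≠ 0) :
    HasDerivAt (fun z : ℂ => (a * z + b) / (c * z + d))
      ((a * d - b * c) / (c * z0 + d) ^ 2) z0 := by
  have h1 : HasDerivAt (fun z : ℂ => a * z + b) a z0 := by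
    simpa using ((hasDerivAt_id z0).const_mul a).add_const b
  have h2 : HasDerivAt (fun z : ℂ => c * z + d) c z0 := by
    simpa using ((hasDerivAt_id z0).const_mul c).add_const d
  exact (h1.div h2 hden).congr_deriv (by ring)

theorem isPrimitiveRoot_inv_sq_of_sq_eq_neg_one {j : ℂ} (hj : j ^ 2 = -1) :
    IsPrimitiveRoot (j ^ 2)⁻¹ 2 := by
  rw [hj]
  have : ((-1 : ℂ))⁻¹ = -1 := by norm_num
  rw [this]
  exact IsPrimitiveRoot.neg_one 0 (by norm_num)

theorem isPrimitiveRoot_three_of_pow_eq_one {w : ℂ} (h3 : w ^ 3 = 1) (h1 : w ≠ 1) :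
    IsPrimitiveRoot w 3 := by
  have : Fact (Nat.Prime 3) := ⟨Nat.prime_three⟩
  have := orderOf_eq_prime h3 h1
  rw [← this]
  exact IsPrimitiveRoot.orderOf w

theorem isPrimitiveRoot_inv_sq_of_sq_sub_add_one {j : ℂ} (hj : j ^ 2 - j + 1 = 0) :
    IsPrimitiveRoot (j ^ 2)⁻¹ 3 := by
  have hj0 : j ≠ 0 := by
    rintro rfl
    norm_num at hj
  have hj3 : j ^ 3 = -1 := by linear_combination (j + 1) * hj
  apply isPrimitiveRoot_three_of_pow_eq_one
  · rw [inv_pow, ← pow_mul]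
    have : j ^ (2 * 3) = (j ^ 3) ^ 2 := by ring
    rw [this, hj3]
    norm_num
  · intro h
    have h2 : j ^ 2 = 1 := by
      have := inv_eq_one.1 h
      exact this
    have : j = 2 := by linear_combination -hj + h2
    rw [this] at hj
    norm_num at hj

theorem isPrimitiveRoot_inv_sq_of_sq_add_add_one {j : ℂ} (hj : j ^ 2 + j + 1 = 0) :
    IsPrimitiveRoot (j ^ 2)⁻¹ 3 := by
  have hj' : (-j) ^ 2 - (-j) + 1 = 0 := by linear_combination hj
  have := isPrimitiveRoot_inv_sq_of_sq_sub_add_one hj'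
  rwa [neg_sq] at this

/-- Complex-level fractional linear version of J4. -/
theorem dvd_meromorphicOrderAt_of_moebius_invariant {f : ℂ → ℂ} {a b c d z0 : ℂ} {s : ℕ}
    (hdet : a * d - b * c = 1) (hden : c * z0 + d ≠ 0)
    (hfix : (a * z0 + b) / (c * z0 + d) = z0) (hs : s ≠ 0)
    (hprim : IsPrimitiveRoot ((c * z0 + d) ^ 2)⁻¹ s)
    (hf : MeromorphicAt f z0)
    (hinv : ∀ᶠ z in 𝓝[≠] z0, f ((a * z + b) / (c * z + d)) = f z) :
    (s : ℤ) ∣ (meromorphicOrderAt f z0).untop₀ := by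
  by_cases hf0 : meromorphicOrderAt f z0 = ⊤
  · simp [hf0]
  have hd := hasDerivAt_moebius a b c d z0 hden
  rw [hdet, one_div] at hd
  exact dvd_meromorphicOrderAt_of_comp_eq (g := fun z => (a * z + b) / (c * z + d)) hf hf0
    hd.differentiableAt hfix hs (by rw [hd.deriv]; exact hprim) hinv

/-- The denominator `j = c z0 + d` at a fixed point is an eigenvalue of the matrix. -/
theorem denom_sq_sub_trace_mul_add_one {a b c d z0 : ℂ}
    (hdet : a * d - b * c = 1) (hden : c * z0 + d ≠ 0)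
    (hfix : (a * z0 + b) / (c * z0 + d) = z0) :
    (c * z0 + d) ^ 2 - (a + d) * (c * z0 + d) + 1 = 0 := by
  have hfix' : a * z0 + b = z0 * (c * z0 + d) := (div_eq_iff hden).1 hfix
  linear_combination (-c) * hfix' - hdet

theorem two_dvd_meromorphicOrderAt_of_moebius_trace_zero {f : ℂ → ℂ} {a b c d z0 : ℂ}
    (hdet : a * d - b * c = 1) (hden : c * z0 + d ≠ 0)
    (hfix : (a * z0 + b) / (c * z0 + d) = z0) (htr : a + d = 0)
    (hf : MeromorphicAt f z0)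
    (hinv : ∀ᶠ z in 𝓝[≠] z0, f ((a * z + b) / (c * z + d)) = f z) :
    (2 : ℤ) ∣ (meromorphicOrderAt f z0).untop₀ := by
  have h := denom_sq_sub_trace_mul_add_one hdet hden hfix
  rw [htr] at h
  have hj : (c * z0 + d) ^ 2 = -1 := by linear_combination h
  exact_mod_cast dvd_meromorphicOrderAt_of_moebius_invariant (s := 2) hdet hden hfix (by norm_num)
    (isPrimitiveRoot_inv_sq_of_sq_eq_neg_one hj) hf hinv

theorem three_dvd_meromorphicOrderAt_of_moebius_trace_one {f : ℂ → ℂ} {a b c d z0 : ℂ}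
    (hdet : a * d - b * c = 1) (hden : c * z0 + d ≠ 0)
    (hfix : (a * z0 + b) / (c * z0 + d) = z0) (htr : a + d = 1 ∨ a + d = -1)
    (hf : MeromorphicAt f z0)
    (hinv : ∀ᶠ z in 𝓝[≠] z0, f ((a * z + b) / (c * z + d)) = f z) :
    (3 : ℤ) ∣ (meromorphicOrderAt f z0).untop₀ := by
  have h := denom_sq_sub_trace_mul_add_one hdet hden hfix
  have hprim : IsPrimitiveRoot ((c * z0 + d) ^ 2)⁻¹ 3 := by
    rcases htr with htr | htr
    · rw [htr] at h
      exact isPrimitiveRoot_inv_sq_of_sq_sub_add_one (by linear_combination h)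
    · rw [htr] at h
      exact isPrimitiveRoot_inv_sq_of_sq_add_add_one (by linear_combination h)
  exact_mod_cast dvd_meromorphicOrderAt_of_moebius_invariant (s := 3) hdet hden hfix (by norm_num)
    hprim hf hinv

/-! ### Upper half plane wrappers -/

theorem coe_smul_eq_moebius (γ : SL(2, ℤ)) (τ : ℍ) :
    ((γ • τ : ℍ) : ℂ) =
      (((γ 0 0 : ℤ) : ℂ) * τ + ((γ 0 1 : ℤ) : ℂ)) / (((γ 1 0 : ℤ) : ℂ) * τ + ((γ 1 1 : ℤ) : ℂ)) := by
  rw [coe_specialLinearGroup_apply]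
  simp

theorem det_cast_eq_one (γ : SL(2, ℤ)) :
    ((γ 0 0 : ℤ) : ℂ) * ((γ 1 1 : ℤ) : ℂ) - ((γ 0 1 : ℤ) : ℂ) * ((γ 1 0 : ℤ) : ℂ) = 1 := by
  have h := γ.det_coe
  rw [Matrix.det_fin_two] at h
  exact_mod_cast h

theorem denom_cast_ne_zero (γ : SL(2, ℤ)) (τ : ℍ) :
    ((γ 1 0 : ℤ) : ℂ) * τ + ((γ 1 1 : ℤ) : ℂ) ≠ 0 := by
  have := UpperHalfPlane.denom_ne_zero (γ : GL (Fin 2) ℝ) τ
  simpa [UpperHalfPlane.denom] using this

/-- Local invariance on `ℍ` transported to `ℂ`. -/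
theorem eventually_comp_ofComplex_moebius {f : ℍ → ℂ} {γ : SL(2, ℤ)} {τ0 : ℍ}
    (hinv : ∀ᶠ τ in 𝓝 τ0, f (γ • τ) = f τ) :
    ∀ᶠ z in 𝓝[≠] (τ0 : ℂ),
      (f ∘ ofComplex) ((((γ 0 0 : ℤ) : ℂ) * z + ((γ 0 1 : ℤ) : ℂ)) /
        (((γ 1 0 : ℤ) : ℂ) * z + ((γ 1 1 : ℤ) : ℂ))) = (f ∘ ofComplex) z := by
  apply eventually_nhdsWithin_of_eventually_nhds
  have hcont : ContinuousAt ofComplex (τ0 : ℂ) :=
    (contMDiffAt_ofComplex (n := 0) τ0.im_pos).continuousAt
  have htend : Tendsto ofComplex (𝓝 (τ0 : ℂ)) (𝓝 τ0) := by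
    have := hcont.tendsto
    rwa [ofComplex_apply] at this
  have hpos : ∀ᶠ z in 𝓝 (τ0 : ℂ), 0 < z.im :=
    isOpen_upperHalfPlaneSet.mem_nhds τ0.im_pos
  filter_upwards [htend.eventually hinv, hpos] with z hz hzpos
  have e1 : ofComplex z = ⟨z, hzpos⟩ := ofComplex_apply_of_im_pos hzpos
  have e2 := coe_smul_eq_moebius γ ⟨z, hzpos⟩
  simp only [Function.comp_apply]
  rw [e1] at hz
  have e3 : (((γ 0 0 : ℤ) : ℂ) * z + ((γ 0 1 : ℤ) : ℂ)) /
        (((γ 1 0 : ℤ) : ℂ) * z + ((γ 1 1 : ℤ) : ℂ)) = ((γ • (⟨z, hzpos⟩ : ℍ) : ℍ) : ℂ) := e2.symm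
  rw [e3, ofComplex_apply, e1, hz]

theorem two_dvd_meromorphicOrderAt_of_trace_zero {f : ℍ → ℂ} {γ : SL(2, ℤ)} {τ0 : ℍ}
    (hfix : γ • τ0 = τ0) (htr : γ.1.trace = 0)
    (hf : MeromorphicAt (f ∘ ofComplex) (τ0 : ℂ))
    (hinv : ∀ᶠ τ in 𝓝 τ0, f (γ • τ) = f τ) :
    (2 : ℤ) ∣ (meromorphicOrderAt (f ∘ ofComplex) (τ0 : ℂ)).untop₀ := by
  have hfix' := coe_smul_eq_moebius γ τ0
  rw [hfix] at hfix'
  refine two_dvd_meromorphicOrderAt_of_moebius_trace_zero (det_cast_eq_one γ)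
    (denom_cast_ne_zero γ τ0) hfix'.symm ?_ hf (eventually_comp_ofComplex_moebius hinv)
  rw [Matrix.trace_fin_two] at htr
  exact_mod_cast htr

theorem three_dvd_meromorphicOrderAt_of_trace_one {f : ℍ → ℂ} {γ : SL(2, ℤ)} {τ0 : ℍ}
    (hfix : γ • τ0 = τ0) (htr : γ.1.trace = 1 ∨ γ.1.trace = -1)
    (hf : MeromorphicAt (f ∘ ofComplex) (τ0 : ℂ))
    (hinv : ∀ᶠ τ in 𝓝 τ0, f (γ • τ) = f τ) :
    (3 : ℤ) ∣ (meromorphicOrderAt (f ∘ ofComplex) (τ0 : ℂ)).untop₀ := by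
  have hfix' := coe_smul_eq_moebius γ τ0
  rw [hfix] at hfix'
  refine three_dvd_meromorphicOrderAt_of_moebius_trace_one (det_cast_eq_one γ)
    (denom_cast_ne_zero γ τ0) hfix'.symm ?_ hf (eventually_comp_ofComplex_moebius hinv)
  rw [Matrix.trace_fin_two] at htr
  rcases htr with htr | htr
  · left; exact_mod_cast htr
  · right; exact_mod_cast htr

theorem trace_S : (ModularGroup.S : SL(2, ℤ)).1.trace = 0 := by
  rw [ModularGroup.coe_S, Matrix.trace_fin_two]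
  simp

theorem trace_S_mul_T : (ModularGroup.S * ModularGroup.T : SL(2, ℤ)).1.trace = 1 := by
  rw [Matrix.SpecialLinearGroup.coe_mul, ModularGroup.coe_S, ModularGroup.coe_T,
    Matrix.trace_fin_two]
  simp [Matrix.mul_apply, Fin.sum_univ_two]

theorem trace_conj (γ h : SL(2, ℤ)) : (γ * h * γ⁻¹).1.trace = h.1.trace := by
  have h1 : (γ * h * γ⁻¹).1 = γ.1 * h.1 * (γ⁻¹).1 := by
    simp [Matrix.SpecialLinearGroup.coe_mul]
  rw [h1, Matrix.trace_mul_comm, ← Matrix.mul_assoc]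
  have h2 : (γ⁻¹).1 * γ.1 = 1 := by
    rw [← Matrix.SpecialLinearGroup.coe_mul, inv_mul_cancel, Matrix.SpecialLinearGroup.coe_one]
  rw [h2, one_mul]

theorem trace_conj' (γ h : SL(2, ℤ)) : (γ⁻¹ * h * γ).1.trace = h.1.trace := by
  simpa using trace_conj γ⁻¹ h

theorem conj_smul_eq {γ h : SL(2, ℤ)} {τ0 : ℍ} (hfix : h • τ0 = τ0) :
    (γ * h * γ⁻¹) • (γ • τ0) = γ • τ0 := by
  rw [← mul_smul, mul_assoc, inv_mul_cancel, mul_one, mul_smul, hfix]

theorem conj_smul_eq' {γ h : SL(2, ℤ)} {τ0 : ℍ} (hfix : h • τ0 = τ0) :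
    (γ⁻¹ * h * γ) • (γ⁻¹ • τ0) = γ⁻¹ • τ0 := by
  simpa using conj_smul_eq (γ := γ⁻¹) hfix

/-- Interface shape (S). -/
theorem two_dvd_order_of_S_invariant (f : ℍ → ℂ) (τ₀ : ℍ) (hfix : ModularGroup.S • τ₀ = τ₀)
    (hf : MeromorphicAt (fun z : ℂ => f (ofComplex z)) (τ₀ : ℂ))
    (hinv : ∀ τ : ℍ, f (ModularGroup.S • τ) = f τ)
    (hne : meromorphicOrderAt (fun z : ℂ => f (ofComplex z)) (τ₀ : ℂ) ≠ ⊤) :
    (2 : ℤ) ∣ (meromorphicOrderAt (fun z : ℂ => f (ofComplex z)) (τ₀ : ℂ)).untop hne := by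
  have h := two_dvd_meromorphicOrderAt_of_trace_zero (f := f) hfix trace_S hf
    (Eventually.of_forall hinv)
  have e : (meromorphicOrderAt (fun z : ℂ => f (ofComplex z)) (τ₀ : ℂ)).untop hne =
      (meromorphicOrderAt (f ∘ ofComplex) (τ₀ : ℂ)).untop₀ :=
    (WithTop.untop_eq_iff hne).2 (WithTop.coe_untop₀_of_ne_top hne).symm
  rw [e]
  exact h

/-- Interface shape (S * T). -/
theorem three_dvd_order_of_ST_invariant (f : ℍ → ℂ) (τ₀ : ℍ)
    (hfix : (ModularGroup.S * ModularGroup.T) • τ₀ = τ₀)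
    (hf : MeromorphicAt (fun z : ℂ => f (ofComplex z)) (τ₀ : ℂ))
    (hinv : ∀ τ : ℍ, f ((ModularGroup.S * ModularGroup.T) • τ) = f τ)
    (hne : meromorphicOrderAt (fun z : ℂ => f (ofComplex z)) (τ₀ : ℂ) ≠ ⊤) :
    (3 : ℤ) ∣ (meromorphicOrderAt (fun z : ℂ => f (ofComplex z)) (τ₀ : ℂ)).untop hne := by
  have h := three_dvd_meromorphicOrderAt_of_trace_one (f := f) hfix (Or.inl trace_S_mul_T) hf
    (Eventually.of_forall hinv)
  have e : (meromorphicOrderAt (fun z : ℂ => f (ofComplex z)) (τ₀ : ℂ)).untop hne =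
      (meromorphicOrderAt (f ∘ ofComplex) (τ₀ : ℂ)).untop₀ :=
    (WithTop.untop_eq_iff hne).2 (WithTop.coe_untop₀_of_ne_top hne).symm
  rw [e]
  exact h

/-! ### Analytic-order versions -/

theorem natCast_analyticOrderNatAt_eq_untop₀ {F : ℂ → ℂ} {z0 : ℂ} (hF : AnalyticAt ℂ F z0) :
    ((analyticOrderNatAt F z0 : ℕ) : ℤ) = (meromorphicOrderAt F z0).untop₀ := by
  rw [hF.meromorphicOrderAt_eq]
  by_cases h : analyticOrderAt F z0 = ⊤
  · simp [analyticOrderNatAt, h]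
  · obtain ⟨n, hn⟩ := ENat.ne_top_iff_exists.1 h
    simp [analyticOrderNatAt, ← hn]

theorem two_dvd_analyticOrderNatAt_of_trace_zero {f : ℍ → ℂ} {γ : SL(2, ℤ)} {τ0 : ℍ}
    (hfix : γ • τ0 = τ0) (htr : γ.1.trace = 0)
    (hf : AnalyticAt ℂ (f ∘ ofComplex) (τ0 : ℂ))
    (hinv : ∀ᶠ τ in 𝓝 τ0, f (γ • τ) = f τ) :
    2 ∣ analyticOrderNatAt (f ∘ ofComplex) (τ0 : ℂ) := by
  have h := two_dvd_meromorphicOrderAt_of_trace_zero hfix htr hf.meromorphicAt hinv
  rw [← natCast_analyticOrderNatAt_eq_untop₀ hf] at h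
  exact_mod_cast h

theorem three_dvd_analyticOrderNatAt_of_trace_one {f : ℍ → ℂ} {γ : SL(2, ℤ)} {τ0 : ℍ}
    (hfix : γ • τ0 = τ0) (htr : γ.1.trace = 1 ∨ γ.1.trace = -1)
    (hf : AnalyticAt ℂ (f ∘ ofComplex) (τ0 : ℂ))
    (hinv : ∀ᶠ τ in 𝓝 τ0, f (γ • τ) = f τ) :
    3 ∣ analyticOrderNatAt (f ∘ ofComplex) (τ0 : ℂ) := by
  have h := three_dvd_meromorphicOrderAt_of_trace_one hfix htr hf.meromorphicAt hinv
  rw [← natCast_analyticOrderNatAt_eq_untop₀ hf] at h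
  exact_mod_cast h

/-- Holomorphic functions on `ℍ` are analytic after composing with `ofComplex`. -/
theorem analyticAt_comp_ofComplex_of_mdifferentiable {f : ℍ → ℂ}
    (hf : MDifferentiable 𝓘(ℂ) 𝓘(ℂ) f) (τ : ℍ) : AnalyticAt ℂ (f ∘ ofComplex) (τ : ℂ) :=
  (UpperHalfPlane.mdifferentiable_iff.1 hf).analyticAt
    (isOpen_upperHalfPlaneSet.mem_nhds τ.im_pos)

/-- The order is equivariant under `SL(2, ℤ)` (wrapper of the Mathlib statement). -/
theorem meromorphicOrderAt_comp_SL_smul (f : ℍ → ℂ) (γ : SL(2, ℤ)) (τ : ℍ) :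
    meromorphicOrderAt (fun z : ℂ => f (γ • ofComplex z)) (τ : ℂ) =
      meromorphicOrderAt (fun z : ℂ => f (ofComplex z)) ((γ • τ : ℍ) : ℂ) :=
  UpperHalfPlane.meromorphicOrderAt_comp_smul (f := f) (τ := τ) (g := (γ : GL (Fin 2) ℝ))
    (by
      have h : ((γ : GL (Fin 2) ℝ) : Matrix (Fin 2) (Fin 2) ℝ).det = 1 := by
        have h1 := (Int.castRingHom ℝ).map_det γ.1
        rw [γ.det_coe, map_one] at h1
        simpa [RingHom.mapMatrix_apply] using h1.symm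
      rw [h]
      exact one_pos)

end Fermat.Agent.S24.H32
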