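import Mathlib
import Fermat.Prelude.Def_AlgebraicCurve_DivisorClassGroup
import Fermat.Prelude.Def_AlgebraicCurve_Repartitions

set_option autoImplicit false
set_option linter.unusedSectionVars false
set_option linter.style.haveILetI false

/-!
# S24 / SQZ : the abstract squeeze argument

`helper76`.  Pure combinatorics + elementary facts on places.
-/

noncomputable section

open AlgebraicCurve

namespace Fermat.Agent.S24.H76

section PlaceLemmas

variable {K F : Type*} [Field K] [Field F] [Algebra K F]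

/-- membership in the valuation ring of a place, in terms of `ord`. -/
theorem mem_toValuationSubring_iff (v : Place K F) {f : F} :
    f ∈ v.toValuationSubring ↔ f = 0 ∨ 0 ≤ v.ord f := by
  constructor
  · intro hf
    exact v.adicValuation_le_one_iff.mp (v.adicValuation_le_one_of_mem hf)
  · rintro (rfl | h)
    · exact zero_mem _
    · rcases eq_or_ne f 0 with rfl | hf
      · exact zero_mem _
      obtain ⟨π, hπ⟩ := IsDiscreteValuationRing.exists_irreducible v.toValuationSubring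
      obtain ⟨u, hu⟩ := v.exists_unit_mul_zpow hf hπ
      rw [hu, show v.ord f = (((v.ord f).toNat : ℕ) : ℤ) from (Int.toNat_of_nonneg h).symm,
        zpow_natCast]
      exact mul_mem (u : v.toValuationSubring).2 (pow_mem (π : v.toValuationSubring).2 _)

/-- Two places whose `ord` functions are positively proportional coincide. -/
theorem place_eq_of_ord_proportional {v w : Place K F} {m m' : ℤ} (hm : 0 < m) (hm' : 0 < m')
    (h : ∀ f : F, f ≠ 0 → m * v.ord f = m' * w.ord f) : v = w := by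
  apply Place.ext
  ext f
  rw [mem_toValuationSubring_iff, mem_toValuationSubring_iff]
  rcases eq_or_ne f 0 with rfl | hf
  · simp
  · have := h f hf
    constructor
    · rintro (h0 | h0)
      · exact absurd h0 hf
      · right
        have h1 : 0 ≤ m * v.ord f := mul_nonneg hm.le h0
        rw [this] at h1
        exact nonneg_of_mul_nonneg_right h1 hm'
    · rintro (h0 | h0)
      · exact absurd h0 hf
      · right
        have h1 : 0 ≤ m' * w.ord f := mul_nonneg hm'.le h0
        rw [← this] at h1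
        exact nonneg_of_mul_nonneg_right h1 hm

/-- every place has an element of order `1`. -/
theorem exists_ord_eq_one (v : Place K F) : ∃ f : F, f ≠ 0 ∧ v.ord f = 1 := by
  obtain ⟨π, hπ⟩ := IsDiscreteValuationRing.exists_irreducible v.toValuationSubring
  refine ⟨(π : F), ?_, v.ord_coe_irreducible hπ⟩
  simpa [ne_eq, ZeroMemClass.coe_eq_zero] using hπ.ne_zero

end PlaceLemmas


section FinsetSqueeze

/-- Pure finset squeeze. -/
theorem finset_squeeze {ι Q : Type*} [Fintype Q] [DecidableEq Q] (Z : Finset ι) (ψ : ι → Q)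
    (hinj : Set.InjOn ψ (Z : Set ι)) (c : Q → ℕ) (hc : ∀ q, 1 ≤ c q) (e : ι → ℕ)
    (hle : ∀ v ∈ Z, e v ≤ c (ψ v)) (hsum : ∑ v ∈ Z, e v = ∑ q, c q) :
    Z.image ψ = Finset.univ ∧ ∀ v ∈ Z, e v = c (ψ v) := by
  have h1 : ∑ v ∈ Z, e v ≤ ∑ v ∈ Z, c (ψ v) := Finset.sum_le_sum hle
  have h2 : ∑ v ∈ Z, c (ψ v) = ∑ q ∈ Z.image ψ, c q := (Finset.sum_image hinj).symm
  have h3 : ∑ q ∈ Z.image ψ, c q ≤ ∑ q, c q :=
    Finset.sum_le_sum_of_subset (Finset.subset_univ _)
  have h4 : ∑ q ∈ Z.image ψ, c q = ∑ q, c q := le_antisymm h3 (by rw [← hsum, ← h2]; exact h1)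
  have h5 : ∑ v ∈ Z, e v = ∑ v ∈ Z, c (ψ v) := le_antisymm h1 (by rw [h2, h4, hsum])
  refine ⟨?_, ?_⟩
  · by_contra hne
    obtain ⟨q, -, hq⟩ := Finset.exists_of_ssubset (Finset.ssubset_iff_subset_ne.mpr
      ⟨Finset.subset_univ _, hne⟩)
    have : ∑ q ∈ Z.image ψ, c q < ∑ q, c q := by
      refine Finset.sum_lt_sum_of_subset (Finset.subset_univ _) (Finset.mem_univ q) hq ?_ ?_
      · exact hc q
      · intros; exact Nat.zero_le _
    omega
  · exact (Finset.sum_eq_sum_iff_of_le hle).mp h5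

end FinsetSqueeze

section Orbits

open MulAction Subgroup

variable {X : Type*} [Fintype X] (g : Equiv.Perm X)

/-- the type of orbits of the cyclic group generated by `g` (REE convention). -/
abbrev OrbQ : Type _ := MulAction.orbitRel.Quotient (Subgroup.zpowers g) X

theorem minimalPeriod_eq_natCard_orbit (x : X) :
    Function.minimalPeriod g x = Nat.card (MulAction.orbit (Subgroup.zpowers g) x) := by
  have h := Nat.card_congr (MulAction.orbitZPowersEquiv g x)
  rw [Nat.card_zmod] at h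
  exact h.symm

theorem minimalPeriod_pos (x : X) : 0 < Function.minimalPeriod g x := by
  rw [minimalPeriod_eq_natCard_orbit]
  have : Nonempty (MulAction.orbit (Subgroup.zpowers g) x) :=
    (MulAction.nonempty_orbit x).to_subtype
  exact Nat.card_pos

theorem minimalPeriod_eq_of_mem_orbit {x y : X}
    (h : x ∈ MulAction.orbit (Subgroup.zpowers g) y) :
    Function.minimalPeriod g x = Function.minimalPeriod g y := by
  rw [minimalPeriod_eq_natCard_orbit, minimalPeriod_eq_natCard_orbit,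
    (MulAction.orbit_eq_iff).mpr h]

theorem minimalPeriod_out (x : X) :
    Function.minimalPeriod g (Quotient.mk'' x : OrbQ g).out = Function.minimalPeriod g x := by
  apply minimalPeriod_eq_of_mem_orbit
  exact MulAction.orbitRel_apply.mp
    (Quotient.mk_out (s := MulAction.orbitRel (Subgroup.zpowers g) X) x)

theorem card_eq_sum_minimalPeriod [Fintype (OrbQ g)] :
    Fintype.card X = ∑ q : OrbQ g, Function.minimalPeriod g q.out := by
  classical
  have (q : OrbQ g) : Fintype (MulAction.orbit (Subgroup.zpowers g) q.out) := Fintype.ofFinite _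
  have h : ∀ q : OrbQ g, Function.minimalPeriod g q.out
      = Fintype.card (MulAction.orbit (Subgroup.zpowers g) q.out) := fun q => by
    rw [minimalPeriod_eq_natCard_orbit, Nat.card_eq_fintype_card]
  simp only [h]
  rw [← Fintype.card_sigma]
  exact Fintype.card_congr (MulAction.selfEquivSigmaOrbits (Subgroup.zpowers g) X)

theorem invariant_pow {β : Type*} (F : X → β) (hF : ∀ x, F (g x) = F x) (n : ℕ) (y : X) :
    F ((g ^ n) y) = F y := by
  induction n with
  | zero => simp
  | succ n ih => rw [pow_succ', Equiv.Perm.mul_apply, hF, ih]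

theorem invariant_zpow {β : Type*} (F : X → β) (hF : ∀ x, F (g x) = F x) (i : ℤ) (y : X) :
    F ((g ^ i) y) = F y := by
  cases i with
  | ofNat n => simpa using invariant_pow g F hF n y
  | negSucc n =>
      have h := invariant_pow g F hF (n + 1) ((g ^ (Int.negSucc n)) y)
      rw [← h]
      congr 1
      simp [zpow_negSucc]

/-- a function invariant under `g` is constant on the orbits of `zpowers g`. -/
theorem eq_of_mem_orbit_of_invariant {β : Type*} (F : X → β) (hF : ∀ x, F (g x) = F x)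
    {x y : X} (h : x ∈ MulAction.orbit (Subgroup.zpowers g) y) : F x = F y := by
  obtain ⟨⟨k, hk⟩, rfl⟩ := h
  obtain ⟨i, rfl⟩ := Subgroup.mem_zpowers_iff.mp hk
  exact invariant_zpow g F hF i y

/-- **Orbit squeeze.**  -/
theorem orbit_squeeze {ι : Type*} (Z : Finset ι) (φ : ι → X) (e : ι → ℕ)
    (hinj : ∀ v ∈ Z, ∀ w ∈ Z, φ v ∈ MulAction.orbit (Subgroup.zpowers g) (φ w) → v = w)
    (hle : ∀ v ∈ Z, e v ≤ Function.minimalPeriod g (φ v))
    (hsum : ∑ v ∈ Z, e v = Fintype.card X) :
    Z.card = Nat.card (OrbQ g) ∧ ∀ v ∈ Z, e v = Function.minimalPeriod g (φ v) := by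
  classical
  letI : Fintype (OrbQ g) := Fintype.ofFinite _
  let ψ : ι → OrbQ g := fun v => Quotient.mk'' (φ v)
  have hψinj : Set.InjOn ψ (Z : Set ι) := by
    intro v hv w hw hvw
    refine hinj v hv w hw ?_
    have : (Quotient.mk'' (φ v) : OrbQ g) = Quotient.mk'' (φ w) := hvw
    exact Quotient.eq''.mp this
  obtain ⟨himg, heq⟩ := finset_squeeze Z ψ hψinj (fun q => Function.minimalPeriod g q.out)
    (fun q => minimalPeriod_pos g _) e
    (fun v hv => by
      show e v ≤ Function.minimalPeriod g (Quotient.mk'' (φ v) : OrbQ g).out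
      rw [minimalPeriod_out]; exact hle v hv)
    (by rw [hsum, card_eq_sum_minimalPeriod g])
  refine ⟨?_, fun v hv => ?_⟩
  · rw [Nat.card_eq_fintype_card, ← Finset.card_univ, ← himg, Finset.card_image_of_injOn hψinj]
  · rw [heq v hv]
    exact minimalPeriod_out g (φ v)

end Orbits


section Squeeze

variable {K F : Type*} [Field K] [Field F] [Algebra K F]

/-- **Abstract squeeze.**  `X` is a finite set with a permutation `g` of exponent `s`
(think: `X = Γ₀(N)\SL₂(ℤ)`, `g` a generator of the stabiliser of `τ₀` resp. `g = T`),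
`val x` a family of `ℤ`-valued "analytic order" functions on `F`, `u` a function whose zeros `Z`
satisfy `∑_{v ∈ Z} ord_v u = #X`.  If every `v ∈ Z` is (a positive multiple of) some `val x`,
`val` is `g`-invariant, `val x u = s` and `val x` takes values in `(s / orbit size of x) ℤ`,
then the zeros of `u` are in bijection with the `g`-orbits on `X`, with `ord_v u` = orbit size. -/
theorem squeeze (u : F) {X : Type*} [Fintype X] (g : Equiv.Perm X) (s : ℕ) (hs : 0 < s)
    (hgs : g ^ s = 1) (val : X → F → ℤ) (Z : Finset (Place K F))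
    (hZ : ∀ v ∈ Z, 0 < v.ord u)
    (hsum : ∑ v ∈ Z, v.ord u = Fintype.card X)
    (hplace : ∀ v ∈ Z, ∃ x : X, ∃ m : ℤ, 0 < m ∧ ∀ f : F, f ≠ 0 → val x f = m * v.ord f)
    (hinv : ∀ x f, f ≠ 0 → val (g x) f = val x f)
    (hu : ∀ x, val x u = s)
    (hdiv : ∀ x f, f ≠ 0 → ((s / Function.minimalPeriod g x : ℕ) : ℤ) ∣ val x f) :
    Z.card = Nat.card (OrbQ g) ∧
    (∑ v ∈ Z, (v.ord u - 1) = (Fintype.card X : ℤ) - Nat.card (OrbQ g)) ∧
    ∀ v ∈ Z, ∃ x : X, (∃ m : ℤ, 0 < m ∧ ∀ f : F, f ≠ 0 → val x f = m * v.ord f) ∧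
      v.ord u = Function.minimalPeriod g x := by
  classical
  -- choices
  let φ : {v // v ∈ Z} → X := fun v => (hplace v.1 v.2).choose
  have hφ : ∀ v : {v // v ∈ Z}, ∃ m : ℤ, 0 < m ∧ ∀ f : F, f ≠ 0 → val (φ v) f = m * v.1.ord f :=
    fun v => (hplace v.1 v.2).choose_spec
  let e : {v // v ∈ Z} → ℕ := fun v => (v.1.ord u).toNat
  have he : ∀ v : {v // v ∈ Z}, ((e v : ℕ) : ℤ) = v.1.ord u := fun v =>
    Int.toNat_of_nonneg (hZ v.1 v.2).le
  have hu0 : ∀ v ∈ Z, u ≠ 0 := by
    intro v hv h0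
    have := hZ v hv
    rw [h0, Place.ord_zero] at this
    exact lt_irrefl _ this
  have hper : ∀ x : X, Function.minimalPeriod g x ∣ s := by
    intro x
    apply Function.IsPeriodicPt.minimalPeriod_dvd
    show (g : X → X)^[s] x = x
    rw [← Equiv.Perm.coe_pow, hgs]; rfl
  -- the key inequality
  have hle : ∀ v ∈ (Finset.univ : Finset {v // v ∈ Z}), e v ≤ Function.minimalPeriod g (φ v) := by
    intro v _
    obtain ⟨m, hm, hval⟩ := hφ v
    set k := Function.minimalPeriod g (φ v) with hk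
    have hkpos : 0 < k := minimalPeriod_pos g _
    obtain ⟨d, hd⟩ := hper (φ v)
    -- s = k * d
    have hdpos : 0 < d := by
      rcases Nat.eq_zero_or_pos d with h | h
      · rw [h, mul_zero] at hd; omega
      · exact h
    have hsd : s / k = d := by rw [hd]; exact Nat.mul_div_cancel_left d hkpos
    obtain ⟨f, hf0, hf1⟩ := exists_ord_eq_one v.1
    have h1 := hdiv (φ v) f hf0
    rw [← hk, hsd, hval f hf0, hf1, mul_one] at h1
    obtain ⟨c, hc⟩ := h1
    have h2 : m * v.1.ord u = s := by rw [← hval u (hu0 v.1 v.2), hu]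
    have hdZ : (0 : ℤ) < (d : ℤ) := by exact_mod_cast hdpos
    have hcpos : 0 < c := by
      have : 0 < (d : ℤ) * c := by rw [← hc]; exact hm
      exact (mul_pos_iff_of_pos_left hdZ).mp this
    have h3 : c * v.1.ord u = k := by
      have h4 : (d : ℤ) * (c * v.1.ord u) = (d : ℤ) * k := by
        rw [← mul_assoc, ← hc, h2, hd]; push_cast; ring
      exact mul_left_cancel₀ hdZ.ne' h4
    have h5 : v.1.ord u ≤ k := by
      have hE := hZ v.1 v.2
      nlinarith
    have : ((e v : ℕ) : ℤ) ≤ (k : ℤ) := by rw [he]; exact h5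
    exact_mod_cast this
  have hinj : ∀ v ∈ (Finset.univ : Finset {v // v ∈ Z}), ∀ w ∈ (Finset.univ : Finset {v // v ∈ Z}),
      φ v ∈ MulAction.orbit (Subgroup.zpowers g) (φ w) → v = w := by
    intro v _ w _ hvw
    obtain ⟨m, hm, hval⟩ := hφ v
    obtain ⟨m', hm', hval'⟩ := hφ w
    apply Subtype.ext
    apply place_eq_of_ord_proportional hm hm'
    intro f hf
    rw [← hval f hf, ← hval' f hf]
    exact eq_of_mem_orbit_of_invariant g (fun x => val x f) (fun x => hinv x f hf) hvw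
  have hsumN : ∑ v ∈ (Finset.univ : Finset {v // v ∈ Z}), e v = Fintype.card X := by
    have h1 : ((∑ v ∈ (Finset.univ : Finset {v // v ∈ Z}), e v : ℕ) : ℤ) = (Fintype.card X : ℤ) := by
      push_cast
      rw [← hsum, ← Finset.sum_attach Z (fun v => v.ord u)]
      exact Finset.sum_congr rfl (fun v _ => he v)
    exact_mod_cast h1
  obtain ⟨hcard, heq⟩ := orbit_squeeze g Finset.univ φ e hinj hle hsumN
  have hcard' : Z.card = Nat.card (OrbQ g) := by
    rw [← hcard, Finset.card_univ, Fintype.card_coe]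
  refine ⟨hcard', ?_, ?_⟩
  · rw [Finset.sum_sub_distrib, hsum, Finset.sum_const, hcard']
    simp
  · intro v hv
    refine ⟨φ ⟨v, hv⟩, hφ ⟨v, hv⟩, ?_⟩
    rw [← heq ⟨v, hv⟩ (Finset.mem_univ _)]
    exact (he ⟨v, hv⟩).symm

theorem ord_eq_sub_of_mul_eq (v : Place K F) {f p q : F} (hf : f ≠ 0) (hq : q ≠ 0)
    (h : f * q = p) : v.ord f = v.ord p - v.ord q := by
  rw [← h, v.ord_mul hf hq]; ring

/-- **Abstract squeeze, relative version**: the hypotheses on `val` are only required on the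
nonzero elements of a subset `A ⊆ F` generating `F` as a field of fractions (think of
`A = Qbar[j_d : d ∣ N]`, on which `Θ` produces holomorphic functions). -/
theorem squeeze_on (A : Set F)
    (hfrac : ∀ f : F, f ≠ 0 → ∃ p q : F, p ∈ A ∧ q ∈ A ∧ p ≠ 0 ∧ q ≠ 0 ∧ f * q = p)
    (u : F) {X : Type*} [Fintype X] (g : Equiv.Perm X) (s : ℕ) (hs : 0 < s)
    (hgs : g ^ s = 1) (val : X → F → ℤ) (Z : Finset (Place K F))
    (hZ : ∀ v ∈ Z, 0 < v.ord u)
    (hsum : ∑ v ∈ Z, v.ord u = Fintype.card X)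
    (hplace : ∀ v ∈ Z, ∃ x : X, ∃ m : ℤ, 0 < m ∧ ∀ f ∈ A, f ≠ 0 → val x f = m * v.ord f)
    (hinv : ∀ x, ∀ f ∈ A, f ≠ 0 → val (g x) f = val x f)
    (hu : ∃ p q : F, p ∈ A ∧ q ∈ A ∧ p ≠ 0 ∧ q ≠ 0 ∧ u * q = p ∧ ∀ x, val x p - val x q = s)
    (hdiv : ∀ x, ∀ f ∈ A, f ≠ 0 → ((s / Function.minimalPeriod g x : ℕ) : ℤ) ∣ val x f) :
    Z.card = Nat.card (OrbQ g) ∧
    (∑ v ∈ Z, (v.ord u - 1) = (Fintype.card X : ℤ) - Nat.card (OrbQ g)) ∧
    ∀ v ∈ Z, ∃ x : X, (∃ m : ℤ, 0 < m ∧ ∀ f ∈ A, f ≠ 0 → val x f = m * v.ord f) ∧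
      v.ord u = Function.minimalPeriod g x := by
  classical
  obtain ⟨pu, qu, hpuA, hquA, hpu0, hqu0, hupq, huval⟩ := hu
  let φ : {v // v ∈ Z} → X := fun v => (hplace v.1 v.2).choose
  have hφ : ∀ v : {v // v ∈ Z}, ∃ m : ℤ, 0 < m ∧
      ∀ f ∈ A, f ≠ 0 → val (φ v) f = m * v.1.ord f :=
    fun v => (hplace v.1 v.2).choose_spec
  let e : {v // v ∈ Z} → ℕ := fun v => (v.1.ord u).toNat
  have he : ∀ v : {v // v ∈ Z}, ((e v : ℕ) : ℤ) = v.1.ord u := fun v =>
    Int.toNat_of_nonneg (hZ v.1 v.2).le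
  have hu0 : ∀ v ∈ Z, u ≠ 0 := by
    intro v hv h0
    have := hZ v hv
    rw [h0, Place.ord_zero] at this
    exact lt_irrefl _ this
  have hper : ∀ x : X, Function.minimalPeriod g x ∣ s := by
    intro x
    apply Function.IsPeriodicPt.minimalPeriod_dvd
    show (g : X → X)^[s] x = x
    rw [← Equiv.Perm.coe_pow, hgs]; rfl
  -- the key inequality
  have hle : ∀ v ∈ (Finset.univ : Finset {v // v ∈ Z}), e v ≤ Function.minimalPeriod g (φ v) := by
    intro v _
    obtain ⟨m, hm, hval⟩ := hφ v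
    set k := Function.minimalPeriod g (φ v) with hk
    have hkpos : 0 < k := minimalPeriod_pos g _
    obtain ⟨d, hd⟩ := hper (φ v)
    have hdpos : 0 < d := by
      rcases Nat.eq_zero_or_pos d with h | h
      · rw [h, mul_zero] at hd; omega
      · exact h
    have hsd : s / k = d := by rw [hd]; exact Nat.mul_div_cancel_left d hkpos
    obtain ⟨f, hf0, hf1⟩ := exists_ord_eq_one v.1
    obtain ⟨p, q, hpA, hqA, hp0, hq0, hfq⟩ := hfrac f hf0
    have h1p := hdiv (φ v) p hpA hp0
    have h1q := hdiv (φ v) q hqA hq0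
    rw [← hk, hsd, hval p hpA hp0] at h1p
    rw [← hk, hsd, hval q hqA hq0] at h1q
    have h1 : (d : ℤ) ∣ m := by
      have h2 : m = m * v.1.ord p - m * v.1.ord q := by
        rw [← mul_sub, ← ord_eq_sub_of_mul_eq v.1 hf0 hq0 hfq, hf1, mul_one]
      rw [h2]
      exact dvd_sub h1p h1q
    obtain ⟨c, hc⟩ := h1
    have h2 : m * v.1.ord u = s := by
      rw [ord_eq_sub_of_mul_eq v.1 (hu0 v.1 v.2) hqu0 hupq, mul_sub,
        ← hval pu hpuA hpu0, ← hval qu hquA hqu0, huval]
    have hdZ : (0 : ℤ) < (d : ℤ) := by exact_mod_cast hdpos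
    have hcpos : 0 < c := by
      have : 0 < (d : ℤ) * c := by rw [← hc]; exact hm
      exact (mul_pos_iff_of_pos_left hdZ).mp this
    have h3 : c * v.1.ord u = k := by
      have h4 : (d : ℤ) * (c * v.1.ord u) = (d : ℤ) * k := by
        rw [← mul_assoc, ← hc, h2, hd]; push_cast; ring
      exact mul_left_cancel₀ hdZ.ne' h4
    have h5 : v.1.ord u ≤ k := by
      have hE := hZ v.1 v.2
      nlinarith
    have : ((e v : ℕ) : ℤ) ≤ (k : ℤ) := by rw [he]; exact h5
    exact_mod_cast this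
  have hinj : ∀ v ∈ (Finset.univ : Finset {v // v ∈ Z}), ∀ w ∈ (Finset.univ : Finset {v // v ∈ Z}),
      φ v ∈ MulAction.orbit (Subgroup.zpowers g) (φ w) → v = w := by
    intro v _ w _ hvw
    obtain ⟨m, hm, hval⟩ := hφ v
    obtain ⟨m', hm', hval'⟩ := hφ w
    apply Subtype.ext
    apply place_eq_of_ord_proportional hm hm'
    intro f hf
    obtain ⟨p, q, hpA, hqA, hp0, hq0, hfq⟩ := hfrac f hf
    rw [ord_eq_sub_of_mul_eq v.1 hf hq0 hfq, ord_eq_sub_of_mul_eq w.1 hf hq0 hfq, mul_sub, mul_sub,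
      ← hval p hpA hp0, ← hval' p hpA hp0, ← hval q hqA hq0, ← hval' q hqA hq0]
    rw [eq_of_mem_orbit_of_invariant g (fun x => val x p) (fun x => hinv x p hpA hp0) hvw,
      eq_of_mem_orbit_of_invariant g (fun x => val x q) (fun x => hinv x q hqA hq0) hvw]
  have hsumN : ∑ v ∈ (Finset.univ : Finset {v // v ∈ Z}), e v = Fintype.card X := by
    have h1 : ((∑ v ∈ (Finset.univ : Finset {v // v ∈ Z}), e v : ℕ) : ℤ) = (Fintype.card X : ℤ) := by
      push_cast
      rw [← hsum, ← Finset.sum_attach Z (fun v => v.ord u)]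
      exact Finset.sum_congr rfl (fun v _ => he v)
    exact_mod_cast h1
  obtain ⟨hcard, heq⟩ := orbit_squeeze g Finset.univ φ e hinj hle hsumN
  have hcard' : Z.card = Nat.card (OrbQ g) := by
    rw [← hcard, Finset.card_univ, Fintype.card_coe]
  refine ⟨hcard', ?_, ?_⟩
  · rw [Finset.sum_sub_distrib, hsum, Finset.sum_const, hcard']
    simp
  · intro v hv
    refine ⟨φ ⟨v, hv⟩, hφ ⟨v, hv⟩, ?_⟩
    rw [← heq ⟨v, hv⟩ (Finset.mem_univ _)]
    exact (he ⟨v, hv⟩).symm

/-- Generic (unramified) case: if `val x u = 1` for all `x`, every zero of `u` is simple. -/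
theorem ord_eq_one_of_val_eq_one (u : F) {X : Type*} (val : X → F → ℤ) (v : Place K F)
    (hv : 0 < v.ord u)
    (hplace : ∃ x : X, ∃ m : ℤ, 0 < m ∧ ∀ f : F, f ≠ 0 → val x f = m * v.ord f)
    (hu : ∀ x, val x u = 1) : v.ord u = 1 := by
  obtain ⟨x, m, hm, hval⟩ := hplace
  have hu0 : u ≠ 0 := by
    rintro rfl
    rw [Place.ord_zero] at hv
    exact lt_irrefl _ hv
  have h := hval u hu0
  rw [hu] at h
  -- 1 = m * ord, both positive
  have h1 : v.ord u ∣ 1 := ⟨m, by rw [h]; ring⟩
  exact Int.eq_one_of_dvd_one hv.le h1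

end Squeeze

end Fermat.Agent.S24.H76
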