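import Mathlib
import Fermat.Agent.S24.H76_Squeeze

set_option autoImplicit false
set_option linter.unusedSectionVars false
set_option linter.style.haveILetI false

/-!
# S24 / SQZ : the squeeze on the coset space `SL(2,ℤ) ⧸ Γ₀(N)`

`helper76`.  Group theory of `S`, `S*T`, `T` acting on the cosets, and the squeeze theorem with
the `val` family indexed by matrices.
-/

open CongruenceSubgroup ModularGroup Matrix.SpecialLinearGroup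
open scoped MatrixGroups
open AlgebraicCurve

namespace Fermat.Agent.S24.H76

/-- the coset space `SL(2,ℤ) ⧸ Γ₀(N)` (left cosets `γ Γ₀(N)`, left action), convention C2. -/
abbrev XN (N : ℕ) : Type := SL(2, ℤ) ⧸ Gamma0 N

variable {N : ℕ}

theorem smul_mk_XN (g γ : SL(2, ℤ)) :
    g • (QuotientGroup.mk γ : XN N) = QuotientGroup.mk (g * γ) := rfl

theorem smul_mk_eq_iff (g γ : SL(2, ℤ)) :
    g • (QuotientGroup.mk γ : XN N) = QuotientGroup.mk γ ↔ γ⁻¹ * g * γ ∈ Gamma0 N := by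
  rw [smul_mk_XN, eq_comm, QuotientGroup.eq, ← mul_assoc]

theorem smul_eq_of_conj_mem {g : SL(2, ℤ)} (h : ∀ γ : SL(2, ℤ), γ⁻¹ * g * γ ∈ Gamma0 N)
    (x : XN N) : g • x = x := by
  induction x using QuotientGroup.induction_on with
  | H γ => exact (smul_mk_eq_iff g γ).mpr (h γ)

theorem neg_one_mem_Gamma0 : (-1 : SL(2, ℤ)) ∈ Gamma0 N := by
  rw [Gamma0_mem]
  simp

theorem neg_one_smul_XN (x : XN N) : (-1 : SL(2, ℤ)) • x = x := by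
  apply smul_eq_of_conj_mem
  intro γ
  have : γ⁻¹ * (-1) * γ = -1 := by
    rw [mul_neg, mul_one, neg_mul, inv_mul_cancel]
  rw [this]
  exact neg_one_mem_Gamma0

theorem S_sq : (S : SL(2, ℤ)) ^ 2 = -1 := by decide

theorem ST_cube : (S * T : SL(2, ℤ)) ^ 3 = -1 := by decide

theorem conj_T_pow_mem_Gamma0 (γ : SL(2, ℤ)) : γ⁻¹ * T ^ N * γ ∈ Gamma0 N := by
  have h1 : (T : SL(2, ℤ)) ^ N ∈ Gamma N := by
    have := ModularGroup_T_pow_mem_Gamma (N : ℤ) (N : ℤ) dvd_rfl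
    simpa using this
  have h2 : γ⁻¹ * T ^ N * γ ∈ Gamma N := by
    have := (Gamma_normal N).conj_mem _ h1 γ⁻¹
    simpa using this
  have h3 : Gamma N ≤ Gamma0 N := by
    intro x hx
    rw [Gamma_mem] at hx
    rw [Gamma0_mem]
    exact hx.2.2.1
  exact h3 h2

/-- the permutation of `X_N` induced by `g`. -/
abbrev permXN (N : ℕ) (g : SL(2, ℤ)) : Equiv.Perm (XN N) := MulAction.toPerm g

theorem permXN_mul (g h : SL(2, ℤ)) : permXN N (g * h) = permXN N g * permXN N h :=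
  map_mul (MulAction.toPermHom SL(2, ℤ) (XN N)) g h

theorem permXN_pow (g : SL(2, ℤ)) (k : ℕ) : permXN N (g ^ k) = permXN N g ^ k :=
  map_pow (MulAction.toPermHom SL(2, ℤ) (XN N)) g k

theorem permXN_neg_one : permXN N (-1) = 1 := by
  ext x
  exact neg_one_smul_XN x

theorem permXN_S_pow_two : permXN N S ^ 2 = 1 := by
  rw [← permXN_pow, S_sq, permXN_neg_one]

theorem permXN_ST_pow_three : permXN N (S * T) ^ 3 = 1 := by
  rw [← permXN_pow, ST_cube, permXN_neg_one]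

theorem permXN_T_pow_N : permXN N T ^ N = 1 := by
  rw [← permXN_pow]
  ext x
  exact smul_eq_of_conj_mem conj_T_pow_mem_Gamma0 x

/-- `k`-th power of `g` fixes the coset of `γ` iff `γ⁻¹ g^k γ ∈ Γ₀(N)`. -/
theorem permXN_pow_apply_mk_eq_iff (g γ : SL(2, ℤ)) (k : ℕ) :
    (permXN N g ^ k) (QuotientGroup.mk γ : XN N) = QuotientGroup.mk γ ↔
      γ⁻¹ * g ^ k * γ ∈ Gamma0 N := by
  rw [← permXN_pow]
  exact smul_mk_eq_iff (g ^ k) γ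

/-- If the orbit of `[γ]` under `g` has size `k`, then `γ⁻¹ g^k γ ∈ Γ₀(N)`. -/
theorem conj_pow_minimalPeriod_mem (g γ : SL(2, ℤ)) :
    γ⁻¹ * g ^ (Function.minimalPeriod (permXN N g) (QuotientGroup.mk γ : XN N)) * γ ∈ Gamma0 N := by
  rw [← permXN_pow_apply_mk_eq_iff]
  have := Function.isPeriodicPt_minimalPeriod (permXN N g) (QuotientGroup.mk γ : XN N)
  rw [Equiv.Perm.coe_pow]
  exact this

section CosetSqueeze

variable [NeZero N] {K F : Type*} [Field K] [Field F] [Algebra K F]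

instance : Finite (XN N) := Subgroup.finite_quotient_of_finiteIndex

/-- **Squeeze on the coset space.**  `wc γ f` is the order of `(Θ f) ∘ γ⁻¹` at the base point
(`τ₀` resp. `i∞`), only meaningful for `0 ≠ f ∈ A`. -/
theorem squeeze_cosets (A : Set F)
    (hfrac : ∀ f : F, f ≠ 0 → ∃ p q : F, p ∈ A ∧ q ∈ A ∧ p ≠ 0 ∧ q ≠ 0 ∧ f * q = p)
    (u : F) (g : SL(2, ℤ)) (s : ℕ) (hs : 0 < s) (hgs : permXN N g ^ s = 1)
    (wc : SL(2, ℤ) → F → ℤ)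
    (hwc_right : ∀ γ, ∀ δ ∈ Gamma0 N, ∀ f ∈ A, f ≠ 0 → wc (γ * δ) f = wc γ f)
    (hwc_g : ∀ γ, ∀ f ∈ A, f ≠ 0 → wc (g * γ) f = wc γ f)
    (hu : ∃ p q : F, p ∈ A ∧ q ∈ A ∧ p ≠ 0 ∧ q ≠ 0 ∧ u * q = p ∧ ∀ γ, wc γ p - wc γ q = s)
    (hwc_div : ∀ (γ : SL(2, ℤ)) (k : ℕ), k ∣ s → γ⁻¹ * g ^ k * γ ∈ Gamma0 N →
      ∀ f ∈ A, f ≠ 0 → ((s / k : ℕ) : ℤ) ∣ wc γ f)
    (Z : Finset (Place K F)) (hZ : ∀ v ∈ Z, 0 < v.ord u)
    (hsum : ∑ v ∈ Z, v.ord u = Nat.card (XN N))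
    (hplace : ∀ v ∈ Z, ∃ γ : SL(2, ℤ), ∃ m : ℤ, 0 < m ∧
      ∀ f ∈ A, f ≠ 0 → wc γ f = m * v.ord f) :
    Z.card = Nat.card (OrbQ (permXN N g)) ∧
    (∑ v ∈ Z, (v.ord u - 1) = (Nat.card (XN N) : ℤ) - Nat.card (OrbQ (permXN N g))) := by
  classical
  letI : Fintype (XN N) := Fintype.ofFinite _
  let val : XN N → F → ℤ := fun x f => wc (Quotient.out x) f
  have hval_mk : ∀ (γ : SL(2, ℤ)), ∀ f ∈ A, f ≠ 0 →
      val (QuotientGroup.mk γ) f = wc γ f := by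
    intro γ f hfA hf0
    have h1 : (QuotientGroup.mk (Quotient.out (QuotientGroup.mk γ : XN N)) : XN N)
        = QuotientGroup.mk γ := Quotient.out_eq _
    rw [eq_comm, QuotientGroup.eq] at h1
    have h2 : Quotient.out (QuotientGroup.mk γ : XN N)
        = γ * (γ⁻¹ * Quotient.out (QuotientGroup.mk γ : XN N)) := by
      rw [← mul_assoc, mul_inv_cancel, one_mul]
    show wc (Quotient.out (QuotientGroup.mk γ : XN N)) f = wc γ f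
    rw [h2]
    exact hwc_right γ _ h1 f hfA hf0
  have hper : ∀ x : XN N, Function.minimalPeriod (permXN N g) x ∣ s := by
    intro x
    apply Function.IsPeriodicPt.minimalPeriod_dvd
    show (permXN N g : XN N → XN N)^[s] x = x
    rw [← Equiv.Perm.coe_pow, hgs]; rfl
  obtain ⟨pu, qu, hpuA, hquA, hpu0, hqu0, hupq, huval⟩ := hu
  have hcardX : (Fintype.card (XN N) : ℤ) = (Nat.card (XN N) : ℤ) := by
    rw [Nat.card_eq_fintype_card]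
  have key := squeeze_on (K := K) A hfrac u (permXN N g) s hs hgs val Z hZ
    (by rw [hsum, Nat.card_eq_fintype_card])
    (by
      intro v hv
      obtain ⟨γ, m, hm, hγ⟩ := hplace v hv
      exact ⟨QuotientGroup.mk γ, m, hm, fun f hfA hf0 => by rw [hval_mk γ f hfA hf0, hγ f hfA hf0]⟩)
    (by
      intro x f hfA hf0
      induction x using QuotientGroup.induction_on with
      | H γ =>
        show val (g • (QuotientGroup.mk γ : XN N)) f = val (QuotientGroup.mk γ) f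
        rw [smul_mk_XN, hval_mk _ f hfA hf0, hval_mk _ f hfA hf0]
        exact hwc_g γ f hfA hf0)
    ⟨pu, qu, hpuA, hquA, hpu0, hqu0, hupq, by
      intro x
      induction x using QuotientGroup.induction_on with
      | H γ => rw [hval_mk _ pu hpuA hpu0, hval_mk _ qu hquA hqu0]; exact huval γ⟩
    (by
      intro x f hfA hf0
      induction x using QuotientGroup.induction_on with
      | H γ =>
        rw [hval_mk _ f hfA hf0]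
        exact hwc_div γ _ (hper _) (conj_pow_minimalPeriod_mem g γ) f hfA hf0)
  refine ⟨key.1, ?_⟩
  rw [key.2.1, hcardX]

open UpperHalfPlane in
/-- **Squeeze at a point `τ₀ ∈ ℍ`** fixed by `g` (convention C3: the order function attached to
the coset `γ Γ₀(N)` is `f ↦ w (γ⁻¹ • τ₀) f`, where `w τ f` = order of `Θ f` at `τ`). -/
theorem squeeze_point (A : Set F)
    (hfrac : ∀ f : F, f ≠ 0 → ∃ p q : F, p ∈ A ∧ q ∈ A ∧ p ≠ 0 ∧ q ≠ 0 ∧ f * q = p)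
    (h1A : (1 : F) ∈ A) (u : F) (huA : u ∈ A) (hu0 : u ≠ 0)
    (g : SL(2, ℤ)) (s : ℕ) (hs : 0 < s) (hgs : permXN N g ^ s = 1)
    (w : ℍ → F → ℤ) (τ0 : ℍ) (hg : g • τ0 = τ0)
    (hw_one : ∀ τ, w τ 1 = 0)
    (hw_inv : ∀ δ ∈ Gamma0 N, ∀ τ, ∀ f ∈ A, f ≠ 0 → w (δ • τ) f = w τ f)
    (hw_u : ∀ γ : SL(2, ℤ), w (γ⁻¹ • τ0) u = s)
    (hw_div : ∀ (γ : SL(2, ℤ)) (k : ℕ), k ∣ s → γ⁻¹ * g ^ k * γ ∈ Gamma0 N →
      ∀ f ∈ A, f ≠ 0 → ((s / k : ℕ) : ℤ) ∣ w (γ⁻¹ • τ0) f)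
    (Z : Finset (Place K F)) (hZ : ∀ v ∈ Z, 0 < v.ord u)
    (hsum : ∑ v ∈ Z, v.ord u = Nat.card (XN N))
    (hplace : ∀ v ∈ Z, ∃ γ : SL(2, ℤ), ∃ m : ℤ, 0 < m ∧
      ∀ f ∈ A, f ≠ 0 → w (γ⁻¹ • τ0) f = m * v.ord f) :
    Z.card = Nat.card (OrbQ (permXN N g)) ∧
    (∑ v ∈ Z, (v.ord u - 1) = (Nat.card (XN N) : ℤ) - Nat.card (OrbQ (permXN N g))) := by
  refine squeeze_cosets (K := K) A hfrac u g s hs hgs (fun γ f => w (γ⁻¹ • τ0) f)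
    ?_ ?_ ⟨u, 1, huA, h1A, hu0, one_ne_zero, mul_one u, ?_⟩ hw_div Z hZ hsum hplace
  · intro γ δ hδ f hfA hf0
    show w ((γ * δ)⁻¹ • τ0) f = w (γ⁻¹ • τ0) f
    rw [mul_inv_rev, mul_smul]
    exact hw_inv δ⁻¹ (inv_mem hδ) _ f hfA hf0
  · intro γ f _ _
    show w ((g * γ)⁻¹ • τ0) f = w (γ⁻¹ • τ0) f
    have hg' : g⁻¹ • τ0 = τ0 := by
      conv_lhs => rw [← hg]
      rw [inv_smul_smul]
    rw [mul_inv_rev, mul_smul, hg']
  · intro γ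
    show w (γ⁻¹ • τ0) u - w (γ⁻¹ • τ0) 1 = s
    rw [hw_one, sub_zero, hw_u]

theorem trace_conj_eq (γ h : SL(2, ℤ)) : (γ⁻¹ * h * γ).1.trace = h.1.trace := by
  have h1 : (γ⁻¹ * h * γ).1 = (γ⁻¹).1 * h.1 * γ.1 := by
    simp [Matrix.SpecialLinearGroup.coe_mul]
  rw [h1, Matrix.trace_mul_comm, ← Matrix.mul_assoc]
  have h2 : γ.1 * (γ⁻¹).1 = 1 := by
    rw [← Matrix.SpecialLinearGroup.coe_mul, mul_inv_cancel, Matrix.SpecialLinearGroup.coe_one]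
  rw [h2, one_mul]

theorem conj_smul_inv_smul {γ h : SL(2, ℤ)} {τ0 : UpperHalfPlane} (hfix : h • τ0 = τ0) :
    (γ⁻¹ * h * γ) • (γ⁻¹ • τ0) = γ⁻¹ • τ0 := by
  rw [← mul_smul, mul_assoc, mul_inv_cancel, mul_one, mul_smul, hfix]

theorem trace_S_eq : (S : SL(2, ℤ)).1.trace = 0 := by
  rw [coe_S, Matrix.trace_fin_two]
  simp

theorem trace_ST_eq : (S * T : SL(2, ℤ)).1.trace = 1 := by
  rw [Matrix.SpecialLinearGroup.coe_mul, coe_S, coe_T, Matrix.trace_fin_two]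
  simp [Matrix.mul_apply, Fin.sum_univ_two]

open UpperHalfPlane in
/-- Squeeze over `j = 1728`: `τ₀` fixed by `S`, `u = j - 1728`. -/
theorem squeeze_point_S (A : Set F)
    (hfrac : ∀ f : F, f ≠ 0 → ∃ p q : F, p ∈ A ∧ q ∈ A ∧ p ≠ 0 ∧ q ≠ 0 ∧ f * q = p)
    (h1A : (1 : F) ∈ A) (u : F) (huA : u ∈ A) (hu0 : u ≠ 0)
    (w : ℍ → F → ℤ) (τ0 : ℍ) (hg : S • τ0 = τ0)
    (hw_one : ∀ τ, w τ 1 = 0)
    (hw_inv : ∀ δ ∈ Gamma0 N, ∀ τ, ∀ f ∈ A, f ≠ 0 → w (δ • τ) f = w τ f)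
    (hw_u : ∀ γ : SL(2, ℤ), w (γ⁻¹ • τ0) u = 2)
    (hw_ell : ∀ δ ∈ Gamma0 N, ∀ τ : ℍ, δ • τ = τ → δ.1.trace = 0 →
      ∀ f ∈ A, f ≠ 0 → (2 : ℤ) ∣ w τ f)
    (Z : Finset (Place K F)) (hZ : ∀ v ∈ Z, 0 < v.ord u)
    (hsum : ∑ v ∈ Z, v.ord u = Nat.card (XN N))
    (hplace : ∀ v ∈ Z, ∃ γ : SL(2, ℤ), ∃ m : ℤ, 0 < m ∧
      ∀ f ∈ A, f ≠ 0 → w (γ⁻¹ • τ0) f = m * v.ord f) :
    Z.card = Nat.card (OrbQ (permXN N S)) ∧
    (∑ v ∈ Z, (v.ord u - 1) = (Nat.card (XN N) : ℤ) - Nat.card (OrbQ (permXN N S))) := by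
  refine squeeze_point (K := K) A hfrac h1A u huA hu0 S 2 two_pos permXN_S_pow_two w τ0 hg hw_one
    hw_inv (by exact_mod_cast hw_u) ?_ Z hZ hsum hplace
  intro γ k hk hmem f hfA hf0
  have hk2 : k = 1 ∨ k = 2 := by
    have := Nat.le_of_dvd two_pos hk
    have hk0 : k ≠ 0 := fun h => by rw [h] at hk; simp at hk
    omega
  rcases hk2 with rfl | rfl
  · rw [pow_one] at hmem
    have := hw_ell _ hmem (γ⁻¹ • τ0) (conj_smul_inv_smul hg)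
      (by rw [trace_conj_eq, trace_S_eq]) f hfA hf0
    simpa using this
  · simp

open UpperHalfPlane in
/-- Squeeze over `j = 0`: `τ₀` fixed by `S * T`, `u = j`. -/
theorem squeeze_point_ST (A : Set F)
    (hfrac : ∀ f : F, f ≠ 0 → ∃ p q : F, p ∈ A ∧ q ∈ A ∧ p ≠ 0 ∧ q ≠ 0 ∧ f * q = p)
    (h1A : (1 : F) ∈ A) (u : F) (huA : u ∈ A) (hu0 : u ≠ 0)
    (w : ℍ → F → ℤ) (τ0 : ℍ) (hg : (S * T) • τ0 = τ0)
    (hw_one : ∀ τ, w τ 1 = 0)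
    (hw_inv : ∀ δ ∈ Gamma0 N, ∀ τ, ∀ f ∈ A, f ≠ 0 → w (δ • τ) f = w τ f)
    (hw_u : ∀ γ : SL(2, ℤ), w (γ⁻¹ • τ0) u = 3)
    (hw_ell : ∀ δ ∈ Gamma0 N, ∀ τ : ℍ, δ • τ = τ → δ.1.trace = 1 →
      ∀ f ∈ A, f ≠ 0 → (3 : ℤ) ∣ w τ f)
    (Z : Finset (Place K F)) (hZ : ∀ v ∈ Z, 0 < v.ord u)
    (hsum : ∑ v ∈ Z, v.ord u = Nat.card (XN N))
    (hplace : ∀ v ∈ Z, ∃ γ : SL(2, ℤ), ∃ m : ℤ, 0 < m ∧
      ∀ f ∈ A, f ≠ 0 → w (γ⁻¹ • τ0) f = m * v.ord f) :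
    Z.card = Nat.card (OrbQ (permXN N (S * T))) ∧
    (∑ v ∈ Z, (v.ord u - 1) = (Nat.card (XN N) : ℤ) - Nat.card (OrbQ (permXN N (S * T)))) := by
  refine squeeze_point (K := K) A hfrac h1A u huA hu0 (S * T) 3 (by norm_num) permXN_ST_pow_three
    w τ0 hg hw_one hw_inv (by exact_mod_cast hw_u) ?_ Z hZ hsum hplace
  intro γ k hk hmem f hfA hf0
  have hk3 : k = 1 ∨ k = 3 := by
    have hp : Nat.Prime 3 := by norm_num
    exact (Nat.dvd_prime hp).mp hk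
  rcases hk3 with rfl | rfl
  · rw [pow_one] at hmem
    have := hw_ell _ hmem (γ⁻¹ • τ0) (conj_smul_inv_smul hg)
      (by rw [trace_conj_eq, trace_ST_eq]) f hfA hf0
    simpa using this
  · simp

/-- **Squeeze at the cusp**: `wc γ f` = `q_N`-order of `(Θ f) ∘ γ⁻¹` at `i∞`; the poles of `jj`
are in bijection with the `T`-orbits on `X_N`. -/
theorem squeeze_cusp (A : Set F)
    (hfrac : ∀ f : F, f ≠ 0 → ∃ p q : F, p ∈ A ∧ q ∈ A ∧ p ≠ 0 ∧ q ≠ 0 ∧ f * q = p)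
    (h1A : (1 : F) ∈ A) (jj : F) (hjA : jj ∈ A) (hj0 : jj ≠ 0)
    (wc : SL(2, ℤ) → F → ℤ) (hwc_one : ∀ γ, wc γ 1 = 0)
    (hwc_right : ∀ γ, ∀ δ ∈ Gamma0 N, ∀ f ∈ A, f ≠ 0 → wc (γ * δ) f = wc γ f)
    (hwc_T : ∀ γ, ∀ f ∈ A, f ≠ 0 → wc (T * γ) f = wc γ f)
    (hwc_j : ∀ γ, wc γ jj = -(N : ℤ))
    (hwc_div : ∀ (γ : SL(2, ℤ)) (k : ℕ), k ∣ N → γ⁻¹ * T ^ k * γ ∈ Gamma0 N →
      ∀ f ∈ A, f ≠ 0 → ((N / k : ℕ) : ℤ) ∣ wc γ f)
    (Z : Finset (Place K F)) (hZ : ∀ v ∈ Z, v.ord jj < 0)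
    (hsum : ∑ v ∈ Z, v.ord jj = -(Nat.card (XN N) : ℤ))
    (hplace : ∀ v ∈ Z, ∃ γ : SL(2, ℤ), ∃ m : ℤ, 0 < m ∧
      ∀ f ∈ A, f ≠ 0 → wc γ f = m * v.ord f) :
    Z.card = Nat.card (OrbQ (permXN N T)) ∧
    (∑ v ∈ Z, (-v.ord jj - 1) = (Nat.card (XN N) : ℤ) - Nat.card (OrbQ (permXN N T))) := by
  have hord : ∀ v : Place K F, v.ord jj⁻¹ = -v.ord jj := fun v => v.ord_inv jj
  have key := squeeze_cosets (K := K) A hfrac jj⁻¹ T N (Nat.pos_of_ne_zero (NeZero.ne N))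
    permXN_T_pow_N wc hwc_right hwc_T
    ⟨1, jj, h1A, hjA, one_ne_zero, hj0, inv_mul_cancel₀ hj0, fun γ => by
      rw [hwc_one, hwc_j]; ring⟩
    hwc_div Z (fun v hv => by rw [hord]; have := hZ v hv; omega)
    (by simp_rw [hord]; rw [Finset.sum_neg_distrib, hsum, neg_neg]) hplace
  refine ⟨key.1, ?_⟩
  have := key.2
  simp_rw [hord] at this
  exact this

/-- Unramified points: if `w (γ⁻¹ • τ₀) u = 1` for all `γ`, every zero of `u` is simple. -/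
theorem ord_eq_one_of_point (A : Set F) (u : F) (huA : u ∈ A)
    (w : UpperHalfPlane → F → ℤ) (τ0 : UpperHalfPlane)
    (hw_u : ∀ γ : SL(2, ℤ), w (γ⁻¹ • τ0) u = 1)
    (v : Place K F) (hv : 0 < v.ord u)
    (hplace : ∃ γ : SL(2, ℤ), ∃ m : ℤ, 0 < m ∧
      ∀ f ∈ A, f ≠ 0 → w (γ⁻¹ • τ0) f = m * v.ord f) : v.ord u = 1 := by
  obtain ⟨γ, m, hm, hval⟩ := hplace
  have hu0 : u ≠ 0 := by
    rintro rfl
    rw [Place.ord_zero] at hv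
    exact lt_irrefl _ hv
  have h := hval u huA hu0
  rw [hw_u] at h
  have h1 : v.ord u ∣ 1 := ⟨m, by rw [h]; ring⟩
  exact Int.eq_one_of_dvd_one hv.le h1

end CosetSqueeze

end Fermat.Agent.S24.H76
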