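import Mathlib
import Fermat.Agent.S24.H76_Cosets
import Fermat.Agent.S24.H32_EllipticOrder

set_option autoImplicit false
set_option linter.unusedSectionVars false

/-!
# S24 / SQZ : orders of holomorphic functions on `ℍ` and the fibres of `j` over `0`, `1728`,
generic points (M4, M5, M6 from an abstract realisation `Θ`)

`helper76`.
-/

open UpperHalfPlane CongruenceSubgroup ModularGroup AlgebraicCurve
open scoped MatrixGroups Manifold

namespace Fermat.Agent.S24.H76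

/-- the order of vanishing at `τ ∈ ℍ` of a function on `ℍ`, as an integer
(`0` when the function vanishes identically near `τ` or is not analytic). -/
noncomputable def ordH (G : ℍ → ℂ) (τ : ℍ) : ℤ :=
  (analyticOrderNatAt (G ∘ ofComplex) (τ : ℂ) : ℤ)

theorem det_SL_pos (γ : SL(2, ℤ)) : 0 < ((γ : GL (Fin 2) ℝ) : Matrix (Fin 2) (Fin 2) ℝ).det := by
  have h : ((γ : GL (Fin 2) ℝ) : Matrix (Fin 2) (Fin 2) ℝ).det = 1 := by
    have h1 := (Int.castRingHom ℝ).map_det γ.1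
    rw [γ.det_coe, map_one] at h1
    simpa [RingHom.mapMatrix_apply] using h1.symm
  rw [h]
  exact one_pos

/-- the analytic order is equivariant under `SL(2,ℤ)`. -/
theorem analyticOrderAt_comp_SL_smul (G : ℍ → ℂ) (γ : SL(2, ℤ)) (τ : ℍ) :
    analyticOrderAt (fun z : ℂ => G (γ • ofComplex z)) (τ : ℂ) =
      analyticOrderAt (fun z : ℂ => G (ofComplex z)) ((γ • τ : ℍ) : ℂ) := by
  let Gm : ℂ → ℂ := fun z => ((γ : GL (Fin 2) ℝ) • ofComplex z : ℍ)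
  let Fm : ℂ → ℂ := fun z => G (ofComplex z)
  have h : (fun z : ℂ => G (γ • ofComplex z)) = Fm ∘ Gm := by
    ext z
    simp only [Fm, Gm, Function.comp_apply, ofComplex_apply]
    rfl
  rw [h, analyticOrderAt_comp_of_deriv_ne_zero (τ.analyticAt_smul (det_SL_pos γ))
    (τ.deriv_smul_ne_zero (det_SL_pos γ))]
  simp only [Fm, ofComplex_apply]
  rfl

theorem ordH_comp_smul (G : ℍ → ℂ) (γ : SL(2, ℤ)) (τ : ℍ) :
    ordH (fun τ => G (γ • τ)) τ = ordH G (γ • τ) := by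
  unfold ordH analyticOrderNatAt
  have := analyticOrderAt_comp_SL_smul G γ τ
  simp only [Function.comp_def] at this ⊢
  rw [this]

theorem ordH_one (τ : ℍ) : ordH (1 : ℍ → ℂ) τ = 0 := by
  unfold ordH analyticOrderNatAt
  have h : analyticOrderAt ((1 : ℍ → ℂ) ∘ ofComplex) (τ : ℂ) = 0 := by
    rw [analyticOrderAt_eq_zero]
    right
    simp
  rw [h]
  simp

theorem ordH_eq_of_analyticOrderAt {G : ℍ → ℂ} {τ : ℍ} {n : ℕ}
    (h : analyticOrderAt (fun z : ℂ => G (ofComplex z)) (τ : ℂ) = n) : ordH G τ = n := by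
  unfold ordH analyticOrderNatAt
  simp only [Function.comp_def]
  rw [h]
  simp

section Fibres

variable {N : ℕ} [NeZero N] {K F : Type*} [Field K] [Field F] [Algebra K F]

/-- hypotheses on the analytic realisation `Θ` of the elements of `A ⊆ F`
(to be instantiated with `A = Qbar[j_d : d ∣ N]`, `Θ = H17.Theta N`). -/
structure IsTheta (N : ℕ) (A : Set F) (Θ : F → ℍ → ℂ) : Prop where
  mdiff : ∀ f ∈ A, MDifferentiable 𝓘(ℂ) 𝓘(ℂ) (Θ f)
  smul : ∀ f ∈ A, ∀ g ∈ Gamma0 N, ∀ τ : ℍ, Θ f (g • τ) = Θ f τ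
  one : Θ 1 = 1
  one_mem : (1 : F) ∈ A
  frac : ∀ f : F, f ≠ 0 → ∃ p q : F, p ∈ A ∧ q ∈ A ∧ p ≠ 0 ∧ q ≠ 0 ∧ f * q = p

namespace IsTheta

variable {A : Set F} {Θ : F → ℍ → ℂ} (hΘ : IsTheta N A Θ)

include hΘ

theorem ordH_smul {f : F} (hf : f ∈ A) {g : SL(2, ℤ)} (hg : g ∈ Gamma0 N) (τ : ℍ) :
    ordH (Θ f) (g • τ) = ordH (Θ f) τ := by
  rw [← ordH_comp_smul]
  congr 1
  funext τ'
  exact hΘ.smul f hf g hg τ'

theorem two_dvd_ordH {f : F} (hf : f ∈ A) {g : SL(2, ℤ)} (hg : g ∈ Gamma0 N) {τ : ℍ}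
    (hfix : g • τ = τ) (htr : g.1.trace = 0) : (2 : ℤ) ∣ ordH (Θ f) τ := by
  have h := H32.two_dvd_analyticOrderNatAt_of_trace_zero (f := Θ f) hfix htr
    (H32.analyticAt_comp_ofComplex_of_mdifferentiable (hΘ.mdiff f hf) τ)
    (Filter.Eventually.of_forall (hΘ.smul f hf g hg))
  unfold ordH
  exact_mod_cast h

theorem three_dvd_ordH {f : F} (hf : f ∈ A) {g : SL(2, ℤ)} (hg : g ∈ Gamma0 N) {τ : ℍ}
    (hfix : g • τ = τ) (htr : g.1.trace = 1) : (3 : ℤ) ∣ ordH (Θ f) τ := by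
  have h := H32.three_dvd_analyticOrderNatAt_of_trace_one (f := Θ f) hfix (Or.inl htr)
    (H32.analyticAt_comp_ofComplex_of_mdifferentiable (hΘ.mdiff f hf) τ)
    (Filter.Eventually.of_forall (hΘ.smul f hf g hg))
  unfold ordH
  exact_mod_cast h

omit hΘ in
/-- the order of `Θ u = J - c` at the `SL(2,ℤ)`-translates of `τ₀`. -/
theorem ordH_translate_of_eq_J_sub {u : F} {Jf : ℍ → ℂ}
    (hJ : ∀ (γ : SL(2, ℤ)) (τ : ℍ), Jf (γ • τ) = Jf τ) {c : ℂ}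
    (hΘu : Θ u = fun τ => Jf τ - c) {τ0 : ℍ} {n : ℕ}
    (hord : analyticOrderAt (fun z : ℂ => Jf (ofComplex z) - c) (τ0 : ℂ) = n) (γ : SL(2, ℤ)) :
    ordH (Θ u) (γ⁻¹ • τ0) = n := by
  rw [← ordH_comp_smul, hΘu]
  have : (fun τ : ℍ => Jf (γ⁻¹ • τ) - c) = fun τ => Jf τ - c := by
    funext τ; rw [hJ]
  rw [this]
  exact ordH_eq_of_analyticOrderAt hord

/-- **M6 shape**: the zeros of `u` (with `Θ u = J - c`, order `2` at a fixed point `τ₀` of `S`)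
are in bijection with the `S`-orbits on `X_N`. -/
theorem card_zeros_S {u : F} (huA : u ∈ A) (hu0 : u ≠ 0) {Jf : ℍ → ℂ}
    (hJ : ∀ (γ : SL(2, ℤ)) (τ : ℍ), Jf (γ • τ) = Jf τ) {c : ℂ}
    (hΘu : Θ u = fun τ => Jf τ - c) {τ0 : ℍ} (hfix : S • τ0 = τ0)
    (hord : analyticOrderAt (fun z : ℂ => Jf (ofComplex z) - c) (τ0 : ℂ) = 2)
    (Z : Finset (Place K F)) (hZ : ∀ v ∈ Z, 0 < v.ord u)
    (hsum : ∑ v ∈ Z, v.ord u = Nat.card (XN N))
    (hplace : ∀ v ∈ Z, ∃ γ : SL(2, ℤ), ∃ m : ℤ, 0 < m ∧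
      ∀ f ∈ A, f ≠ 0 → ordH (Θ f) (γ⁻¹ • τ0) = m * v.ord f) :
    Z.card = Nat.card (OrbQ (permXN N S)) :=
  (squeeze_point_S (K := K) A hΘ.frac hΘ.one_mem u huA hu0 (fun τ f => ordH (Θ f) τ) τ0 hfix
    (fun τ => by rw [hΘ.one]; exact ordH_one τ)
    (fun δ hδ τ f hfA _ => hΘ.ordH_smul hfA hδ τ)
    (fun γ => by
      have := ordH_translate_of_eq_J_sub (Θ := Θ) hJ hΘu (n := 2) (by exact_mod_cast hord) γ
      exact_mod_cast this)
    (fun δ hδ τ hfix' htr f hfA _ => hΘ.two_dvd_ordH hfA hδ hfix' htr)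
    Z hZ hsum hplace).1

/-- **M5 shape**: the zeros of `u` (with `Θ u = J - c`, order `3` at a fixed point `τ₀` of `S*T`)
are in bijection with the `S*T`-orbits on `X_N`. -/
theorem card_zeros_ST {u : F} (huA : u ∈ A) (hu0 : u ≠ 0) {Jf : ℍ → ℂ}
    (hJ : ∀ (γ : SL(2, ℤ)) (τ : ℍ), Jf (γ • τ) = Jf τ) {c : ℂ}
    (hΘu : Θ u = fun τ => Jf τ - c) {τ0 : ℍ} (hfix : (S * T) • τ0 = τ0)
    (hord : analyticOrderAt (fun z : ℂ => Jf (ofComplex z) - c) (τ0 : ℂ) = 3)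
    (Z : Finset (Place K F)) (hZ : ∀ v ∈ Z, 0 < v.ord u)
    (hsum : ∑ v ∈ Z, v.ord u = Nat.card (XN N))
    (hplace : ∀ v ∈ Z, ∃ γ : SL(2, ℤ), ∃ m : ℤ, 0 < m ∧
      ∀ f ∈ A, f ≠ 0 → ordH (Θ f) (γ⁻¹ • τ0) = m * v.ord f) :
    Z.card = Nat.card (OrbQ (permXN N (S * T))) :=
  (squeeze_point_ST (K := K) A hΘ.frac hΘ.one_mem u huA hu0 (fun τ f => ordH (Θ f) τ) τ0 hfix
    (fun τ => by rw [hΘ.one]; exact ordH_one τ)
    (fun δ hδ τ f hfA _ => hΘ.ordH_smul hfA hδ τ)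
    (fun γ => by
      have := ordH_translate_of_eq_J_sub (Θ := Θ) hJ hΘu (n := 3) (by exact_mod_cast hord) γ
      exact_mod_cast this)
    (fun δ hδ τ hfix' htr f hfA _ => hΘ.three_dvd_ordH hfA hδ hfix' htr)
    Z hZ hsum hplace).1

omit hΘ in
/-- **M4 shape**: if `J - c` has a simple zero at `τ₀`, every zero of `u` is simple. -/
theorem ord_eq_one_of_simple {u : F} (huA : u ∈ A) {Jf : ℍ → ℂ}
    (hJ : ∀ (γ : SL(2, ℤ)) (τ : ℍ), Jf (γ • τ) = Jf τ) {c : ℂ}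
    (hΘu : Θ u = fun τ => Jf τ - c) {τ0 : ℍ}
    (hord : analyticOrderAt (fun z : ℂ => Jf (ofComplex z) - c) (τ0 : ℂ) = 1)
    (v : Place K F) (hv : 0 < v.ord u)
    (hplace : ∃ γ : SL(2, ℤ), ∃ m : ℤ, 0 < m ∧
      ∀ f ∈ A, f ≠ 0 → ordH (Θ f) (γ⁻¹ • τ0) = m * v.ord f) : v.ord u = 1 :=
  ord_eq_one_of_point (K := K) A u huA (fun τ f => ordH (Θ f) τ) τ0
    (fun γ => by
      have := ordH_translate_of_eq_J_sub (Θ := Θ) hJ hΘu (n := 1) (by exact_mod_cast hord) γ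
      exact_mod_cast this)
    v hv hplace

end IsTheta

end Fibres

end Fermat.Agent.S24.H76
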