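import Mathlib
import Fermat.Agent.S24.H76_Orders

set_option autoImplicit false
set_option linter.unusedSectionVars false

/-!
# S24 / SQZ : the fibre of `j` over `∞` (M7 from an abstract realisation `Θ` and an abstract
order-at-the-cusp function)

`helper76`.
-/

open UpperHalfPlane CongruenceSubgroup ModularGroup AlgebraicCurve
open scoped MatrixGroups Manifold

namespace Fermat.Agent.S24.H76

section Cusp

variable {N : ℕ} [NeZero N] {K F : Type*} [Field K] [Field F] [Algebra K F]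

namespace IsTheta

variable {A : Set F} {Θ : F → ℍ → ℂ} (hΘ : IsTheta N A Θ)

include hΘ

/-- if `γ⁻¹ T^k γ ∈ Γ₀(N)` then the conjugate `τ ↦ Θ f (γ⁻¹ • τ)` is `k`-periodic. -/
theorem conj_periodic {f : F} (hf : f ∈ A) (γ : SL(2, ℤ)) (k : ℕ)
    (hmem : γ⁻¹ * T ^ k * γ ∈ Gamma0 N) (τ : ℍ) :
    Θ f (γ⁻¹ • ((k : ℝ) +ᵥ τ)) = Θ f (γ⁻¹ • τ) := by
  have h1 : ((k : ℝ) +ᵥ τ) = (T ^ k : SL(2, ℤ)) • τ := by
    have := modular_T_zpow_smul τ (k : ℤ)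
    rw [zpow_natCast] at this
    rw [this]
    simp
  rw [h1]
  have h2 : γ⁻¹ • ((T ^ k : SL(2, ℤ)) • τ) = (γ⁻¹ * T ^ k * γ) • (γ⁻¹ • τ) := by
    simp only [← mul_smul]
    congr 1
    rw [mul_assoc, mul_assoc, mul_inv_cancel, mul_one]
  rw [h2]
  exact hΘ.smul f hf _ hmem _

/-- **M7 shape**: the poles of `jj` (with `Θ jj = J`) are in bijection with the `T`-orbits on
`X_N`.  `ordInf g` is the order at `i∞` (in the local parameter `q_N`) of an `N`-periodic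
function `g`; the three analytic inputs `h_trans`, `h_div`, `h_J` are stated for the conjugates
`τ ↦ Θ f (γ⁻¹ • τ)`. -/
theorem card_poles_T (ordInf : (ℍ → ℂ) → ℤ) (h_one : ordInf 1 = 0)
    (h_trans : ∀ f ∈ A, f ≠ 0 → ∀ γ : SL(2, ℤ),
      ordInf (fun τ => Θ f (γ⁻¹ • (T⁻¹ • τ))) = ordInf (fun τ => Θ f (γ⁻¹ • τ)))
    (h_div : ∀ f ∈ A, f ≠ 0 → ∀ (γ : SL(2, ℤ)) (k : ℕ), k ∣ N →
      (∀ τ : ℍ, Θ f (γ⁻¹ • ((k : ℝ) +ᵥ τ)) = Θ f (γ⁻¹ • τ)) →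
      ((N / k : ℕ) : ℤ) ∣ ordInf (fun τ => Θ f (γ⁻¹ • τ)))
    {jj : F} (hjA : jj ∈ A) (hj0 : jj ≠ 0) {Jf : ℍ → ℂ}
    (hJ : ∀ (γ : SL(2, ℤ)) (τ : ℍ), Jf (γ • τ) = Jf τ) (hΘj : Θ jj = Jf)
    (h_J : ordInf Jf = -(N : ℤ))
    (Z : Finset (Place K F)) (hZ : ∀ v ∈ Z, v.ord jj < 0)
    (hsum : ∑ v ∈ Z, v.ord jj = -(Nat.card (XN N) : ℤ))
    (hplace : ∀ v ∈ Z, ∃ γ : SL(2, ℤ), ∃ m : ℤ, 0 < m ∧
      ∀ f ∈ A, f ≠ 0 → ordInf (fun τ => Θ f (γ⁻¹ • τ)) = m * v.ord f) :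
    Z.card = Nat.card (OrbQ (permXN N T)) := by
  refine (squeeze_cusp (K := K) A hΘ.frac hΘ.one_mem jj hjA hj0
    (fun γ f => ordInf (fun τ => Θ f (γ⁻¹ • τ))) ?_ ?_ ?_ ?_ ?_ Z hZ hsum hplace).1
  · intro γ
    show ordInf (fun τ => Θ 1 (γ⁻¹ • τ)) = 0
    rw [hΘ.one]
    exact h_one
  · intro γ δ hδ f hfA _
    show ordInf (fun τ => Θ f ((γ * δ)⁻¹ • τ)) = ordInf (fun τ => Θ f (γ⁻¹ • τ))
    congr 1
    funext τ
    rw [mul_inv_rev, mul_smul]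
    exact hΘ.smul f hfA _ (inv_mem hδ) _
  · intro γ f hfA hf0
    show ordInf (fun τ => Θ f ((T * γ)⁻¹ • τ)) = ordInf (fun τ => Θ f (γ⁻¹ • τ))
    rw [← h_trans f hfA hf0 γ]
    congr 1
    funext τ
    rw [mul_inv_rev, mul_smul]
  · intro γ
    show ordInf (fun τ => Θ jj (γ⁻¹ • τ)) = -(N : ℤ)
    rw [hΘj]
    have : (fun τ : ℍ => Jf (γ⁻¹ • τ)) = Jf := by
      funext τ; exact hJ _ _
    rw [this]
    exact h_J
  · intro γ k hk hmem f hfA hf0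
    exact h_div f hfA hf0 γ k hk (hΘ.conj_periodic hfA γ k hmem)

end IsTheta

end Cusp

end Fermat.Agent.S24.H76
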