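import Fermat.Agent.S24.H8_LocalOrders
import Fermat.Agent.S24.H28_JDef

/-!
Package J3 of the S24 project, stated for `Fermat.Agent.S24.H28.J` (the analytic `j`-function
of package J1).
-/

set_option autoImplicit false

open UpperHalfPlane hiding I
open scoped MatrixGroups
open ModularForm EisensteinSeries

namespace Fermat.Agent.S24.H8

theorem Jfun_eq_J : Jfun = Fermat.Agent.S24.H28.J := rfl

theorem analyticOrderAt_J_sub_generic (τ₀ : ℍ) (h0 : H28.J τ₀ ≠ 0) (h1 : H28.J τ₀ ≠ 1728) :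
    analyticOrderAt (fun z : ℂ => H28.J (ofComplex z) - H28.J τ₀) (τ₀ : ℂ) = 1 :=
  analyticOrderAt_Jfun_sub_generic τ₀ h0 h1

theorem analyticOrderAt_J_of_E₄_eq_zero (τ₀ : ℍ) (h : E₄ τ₀ = 0) :
    analyticOrderAt (fun z : ℂ => H28.J (ofComplex z)) (τ₀ : ℂ) = 3 :=
  analyticOrderAt_Jfun_of_E₄_eq_zero τ₀ h

theorem analyticOrderAt_J_sub_1728_of_E₆_eq_zero (τ₀ : ℍ) (h : E₆ τ₀ = 0) :
    analyticOrderAt (fun z : ℂ => H28.J (ofComplex z) - 1728) (τ₀ : ℂ) = 2 :=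
  analyticOrderAt_Jfun_sub_1728_of_E₆_eq_zero τ₀ h

theorem J_eq_zero_iff (τ : ℍ) : H28.J τ = 0 ↔ E₄ τ = 0 := Jfun_eq_zero_iff τ

theorem J_eq_1728_iff (τ : ℍ) : H28.J τ = 1728 ↔ E₆ τ = 0 := Jfun_eq_1728_iff τ

theorem J_ρ : H28.J UpperHalfPlane.ρ = 0 := Jfun_ρ

theorem J_I : H28.J UpperHalfPlane.I = 1728 := Jfun_I

end Fermat.Agent.S24.H8
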