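import Mathlib
import Fermat.Agent.S24.Defs
import Fermat.Agent.S24.H24_RH
import Fermat.Agent.S24.H24_Group
import Fermat.Agent.S24.H28_J1
import Fermat.Agent.S24.H8_J3
import Fermat.Agent.S24.H76_Cusp

set_option autoImplicit false
set_option linter.unusedSectionVars false

/-!
# S24 / SQZ : M4–M7 in the shapes consumed by `H24_Assembly`

`helper76`.  Everything that is not yet available on main (the realisation `Θ` of T3, the
"places are points" statements of T5, the cusp expansion facts of EMB-cusp) is bundled in the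
structure `ModInputs`; the four theorems `hunr`, `card_fib_zero`, `card_fib_1728`, `card_poles`
are exactly the hypotheses `hunr h0 h1728 hinf` of `H24.genus_eq_genusFormula_of`.
-/

open UpperHalfPlane CongruenceSubgroup ModularGroup AlgebraicCurve
open scoped MatrixGroups Manifold

noncomputable section

namespace Fermat.Agent.S24.H76

variable (N : ℕ) [NeZero N]

/-- The analytic inputs still to be provided (T3 = `isTheta`, `theta_sub_const`;
T5 = `place_fin`, `place_cusp`; EMB-cusp = `ordInf_*`). -/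
structure ModInputs (A : Set (FN N)) (Θ : FN N → ℍ → ℂ) (ι : Qbar →+* ℂ)
    (ordInf : (ℍ → ℂ) → ℤ) : Prop where
  isTheta : IsTheta N A Θ
  sub_const_mem : ∀ a : Qbar, jBar N - algebraMap Qbar (FN N) a ∈ A
  theta_sub_const : ∀ a : Qbar,
    Θ (jBar N - algebraMap Qbar (FN N) a) = fun τ => H28.J τ - ι a
  jBar_mem : jBar N ∈ A
  theta_jBar : Θ (jBar N) = H28.J
  place_fin : ∀ (v : Place Qbar (FN N)) (a : Qbar) (τ0 : ℍ), H28.J τ0 = ι a →
    0 < v.ord (jBar N - algebraMap Qbar (FN N) a) →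
    ∃ γ : SL(2, ℤ), ∃ m : ℤ, 0 < m ∧
      ∀ f ∈ A, f ≠ 0 → ordH (Θ f) (γ⁻¹ • τ0) = m * v.ord f
  place_cusp : ∀ v : Place Qbar (FN N), v.ord (jBar N) < 0 →
    ∃ γ : SL(2, ℤ), ∃ m : ℤ, 0 < m ∧
      ∀ f ∈ A, f ≠ 0 → ordInf (fun τ => Θ f (γ⁻¹ • τ)) = m * v.ord f
  ordInf_one : ordInf 1 = 0
  ordInf_trans : ∀ f ∈ A, f ≠ 0 → ∀ γ : SL(2, ℤ),
    ordInf (fun τ => Θ f (γ⁻¹ • (T⁻¹ • τ))) = ordInf (fun τ => Θ f (γ⁻¹ • τ))
  ordInf_div : ∀ f ∈ A, f ≠ 0 → ∀ (γ : SL(2, ℤ)) (k : ℕ), k ∣ N →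
    (∀ τ : ℍ, Θ f (γ⁻¹ • ((k : ℝ) +ᵥ τ)) = Θ f (γ⁻¹ • τ)) →
    ((N / k : ℕ) : ℤ) ∣ ordInf (fun τ => Θ f (γ⁻¹ • τ))
  ordInf_J : ordInf H28.J = -(N : ℤ)

namespace ModInputs

variable {N} {A : Set (FN N)} {Θ : FN N → ℍ → ℂ} {ι : Qbar →+* ℂ} {ordInf : (ℍ → ℂ) → ℤ}
  (h : ModInputs N A Θ ι ordInf)

include h

/-- **M4**: `j` is unramified outside `0, 1728, ∞`. -/
theorem hunr (v : Place Qbar (FN N)) (a : Qbar) (ha0 : a ≠ 0) (ha1 : a ≠ 1728)
    (hv : 0 < v.ord (jBar N - algebraMap Qbar (FN N) a)) :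
    v.ord (jBar N - algebraMap Qbar (FN N) a) = 1 := by
  obtain ⟨τ0, hτ0⟩ := H28.J_surjective (ι a)
  have h0 : H28.J τ0 ≠ 0 := by
    rw [hτ0]
    exact fun h0 => ha0 (ι.injective (by rw [h0, map_zero]))
  have h1 : H28.J τ0 ≠ 1728 := by
    rw [hτ0]
    exact fun h1 => ha1 (ι.injective (by rw [h1, map_ofNat]))
  have hord := H8.analyticOrderAt_J_sub_generic τ0 h0 h1
  rw [hτ0] at hord
  exact IsTheta.ord_eq_one_of_simple (K := Qbar) (Θ := Θ) (A := A) (h.sub_const_mem a)
    H28.J_smul (h.theta_sub_const a) (by exact_mod_cast hord) v hv (h.place_fin v a τ0 hτ0 hv)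

variable (hData : H24.RH.Data (K := Qbar) (jBar N) (Fintype.card (H24.XN N)))

omit h in
theorem mem_fib_of_mem_toFinset {a : Qbar} {hfin : (H24.RH.fib (K := Qbar) (jBar N) a).Finite}
    {v : Place Qbar (FN N)} (hv : v ∈ hfin.toFinset) :
    0 < v.ord (jBar N - algebraMap Qbar (FN N) a) := by
  have hv' : v ∈ H24.RH.fib (K := Qbar) (jBar N) a := (Set.Finite.mem_toFinset hfin).mp hv
  exact hv'

omit h in
theorem mem_poles_of_mem_toFinset {hfin : (H24.RH.poles (K := Qbar) (jBar N)).Finite}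
    {v : Place Qbar (FN N)} (hv : v ∈ hfin.toFinset) : v.ord (jBar N) < 0 := by
  have hv' : v ∈ H24.RH.poles (K := Qbar) (jBar N) := (Set.Finite.mem_toFinset hfin).mp hv
  exact hv'

omit h in
theorem card_XN_pos : 0 < Fintype.card (H24.XN N) :=
  Fintype.card_pos_iff.mpr ⟨((1 : SL(2, ℤ)) : H24.XN N)⟩

omit h in
include hData in
theorem sub_const_ne_zero (a : Qbar) : jBar N - algebraMap Qbar (FN N) a ≠ 0 := by
  intro h0
  have hs := hData.fib_sum a
  rw [h0] at hs
  simp only [Place.ord_zero, Finset.sum_const_zero] at hs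
  have := card_XN_pos (N := N)
  omega

omit h in
include hData in
theorem jBar_ne_zero : jBar N ≠ 0 := by
  have := sub_const_ne_zero hData 0
  simpa using this

/-- **M5**: the fibre over `0` is in bijection with the `S*T`-orbits. -/
theorem card_fib_zero :
    (hData.fib_finite 0).toFinset.card =
      Nat.card (MulAction.orbitRel.Quotient
        (Subgroup.zpowers (H24.perm N (S * T))) (H24.XN N)) := by
  have hord := H8.analyticOrderAt_J_of_E₄_eq_zero UpperHalfPlane.ρ H8.E₄_ρ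
  have hord' : analyticOrderAt (fun z : ℂ => H28.J (ofComplex z) - ι 0)
      ((UpperHalfPlane.ρ : ℍ) : ℂ) = 3 := by
    simpa using hord
  have hJρ : H28.J UpperHalfPlane.ρ = ι 0 := by rw [map_zero]; exact H8.J_ρ
  refine IsTheta.card_zeros_ST (K := Qbar) h.isTheta (h.sub_const_mem 0)
    (sub_const_ne_zero hData 0) H28.J_smul (h.theta_sub_const 0) H8.ST_smul_ρ hord'
    (hData.fib_finite 0).toFinset ?_ ?_ ?_
  · intro v hv
    exact mem_fib_of_mem_toFinset hv
  · rw [hData.fib_sum 0, Nat.card_eq_fintype_card]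
  · intro v hv
    exact h.place_fin v 0 _ hJρ (mem_fib_of_mem_toFinset hv)

/-- **M6**: the fibre over `1728` is in bijection with the `S`-orbits. -/
theorem card_fib_1728 :
    (hData.fib_finite 1728).toFinset.card =
      Nat.card (MulAction.orbitRel.Quotient
        (Subgroup.zpowers (H24.perm N S)) (H24.XN N)) := by
  have hord := H8.analyticOrderAt_J_sub_1728_of_E₆_eq_zero UpperHalfPlane.I H8.E₆_I
  have hι : ι 1728 = 1728 := map_ofNat ι 1728
  have hord' : analyticOrderAt (fun z : ℂ => H28.J (ofComplex z) - ι 1728)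
      ((UpperHalfPlane.I : ℍ) : ℂ) = 2 := by
    rw [hι]; exact hord
  have hJI : H28.J UpperHalfPlane.I = ι 1728 := by rw [hι]; exact H8.J_I
  refine IsTheta.card_zeros_S (K := Qbar) h.isTheta (h.sub_const_mem 1728)
    (sub_const_ne_zero hData 1728) H28.J_smul (h.theta_sub_const 1728) H8.S_smul_I hord'
    (hData.fib_finite 1728).toFinset ?_ ?_ ?_
  · intro v hv
    exact mem_fib_of_mem_toFinset hv
  · rw [hData.fib_sum 1728, Nat.card_eq_fintype_card]
  · intro v hv
    exact h.place_fin v 1728 _ hJI (mem_fib_of_mem_toFinset hv)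

/-- **M7**: the poles of `j` are in bijection with the `T`-orbits. -/
theorem card_poles :
    hData.poles_finite.toFinset.card =
      Nat.card (MulAction.orbitRel.Quotient
        (Subgroup.zpowers (H24.perm N T)) (H24.XN N)) := by
  refine IsTheta.card_poles_T (K := Qbar) h.isTheta ordInf h.ordInf_one h.ordInf_trans
    h.ordInf_div h.jBar_mem (jBar_ne_zero hData) H28.J_smul h.theta_jBar h.ordInf_J
    hData.poles_finite.toFinset ?_ ?_ ?_
  · intro v hv
    exact mem_poles_of_mem_toFinset hv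
  · rw [hData.poles_sum, Nat.card_eq_fintype_card]
  · intro v hv
    exact h.place_cusp v (mem_poles_of_mem_toFinset hv)

end ModInputs

end Fermat.Agent.S24.H76
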