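import Mathlib
import Fermat.Agent.S24.Defs
import Fermat.Agent.S24.H24_Assembly
import Fermat.Agent.S24.H24_Comb
import Fermat.Agent.S24.H24_Wire
import Fermat.Agent.S24.H76_Final

set_option autoImplicit false

noncomputable section

namespace Fermat.Agent.S24.H24

open AlgebraicCurve ModularCurve IntermediateField UpperHalfPlane
open scoped MatrixGroups

/-- The genus formula from the degree statement (M2 + M3) and the analytic inputs `ModInputs`
(M4–M7). Everything else (Riemann–Hurwitz, Ree, orbit counting, COMB) is already wired in. -/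
theorem genus_eq_genusFormula_of_modInputs (N : ℕ) [NeZero N]
    [HasCanonicalDivisor (K := Qbar) (F := FN N)]
    [FiniteDimensional Qbar⟮jBar N⟯ (FN N)]
    (hdeg : Module.finrank Qbar⟮jBar N⟯ (FN N) = Nat.card (XN N))
    {A : Set (FN N)} {Θ : FN N → ℍ → ℂ} {ι : Qbar →+* ℂ} {ordInf : (ℍ → ℂ) → ℤ}
    (h : H76.ModInputs N A Θ ι ordInf) :
    (genus Qbar (FN N) : ℚ) = genusFormula N := by
  have hData := rhData_jBar N hdeg
  exact genus_eq_genusFormula_of N hData h.hunr (h.card_fib_zero hData) (h.card_fib_1728 hData)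
    (h.card_poles hData) (card_XN_eq_dedekindPsi N) (numFixed_S_eq_nuTwo N)
    (numFixed_ST_eq_nuThree N) (orb_T_eq_cuspCount' N)

end Fermat.Agent.S24.H24
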