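import Mathlib
import Fermat.Agent.S24.Defs

/-!
# S24 plumbing: separability of `FN N` over `Qbar⟮jBar N⟯`

`inferInstance` times out on `Algebra.IsSeparable Qbar⟮jBar N⟯ (FN N)` (the default
`synthInstance.maxHeartbeats` is exhausted on the concrete types), so we provide the instance
by hand.  Consumers: `H46.exists_embedding_of_place(_pole)`, `H81.exists_point_of_place`,
the cusp analogue.
-/

set_option autoImplicit false

namespace Fermat.Agent.S24.H46

open IntermediateField

/-- In characteristic zero a finite extension `F / K⟮t⟯` is separable. -/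
theorem isSeparable_adjoin_of_charZero {K F : Type*} [Field K] [Field F] [Algebra K F]
    [CharZero K] (t : F) [FiniteDimensional K⟮t⟯ F] : Algebra.IsSeparable K⟮t⟯ F := by
  have : CharZero K⟮t⟯ := charZero_of_injective_algebraMap (algebraMap K K⟮t⟯).injective
  have : Algebra.IsAlgebraic K⟮t⟯ F := Algebra.IsAlgebraic.of_finite _ _
  exact Algebra.IsAlgebraic.isSeparable_of_perfectField

/-- `FN N` is separable over `Qbar⟮jBar N⟯` (as soon as it is finite). -/
theorem isSeparable_FN (N : ℕ) [NeZero N] [FiniteDimensional Qbar⟮jBar N⟯ (FN N)] :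
    Algebra.IsSeparable Qbar⟮jBar N⟯ (FN N) :=
  isSeparable_adjoin_of_charZero (K := Qbar) (jBar N)

end Fermat.Agent.S24.H46
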