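import Mathlib
import Fermat.Agent.S24.H4_QhExpansion
import Fermat.Agent.S24.H28_J1

set_option autoImplicit false

/-!
# S24 / SQZ : order at the cusp (`q_N`-order) of periodic functions: translation invariance,
divisibility for `k`-periodic functions, and the order of `J`

`helper76`.  On top of helper4's `H4_QhExpansion`.
-/

open UpperHalfPlane Function
open scoped MatrixGroups Manifold

namespace Fermat.Agent.S24.H76

open H4

/-- characterisation of the order of a Laurent series by its lowest nonzero coefficient. -/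
theorem order_eq_of_coeff {x : LaurentSeries ℂ} {n₀ : ℤ} (h1 : x.coeff n₀ ≠ 0)
    (h2 : ∀ n < n₀, x.coeff n = 0) : x.order = n₀ := by
  have hx : x ≠ 0 := HahnSeries.ne_zero_of_coeff_ne_zero h1
  refine le_antisymm (HahnSeries.order_le_of_coeff_ne_zero h1) ?_
  by_contra hlt
  rw [not_le] at hlt
  exact (HahnSeries.coeff_order_eq_zero.not.mpr hx) (h2 _ hlt)

/-- two Laurent series with the same vanishing pattern of coefficients have the same order. -/
theorem order_eq_of_coeff_eq_zero_iff {x y : LaurentSeries ℂ}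
    (h : ∀ n, x.coeff n = 0 ↔ y.coeff n = 0) : x.order = y.order := by
  by_cases hx : x = 0
  · have hy : y = 0 := by
      ext n
      rw [HahnSeries.coeff_zero, ← h n, hx, HahnSeries.coeff_zero]
    rw [hx, hy]
  · have h1 : x.coeff x.order ≠ 0 := HahnSeries.coeff_order_eq_zero.not.mpr hx
    have h1' : y.coeff x.order ≠ 0 := fun h0 => h1 ((h _).mpr h0)
    symm
    apply order_eq_of_coeff h1'
    intro n hn
    exact (h n).mp (HahnSeries.coeff_eq_zero_of_lt_order hn)

variable {h : ℝ} {g : ℍ → ℂ}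

/-- the order at the cusp is invariant under real translations. -/
theorem order_qhExpansion_vadd (hh : 0 < h) (hg : IsMeroPeriodic h g) (b : ℝ) :
    (qhExpansion h (fun τ : ℍ => g (b +ᵥ τ))).order = (qhExpansion h g).order := by
  apply order_eq_of_coeff_eq_zero_iff
  intro n
  rw [qhExpansion_comp_vadd_coeff hh hg b n]
  have : Periodic.qParam h (b : ℂ) ^ n ≠ 0 := zpow_ne_zero _ (Periodic.qParam_ne_zero _)
  simp [this]

/-- a function which is `d * k`-periodic meromorphic at `i∞` and also `k`-periodic is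
`k`-periodic meromorphic at `i∞`. -/
theorem isMeroPeriodic_of_periodic {k : ℝ} (hk : 0 < k) {d : ℕ} (hd : d ≠ 0)
    (hg : IsMeroPeriodic ((d : ℝ) * k) g) (hper : ∀ τ : ℍ, g (k +ᵥ τ) = g τ) :
    IsMeroPeriodic k g where
  mdiff := hg.mdiff
  periodic := periodic_comp_ofComplex_iff.mpr hper
  exists_bdd := by
    obtain ⟨M, hM⟩ := hg.exists_bdd
    refine ⟨M, ?_⟩
    have h1 : qFun k ^ M = qFun ((d : ℝ) * k) ^ (d * M) := by
      funext τ
      simp only [Pi.pow_apply]
      rw [pow_mul, qFun_nat_mul_pow k hd]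
    rw [h1]
    have hdk : 0 < (d : ℝ) * k :=
      mul_pos (by exact_mod_cast Nat.pos_of_ne_zero hd) hk
    exact isBoundedAtImInfty_qFun_pow_mul_of_le hdk
      (Nat.le_mul_of_pos_left M (Nat.pos_of_ne_zero hd)) hM

/-- **hdiv**: if `g` is `N`-periodic meromorphic at `i∞` and moreover `k`-periodic with `k ∣ N`,
its `q_N`-order is divisible by `N / k`. -/
theorem dvd_order_qhExpansion_of_periodic {N k : ℕ} (hN : N ≠ 0) (hkN : k ∣ N)
    (hg : IsMeroPeriodic (N : ℝ) g) (hper : ∀ τ : ℍ, g ((k : ℝ) +ᵥ τ) = g τ) :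
    ((N / k : ℕ) : ℤ) ∣ (qhExpansion (N : ℝ) g).order := by
  obtain ⟨d, rfl⟩ := hkN
  have hk0 : k ≠ 0 := fun h0 => hN (by rw [h0, zero_mul])
  have hd0 : d ≠ 0 := fun h0 => hN (by rw [h0, mul_zero])
  have hkpos : (0 : ℝ) < (k : ℝ) := by exact_mod_cast Nat.pos_of_ne_zero hk0
  have hdiv : k * d / k = d := Nat.mul_div_cancel_left d (Nat.pos_of_ne_zero hk0)
  rw [hdiv]
  have hcast : ((k * d : ℕ) : ℝ) = (d : ℝ) * (k : ℝ) := by push_cast; ring
  rw [hcast] at hg ⊢
  have hgk : IsMeroPeriodic (k : ℝ) g := isMeroPeriodic_of_periodic hkpos hd0 hg hper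
  by_cases hx : qhExpansion ((d : ℝ) * (k : ℝ)) g = 0
  · rw [hx, HahnSeries.order_zero]
    exact dvd_zero _
  · by_contra hnd
    exact (HahnSeries.coeff_order_eq_zero.not.mpr hx)
      (qhExpansion_nat_mul_coeff_of_not_dvd hkpos hgk hd0 hnd)

/-- the `q`-expansion of `J` at period `1` has order `-1`. -/
theorem qhExpansion_one_J :
    IsMeroPeriodic (1 : ℝ) H28.J ∧ (qhExpansion (1 : ℝ) H28.J).order = -1 := by
  have hper : Periodic (H28.J ∘ ofComplex) (1 : ℝ) := by
    rw [periodic_comp_ofComplex_iff]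
    intro τ
    have := H28.J_smul ModularGroup.T τ
    rwa [modular_T_smul] at this
  have hsum : ∀ τ : ℍ, HasSum (fun m : ℕ =>
      (((PowerSeries.coeff m ModularCurve.jNum : ℤ) : ℂ)) * qFun (1 : ℝ) τ ^ m)
      (qFun (1 : ℝ) τ ^ 1 * H28.J τ) := by
    intro τ
    have := H28.hasSum_jNum τ
    simpa [qFun, pow_one] using this
  refine ⟨IsMeroPeriodic.of_hasSum one_pos H28.J_mdiff hper hsum, ?_⟩
  apply order_eq_of_coeff
  · have := qhExpansion_coeff_of_hasSum one_pos H28.J_mdiff hper hsum 0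
    simp only [Nat.cast_zero, Nat.cast_one, zero_sub] at this
    rw [this]
    simp
  · intro n hn
    rw [qhExpansion_eq_of_hasSum one_pos H28.J_mdiff hper hsum]
    rw [HahnSeries.coeff_single_mul, one_mul]
    exact H4.ofPowerSeries_coeff_of_neg _ (by push_cast; omega)

/-- **order of `J` at the cusp in the parameter `q_N`**. -/
theorem qhExpansion_nat_J {N : ℕ} (hN : N ≠ 0) :
    IsMeroPeriodic (N : ℝ) H28.J ∧ (qhExpansion (N : ℝ) H28.J).order = -(N : ℤ) := by
  obtain ⟨h1, h2⟩ := qhExpansion_one_J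
  have hN1 : ((N : ℝ) * 1) = (N : ℝ) := mul_one _
  have hm := h1.nat_mul hN
  rw [hN1] at hm
  refine ⟨hm, ?_⟩
  have hc1 : (qhExpansion (1 : ℝ) H28.J).coeff (-1) ≠ 0 := by
    rw [← h2]
    apply HahnSeries.coeff_order_eq_zero.not.mpr
    intro h0
    rw [h0, HahnSeries.order_zero] at h2
    omega
  apply order_eq_of_coeff
  · have := qhExpansion_nat_mul_coeff one_pos h1 hN (-1)
    rw [hN1] at this
    rw [show -(N : ℤ) = (N : ℤ) * (-1) by ring, this]
    exact hc1
  · intro n hn
    by_cases hd : (N : ℤ) ∣ n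
    · obtain ⟨m, rfl⟩ := hd
      have := qhExpansion_nat_mul_coeff one_pos h1 hN m
      rw [hN1] at this
      rw [this]
      apply HahnSeries.coeff_eq_zero_of_lt_order
      rw [h2]
      have hNpos : (0 : ℤ) < (N : ℤ) := by exact_mod_cast Nat.pos_of_ne_zero hN
      by_contra hge
      rw [not_lt] at hge
      have : (N : ℤ) * (-1) ≤ (N : ℤ) * m := mul_le_mul_of_nonneg_left hge hNpos.le
      omega
    · have := qhExpansion_nat_mul_coeff_of_not_dvd one_pos h1 hN hd
      rwa [hN1] at this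

end Fermat.Agent.S24.H76
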