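import Mathlib
import Fermat.Agent.S24.H17_Theta
import Fermat.Agent.S24.H40_Generation
import Fermat.Agent.S24.H76_Final
import Fermat.Agent.S24.H76_CuspOrd

set_option autoImplicit false
set_option linter.unusedSectionVars false

/-!
# S24 / SQZ : instantiation of `ModInputs` with `Θ = H17.Theta N`, `A = H17.A N`

`helper76`.
-/

open UpperHalfPlane CongruenceSubgroup ModularGroup AlgebraicCurve
open scoped MatrixGroups Manifold

noncomputable section

namespace Fermat.Agent.S24.H76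

variable (N : ℕ) [NeZero N]

theorem A_eq_AN : H17.A N = H40.AN N := rfl

/-- T3 + GEN: `Θ = H17.Theta N` on `A = H17.A N` is a realisation in the sense of `IsTheta`. -/
theorem isTheta_Theta : IsTheta N (H17.A N : Set (FN N)) (H17.Theta N) where
  mdiff f hf := H17.Theta_mdiff N hf
  smul f hf g hg τ := H17.Theta_smul N hf hg τ
  one := H17.Theta_one N
  one_mem := one_mem (H17.A N)
  frac f hf := by
    obtain ⟨a, ha, b, hb, hb0, rfl⟩ := H40.exists_div_AN N f
    refine ⟨a, b, ha, hb, ?_, hb0, div_mul_cancel₀ a hb0⟩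
    rintro rfl
    exact hf (zero_div b)

theorem sub_const_mem_A (a : Qbar) : jBar N - algebraMap Qbar (FN N) a ∈ H17.A N :=
  sub_mem (H17.jBar_mem_A N) (Subalgebra.algebraMap_mem _ a)

theorem Theta_sub_const (a : Qbar) :
    H17.Theta N (jBar N - algebraMap Qbar (FN N) a) = fun τ => H28.J τ - H17.iota a := by
  have h1 : H17.Theta N (jBar N - algebraMap Qbar (FN N) a)
      = H17.ThetaHom N (⟨jBar N, H17.jBar_mem_A N⟩ - algebraMap Qbar (H17.A N) a) := rfl
  rw [h1, map_sub, H17.ThetaHom_apply, H17.ThetaHom_apply]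
  show H17.Theta N (jBar N) - H17.Theta N (algebraMap Qbar (FN N) a) = _
  rw [H17.Theta_jBar, H17.Theta_algebraMap]
  rfl

/-- The remaining inputs after T3: the "places are points" statements (T5) and the cusp
expansion facts (EMB-cusp), for `Θ = H17.Theta N`. -/
theorem modInputs (ordInf : (ℍ → ℂ) → ℤ)
    (place_fin : ∀ (v : Place Qbar (FN N)) (a : Qbar) (τ0 : ℍ), H28.J τ0 = H17.iota a →
      0 < v.ord (jBar N - algebraMap Qbar (FN N) a) →
      ∃ γ : SL(2, ℤ), ∃ m : ℤ, 0 < m ∧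
        ∀ f ∈ (H17.A N : Set (FN N)), f ≠ 0 → ordH (H17.Theta N f) (γ⁻¹ • τ0) = m * v.ord f)
    (place_cusp : ∀ v : Place Qbar (FN N), v.ord (jBar N) < 0 →
      ∃ γ : SL(2, ℤ), ∃ m : ℤ, 0 < m ∧
        ∀ f ∈ (H17.A N : Set (FN N)), f ≠ 0 → ordInf (H17.thetaConj N γ f) = m * v.ord f)
    (ordInf_one : ordInf 1 = 0)
    (ordInf_trans : ∀ f ∈ (H17.A N : Set (FN N)), f ≠ 0 → ∀ γ : SL(2, ℤ),
      ordInf (fun τ => H17.thetaConj N γ f (T⁻¹ • τ)) = ordInf (H17.thetaConj N γ f))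
    (ordInf_div : ∀ f ∈ (H17.A N : Set (FN N)), f ≠ 0 → ∀ (γ : SL(2, ℤ)) (k : ℕ), k ∣ N →
      (∀ τ : ℍ, H17.thetaConj N γ f ((k : ℝ) +ᵥ τ) = H17.thetaConj N γ f τ) →
      ((N / k : ℕ) : ℤ) ∣ ordInf (H17.thetaConj N γ f))
    (ordInf_J : ordInf H28.J = -(N : ℤ)) :
    ModInputs N (H17.A N : Set (FN N)) (H17.Theta N) H17.iota ordInf where
  isTheta := isTheta_Theta N
  sub_const_mem := sub_const_mem_A N
  theta_sub_const := Theta_sub_const N
  jBar_mem := H17.jBar_mem_A N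
  theta_jBar := H17.Theta_jBar N
  place_fin := place_fin
  place_cusp := place_cusp
  ordInf_one := ordInf_one
  ordInf_trans := ordInf_trans
  ordInf_div := ordInf_div
  ordInf_J := ordInf_J

/-- the order at the cusp `i∞` in the local parameter `q_N`. -/
def ordInfN (g : ℍ → ℂ) : ℤ := (H4.qhExpansion (N : ℝ) g).order

theorem isMeroPeriodic_thetaConj {f : FN N} (hf : f ∈ H17.A N) (γ : SL(2, ℤ)) :
    H4.IsMeroPeriodic (N : ℝ) (H17.thetaConj N γ f) := by
  obtain ⟨C, M, hCM⟩ := H17.thetaConj_growth N hf γ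
  have hN : (0 : ℝ) < (N : ℝ) := by exact_mod_cast Nat.pos_of_ne_zero (NeZero.ne N)
  refine H4.IsMeroPeriodic.of_growth (A := 1) (C := C) (M := M * N) (H17.thetaConj_mdiff N hf γ)
    (H4.periodic_comp_ofComplex_iff.mpr (H17.thetaConj_vadd N hf γ)) ?_
  intro τ hτ
  have := hCM τ hτ
  have e : 2 * Real.pi * ((M * N : ℕ) : ℝ) * τ.im / (N : ℝ) = 2 * Real.pi * M * τ.im := by
    push_cast
    field_simp
  rw [e]
  exact this

/-- **M4–M7 inputs**, with the cusp expansion facts discharged: only the two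
"places are points" statements (T5) remain. -/
theorem modInputs'
    (place_fin : ∀ (v : Place Qbar (FN N)) (a : Qbar) (τ0 : ℍ), H28.J τ0 = H17.iota a →
      0 < v.ord (jBar N - algebraMap Qbar (FN N) a) →
      ∃ γ : SL(2, ℤ), ∃ m : ℤ, 0 < m ∧
        ∀ f ∈ (H17.A N : Set (FN N)), f ≠ 0 → ordH (H17.Theta N f) (γ⁻¹ • τ0) = m * v.ord f)
    (place_cusp : ∀ v : Place Qbar (FN N), v.ord (jBar N) < 0 →
      ∃ γ : SL(2, ℤ), ∃ m : ℤ, 0 < m ∧
        ∀ f ∈ (H17.A N : Set (FN N)), f ≠ 0 →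
          ordInfN N (H17.thetaConj N γ f) = m * v.ord f) :
    ModInputs N (H17.A N : Set (FN N)) (H17.Theta N) H17.iota (ordInfN N) := by
  have hN0 : N ≠ 0 := NeZero.ne N
  have hN : (0 : ℝ) < (N : ℝ) := by exact_mod_cast Nat.pos_of_ne_zero hN0
  refine modInputs N (ordInfN N) place_fin place_cusp ?_ ?_ ?_ ?_
  · show (H4.qhExpansion (N : ℝ) 1).order = 0
    rw [H4.qhExpansion_one hN]
    exact HahnSeries.order_one
  · intro f hf _ γ
    have hT : ∀ τ : ℍ, (T⁻¹ : SL(2, ℤ)) • τ = ((-1 : ℝ)) +ᵥ τ := by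
      intro τ
      have := modular_T_zpow_smul τ (-1)
      rw [zpow_neg_one] at this
      rw [this]
      simp
    show (H4.qhExpansion (N : ℝ) (fun τ => H17.thetaConj N γ f (T⁻¹ • τ))).order = _
    simp_rw [hT]
    exact order_qhExpansion_vadd hN (isMeroPeriodic_thetaConj N hf γ) (-1)
  · intro f hf _ γ k hk hper
    exact dvd_order_qhExpansion_of_periodic hN0 hk (isMeroPeriodic_thetaConj N hf γ) hper
  · exact (qhExpansion_nat_J hN0).2

end Fermat.Agent.S24.H76
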