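import Mathlib

set_option autoImplicit false

noncomputable section

namespace Fermat.Agent.S24.H81

open UpperHalfPlane
open scoped Manifold WithZero

/-- The ring of holomorphic functions on the upper half plane. -/
def Hol : Subring (ℍ → ℂ) where
  carrier := {g | MDiff g}
  mul_mem' := fun {a b} ha hb => MDifferentiable.mul ha hb
  one_mem' := mdifferentiable_const
  add_mem' := fun {a b} ha hb => MDifferentiable.add ha hb
  zero_mem' := mdifferentiable_const
  neg_mem' := fun {a} ha => MDifferentiable.neg ha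

theorem mem_Hol {g : ℍ → ℂ} : g ∈ Hol ↔ MDiff g := Iff.rfl

theorem const_mem_Hol (c : ℂ) : (fun _ : ℍ => c) ∈ Hol := mdifferentiable_const

instance : IsDomain Hol := by
  haveI : Nontrivial Hol := ⟨⟨0, 1, fun h => by
    have := congrArg (fun g : Hol => (g : ℍ → ℂ) UpperHalfPlane.I) h
    simp at this⟩⟩
  haveI : NoZeroDivisors Hol := ⟨fun {a b} hab => by
    have h := congrArg (fun g : Hol => (g : ℍ → ℂ)) hab
    simp only [Subring.coe_mul, ZeroMemClass.coe_zero] at h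
    rcases (UpperHalfPlane.mul_eq_zero_iff a.2 b.2).mp h with h | h
    · exact Or.inl (Subtype.ext h)
    · exact Or.inr (Subtype.ext h)⟩
  exact NoZeroDivisors.to_isDomain _


/-! ### order of vanishing -/

/-- The order of vanishing at `τ0`. -/
def ordNat (τ0 : ℍ) (g : ℍ → ℂ) : ℕ := analyticOrderNatAt (g ∘ ofComplex) (τ0 : ℂ)

theorem analyticAt_comp_ofComplex {g : ℍ → ℂ} (hg : g ∈ Hol) (τ : ℍ) :
    AnalyticAt ℂ (g ∘ ofComplex) (τ : ℂ) :=
  (UpperHalfPlane.mdifferentiable_iff.1 hg).analyticAt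
    (isOpen_upperHalfPlaneSet.mem_nhds τ.im_pos)

theorem isPreconnected_upperHalfPlaneSet : IsPreconnected {z : ℂ | 0 < z.im} :=
  (Complex.isConnected_of_upperHalfPlane (r := 0) subset_rfl
    (fun z (hz : 0 < z.im) => le_of_lt hz)).isPreconnected

theorem analyticOrderAt_ne_top {g : ℍ → ℂ} (hg : g ∈ Hol) (h0 : g ≠ 0) (τ0 : ℍ) :
    analyticOrderAt (g ∘ ofComplex) (τ0 : ℂ) ≠ ⊤ := by
  intro htop
  apply h0
  rw [analyticOrderAt_eq_top] at htop
  have han : AnalyticOnNhd ℂ (g ∘ ofComplex) {z : ℂ | 0 < z.im} :=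
    (UpperHalfPlane.mdifferentiable_iff.1 hg).analyticOnNhd isOpen_upperHalfPlaneSet
  have h := han.eqOn_zero_of_preconnected_of_eventuallyEq_zero isPreconnected_upperHalfPlaneSet
    (z₀ := (τ0 : ℂ)) τ0.im_pos htop
  funext w
  have := h w.im_pos
  simpa [Function.comp_apply, ofComplex_apply] using this

theorem natCast_ordNat {g : ℍ → ℂ} (hg : g ∈ Hol) (h0 : g ≠ 0) (τ0 : ℍ) :
    (ordNat τ0 g : ℕ∞) = analyticOrderAt (g ∘ ofComplex) (τ0 : ℂ) :=
  Nat.cast_analyticOrderNatAt (analyticOrderAt_ne_top hg h0 τ0)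

theorem ordNat_mul {g h : ℍ → ℂ} (hg : g ∈ Hol) (hh : h ∈ Hol) (g0 : g ≠ 0) (h0 : h ≠ 0)
    (τ0 : ℍ) : ordNat τ0 (g * h) = ordNat τ0 g + ordNat τ0 h := by
  have e : (g * h) ∘ ofComplex = (g ∘ ofComplex) * (h ∘ ofComplex) := rfl
  unfold ordNat
  rw [e]
  exact analyticOrderNatAt_mul (analyticAt_comp_ofComplex hg τ0) (analyticAt_comp_ofComplex hh τ0)
    (analyticOrderAt_ne_top hg g0 τ0) (analyticOrderAt_ne_top hh h0 τ0)

theorem min_ordNat_le_ordNat_add {g h : ℍ → ℂ} (hg : g ∈ Hol) (hh : h ∈ Hol) (g0 : g ≠ 0)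
    (h0 : h ≠ 0) (gh0 : g + h ≠ 0) (τ0 : ℍ) :
    min (ordNat τ0 g) (ordNat τ0 h) ≤ ordNat τ0 (g + h) := by
  have e : (g + h) ∘ ofComplex = (g ∘ ofComplex) + (h ∘ ofComplex) := rfl
  have key := le_analyticOrderAt_add (f := g ∘ ofComplex) (g := h ∘ ofComplex) (z₀ := (τ0 : ℂ))
  rw [← e, ← natCast_ordNat hg g0, ← natCast_ordNat hh h0,
    ← natCast_ordNat (Hol.add_mem hg hh) gh0] at key
  rcases le_total (ordNat τ0 g) (ordNat τ0 h) with hle | hle
  · rw [min_eq_left hle]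
    rw [min_eq_left (by exact_mod_cast hle)] at key
    exact_mod_cast key
  · rw [min_eq_right hle]
    rw [min_eq_right (by exact_mod_cast hle)] at key
    exact_mod_cast key

theorem ordNat_eq_zero_iff {g : ℍ → ℂ} (hg : g ∈ Hol) (τ0 : ℍ) :
    ordNat τ0 g = 0 ↔ g = 0 ∨ g τ0 ≠ 0 := by
  by_cases h0 : g = 0
  · subst h0
    simp only [ordNat, analyticOrderNatAt, true_or, iff_true]
    have : analyticOrderAt ((0 : ℍ → ℂ) ∘ ofComplex) (τ0 : ℂ) = ⊤ := by
      rw [analyticOrderAt_eq_top]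
      exact Filter.Eventually.of_forall fun z => rfl
    rw [this]
    rfl
  · have h1 := natCast_ordNat hg h0 τ0
    have h2 := (analyticAt_comp_ofComplex hg τ0).analyticOrderAt_eq_zero
    simp only [Function.comp_apply, ofComplex_apply] at h2
    constructor
    · intro h
      right
      rw [← h2, ← h1, h]
      rfl
    · rintro (h | h)
      · exact absurd h h0
      · have := h2.mpr h
        rw [← h1] at this
        exact_mod_cast this

theorem ordNat_pos_iff {g : ℍ → ℂ} (hg : g ∈ Hol) (h0 : g ≠ 0) (τ0 : ℍ) :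
    0 < ordNat τ0 g ↔ g τ0 = 0 := by
  rw [Nat.pos_iff_ne_zero, ne_eq, ordNat_eq_zero_iff hg τ0]
  constructor
  · intro h
    by_contra hne
    exact h (Or.inr hne)
  · rintro h (h' | h')
    · exact h0 h'
    · exact h' h

theorem ordNat_const {c : ℂ} (hc : c ≠ 0) (τ0 : ℍ) : ordNat τ0 (fun _ => c) = 0 :=
  (ordNat_eq_zero_iff (const_mem_Hol c) τ0).mpr (Or.inr hc)


/-! ### the valuation at a point -/

theorem coe_ne_zero {g : Hol} (hg : g ≠ 0) : (g : ℍ → ℂ) ≠ 0 := fun h => hg (Subtype.ext h)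

open WithZero Classical in
/-- The valuation `g ↦ exp (- ord_τ0 g)` on the ring of holomorphic functions. -/
def holVal (τ0 : ℍ) : Valuation Hol ℤᵐ⁰ where
  toFun g := if g = 0 then 0 else exp (-(ordNat τ0 (g : ℍ → ℂ) : ℤ))
  map_zero' := by simp
  map_one' := by
    have h1 : ordNat τ0 ((1 : Hol) : ℍ → ℂ) = 0 :=
      (ordNat_eq_zero_iff (1 : Hol).2 τ0).mpr (Or.inr (by simp))
    have h2 : ((1 : Hol) : ℍ → ℂ) = 1 := rfl
    rw [h2] at h1
    simp [h1]
  map_mul' g h := by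
    by_cases g0 : g = 0
    · simp [g0]
    by_cases h0 : h = 0
    · simp [h0]
    have gh0 : g * h ≠ 0 := mul_ne_zero g0 h0
    simp only [g0, h0, gh0, if_false]
    rw [← exp_add]
    congr 1
    have := ordNat_mul g.2 h.2 (coe_ne_zero g0) (coe_ne_zero h0) τ0
    rw [Subring.coe_mul, this]
    push_cast
    ring
  map_add_le_max' g h := by
    by_cases g0 : g = 0
    · simp [g0]
    by_cases h0 : h = 0
    · simp [h0]
    by_cases gh0 : g + h = 0
    · simp [gh0]
    simp only [g0, h0, gh0, if_false]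
    have key := min_ordNat_le_ordNat_add g.2 h.2 (coe_ne_zero g0) (coe_ne_zero h0)
      (by rw [← Subring.coe_add]; exact coe_ne_zero gh0) τ0
    rw [← Subring.coe_add] at key
    rw [le_max_iff, exp_le_exp, exp_le_exp]
    rcases le_total (ordNat τ0 (g : ℍ → ℂ)) (ordNat τ0 (h : ℍ → ℂ)) with hle | hle
    · left
      rw [min_eq_left hle] at key
      omega
    · right
      rw [min_eq_right hle] at key
      omega

open Classical in
theorem holVal_apply_of_ne_zero (τ0 : ℍ) {g : Hol} (hg : g ≠ 0) :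
    holVal τ0 g = WithZero.exp (-(ordNat τ0 (g : ℍ → ℂ) : ℤ)) := by
  show (if g = 0 then 0 else _) = _
  rw [if_neg hg]

theorem holVal_ne_zero (τ0 : ℍ) {g : Hol} (hg : g ≠ 0) : holVal τ0 g ≠ 0 := by
  rw [holVal_apply_of_ne_zero τ0 hg]
  exact WithZero.exp_ne_zero

theorem holVal_le_one (τ0 : ℍ) (g : Hol) : holVal τ0 g ≤ 1 := by
  by_cases hg : g = 0
  · simp [hg]
  rw [holVal_apply_of_ne_zero τ0 hg, ← WithZero.exp_zero, WithZero.exp_le_exp]
  omega

theorem holVal_lt_one_iff (τ0 : ℍ) {g : Hol} : holVal τ0 g < 1 ↔ (g : ℍ → ℂ) τ0 = 0 := by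
  by_cases hg : g = 0
  · simp [hg]
  rw [holVal_apply_of_ne_zero τ0 hg, ← WithZero.exp_zero, WithZero.exp_lt_exp,
    ← ordNat_pos_iff g.2 (coe_ne_zero hg) τ0]
  omega

/-- The field of meromorphic functions on the upper half plane (fractions of holomorphic
functions). -/
abbrev Mer : Type := FractionRing Hol

theorem nonZeroDivisors_le_supp (τ0 : ℍ) :
    nonZeroDivisors Hol ≤ (holVal τ0).supp.primeCompl := by
  intro g hg
  have g0 : g ≠ 0 := nonZeroDivisors.ne_zero hg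
  show g ∉ (holVal τ0).supp
  rw [Valuation.mem_supp_iff]
  exact holVal_ne_zero τ0 g0

/-- The valuation at `τ0` on the field of meromorphic functions. -/
def merVal (τ0 : ℍ) : Valuation Mer ℤᵐ⁰ :=
  (holVal τ0).extendToLocalization (nonZeroDivisors_le_supp τ0) Mer

@[simp]
theorem merVal_algebraMap (τ0 : ℍ) (g : Hol) : merVal τ0 (algebraMap Hol Mer g) = holVal τ0 g :=
  Valuation.extendToLocalization_apply_map_apply _ _ _ g

/-- The valuation ring at `τ0`. -/
def merOL (τ0 : ℍ) : ValuationSubring Mer := (merVal τ0).valuationSubring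

theorem mem_merOL_iff (τ0 : ℍ) (x : Mer) : x ∈ merOL τ0 ↔ merVal τ0 x ≤ 1 :=
  Valuation.mem_valuationSubring_iff _ _

theorem algebraMap_mem_merOL (τ0 : ℍ) (g : Hol) : algebraMap Hol Mer g ∈ merOL τ0 := by
  rw [mem_merOL_iff, merVal_algebraMap]
  exact holVal_le_one τ0 g

theorem mem_nonunits_merOL_iff (τ0 : ℍ) (x : Mer) :
    x ∈ (merOL τ0).nonunits ↔ merVal τ0 x < 1 := by
  have h := (Valuation.isEquiv_valuation_valuationSubring (merVal τ0))
  rw [ValuationSubring.mem_nonunits_iff]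
  exact h.lt_one_iff_lt_one.symm


/-! ### the order function on meromorphic functions -/

/-- The order at `τ0` of a meromorphic function (junk value `0` at `0`). -/
def merOrd (τ0 : ℍ) (x : Mer) : ℤ := -WithZero.log (merVal τ0 x)

theorem merVal_ne_zero (τ0 : ℍ) {x : Mer} (hx : x ≠ 0) : merVal τ0 x ≠ 0 :=
  (Valuation.ne_zero_iff _).mpr hx

theorem merOrd_algebraMap (τ0 : ℍ) {g : Hol} (hg : g ≠ 0) :
    merOrd τ0 (algebraMap Hol Mer g) = ordNat τ0 (g : ℍ → ℂ) := by
  rw [merOrd, merVal_algebraMap, holVal_apply_of_ne_zero τ0 hg, WithZero.log_exp]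
  ring

theorem merOrd_mul (τ0 : ℍ) {x y : Mer} (hx : x ≠ 0) (hy : y ≠ 0) :
    merOrd τ0 (x * y) = merOrd τ0 x + merOrd τ0 y := by
  rw [merOrd, merOrd, merOrd, map_mul,
    WithZero.log_mul (merVal_ne_zero τ0 hx) (merVal_ne_zero τ0 hy)]
  ring

theorem min_merOrd_le_merOrd_add (τ0 : ℍ) {x y : Mer} (hx : x ≠ 0) (hy : y ≠ 0)
    (hxy : x + y ≠ 0) : min (merOrd τ0 x) (merOrd τ0 y) ≤ merOrd τ0 (x + y) := by
  have h := (merVal τ0).map_add x y
  have hx' := merVal_ne_zero τ0 hx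
  have hy' := merVal_ne_zero τ0 hy
  have hxy' := merVal_ne_zero τ0 hxy
  rcases le_max_iff.mp h with h1 | h1
  · have := (WithZero.log_le_log hxy' hx').mpr h1
    simp only [merOrd]
    exact (min_le_left _ _).trans (by omega)
  · have := (WithZero.log_le_log hxy' hy').mpr h1
    simp only [merOrd]
    exact (min_le_right _ _).trans (by omega)

theorem mem_merOL_iff_merOrd (τ0 : ℍ) {x : Mer} (hx : x ≠ 0) :
    x ∈ merOL τ0 ↔ 0 ≤ merOrd τ0 x := by
  rw [mem_merOL_iff, merOrd, ← WithZero.exp_zero, ← WithZero.log_le_iff_le_exp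
    (merVal_ne_zero τ0 hx)]
  omega

theorem mem_nonunits_merOL_iff_merOrd (τ0 : ℍ) {x : Mer} (hx : x ≠ 0) :
    x ∈ (merOL τ0).nonunits ↔ 0 < merOrd τ0 x := by
  rw [mem_nonunits_merOL_iff, merOrd, ← WithZero.exp_zero,
    ← WithZero.log_lt_iff_lt_exp (merVal_ne_zero τ0 hx)]
  omega

end Fermat.Agent.S24.H81
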