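import Mathlib
import Fermat.Prelude.Def_AlgebraicCurve_DivisorClassGroup
import Fermat.Agent.S24.H27_PlaceOfValuation

set_option autoImplicit false

noncomputable section

namespace Fermat.Agent.S24.H81

open AlgebraicCurve Fermat.Agent.S24.H27

variable {K F : Type*} [Field K] [Field F] [Algebra K F]

/-! ### (T5a) comparison of an order function with a place -/

/-- If an order function `w` is nonnegative on the valuation ring of a place `v`,
then `v` is the place of `w`. -/
theorem place_eq_of_nonneg (v : Place K F) {w : F → ℤ} (hw : IsOrdFunction K w)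
    (h : ∀ f : F, f ≠ 0 → f ∈ v.toValuationSubring → 0 ≤ w f) : hw.place = v := by
  symm
  apply eq_of_toValuationSubring_le
  intro f hf
  by_cases hf0 : f = 0
  · exact Or.inl hf0
  · exact Or.inr (h f hf0 hf)

/-- If an order function `w` is nonnegative on the valuation ring of a place `v`,
then `w` is a positive multiple of `v.ord`. -/
theorem exists_pos_mul_ord_of_nonneg (v : Place K F) {w : F → ℤ} (hw : IsOrdFunction K w)
    (h : ∀ f : F, f ≠ 0 → f ∈ v.toValuationSubring → 0 ≤ w f) :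
    ∃ m : ℕ, 0 < m ∧ ∀ f : F, f ≠ 0 → w f = m * v.ord f := by
  have hv := place_eq_of_nonneg v hw h
  refine ⟨hw.mult, hw.mult_pos, fun f hf => ?_⟩
  rw [hw.eq_mult_mul_ord hf, hv]

/-- Variant with the hypothesis phrased through `v.ord`. -/
theorem exists_pos_mul_ord_of_ord_nonneg (v : Place K F) {w : F → ℤ} (hw : IsOrdFunction K w)
    (h : ∀ f : F, f ≠ 0 → 0 ≤ v.ord f → 0 ≤ w f) :
    ∃ m : ℕ, 0 < m ∧ ∀ f : F, f ≠ 0 → w f = m * v.ord f :=
  exists_pos_mul_ord_of_nonneg v hw fun f hf hmem =>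
    h f hf ((mem_toValuationSubring_of_ne_zero v hf).mp hmem)

/-- An order-like function whose nonnegativity locus is the valuation ring of a place is
automatically nontrivial, hence an order function. -/
theorem isOrdFunction_of_mem_iff (v : Place K F) {w : F → ℤ}
    (hmul : ∀ f g : F, f ≠ 0 → g ≠ 0 → w (f * g) = w f + w g)
    (hadd : ∀ f g : F, f ≠ 0 → g ≠ 0 → f + g ≠ 0 → min (w f) (w g) ≤ w (f + g))
    (hK : ∀ a : K, a ≠ 0 → w (algebraMap K F a) = 0)
    (h : ∀ f : F, f ≠ 0 → (f ∈ v.toValuationSubring ↔ 0 ≤ w f)) : IsOrdFunction K w := by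
  refine ⟨hmul, hadd, hK, ?_⟩
  obtain ⟨f, hf⟩ : ∃ f : F, f ∉ v.toValuationSubring := by
    by_contra hall
    push Not at hall
    exact v.ne_top' (SetLike.ext fun f => ⟨fun _ => ValuationSubring.mem_top f, fun _ => hall f⟩)
  have hf0 : f ≠ 0 := fun h0 => hf (h0 ▸ v.toValuationSubring.zero_mem)
  refine ⟨f, hf0, fun hw0 => hf ((h f hf0).mpr (by rw [hw0]))⟩

/-- (T5a), packaged: an order-like function with the same nonnegativity locus as a place `v`
is a positive multiple of `v.ord`. -/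
theorem exists_pos_mul_ord_of_mem_iff (v : Place K F) {w : F → ℤ}
    (hmul : ∀ f g : F, f ≠ 0 → g ≠ 0 → w (f * g) = w f + w g)
    (hadd : ∀ f g : F, f ≠ 0 → g ≠ 0 → f + g ≠ 0 → min (w f) (w g) ≤ w (f + g))
    (hK : ∀ a : K, a ≠ 0 → w (algebraMap K F a) = 0)
    (h : ∀ f : F, f ≠ 0 → (f ∈ v.toValuationSubring ↔ 0 ≤ w f)) :
    ∃ m : ℕ, 0 < m ∧ ∀ f : F, f ≠ 0 → w f = m * v.ord f :=
  exists_pos_mul_ord_of_nonneg v (isOrdFunction_of_mem_iff v hmul hadd hK h)
    fun f hf hmem => (h f hf).mp hmem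

/-! ### (T5b) the valued-field form -/

section valued

variable {L : Type*} [Field L]

/-- (T5b) Let `σ : F →+* L` be a ring hom into a field `L` carrying an integer valued order
function `ordL` with valuation ring `OL`.  If `σ` is trivial on `K` and the valuation ring of the
place `v` is the preimage of `OL`, then `ordL ∘ σ` is a positive multiple of `v.ord`. -/
theorem exists_pos_mul_ord_of_ringHom (v : Place K F) (σ : F →+* L) (ordL : L → ℤ)
    (OL : ValuationSubring L)
    (hmulL : ∀ x y : L, x ≠ 0 → y ≠ 0 → ordL (x * y) = ordL x + ordL y)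
    (haddL : ∀ x y : L, x ≠ 0 → y ≠ 0 → x + y ≠ 0 → min (ordL x) (ordL y) ≤ ordL (x + y))
    (hOL : ∀ x : L, x ≠ 0 → (x ∈ OL ↔ 0 ≤ ordL x))
    (hK : ∀ a : K, a ≠ 0 → ordL (σ (algebraMap K F a)) = 0)
    (h : ∀ f : F, f ∈ v.toValuationSubring ↔ σ f ∈ OL) :
    ∃ m : ℕ, 0 < m ∧ ∀ f : F, f ≠ 0 → ordL (σ f) = m * v.ord f := by
  have hinj : ∀ f : F, f ≠ 0 → σ f ≠ 0 := fun f hf => (map_ne_zero σ).mpr hf
  refine exists_pos_mul_ord_of_mem_iff v (w := fun f => ordL (σ f)) ?_ ?_ hK ?_
  · intro f g hf hg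
    simp only [map_mul]
    exact hmulL _ _ (hinj f hf) (hinj g hg)
  · intro f g hf hg hfg
    simp only [map_add]
    exact haddL _ _ (hinj f hf) (hinj g hg) (by rw [← map_add]; exact hinj _ hfg)
  · intro f hf
    rw [h f, hOL _ (hinj f hf)]

/-- (T5b) for Laurent series: `σ : F →+* k⸨X⸩`, trivial on `K` (constants go to series of
order `0`), such that the valuation ring of `v` is the set of `f` whose image has no polar part.
Then the `X`-adic order of `σ f` is a positive multiple of `v.ord f`. -/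
theorem exists_pos_mul_ord_of_laurent {k : Type*} [Field k] (v : Place K F)
    (σ : F →+* LaurentSeries k)
    (hK : ∀ a : K, a ≠ 0 → (σ (algebraMap K F a)).order = 0)
    (h : ∀ f : F, f ≠ 0 → (f ∈ v.toValuationSubring ↔ 0 ≤ (σ f).order)) :
    ∃ m : ℕ, 0 < m ∧ ∀ f : F, f ≠ 0 → (σ f).order = m * v.ord f := by
  have hinj : ∀ f : F, f ≠ 0 → σ f ≠ 0 := fun f hf => (map_ne_zero σ).mpr hf
  refine exists_pos_mul_ord_of_mem_iff v (w := fun f => (σ f).order) ?_ ?_ hK h
  · intro f g hf hg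
    simp only [map_mul]
    exact HahnSeries.order_mul (hinj f hf) (hinj g hg)
  · intro f g hf hg hfg
    simp only [map_add]
    exact HahnSeries.min_order_le_order_add (by rw [← map_add]; exact hinj _ hfg)

end valued

/-! ### (T5c) gcd of the orders on a generating subring -/

/-- If every element of `F` is a quotient of elements of the subring `A`, then some quotient of
nonzero elements of `A` has order `1` at `v`. -/
theorem exists_ord_sub_ord_eq_one (v : Place K F) (A : Subring F)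
    (hA : ∀ f : F, ∃ a ∈ A, ∃ b ∈ A, b ≠ 0 ∧ f = a / b) :
    ∃ a ∈ A, ∃ b ∈ A, a ≠ 0 ∧ b ≠ 0 ∧ v.ord a - v.ord b = 1 := by
  obtain ⟨t, ht0, ht⟩ := exists_ord_eq_one v
  obtain ⟨a, ha, b, hb, hb0, hab⟩ := hA t
  have ha0 : a ≠ 0 := by
    rintro rfl
    rw [zero_div] at hab
    exact ht0 hab
  refine ⟨a, ha, b, hb, ha0, hb0, ?_⟩
  rw [hab, div_eq_mul_inv, v.ord_mul ha0 (inv_ne_zero hb0), v.ord_inv] at ht
  omega

/-- (T5c) If `s` divides `m * v.ord f` for all nonzero `f` in a subring `A` whose fraction field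
is `F`, then `s` divides `m`. -/
theorem dvd_of_forall_dvd_mul_ord (v : Place K F) (A : Subring F)
    (hA : ∀ f : F, ∃ a ∈ A, ∃ b ∈ A, b ≠ 0 ∧ f = a / b) (m s : ℤ)
    (h : ∀ f ∈ A, f ≠ 0 → s ∣ m * v.ord f) : s ∣ m := by
  obtain ⟨a, ha, b, hb, ha0, hb0, hab⟩ := exists_ord_sub_ord_eq_one v A hA
  have h1 := h a ha ha0
  have h2 := h b hb hb0
  have h3 : s ∣ m * v.ord a - m * v.ord b := dvd_sub h1 h2
  have h4 : m * v.ord a - m * v.ord b = m := by
    rw [← mul_sub, hab, mul_one]
  rwa [h4] at h3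

/-- (T5c), `Subalgebra` version with an `IsFractionRing` hypothesis. -/
theorem dvd_of_forall_dvd_mul_ord_of_isFractionRing (v : Place K F) (A : Subalgebra K F)
    [IsFractionRing A F] (m s : ℤ)
    (h : ∀ f ∈ A, f ≠ 0 → s ∣ m * v.ord f) : s ∣ m := by
  refine dvd_of_forall_dvd_mul_ord v A.toSubring ?_ m s fun f hf hf0 => h f hf hf0
  intro f
  obtain ⟨a, b, hb, hab⟩ := IsFractionRing.div_surjective (A := A) f
  refine ⟨a, a.2, b, b.2, ?_, ?_⟩
  · have := nonZeroDivisors.ne_zero hb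
    intro h0
    exact this (Subtype.ext h0)
  · rw [← hab]
    rfl

end Fermat.Agent.S24.H81
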