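import Mathlib
import Fermat.Prelude.Def_AlgebraicCurve_DivisorClassGroup
import Fermat.Agent.S24.H46_PlacesFromEmb
import Fermat.Agent.S24.H81_PlacesPoints
import Fermat.Agent.S24.H81_Hol

set_option autoImplicit false

noncomputable section

namespace Fermat.Agent.S24.H81

open UpperHalfPlane AlgebraicCurve IntermediateField
open scoped Manifold

variable {K F : Type*} [Field K] [Field F] [Algebra K F]

/-- A subalgebra of a field whose quotients exhaust the field has it as fraction field. -/
theorem isFractionRing_of_forall_div (A : Subalgebra K F)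
    (hA : ∀ f : F, ∃ a ∈ A, ∃ b ∈ A, b ≠ 0 ∧ f = a / b) : IsFractionRing A F := by
  refine ⟨?_, ?_, ?_⟩
  · rintro ⟨y, hy⟩
    have hy0 : (y : F) ≠ 0 := by
      intro h
      exact nonZeroDivisors.ne_zero hy (Subtype.ext h)
    exact isUnit_iff_ne_zero.mpr hy0
  · intro f
    obtain ⟨a, ha, b, hb, hb0, rfl⟩ := hA f
    refine ⟨⟨⟨a, ha⟩, ⟨⟨b, hb⟩, ?_⟩⟩, ?_⟩
    · rw [mem_nonZeroDivisors_iff_ne_zero]
      intro h
      exact hb0 (congrArg Subtype.val h)
    · show a / b * b = a
      field_simp
  · intro x y hxy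
    exact ⟨1, by simpa using Subtype.ext hxy⟩


/-! ### places over a finite value are points of the upper half plane -/

section main

variable (A : Subalgebra K F)
  {X : Type*} (θ : X → (A →+* (ℍ → ℂ))) (hol : ∀ x f, MDiff (θ x f))

/-- `θ x` with codomain restricted to holomorphic functions. -/
def thetaHol (x : X) : A →+* Hol :=
  (θ x).codRestrict Hol (fun f => hol x f)

@[simp]
theorem coe_thetaHol (x : X) (f : A) : ((thetaHol A θ hol x f : Hol) : ℍ → ℂ) = θ x f := rfl

/-- `θ x` as a ring hom into meromorphic functions. -/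
def thetaMer (x : X) : A →+* Mer :=
  (algebraMap Hol Mer).comp (thetaHol A θ hol x)

theorem thetaMer_apply (x : X) (f : A) :
    thetaMer A θ hol x f = algebraMap Hol Mer (thetaHol A θ hol x f) := rfl

theorem thetaMer_injective (hinj : ∀ x, Function.Injective (θ x)) (x : X) :
    Function.Injective (thetaMer A θ hol x) := by
  intro f g hfg
  have h1 : thetaHol A θ hol x f = thetaHol A θ hol x g :=
    IsFractionRing.injective Hol Mer hfg
  exact hinj x (congrArg Subtype.val h1)

variable [IsFractionRing A F]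

/-- The embedding `F →+* Mer` induced by `θ x`. -/
def sigma (hinj : ∀ x, Function.Injective (θ x)) (x : X) : F →+* Mer :=
  IsFractionRing.lift (thetaMer_injective A θ hol hinj x)

theorem sigma_coe (hinj : ∀ x, Function.Injective (θ x)) (x : X) (f : A) :
    sigma A θ hol hinj x (f : F) = algebraMap Hol Mer (thetaHol A θ hol x f) :=
  IsFractionRing.lift_algebraMap (thetaMer_injective A θ hol hinj x) f

end main

/-- **T4-EMB + T5, finite part (abstract form).**  Let `A ⊆ F` be a subalgebra with fraction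
field `F`, `t ∈ A`, and `θ x : A →+* (ℍ → ℂ)` (`x : X`, `#X = [F : K(t)]`) injective ring homs
into holomorphic functions which are pairwise distinct, agree on `K[t]` and send the constant `c`
to the constant function `ι c`.  If `θ x t` takes the value `ι a` at `τ0` (for all `x`), then every
place `v` of `F / K` with `ord_v (t - a) > 0` is, up to a positive multiple `m`, the order of
vanishing at `τ0` along one of the `θ x`. -/
theorem exists_point_of_place (A : Subalgebra K F)
    (hA : ∀ f : F, ∃ a ∈ A, ∃ b ∈ A, b ≠ 0 ∧ f = a / b)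
    (t : F) (ht : t ∈ A) [FiniteDimensional K⟮t⟯ F] [Algebra.IsSeparable K⟮t⟯ F]
    {X : Type*} [Fintype X] (hcard : Fintype.card X = Module.finrank K⟮t⟯ F)
    (ι : K →+* ℂ) (θ : X → (A →+* (ℍ → ℂ)))
    (hol : ∀ x f, MDiff (θ x f))
    (hinj : ∀ x, Function.Injective (θ x))
    (hconst : ∀ x (c : K), θ x (algebraMap K A c) = fun _ => ι c)
    (hagree : ∀ x y, ∀ c ∈ Algebra.adjoin K {(⟨t, ht⟩ : A)}, θ x c = θ y c)
    (hdist : ∀ x y, x ≠ y → ∃ f, θ x f ≠ θ y f)
    (a : K) (τ0 : ℍ) (hτ0 : ∀ x, θ x ⟨t, ht⟩ τ0 = ι a)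
    (v : Place K F) (hv : 0 < v.ord (t - algebraMap K F a)) :
    ∃ x : X, ∃ m : ℕ, 0 < m ∧
      ∀ f : A, f ≠ 0 → (ordNat τ0 (θ x f) : ℤ) = m * v.ord (f : F) := by
  classical
  haveI : IsFractionRing A F := isFractionRing_of_forall_div A hA
  set σ : X → (F →+* Mer) := sigma A θ hol hinj with hσdef
  have hσA : ∀ x (f : A), σ x (f : F) = algebraMap Hol Mer (thetaHol A θ hol x f) :=
    fun x f => sigma_coe A θ hol hinj x f
  -- distinctness
  have hσinj : Function.Injective σ := by
    intro x y hxy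
    by_contra hne
    obtain ⟨f, hf⟩ := hdist x y hne
    apply hf
    have h1 : algebraMap Hol Mer (thetaHol A θ hol x f) =
        algebraMap Hol Mer (thetaHol A θ hol y f) := by
      rw [← hσA, ← hσA, hxy]
    exact congrArg Subtype.val (IsFractionRing.injective Hol Mer h1)
  -- agreement on `K(t)`
  have hagreeA : ∀ x y, ∀ c ∈ Algebra.adjoin K {(⟨t, ht⟩ : A)}, σ x (c : F) = σ y (c : F) := by
    intro x y c hc
    rw [hσA, hσA]
    congr 1
    exact Subtype.ext (hagree x y c hc)
  have haeval : ∀ r : Polynomial K, ∃ c ∈ Algebra.adjoin K {(⟨t, ht⟩ : A)},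
      ((c : A) : F) = Polynomial.aeval t r := by
    intro r
    refine ⟨Polynomial.aeval (⟨t, ht⟩ : A) r, ?_, ?_⟩
    · rw [Algebra.adjoin_singleton_eq_range_aeval]
      exact ⟨r, rfl⟩
    · have := Polynomial.aeval_algHom_apply A.val (⟨t, ht⟩ : A) r
      simpa using this.symm
  have hagree' : ∀ x y, ∀ z ∈ K⟮t⟯, σ x z = σ y z := by
    intro x y z hz
    obtain ⟨r, s, rfl⟩ := (mem_adjoin_simple_iff K z).mp hz
    obtain ⟨c, hc, hcr⟩ := haeval r
    obtain ⟨d, hd, hds⟩ := haeval s
    rw [map_div₀, map_div₀, ← hcr, ← hds, hagreeA x y c hc, hagreeA x y d hd]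
  -- constants
  have hconstσ : ∀ x (c : K), σ x (algebraMap K F c) =
      algebraMap Hol Mer ⟨fun _ => ι c, const_mem_Hol _⟩ := by
    intro x c
    have h1 : algebraMap K F c = ((algebraMap K A c : A) : F) := rfl
    rw [h1, hσA]
    congr 1
    exact Subtype.ext (hconst x c)
  have hK : ∀ x (c : K), σ x (algebraMap K F c) ∈ merOL τ0 := by
    intro x c
    rw [hconstσ]
    exact algebraMap_mem_merOL τ0 _
  -- `t - a` vanishes at `τ0`
  have ha : ∀ x, σ x (t - algebraMap K F a) ∈ (merOL τ0).nonunits := by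
    intro x
    have h1 : t - algebraMap K F a = (((⟨t, ht⟩ : A) - algebraMap K A a : A) : F) := rfl
    rw [h1, hσA, mem_nonunits_merOL_iff, merVal_algebraMap, holVal_lt_one_iff, coe_thetaHol,
      map_sub, Pi.sub_apply, hτ0 x, hconst x a, sub_self]
  obtain ⟨x, hx⟩ := H46.exists_embedding_of_place t (merOL τ0) σ hσinj hcard hagree' hK a ha v hv
  refine ⟨x, ?_⟩
  obtain ⟨m, hm, hmv⟩ := exists_pos_mul_ord_of_ringHom v (σ x) (merOrd τ0) (merOL τ0)
    (fun y z hy hz => merOrd_mul τ0 hy hz)
    (fun y z hy hz hyz => min_merOrd_le_merOrd_add τ0 hy hz hyz)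
    (fun y hy => mem_merOL_iff_merOrd τ0 hy)
    (fun c hc => by
      rw [hconstσ]
      have hne : (⟨fun _ => ι c, const_mem_Hol _⟩ : Hol) ≠ 0 := by
        intro h
        have := congrArg (fun g : Hol => (g : ℍ → ℂ) τ0) h
        simp only [ZeroMemClass.coe_zero, Pi.zero_apply] at this
        exact hc ((map_eq_zero ι).mp this)
      rw [merOrd_algebraMap τ0 hne]
      have : ι c ≠ 0 := (map_ne_zero ι).mpr hc
      exact_mod_cast ordNat_const this τ0)
    hx
  refine ⟨m, hm, fun f hf => ?_⟩
  have hfF : (f : F) ≠ 0 := fun h => hf (Subtype.ext h)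
  have hθ0 : thetaHol A θ hol x f ≠ 0 := by
    intro h
    apply hf
    apply hinj x
    rw [map_zero]
    exact congrArg Subtype.val h
  rw [← hmv (f : F) hfF, hσA, merOrd_algebraMap τ0 hθ0]
  rfl

end Fermat.Agent.S24.H81
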