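import Mathlib
import Fermat.Agent.S24.H17_Theta
import Fermat.Agent.S24.H32_EllipticOrder
import Fermat.Agent.S24.H40_Generation
import Fermat.Agent.S24.H81_Emb
import Fermat.Agent.S24.H76_Orders

set_option autoImplicit false

noncomputable section

namespace Fermat.Agent.S24.H81

open UpperHalfPlane AlgebraicCurve IntermediateField
open scoped Manifold MatrixGroups

/-- The order of vanishing is transported by the action of `SL(2, ℤ)`. -/
theorem ordNat_comp_smul {g : ℍ → ℂ} (hg : MDiff g) (γ : SL(2, ℤ)) (τ0 : ℍ) :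
    ordNat τ0 (fun τ => g (γ • τ)) = ordNat (γ • τ0) g := by
  have hg' : MDiff (fun τ : ℍ => g (γ • τ)) := by
    have h1 : MDiff (fun τ : ℍ => γ • τ) := by
      have := UpperHalfPlane.mdifferentiable_smul (g := (γ : GL (Fin 2) ℝ)) (by
        have h : ((γ : GL (Fin 2) ℝ) : Matrix (Fin 2) (Fin 2) ℝ).det = 1 := by
          have h1 := (Int.castRingHom ℝ).map_det γ.1
          simp at h1
          simpa using h1.symm
        rw [show (γ : GL (Fin 2) ℝ).det.val = ((γ : GL (Fin 2) ℝ) : Matrix (Fin 2) (Fin 2) ℝ).det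
          from rfl, h]
        exact one_pos)
      exact this
    exact hg.comp h1
  have h1 := H32.natCast_analyticOrderNatAt_eq_untop₀
    (analyticAt_comp_ofComplex (g := fun τ => g (γ • τ)) hg' τ0)
  have h2 := H32.natCast_analyticOrderNatAt_eq_untop₀
    (analyticAt_comp_ofComplex (g := g) hg (γ • τ0))
  have h3 := H32.meromorphicOrderAt_comp_SL_smul g γ τ0
  have e1 : ((fun τ => g (γ • τ)) ∘ ofComplex) = fun z : ℂ => g (γ • ofComplex z) := rfl
  have e2 : (g ∘ ofComplex) = fun z : ℂ => g (ofComplex z) := rfl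
  unfold ordNat
  rw [e1] at h1 ⊢
  rw [e2] at h2 ⊢
  rw [h3] at h1
  have : ((analyticOrderNatAt (fun z : ℂ => g (γ • ofComplex z)) (τ0 : ℂ) : ℕ) : ℤ) =
      ((analyticOrderNatAt (fun z : ℂ => g (ofComplex z)) ((γ • τ0 : ℍ) : ℂ) : ℕ) : ℤ) := by
    rw [h1, h2]
  exact_mod_cast this

variable (N : ℕ) [NeZero N]

/-- **T5 (finite part), concrete form** (`place_fin` of `H76.ModInputs`): every place of
`FN N / Qbar` lying over a finite value `a = J τ0` of `j` is, up to a positive multiple, the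
order of vanishing of `Θ f` at a point `γ⁻¹ • τ0` of the `SL(2, ℤ)`-orbit of `τ0`.
The finiteness of `FN N / Qbar(j)` and the degree `[FN N : Qbar(j)] = #X_N` (T6, helper40) are
taken as hypotheses. -/
theorem place_fin_of_finrank [FiniteDimensional Qbar⟮jBar N⟯ (FN N)]
    (hcard : Module.finrank Qbar⟮jBar N⟯ (FN N) = Nat.card (H24.XN N))
    (v : Place Qbar (FN N)) (a : Qbar) (τ0 : ℍ) (hτ0 : H28.J τ0 = H17.iota a)
    (hv : 0 < v.ord (jBar N - algebraMap Qbar (FN N) a)) :
    ∃ γ : SL(2, ℤ), ∃ m : ℤ, 0 < m ∧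
      ∀ f ∈ (H17.A N : Set (FN N)), f ≠ 0 →
        ((analyticOrderNatAt (H17.Theta N f ∘ ofComplex) ((γ⁻¹ • τ0 : ℍ) : ℂ) : ℕ) : ℤ) =
          m * v.ord f := by
  classical
  have : CharZero Qbar⟮jBar N⟯ :=
    charZero_of_injective_algebraMap (algebraMap Qbar Qbar⟮jBar N⟯).injective
  have : Algebra.IsSeparable Qbar⟮jBar N⟯ (FN N) := inferInstance
  have hcard' : Fintype.card (H24.XN N) = Module.finrank Qbar⟮jBar N⟯ (FN N) := by
    rw [hcard, Nat.card_eq_fintype_card]
  have hA : ∀ f : FN N, ∃ a ∈ H17.A N, ∃ b ∈ H17.A N, b ≠ 0 ∧ f = a / b :=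
    H40.exists_div_AN N
  obtain ⟨x, m, hm, hx⟩ := exists_point_of_place (K := Qbar) (F := FN N) (H17.A N) hA
    (jBar N) (H17.jBar_mem_A N) hcard' H17.iota (H17.thetaXHom N)
    (fun x f => H17.thetaConj_mdiff N f.2 (Quotient.out x))
    (H17.thetaXHom_injective N)
    (fun x c => H17.thetaConj_algebraMap N (Quotient.out x) c)
    (by
      intro x y c hc
      have hc' : (c : FN N) ∈ Algebra.adjoin Qbar {jBar N} := by
        have h1 : (H17.A N).val c ∈
            (Algebra.adjoin Qbar {(⟨jBar N, H17.jBar_mem_A N⟩ : H17.A N)}).map (H17.A N).val :=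
          ⟨c, hc, rfl⟩
        rw [AlgHom.map_adjoin, Set.image_singleton] at h1
        exact h1
      change H17.thetaConj N (Quotient.out x) c = H17.thetaConj N (Quotient.out y) c
      rw [H17.thetaConj_of_mem_adjoin_jBar N hc', H17.thetaConj_of_mem_adjoin_jBar N hc'])
    (by
      intro x y hxy
      refine ⟨⟨jd N N dvd_rfl, H17.jd_mem_A N N dvd_rfl⟩, fun h => hxy ?_⟩
      exact H17.thetaX_jd_injective N h)
    a τ0
    (by
      intro x
      change H17.thetaConj N (Quotient.out x) (jBar N) τ0 = H17.iota a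
      rw [H17.thetaConj_jBar, hτ0])
    v hv
  refine ⟨Quotient.out x, (m : ℤ), by exact_mod_cast hm, ?_⟩
  intro f hf hf0
  have h1 := hx ⟨f, hf⟩ (fun h => hf0 (congrArg Subtype.val h))
  have h2 : H17.thetaXHom N x ⟨f, hf⟩ =
      fun τ => H17.Theta N f ((Quotient.out x)⁻¹ • τ) := rfl
  rw [h2, ordNat_comp_smul (H17.Theta_mdiff N hf)] at h1
  exact h1

/-- `place_fin` in the verbatim shape of the field of `H76.ModInputs`
(with `A := ↑(H17.A N)`, `Θ := H17.Theta N`, `ι := H17.iota`). -/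
theorem place_fin [FiniteDimensional Qbar⟮jBar N⟯ (FN N)]
    (hcard : Module.finrank Qbar⟮jBar N⟯ (FN N) = Nat.card (H24.XN N)) :
    ∀ (v : Place Qbar (FN N)) (a : Qbar) (τ0 : ℍ), H28.J τ0 = H17.iota a →
      0 < v.ord (jBar N - algebraMap Qbar (FN N) a) →
      ∃ γ : SL(2, ℤ), ∃ m : ℤ, 0 < m ∧
        ∀ f ∈ (H17.A N : Set (FN N)), f ≠ 0 →
          H76.ordH (H17.Theta N f) (γ⁻¹ • τ0) = m * v.ord f :=
  fun v a τ0 hτ0 hv => place_fin_of_finrank N hcard v a τ0 hτ0 hv

end Fermat.Agent.S24.H81
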