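import Mathlib
import Fermat.Agent.S24.H4_QhExpansion

/-!
# S24 / EMB-cusp : expansions at the cusp (helper95)

On top of `H4_QhExpansion` (T1):

* growth bound `⇒` `IsMeroPeriodic`;
* change of period `h → d * h` for the `q_h`-expansion;
* `k`-periodicity with `k ∣ N` `⇒` all exponents of the `q_N`-expansion are multiples of `N / k`;
* translation `τ ↦ b + τ` multiplies the `n`-th coefficient by a nonzero number
  (so the order is unchanged);
* the ring hom `R →+* LaurentSeries ℂ` attached to `Φ : R →+* (ℍ → ℂ)` and its extension to the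
  fraction field.
-/

set_option autoImplicit false

open Complex Filter Function
open UpperHalfPlane hiding I
open scoped Real Topology Manifold MatrixGroups

noncomputable section

namespace Fermat.Agent.S24.H95

open Fermat.Agent.S24.H4

local notation "𝕢" => Periodic.qParam

/-! ## Growth bound implies meromorphy at the cusp -/

/-- A holomorphic `h`-periodic function with at most exponential growth at `i∞` is meromorphic
at the cusp. -/
theorem isMeroPeriodic_of_growth {h : ℝ} (hh : 0 < h) {f : ℍ → ℂ} (hmd : MDiff f)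
    (hper : ∀ τ : ℍ, f ((h : ℝ) +ᵥ τ) = f τ) {C B c : ℝ}
    (hgrow : ∀ τ : ℍ, c ≤ τ.im → ‖f τ‖ ≤ C * Real.exp (B * τ.im)) :
    IsMeroPeriodic h f := by
  refine ⟨hmd, periodic_comp_ofComplex_iff.mpr hper, ?_⟩
  obtain ⟨M, hM⟩ := exists_nat_ge (B * h / (2 * π))
  refine ⟨M, ?_⟩
  rw [isBoundedAtImInfty_iff]
  refine ⟨max C 0, max c 0, fun τ hτ => ?_⟩
  have hτc : c ≤ τ.im := le_trans (le_max_left _ _) hτ
  have hτ0 : 0 ≤ τ.im := τ.im_pos.le
  have h1 := hgrow τ hτc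
  simp only [Pi.mul_apply, Pi.pow_apply, norm_mul, norm_pow, norm_qFun]
  have hB : B ≤ 2 * π * M / h := by
    have h2 : B * h / (2 * π) * (2 * π) / h ≤ (M : ℝ) * (2 * π) / h := by
      gcongr
    have h3 : B * h / (2 * π) * (2 * π) / h = B := by
      field_simp
    rw [h3] at h2
    have h6 : (M : ℝ) * (2 * π) / h = 2 * π * M / h := by ring
    rw [h6] at h2
    exact h2
  have hC : C ≤ max C 0 := le_max_left _ _
  have hexp : Real.exp (-2 * π * τ.im / h) ^ M * Real.exp (B * τ.im) ≤ 1 := by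
    rw [← Real.exp_nat_mul, ← Real.exp_add]
    apply Real.exp_le_one_iff.mpr
    have h4 : B * τ.im ≤ 2 * π * M / h * τ.im := mul_le_mul_of_nonneg_right hB hτ0
    have h5 : (M : ℝ) * (-2 * π * τ.im / h) = -(2 * π * M / h * τ.im) := by ring
    rw [h5]
    linarith
  calc Real.exp (-2 * π * τ.im / h) ^ M * ‖f τ‖
      ≤ Real.exp (-2 * π * τ.im / h) ^ M * (C * Real.exp (B * τ.im)) := by gcongr
    _ = C * (Real.exp (-2 * π * τ.im / h) ^ M * Real.exp (B * τ.im)) := by ring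
    _ ≤ max C 0 * (Real.exp (-2 * π * τ.im / h) ^ M * Real.exp (B * τ.im)) := by
        gcongr
    _ ≤ max C 0 * 1 := by
        apply mul_le_mul_of_nonneg_left hexp (le_max_right _ _)
    _ = max C 0 := mul_one _

/-! ## Change of period -/

lemma qFun_mul_pow {h : ℝ} (hh : h ≠ 0) {d : ℕ} (hd : d ≠ 0) (τ : ℍ) :
    qFun ((d : ℝ) * h) τ ^ d = qFun h τ := by
  simp only [qFun, Periodic.qParam]
  rw [← Complex.exp_nat_mul]
  congr 1
  have hd' : (d : ℂ) ≠ 0 := by exact_mod_cast hd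
  have hh' : (h : ℂ) ≠ 0 := by exact_mod_cast hh
  push_cast
  field_simp

lemma qFun_mul_pow_mul {h : ℝ} (hh : h ≠ 0) {d : ℕ} (hd : d ≠ 0) (M : ℕ) :
    qFun ((d : ℝ) * h) ^ (d * M) = qFun h ^ M := by
  ext τ
  simp only [Pi.pow_apply]
  rw [pow_mul, qFun_mul_pow hh hd]

/-- An `h`-periodic function meromorphic at the cusp is also `d * h`-periodic meromorphic. -/
lemma isMeroPeriodic_mul_period {h : ℝ} (hh : 0 < h) {f : ℍ → ℂ} (hf : IsMeroPeriodic h f)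
    {d : ℕ} (hd : 0 < d) : IsMeroPeriodic ((d : ℝ) * h) f := by
  refine ⟨hf.mdiff, ?_, ?_⟩
  · have := hf.periodic.nat_mul d
    simpa using this
  obtain ⟨M, hM⟩ := hf.exists_bdd
  refine ⟨d * M, ?_⟩
  rwa [qFun_mul_pow_mul hh.ne' hd.ne']

/-- **Change of period**: the `q_{dh}`-expansion of an `h`-periodic function is obtained from
its `q_h`-expansion by `X ↦ X ^ d`. -/
theorem qhExpansion_mul_period_coeff {h : ℝ} (hh : 0 < h) {f : ℍ → ℂ}
    (hf : IsMeroPeriodic h f) {d : ℕ} (hd : 0 < d) (n : ℤ) :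
    (qhExpansion ((d : ℝ) * h) f).coeff n =
      if (d : ℤ) ∣ n then (qhExpansion h f).coeff (n / d) else 0 := by
  obtain ⟨M, hM⟩ := hf.exists_bdd
  have hdh : 0 < (d : ℝ) * h := by positivity
  have hf' := isMeroPeriodic_mul_period hh hf hd
  have hbdd : IsBoundedAtImInfty (qFun ((d : ℝ) * h) ^ (d * M) * f) := by
    rwa [qFun_mul_pow_mul hh.ne' hd.ne']
  let c : ℕ → ℂ := fun k => if d ∣ k then (qhExpansion h f).coeff (((k / d : ℕ) : ℤ) - M) else 0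
  have hsum : ∀ τ : ℍ, HasSum (fun k : ℕ => c k * qFun ((d : ℝ) * h) τ ^ k)
      (qFun ((d : ℝ) * h) τ ^ (d * M) * f τ) := by
    intro τ
    have h1 := hasSum_qhExpansion hh hf hM τ
    have hQ : qFun ((d : ℝ) * h) τ ^ d = qFun h τ := qFun_mul_pow hh.ne' hd.ne' τ
    rw [pow_mul, hQ]
    have hinj : Function.Injective (fun m : ℕ => d * m) :=
      fun m m' hmm => Nat.eq_of_mul_eq_mul_left hd hmm
    have h2 : ∀ k ∉ Set.range (fun m : ℕ => d * m), c k * qFun ((d : ℝ) * h) τ ^ k = 0 := by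
      intro k hk
      have : ¬ d ∣ k := fun ⟨m, hm⟩ => hk ⟨m, hm.symm⟩
      simp [c, this]
    rw [← hinj.hasSum_iff h2]
    convert h1 using 2 with m
    simp only [Function.comp_apply, c, dvd_mul_right, if_true, Nat.mul_div_cancel_left _ hd]
    rw [pow_mul, hQ]
  have key := qhExpansion_coeff_of_hasSum hdh hf.mdiff hf'.periodic hsum
  by_cases hn : n < -((d * M : ℕ) : ℤ)
  · rw [qhExpansion_coeff_of_lt hdh hf' hbdd hn]
    split_ifs with hdn
    · obtain ⟨m, rfl⟩ := hdn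
      have hd0 : (d : ℤ) ≠ 0 := by exact_mod_cast hd.ne'
      rw [Int.mul_ediv_cancel_left _ hd0]
      symm
      apply qhExpansion_coeff_of_lt hh hf hM
      push_cast at hn
      have hdpos : (0 : ℤ) < d := by exact_mod_cast hd
      nlinarith
    · rfl
  · rw [not_lt] at hn
    obtain ⟨k, hk⟩ : ∃ k : ℕ, n = (k : ℤ) - ((d * M : ℕ) : ℤ) :=
      ⟨(n + ((d * M : ℕ) : ℤ)).toNat, by omega⟩
    rw [hk, key k]
    simp only [c]
    have hiff : d ∣ k ↔ (d : ℤ) ∣ (k : ℤ) - ((d * M : ℕ) : ℤ) := by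
      rw [← Int.natCast_dvd_natCast]
      push_cast
      constructor
      · intro hdk
        exact dvd_sub hdk (dvd_mul_right _ _)
      · intro hdk
        have := dvd_add hdk (dvd_mul_right (d : ℤ) (M : ℤ))
        simpa using this
    by_cases hdk : d ∣ k
    · rw [if_pos hdk, if_pos (hiff.mp hdk)]
      obtain ⟨m, rfl⟩ := hdk
      congr 1
      rw [Nat.mul_div_cancel_left _ hd]
      have hd0 : (d : ℤ) ≠ 0 := by exact_mod_cast hd.ne'
      have : ((d * m : ℕ) : ℤ) - ((d * M : ℕ) : ℤ) = (d : ℤ) * ((m : ℤ) - M) := by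
        push_cast; ring
      rw [this, Int.mul_ediv_cancel_left _ hd0]
    · rw [if_neg hdk, if_neg (fun hc => hdk (hiff.mpr hc))]


/-! ## A smaller period forces divisibility of the exponents -/

/-- A `d * h`-periodic function meromorphic at the cusp which is also `h`-periodic is
`h`-periodic meromorphic. -/
lemma isMeroPeriodic_of_mul_period {h : ℝ} (hh : 0 < h) {f : ℍ → ℂ} {d : ℕ} (hd : 0 < d)
    (hf : IsMeroPeriodic ((d : ℝ) * h) f) (hper : ∀ τ : ℍ, f ((h : ℝ) +ᵥ τ) = f τ) :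
    IsMeroPeriodic h f := by
  refine ⟨hf.mdiff, periodic_comp_ofComplex_iff.mpr hper, ?_⟩
  obtain ⟨M, hM⟩ := hf.exists_bdd
  refine ⟨M, ?_⟩
  rw [← qFun_mul_pow_mul hh.ne' hd.ne']
  have hdh : 0 < (d : ℝ) * h := by positivity
  exact isBoundedAtImInfty_qFun_pow_mul_of_le hdh (Nat.le_mul_of_pos_left M hd) hM

/-- If `f` is `h`-periodic, the coefficients of its `q_{dh}`-expansion vanish at the exponents
not divisible by `d`. -/
theorem qhExpansion_coeff_eq_zero_of_periodic {h : ℝ} (hh : 0 < h) {f : ℍ → ℂ} {d : ℕ}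
    (hd : 0 < d) (hf : IsMeroPeriodic ((d : ℝ) * h) f)
    (hper : ∀ τ : ℍ, f ((h : ℝ) +ᵥ τ) = f τ) {n : ℤ} (hn : ¬ (d : ℤ) ∣ n) :
    (qhExpansion ((d : ℝ) * h) f).coeff n = 0 := by
  rw [qhExpansion_mul_period_coeff hh (isMeroPeriodic_of_mul_period hh hd hf hper) hd, if_neg hn]

/-- If `f` is `h`-periodic, the order of its `q_{dh}`-expansion is divisible by `d`. -/
theorem dvd_order_qhExpansion_of_periodic {h : ℝ} (hh : 0 < h) {f : ℍ → ℂ} {d : ℕ}
    (hd : 0 < d) (hf : IsMeroPeriodic ((d : ℝ) * h) f)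
    (hper : ∀ τ : ℍ, f ((h : ℝ) +ᵥ τ) = f τ) :
    (d : ℤ) ∣ (qhExpansion ((d : ℝ) * h) f).order := by
  by_cases h0 : qhExpansion ((d : ℝ) * h) f = 0
  · rw [h0, HahnSeries.order_zero]
    exact dvd_zero _
  · by_contra hnd
    exact h0 (HahnSeries.coeff_order_eq_zero.mp
      (qhExpansion_coeff_eq_zero_of_periodic hh hd hf hper hnd))

/-- **Cusp divisibility (`hdiv`)**: an `N`-periodic function meromorphic at the cusp that is
`k`-periodic with `k ∣ N` has all exponents of its `q_N`-expansion divisible by `N / k`. -/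
theorem qhExpansion_coeff_eq_zero_of_periodic_nat {N k : ℕ} (hk : 0 < k) (hkN : k ∣ N)
    (hN : 0 < N) {f : ℍ → ℂ} (hf : IsMeroPeriodic (N : ℝ) f)
    (hper : ∀ τ : ℍ, f ((k : ℝ) +ᵥ τ) = f τ) {n : ℤ} (hn : ¬ ((N / k : ℕ) : ℤ) ∣ n) :
    (qhExpansion (N : ℝ) f).coeff n = 0 := by
  have e : (N : ℝ) = ((N / k : ℕ) : ℝ) * (k : ℝ) := by
    rw [← Nat.cast_mul, Nat.div_mul_cancel hkN]
  have hd : 0 < N / k := Nat.div_pos (Nat.le_of_dvd hN hkN) hk
  have hk' : (0 : ℝ) < k := by exact_mod_cast hk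
  rw [e] at hf ⊢
  exact qhExpansion_coeff_eq_zero_of_periodic hk' hd hf hper hn

/-- **Cusp divisibility (`hdiv`)**, order form. -/
theorem natCast_div_dvd_order_of_periodic {N k : ℕ} (hk : 0 < k) (hkN : k ∣ N) (hN : 0 < N)
    {f : ℍ → ℂ} (hf : IsMeroPeriodic (N : ℝ) f)
    (hper : ∀ τ : ℍ, f ((k : ℝ) +ᵥ τ) = f τ) :
    ((N / k : ℕ) : ℤ) ∣ (qhExpansion (N : ℝ) f).order := by
  have e : (N : ℝ) = ((N / k : ℕ) : ℝ) * (k : ℝ) := by
    rw [← Nat.cast_mul, Nat.div_mul_cancel hkN]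
  have hd : 0 < N / k := Nat.div_pos (Nat.le_of_dvd hN hkN) hk
  have hk' : (0 : ℝ) < k := by exact_mod_cast hk
  rw [e] at hf ⊢
  exact dvd_order_qhExpansion_of_periodic hk' hd hf hper

/-! ## Translation -/

lemma qFun_vadd_real (h b : ℝ) (τ : ℍ) :
    qFun h (b +ᵥ τ) = Complex.exp (2 * π * I * b / h) * qFun h τ := by
  simp only [qFun, Periodic.qParam, UpperHalfPlane.coe_vadd]
  rw [← Complex.exp_add]
  congr 1
  ring

lemma mdiff_vadd {f : ℍ → ℂ} (hf : MDiff f) (b : ℝ) : MDiff (fun τ : ℍ => f (b +ᵥ τ)) := by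
  rw [UpperHalfPlane.mdifferentiable_iff] at hf ⊢
  have hmaps : Set.MapsTo (fun z : ℂ => (b : ℂ) + z) {z : ℂ | 0 < z.im} {z : ℂ | 0 < z.im} := by
    intro z hz
    simpa using hz
  have hdiff : DifferentiableOn ℂ (fun z : ℂ => (b : ℂ) + z) {z : ℂ | 0 < z.im} := by
    intro z _
    exact (differentiableAt_id.const_add (b : ℂ)).differentiableWithinAt
  refine (hf.comp hdiff hmaps).congr ?_
  intro z hz
  simp only [Function.comp]
  rw [ofComplex_apply_of_im_pos hz, ofComplex_apply_of_im_pos (hmaps hz)]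
  rfl

lemma isBoundedAtImInfty_qFun_pow_mul_vadd {h : ℝ} {f : ℍ → ℂ} {M : ℕ}
    (hM : IsBoundedAtImInfty (qFun h ^ M * f)) (b : ℝ) :
    IsBoundedAtImInfty (qFun h ^ M * fun τ : ℍ => f (b +ᵥ τ)) := by
  rw [isBoundedAtImInfty_iff] at hM ⊢
  obtain ⟨C, A, hCA⟩ := hM
  refine ⟨C, A, fun τ hτ => ?_⟩
  have := hCA (b +ᵥ τ) (by rwa [vadd_im])
  simp only [Pi.mul_apply, Pi.pow_apply, norm_mul, norm_pow, norm_qFun, vadd_im] at this ⊢
  exact this

/-- Translates of periodic functions meromorphic at the cusp. -/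
lemma isMeroPeriodic_vadd {h : ℝ} {f : ℍ → ℂ} (hf : IsMeroPeriodic h f) (b : ℝ) :
    IsMeroPeriodic h (fun τ : ℍ => f (b +ᵥ τ)) := by
  refine ⟨mdiff_vadd hf.mdiff b, periodic_comp_ofComplex_iff.mpr fun τ => ?_, ?_⟩
  · have e : b +ᵥ ((h : ℝ) +ᵥ τ) = (h : ℝ) +ᵥ (b +ᵥ τ) := by
      rw [← add_vadd, ← add_vadd, add_comm]
    rw [e, hf.vadd]
  · obtain ⟨M, hM⟩ := hf.exists_bdd
    exact ⟨M, isBoundedAtImInfty_qFun_pow_mul_vadd hM b⟩

/-- **Translation**: the `n`-th coefficient of the `q_h`-expansion of `τ ↦ f (b + τ)` is the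
`n`-th coefficient of `f` times `exp (2πi b / h) ^ n`. -/
theorem qhExpansion_vadd_coeff {h : ℝ} (hh : 0 < h) {f : ℍ → ℂ} (hf : IsMeroPeriodic h f)
    (b : ℝ) (n : ℤ) :
    (qhExpansion h (fun τ : ℍ => f (b +ᵥ τ))).coeff n =
      (qhExpansion h f).coeff n * Complex.exp (2 * π * I * b / h) ^ n := by
  obtain ⟨M, hM⟩ := hf.exists_bdd
  set ω := Complex.exp (2 * π * I * b / h) with hω
  have hω0 : ω ≠ 0 := Complex.exp_ne_zero _
  have hfb := isMeroPeriodic_vadd hf b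
  have hMb := isBoundedAtImInfty_qFun_pow_mul_vadd hM b
  let c : ℕ → ℂ := fun m => (qhExpansion h f).coeff ((m : ℤ) - M) * ω ^ ((m : ℤ) - M)
  have hsum : ∀ τ : ℍ, HasSum (fun m : ℕ => c m * qFun h τ ^ m)
      (qFun h τ ^ M * f (b +ᵥ τ)) := by
    intro τ
    have h1 := hasSum_qhExpansion hh hf hM (b +ᵥ τ)
    rw [qFun_vadd_real, ← hω] at h1
    have h2 := h1.mul_left ((ω ^ M)⁻¹)
    have hωM : ω ^ M ≠ 0 := pow_ne_zero _ hω0
    have e1 : (fun m : ℕ => c m * qFun h τ ^ m) = fun i : ℕ =>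
        (ω ^ M)⁻¹ * ((qhExpansion h f).coeff ((i : ℤ) - M) * (ω * qFun h τ) ^ i) := by
      funext m
      simp only [c]
      rw [mul_pow, zpow_sub₀ hω0, zpow_natCast, zpow_natCast]
      field_simp
    have e2 : qFun h τ ^ M * f (b +ᵥ τ) =
        (ω ^ M)⁻¹ * ((ω * qFun h τ) ^ M * f (b +ᵥ τ)) := by
      rw [mul_pow]
      field_simp
    rw [e1, e2]
    exact h2
  have key := qhExpansion_coeff_of_hasSum hh hfb.mdiff hfb.periodic hsum
  by_cases hn : n < -(M : ℤ)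
  · rw [qhExpansion_coeff_of_lt hh hfb hMb hn, qhExpansion_coeff_of_lt hh hf hM hn, zero_mul]
  · rw [not_lt] at hn
    obtain ⟨m, rfl⟩ : ∃ m : ℕ, n = (m : ℤ) - M := ⟨(n + M).toNat, by omega⟩
    rw [key m]

/-- Two Laurent series with the same vanishing pattern of coefficients have the same order. -/
lemma order_eq_of_coeff_eq_zero_iff {x y : LaurentSeries ℂ}
    (hxy : ∀ n, x.coeff n = 0 ↔ y.coeff n = 0) : x.order = y.order := by
  by_cases hx : x = 0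
  · have hy : y = 0 := by
      ext n
      rw [HahnSeries.coeff_zero, ← hxy n, hx, HahnSeries.coeff_zero]
    rw [hx, hy]
  · have hy : y ≠ 0 := by
      intro hy
      apply hx
      ext n
      rw [HahnSeries.coeff_zero, hxy n, hy, HahnSeries.coeff_zero]
    apply le_antisymm
    · apply HahnSeries.order_le_of_coeff_ne_zero
      rw [Ne, hxy]
      exact fun h => hy (HahnSeries.coeff_order_eq_zero.mp h)
    · apply HahnSeries.order_le_of_coeff_ne_zero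
      rw [Ne, ← hxy]
      exact fun h => hx (HahnSeries.coeff_order_eq_zero.mp h)

/-- **Translation does not change the order at the cusp.** -/
theorem qhExpansion_vadd_order {h : ℝ} (hh : 0 < h) {f : ℍ → ℂ} (hf : IsMeroPeriodic h f)
    (b : ℝ) :
    (qhExpansion h (fun τ : ℍ => f (b +ᵥ τ))).order = (qhExpansion h f).order := by
  apply order_eq_of_coeff_eq_zero_iff
  intro n
  rw [qhExpansion_vadd_coeff hh hf b n, mul_eq_zero]
  constructor
  · rintro (h0 | h0)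
    · exact h0
    · exact absurd h0 (zpow_ne_zero _ (Complex.exp_ne_zero _))
  · exact Or.inl


/-! ## The expansion ring hom attached to `Φ : R →+* (ℍ → ℂ)` -/

section ringHom

variable {R : Type*} [CommRing R] {h : ℝ}

/-- The ring hom `r ↦ q_h`-expansion of `Φ r`. -/
def cuspHom (hh : 0 < h) (Φ : R →+* (ℍ → ℂ)) (hΦ : ∀ r, IsMeroPeriodic h (Φ r)) :
    R →+* LaurentSeries ℂ where
  toFun r := qhExpansion h (Φ r)
  map_one' := by rw [map_one]; exact qhExpansion_one hh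
  map_mul' r s := by rw [map_mul]; exact qhExpansion_mul hh (hΦ r) (hΦ s)
  map_zero' := by rw [map_zero]; exact qhExpansion_zero hh
  map_add' r s := by rw [map_add]; exact qhExpansion_add hh (hΦ r) (hΦ s)

@[simp] theorem cuspHom_apply (hh : 0 < h) (Φ : R →+* (ℍ → ℂ))
    (hΦ : ∀ r, IsMeroPeriodic h (Φ r)) (r : R) :
    cuspHom hh Φ hΦ r = qhExpansion h (Φ r) := rfl

theorem cuspHom_injective (hh : 0 < h) (Φ : R →+* (ℍ → ℂ))
    (hΦ : ∀ r, IsMeroPeriodic h (Φ r)) (hinj : Function.Injective Φ) :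
    Function.Injective (cuspHom hh Φ hΦ) := by
  rw [injective_iff_map_eq_zero]
  intro r hr
  rw [cuspHom_apply, qhExpansion_eq_zero_iff hh (hΦ r)] at hr
  exact (injective_iff_map_eq_zero Φ).mp hinj r hr

/-- Constants go to constants. -/
theorem cuspHom_of_const (hh : 0 < h) (Φ : R →+* (ℍ → ℂ))
    (hΦ : ∀ r, IsMeroPeriodic h (Φ r)) {r : R} {a : ℂ} (hr : Φ r = fun _ => a) :
    cuspHom hh Φ hΦ r = HahnSeries.C a := by
  rw [cuspHom_apply, hr, qhExpansion_const hh]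

theorem order_cuspHom_of_const (hh : 0 < h) (Φ : R →+* (ℍ → ℂ))
    (hΦ : ∀ r, IsMeroPeriodic h (Φ r)) {r : R} {a : ℂ} (hr : Φ r = fun _ => a) :
    (cuspHom hh Φ hΦ r).order = 0 := by
  rw [cuspHom_of_const hh Φ hΦ hr]
  exact HahnSeries.order_C

variable {F : Type*} [Field F] [Algebra R F] [IsFractionRing R F]

/-- Extension of the expansion hom to the fraction field. -/
def cuspHomFrac (hh : 0 < h) (Φ : R →+* (ℍ → ℂ)) (hΦ : ∀ r, IsMeroPeriodic h (Φ r))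
    (hinj : Function.Injective Φ) : F →+* LaurentSeries ℂ :=
  IsFractionRing.lift (cuspHom_injective hh Φ hΦ hinj)

@[simp] theorem cuspHomFrac_algebraMap (hh : 0 < h) (Φ : R →+* (ℍ → ℂ))
    (hΦ : ∀ r, IsMeroPeriodic h (Φ r)) (hinj : Function.Injective Φ) (r : R) :
    cuspHomFrac (F := F) hh Φ hΦ hinj (algebraMap R F r) = qhExpansion h (Φ r) := by
  rw [cuspHomFrac, IsFractionRing.lift_algebraMap, cuspHom_apply]

theorem cuspHomFrac_div (hh : 0 < h) (Φ : R →+* (ℍ → ℂ))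
    (hΦ : ∀ r, IsMeroPeriodic h (Φ r)) (hinj : Function.Injective Φ) (r s : R) :
    cuspHomFrac (F := F) hh Φ hΦ hinj (algebraMap R F r / algebraMap R F s) =
      qhExpansion h (Φ r) / qhExpansion h (Φ s) := by
  rw [map_div₀, cuspHomFrac_algebraMap, cuspHomFrac_algebraMap]

theorem cuspHomFrac_ne_zero (hh : 0 < h) (Φ : R →+* (ℍ → ℂ))
    (hΦ : ∀ r, IsMeroPeriodic h (Φ r)) (hinj : Function.Injective Φ) {f : F} (hf : f ≠ 0) :
    cuspHomFrac (F := F) hh Φ hΦ hinj f ≠ 0 :=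
  (map_ne_zero _).mpr hf

/-- The order at the cusp as an order function on the fraction field: multiplicativity. -/
theorem order_cuspHomFrac_mul (hh : 0 < h) (Φ : R →+* (ℍ → ℂ))
    (hΦ : ∀ r, IsMeroPeriodic h (Φ r)) (hinj : Function.Injective Φ) {f g : F} (hf : f ≠ 0)
    (hg : g ≠ 0) :
    (cuspHomFrac (F := F) hh Φ hΦ hinj (f * g)).order =
      (cuspHomFrac (F := F) hh Φ hΦ hinj f).order +
        (cuspHomFrac (F := F) hh Φ hΦ hinj g).order := by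
  rw [map_mul]
  exact HahnSeries.order_mul (cuspHomFrac_ne_zero hh Φ hΦ hinj hf)
    (cuspHomFrac_ne_zero hh Φ hΦ hinj hg)

theorem order_cuspHomFrac_add (hh : 0 < h) (Φ : R →+* (ℍ → ℂ))
    (hΦ : ∀ r, IsMeroPeriodic h (Φ r)) (hinj : Function.Injective Φ) {f g : F}
    (hfg : f + g ≠ 0) :
    min (cuspHomFrac (F := F) hh Φ hΦ hinj f).order (cuspHomFrac (F := F) hh Φ hΦ hinj g).order ≤
      (cuspHomFrac (F := F) hh Φ hΦ hinj (f + g)).order := by
  rw [map_add]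
  exact HahnSeries.min_order_le_order_add (by
    rw [← map_add]; exact cuspHomFrac_ne_zero hh Φ hΦ hinj hfg)

end ringHom


/-! ## Conjugates under `SL(2,ℤ)` and the order functions at the cusp -/

section SL2

open CongruenceSubgroup ModularGroup

lemma mdiff_comp_smul {φ : ℍ → ℂ} (hφ : MDiff φ) (δ : SL(2, ℤ)) :
    MDiff (fun w : ℍ => φ (δ • w)) := by
  have h1 : MDiff (fun τ : ℍ => (δ : GL (Fin 2) ℝ) • τ) := mdifferentiable_smul (by simp)
  exact hφ.comp h1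

theorem conj_T_pow_mem_Gamma0' (N : ℕ) (γ : SL(2, ℤ)) : γ⁻¹ * T ^ N * γ ∈ Gamma0 N := by
  have h1 : (T : SL(2, ℤ)) ^ N ∈ CongruenceSubgroup.Gamma N := by
    have := ModularGroup_T_pow_mem_Gamma (N : ℤ) (N : ℤ) dvd_rfl
    simpa using this
  have h2 : γ⁻¹ * T ^ N * γ ∈ CongruenceSubgroup.Gamma N := by
    have := (Gamma_normal N).conj_mem _ h1 γ⁻¹
    simpa using this
  have h3 : CongruenceSubgroup.Gamma N ≤ Gamma0 N := by
    intro x hx
    rw [Gamma_mem] at hx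
    rw [Gamma0_mem]
    exact hx.2.2.1
  exact h3 h2

lemma natCast_vadd_eq_T_pow_smul (k : ℕ) (τ : ℍ) : ((k : ℝ) +ᵥ τ) = (T ^ k : SL(2, ℤ)) • τ := by
  have := modular_T_zpow_smul τ (k : ℤ)
  rw [zpow_natCast] at this
  rw [this]
  simp

lemma neg_one_vadd_eq_T_inv_smul (τ : ℍ) : ((-1 : ℝ) +ᵥ τ) = (T⁻¹ : SL(2, ℤ)) • τ := by
  have := modular_T_zpow_smul τ (-1 : ℤ)
  rw [zpow_neg_one] at this
  rw [this]
  simp

variable {R : Type*} [CommRing R]

/-- The conjugate of `Φ` by `γ`: `r ↦ (τ ↦ Φ r (γ⁻¹ • τ))` (convention C2). -/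
def conjHom (Φ : R →+* (ℍ → ℂ)) (γ : SL(2, ℤ)) : R →+* (ℍ → ℂ) :=
  RingHom.pi fun τ : ℍ => (Pi.evalRingHom (fun _ : ℍ => ℂ) (γ⁻¹ • τ)).comp Φ

@[simp] theorem conjHom_apply (Φ : R →+* (ℍ → ℂ)) (γ : SL(2, ℤ)) (r : R) (τ : ℍ) :
    conjHom Φ γ r τ = Φ r (γ⁻¹ • τ) := rfl

theorem conjHom_one (Φ : R →+* (ℍ → ℂ)) : conjHom Φ 1 = Φ := by
  ext r τ
  simp

theorem conjHom_injective (Φ : R →+* (ℍ → ℂ)) (hinj : Function.Injective Φ) (γ : SL(2, ℤ)) :
    Function.Injective (conjHom Φ γ) := by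
  intro r s hrs
  apply hinj
  funext τ
  have := congrFun hrs (γ • τ)
  simpa using this

/-- `conjHom Φ γ r` only depends on the coset `γ Γ₀(N)` when `Φ r` is `Γ₀(N)`-invariant. -/
theorem conjHom_mul_right {N : ℕ} (Φ : R →+* (ℍ → ℂ)) {r : R}
    (hinv : ∀ δ ∈ Gamma0 N, ∀ τ : ℍ, Φ r (δ • τ) = Φ r τ) (γ : SL(2, ℤ)) {δ : SL(2, ℤ)}
    (hδ : δ ∈ Gamma0 N) : conjHom Φ (γ * δ) r = conjHom Φ γ r := by
  funext τ
  rw [conjHom_apply, conjHom_apply, mul_inv_rev, mul_smul]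
  exact hinv δ⁻¹ (inv_mem hδ) _

/-- `conjHom Φ (T * γ) r` is the translate by `-1` of `conjHom Φ γ r`. -/
theorem conjHom_T_mul (Φ : R →+* (ℍ → ℂ)) (γ : SL(2, ℤ)) (r : R) :
    conjHom Φ (T * γ) r = fun τ : ℍ => conjHom Φ γ r ((-1 : ℝ) +ᵥ τ) := by
  funext τ
  rw [conjHom_apply, conjHom_apply, mul_inv_rev, mul_smul, neg_one_vadd_eq_T_inv_smul]

/-- If `γ⁻¹ T^k γ ∈ Γ₀(N)`, the conjugate by `γ` of a `Γ₀(N)`-invariant function is
`k`-periodic. -/
theorem conjHom_vadd_of_mem {N : ℕ} (Φ : R →+* (ℍ → ℂ)) {r : R}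
    (hinv : ∀ δ ∈ Gamma0 N, ∀ τ : ℍ, Φ r (δ • τ) = Φ r τ) (γ : SL(2, ℤ)) {k : ℕ}
    (hk : γ⁻¹ * T ^ k * γ ∈ Gamma0 N) (τ : ℍ) :
    conjHom Φ γ r ((k : ℝ) +ᵥ τ) = conjHom Φ γ r τ := by
  rw [conjHom_apply, conjHom_apply, natCast_vadd_eq_T_pow_smul]
  have e : γ⁻¹ • (T ^ k : SL(2, ℤ)) • τ = (γ⁻¹ * T ^ k * γ) • γ⁻¹ • τ := by
    rw [← mul_smul, ← mul_smul, mul_assoc, mul_assoc, mul_inv_cancel, mul_one]
  rw [e]
  exact hinv _ hk _

/-- The analytic hypotheses on `Φ` at level `N`: holomorphy, `Γ₀(N)`-invariance and at most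
exponential growth of every conjugate at `i∞`. -/
structure IsCuspFamily (N : ℕ) (Φ : R →+* (ℍ → ℂ)) : Prop where
  mdiff : ∀ r, MDiff (Φ r)
  inv : ∀ r, ∀ δ ∈ Gamma0 N, ∀ τ : ℍ, Φ r (δ • τ) = Φ r τ
  growth : ∀ r (γ : SL(2, ℤ)), ∃ C B c : ℝ, ∀ τ : ℍ, c ≤ τ.im →
    ‖Φ r (γ⁻¹ • τ)‖ ≤ C * Real.exp (B * τ.im)

namespace IsCuspFamily

variable {N : ℕ} [NeZero N] {Φ : R →+* (ℍ → ℂ)}

omit [NeZero N] in
theorem conj_vadd (hΦ : IsCuspFamily N Φ) (γ : SL(2, ℤ)) (r : R) (τ : ℍ) :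
    conjHom Φ γ r ((N : ℝ) +ᵥ τ) = conjHom Φ γ r τ :=
  conjHom_vadd_of_mem Φ (hΦ.inv r) γ (conj_T_pow_mem_Gamma0' N γ) τ

/-- Every conjugate is `N`-periodic and meromorphic at the cusp. -/
theorem isMeroPeriodic (hΦ : IsCuspFamily N Φ) (γ : SL(2, ℤ)) (r : R) :
    IsMeroPeriodic (N : ℝ) (conjHom Φ γ r) := by
  obtain ⟨C, B, c, hg⟩ := hΦ.growth r γ
  have hN : (0 : ℝ) < N := by exact_mod_cast Nat.pos_of_ne_zero (NeZero.ne N)
  exact isMeroPeriodic_of_growth hN (mdiff_comp_smul (hΦ.mdiff r) γ⁻¹) (hΦ.conj_vadd γ r)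
    (fun τ hτ => by simpa using hg τ hτ)

end IsCuspFamily

/-- The order at the cusp of the conjugate of `Φ r` by `γ` (`q_N`-order of `(Φ r) ∘ γ⁻¹`). -/
def wcR (N : ℕ) (Φ : R →+* (ℍ → ℂ)) (γ : SL(2, ℤ)) (r : R) : ℤ :=
  (qhExpansion (N : ℝ) (conjHom Φ γ r)).order

section wcR

variable {N : ℕ} [NeZero N] {Φ : R →+* (ℍ → ℂ)}

theorem natCast_pos_of_neZero (N : ℕ) [NeZero N] : (0 : ℝ) < N := by
  exact_mod_cast Nat.pos_of_ne_zero (NeZero.ne N)

theorem wcR_one (γ : SL(2, ℤ)) : wcR N Φ γ 1 = 0 := by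
  rw [wcR, map_one, qhExpansion_one (natCast_pos_of_neZero N)]
  exact HahnSeries.order_one

theorem wcR_of_const (γ : SL(2, ℤ)) {r : R} {a : ℂ} (hr : Φ r = fun _ => a) :
    wcR N Φ γ r = 0 := by
  have : conjHom Φ γ r = fun _ => a := by
    funext τ
    rw [conjHom_apply, hr]
  rw [wcR, this, qhExpansion_const (natCast_pos_of_neZero N)]
  exact HahnSeries.order_C

omit [NeZero N] in
/-- `hwc_right`. -/
theorem wcR_mul_right (hΦ : IsCuspFamily N Φ) (γ : SL(2, ℤ)) {δ : SL(2, ℤ)}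
    (hδ : δ ∈ Gamma0 N) (r : R) : wcR N Φ (γ * δ) r = wcR N Φ γ r := by
  rw [wcR, wcR, conjHom_mul_right Φ (hΦ.inv r) γ hδ]

/-- `hwc_T`. -/
theorem wcR_T_mul (hΦ : IsCuspFamily N Φ) (γ : SL(2, ℤ)) (r : R) :
    wcR N Φ (T * γ) r = wcR N Φ γ r := by
  rw [wcR, wcR, conjHom_T_mul,
    qhExpansion_vadd_order (natCast_pos_of_neZero N) (hΦ.isMeroPeriodic γ r)]

/-- `hwc_div`. -/
theorem wcR_dvd (hΦ : IsCuspFamily N Φ) (γ : SL(2, ℤ)) {k : ℕ} (hkN : k ∣ N)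
    (hk : γ⁻¹ * T ^ k * γ ∈ Gamma0 N) (r : R) : ((N / k : ℕ) : ℤ) ∣ wcR N Φ γ r := by
  have hN : 0 < N := Nat.pos_of_ne_zero (NeZero.ne N)
  have hk0 : 0 < k := Nat.pos_of_dvd_of_pos hkN hN
  exact natCast_div_dvd_order_of_periodic hk0 hkN hN (hΦ.isMeroPeriodic γ r)
    (conjHom_vadd_of_mem Φ (hΦ.inv r) γ hk)

theorem wcR_mul (hΦ : IsCuspFamily N Φ) (hinj : Function.Injective Φ) (γ : SL(2, ℤ))
    {r s : R} (hr : r ≠ 0) (hs : s ≠ 0) :
    wcR N Φ γ (r * s) = wcR N Φ γ r + wcR N Φ γ s := by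
  have hN := natCast_pos_of_neZero N
  rw [wcR, wcR, wcR, map_mul, qhExpansion_mul hN (hΦ.isMeroPeriodic γ r) (hΦ.isMeroPeriodic γ s)]
  apply HahnSeries.order_mul
  · rw [Ne, qhExpansion_eq_zero_iff hN (hΦ.isMeroPeriodic γ r)]
    exact fun h0 => hr (conjHom_injective Φ hinj γ (h0.trans (map_zero _).symm))
  · rw [Ne, qhExpansion_eq_zero_iff hN (hΦ.isMeroPeriodic γ s)]
    exact fun h0 => hs (conjHom_injective Φ hinj γ (h0.trans (map_zero _).symm))

end wcR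

/-! ### The embeddings of the fraction field -/

section frac

variable {N : ℕ} [NeZero N] {Φ : R →+* (ℍ → ℂ)}
variable {F : Type*} [Field F] [Algebra R F] [IsFractionRing R F]

/-- The embedding `F →+* LaurentSeries ℂ` attached to `γ`: `q_N`-expansion of `(Φ f) ∘ γ⁻¹`. -/
def cuspEmb (hΦ : IsCuspFamily N Φ) (hinj : Function.Injective Φ) (γ : SL(2, ℤ)) :
    F →+* LaurentSeries ℂ :=
  cuspHomFrac (natCast_pos_of_neZero N) (conjHom Φ γ) (hΦ.isMeroPeriodic γ)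
    (conjHom_injective Φ hinj γ)

theorem cuspEmb_algebraMap (hΦ : IsCuspFamily N Φ) (hinj : Function.Injective Φ)
    (γ : SL(2, ℤ)) (r : R) :
    cuspEmb (F := F) hΦ hinj γ (algebraMap R F r) = qhExpansion (N : ℝ) (conjHom Φ γ r) :=
  cuspHomFrac_algebraMap _ _ _ _ r

/-- The order function on `F` at the cusp attached to `γ`. -/
def wc (hΦ : IsCuspFamily N Φ) (hinj : Function.Injective Φ) (γ : SL(2, ℤ)) (f : F) : ℤ :=
  (cuspEmb (F := F) hΦ hinj γ f).order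

theorem wc_algebraMap (hΦ : IsCuspFamily N Φ) (hinj : Function.Injective Φ) (γ : SL(2, ℤ))
    (r : R) : wc (F := F) hΦ hinj γ (algebraMap R F r) = wcR N Φ γ r := by
  rw [wc, cuspEmb_algebraMap, wcR]

theorem wc_one (hΦ : IsCuspFamily N Φ) (hinj : Function.Injective Φ) (γ : SL(2, ℤ)) :
    wc (F := F) hΦ hinj γ 1 = 0 := by
  rw [wc, map_one]
  exact HahnSeries.order_one

theorem wc_mul (hΦ : IsCuspFamily N Φ) (hinj : Function.Injective Φ) (γ : SL(2, ℤ))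
    {f g : F} (hf : f ≠ 0) (hg : g ≠ 0) :
    wc (F := F) hΦ hinj γ (f * g) = wc (F := F) hΦ hinj γ f + wc (F := F) hΦ hinj γ g :=
  order_cuspHomFrac_mul _ _ _ _ hf hg

theorem wc_add (hΦ : IsCuspFamily N Φ) (hinj : Function.Injective Φ) (γ : SL(2, ℤ))
    {f g : F} (hfg : f + g ≠ 0) :
    min (wc (F := F) hΦ hinj γ f) (wc (F := F) hΦ hinj γ g) ≤ wc (F := F) hΦ hinj γ (f + g) :=
  order_cuspHomFrac_add _ _ _ _ hfg

/-- `hwc_right` on the image of `R`. -/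
theorem wc_mul_right (hΦ : IsCuspFamily N Φ) (hinj : Function.Injective Φ) (γ : SL(2, ℤ))
    {δ : SL(2, ℤ)} (hδ : δ ∈ Gamma0 N) (r : R) :
    wc (F := F) hΦ hinj (γ * δ) (algebraMap R F r) = wc (F := F) hΦ hinj γ (algebraMap R F r) := by
  rw [wc_algebraMap, wc_algebraMap, wcR_mul_right hΦ γ hδ]

/-- `hwc_T` on the image of `R`. -/
theorem wc_T_mul (hΦ : IsCuspFamily N Φ) (hinj : Function.Injective Φ) (γ : SL(2, ℤ)) (r : R) :
    wc (F := F) hΦ hinj (T * γ) (algebraMap R F r) = wc (F := F) hΦ hinj γ (algebraMap R F r) := by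
  rw [wc_algebraMap, wc_algebraMap, wcR_T_mul hΦ γ]

/-- `hwc_div` on the image of `R`. -/
theorem wc_dvd (hΦ : IsCuspFamily N Φ) (hinj : Function.Injective Φ) (γ : SL(2, ℤ)) {k : ℕ}
    (hkN : k ∣ N) (hk : γ⁻¹ * T ^ k * γ ∈ Gamma0 N) (r : R) :
    ((N / k : ℕ) : ℤ) ∣ wc (F := F) hΦ hinj γ (algebraMap R F r) := by
  rw [wc_algebraMap]
  exact wcR_dvd hΦ γ hkN hk r

end frac

end SL2


end Fermat.Agent.S24.H95
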