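import Mathlib
import Fermat.Prelude.Def_AlgebraicCurve_DivisorClassGroup
import Fermat.Agent.S24.H46_PlacesFromEmb
import Fermat.Agent.S24.H81_PlacesPoints
import Fermat.Agent.S24.H81_Emb
import Fermat.Agent.S24.H95_EmbCusp

/-!
# S24 / T5-cusp : places over `∞` are cusps (helper95)

The cusp analogue of `H81.exists_point_of_place`: every place of `F / K` at which `t` has a pole
is, up to a positive multiple, the order of the `q_h`-expansion along one of the embeddings
`θ x`.
-/

set_option autoImplicit false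

open UpperHalfPlane AlgebraicCurve IntermediateField
open scoped Manifold

noncomputable section

namespace Fermat.Agent.S24.H95

open Fermat.Agent.S24.H4

/-! ### The valuation ring of `LaurentSeries ℂ` -/

theorem isOrdFunction_order :
    H27.IsOrdFunction ℂ (fun x : LaurentSeries ℂ => x.order) where
  map_mul x y hx hy := HahnSeries.order_mul hx hy
  map_add x y _ _ hxy := HahnSeries.min_order_le_order_add hxy
  map_algebraMap a _ := by
    have e : algebraMap ℂ (LaurentSeries ℂ) a = HahnSeries.C a := by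
      rw [HahnSeries.algebraMap_apply']
      simp
    rw [e]
    exact HahnSeries.order_C
  nontrivial := by
    refine ⟨HahnSeries.single (1 : ℤ) (1 : ℂ), ?_, ?_⟩
    · exact HahnSeries.single_ne_zero one_ne_zero
    · show (HahnSeries.single (1 : ℤ) (1 : ℂ)).order ≠ 0
      rw [HahnSeries.order_single one_ne_zero]
      exact one_ne_zero

/-- The valuation ring of `LaurentSeries ℂ`: series without polar part. -/
def laurentOL : ValuationSubring (LaurentSeries ℂ) := isOrdFunction_order.valuationSubring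

theorem mem_laurentOL_iff {x : LaurentSeries ℂ} : x ∈ laurentOL ↔ x = 0 ∨ 0 ≤ x.order :=
  Iff.rfl

theorem mem_laurentOL_of_ne_zero {x : LaurentSeries ℂ} (hx : x ≠ 0) :
    x ∈ laurentOL ↔ 0 ≤ x.order := by
  rw [mem_laurentOL_iff, or_iff_right hx]

theorem not_mem_laurentOL_of_order_neg {x : LaurentSeries ℂ} (hx : x.order < 0) :
    x ∉ laurentOL := by
  rw [mem_laurentOL_iff]
  rintro (rfl | h)
  · rw [HahnSeries.order_zero] at hx
    exact lt_irrefl _ hx
  · omega

variable {K F : Type*} [Field K] [Field F] [Algebra K F]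

/-- **T5, cusp part (abstract form).**  Let `A ⊆ F` be a subalgebra with fraction field `F`,
`t ∈ A`, and `θ x : A →+* (ℍ → ℂ)` (`x : X`, `#X = [F : K(t)]`) injective ring homs into
`h`-periodic functions meromorphic at the cusp, pairwise distinct, agreeing on `K[t]` and sending
the constant `c` to the constant function `ι c`.  If every `θ x t` has a pole at the cusp, then
every place `v` of `F / K` at which `t` has a pole is, up to a positive multiple `m`, the order
of the `q_h`-expansion along one of the `θ x`. -/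
theorem exists_cusp_of_place (A : Subalgebra K F)
    (hA : ∀ f : F, ∃ a ∈ A, ∃ b ∈ A, b ≠ 0 ∧ f = a / b)
    (t : F) (ht : t ∈ A) [FiniteDimensional K⟮t⟯ F] [Algebra.IsSeparable K⟮t⟯ F]
    {X : Type*} [Fintype X] (hcard : Fintype.card X = Module.finrank K⟮t⟯ F)
    (ι : K →+* ℂ) {h : ℝ} (hh : 0 < h) (θ : X → (A →+* (ℍ → ℂ)))
    (hmero : ∀ x f, IsMeroPeriodic h (θ x f))
    (hinj : ∀ x, Function.Injective (θ x))
    (hconst : ∀ x (c : K), θ x (algebraMap K A c) = fun _ => ι c)
    (hagree : ∀ x y, ∀ c ∈ Algebra.adjoin K {(⟨t, ht⟩ : A)}, θ x c = θ y c)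
    (hdist : ∀ x y, x ≠ y → ∃ f, θ x f ≠ θ y f)
    (hpole : ∀ x, (qhExpansion h (θ x ⟨t, ht⟩)).order < 0)
    (v : Place K F) (hv : v.ord t < 0) :
    ∃ x : X, ∃ m : ℕ, 0 < m ∧
      ∀ f : A, f ≠ 0 → (qhExpansion h (θ x f)).order = m * v.ord (f : F) := by
  classical
  haveI : IsFractionRing A F := H81.isFractionRing_of_forall_div A hA
  set σ : X → (F →+* LaurentSeries ℂ) :=
    fun x => cuspHomFrac hh (θ x) (hmero x) (hinj x) with hσdef
  have hσA : ∀ x (f : A), σ x (f : F) = qhExpansion h (θ x f) :=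
    fun x f => cuspHomFrac_algebraMap hh (θ x) (hmero x) (hinj x) f
  -- distinctness
  have hσinj : Function.Injective σ := by
    intro x y hxy
    by_contra hne
    obtain ⟨f, hf⟩ := hdist x y hne
    apply hf
    apply qhExpansion_inj hh (hmero x f) (hmero y f)
    rw [← hσA, ← hσA, hxy]
  -- agreement on `K(t)`
  have hagreeA : ∀ x y, ∀ c ∈ Algebra.adjoin K {(⟨t, ht⟩ : A)}, σ x (c : F) = σ y (c : F) := by
    intro x y c hc
    rw [hσA, hσA, hagree x y c hc]
  have haeval : ∀ r : Polynomial K, ∃ c ∈ Algebra.adjoin K {(⟨t, ht⟩ : A)},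
      ((c : A) : F) = Polynomial.aeval t r := by
    intro r
    refine ⟨Polynomial.aeval (⟨t, ht⟩ : A) r, ?_, ?_⟩
    · rw [Algebra.adjoin_singleton_eq_range_aeval]
      exact ⟨r, rfl⟩
    · have := Polynomial.aeval_algHom_apply A.val (⟨t, ht⟩ : A) r
      simpa using this.symm
  have hagree' : ∀ x y, ∀ z ∈ K⟮t⟯, σ x z = σ y z := by
    intro x y z hz
    obtain ⟨r, s, rfl⟩ := (mem_adjoin_simple_iff K z).mp hz
    obtain ⟨c, hc, hcr⟩ := haeval r
    obtain ⟨d, hd, hds⟩ := haeval s
    rw [map_div₀, map_div₀, ← hcr, ← hds, hagreeA x y c hc, hagreeA x y d hd]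
  -- constants
  have hconstσ : ∀ x (c : K), σ x (algebraMap K F c) = HahnSeries.C (ι c) := by
    intro x c
    have h1 : algebraMap K F c = ((algebraMap K A c : A) : F) := rfl
    rw [h1, hσA, hconst x c, qhExpansion_const hh]
  have hK : ∀ x (c : K), σ x (algebraMap K F c) ∈ laurentOL := by
    intro x c
    rw [hconstσ, mem_laurentOL_iff]
    right
    rw [HahnSeries.order_C]
  -- the pole
  have hpole' : ∀ x, σ x t ∉ laurentOL := by
    intro x
    have h1 : t = (((⟨t, ht⟩ : A)) : F) := rfl
    rw [h1, hσA]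
    exact not_mem_laurentOL_of_order_neg (hpole x)
  obtain ⟨x, hx⟩ := H46.exists_embedding_of_place_pole t laurentOL σ hσinj hcard hagree' hK
    hpole' v hv
  refine ⟨x, ?_⟩
  have hne : ∀ f : F, f ≠ 0 → σ x f ≠ 0 := fun f hf => (map_ne_zero (σ x)).mpr hf
  obtain ⟨m, hm, hmv⟩ := H81.exists_pos_mul_ord_of_laurent v (σ x)
    (fun c hc => by
      rw [hconstσ]
      exact HahnSeries.order_C)
    (fun f hf => by
      rw [hx f, mem_laurentOL_of_ne_zero (hne f hf)])
  refine ⟨m, hm, fun f hf => ?_⟩
  have hfF : (f : F) ≠ 0 := fun h0 => hf (Subtype.ext h0)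
  rw [← hmv (f : F) hfF, hσA]

end Fermat.Agent.S24.H95
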