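import Mathlib
import Fermat.Agent.S24.H76_Inst
import Fermat.Agent.S24.H81_EmbTheta
import Fermat.Agent.S24.H95_CuspPlaces
import Fermat.Agent.S24.H46_Separable
import Fermat.Agent.S24.H40_M123

set_option autoImplicit false
set_option linter.unusedSectionVars false

/-!
# S24 / SQZ : the closed form of `ModInputs` (M4–M7 with no remaining hypothesis)

`helper76`.  `place_cusp` is instantiated from helper95's abstract `H95.exists_cusp_of_place`,
`place_fin` is helper81's `H81.place_fin`, degree/finiteness are helper40's `H40.finrank_FN`.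
-/

open UpperHalfPlane CongruenceSubgroup ModularGroup AlgebraicCurve IntermediateField
open scoped MatrixGroups Manifold

noncomputable section

namespace Fermat.Agent.S24.H76

variable (N : ℕ) [NeZero N]

/-- **T5, cusp part, concrete form** (`place_cusp` of `ModInputs`). -/
theorem place_cusp [FiniteDimensional Qbar⟮jBar N⟯ (FN N)]
    (hcard : Module.finrank Qbar⟮jBar N⟯ (FN N) = Nat.card (H24.XN N))
    (v : Place Qbar (FN N)) (hv : v.ord (jBar N) < 0) :
    ∃ γ : SL(2, ℤ), ∃ m : ℤ, 0 < m ∧
      ∀ f ∈ (H17.A N : Set (FN N)), f ≠ 0 →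
        ordInfN N (H17.thetaConj N γ f) = m * v.ord f := by
  classical
  haveI : Algebra.IsSeparable Qbar⟮jBar N⟯ (FN N) := H46.isSeparable_FN N
  have hN0 : N ≠ 0 := NeZero.ne N
  have hN : (0 : ℝ) < (N : ℝ) := by exact_mod_cast Nat.pos_of_ne_zero hN0
  have hcard' : Fintype.card (H24.XN N) = Module.finrank Qbar⟮jBar N⟯ (FN N) := by
    rw [hcard, Nat.card_eq_fintype_card]
  obtain ⟨x, m, hm, hx⟩ := H95.exists_cusp_of_place (K := Qbar) (F := FN N) (H17.A N)
    (H40.exists_div_AN N) (jBar N) (H17.jBar_mem_A N) hcard' H17.iota hN (H17.thetaXHom N)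
    (fun x f => isMeroPeriodic_thetaConj N f.2 (Quotient.out x))
    (H17.thetaXHom_injective N)
    (fun x c => H17.thetaConj_algebraMap N (Quotient.out x) c)
    (by
      intro x y c hc
      have hc' : (c : FN N) ∈ Algebra.adjoin Qbar {jBar N} := by
        have h1 : (H17.A N).val c ∈
            (Algebra.adjoin Qbar {(⟨jBar N, H17.jBar_mem_A N⟩ : H17.A N)}).map (H17.A N).val :=
          ⟨c, hc, rfl⟩
        rw [AlgHom.map_adjoin, Set.image_singleton] at h1
        exact h1
      change H17.thetaConj N (Quotient.out x) c = H17.thetaConj N (Quotient.out y) c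
      rw [H17.thetaConj_of_mem_adjoin_jBar N hc', H17.thetaConj_of_mem_adjoin_jBar N hc'])
    (by
      intro x y hxy
      refine ⟨⟨jd N N dvd_rfl, H17.jd_mem_A N N dvd_rfl⟩, fun h => hxy ?_⟩
      exact H17.thetaX_jd_injective N h)
    (by
      intro x
      change (H4.qhExpansion (N : ℝ) (H17.thetaConj N (Quotient.out x) (jBar N))).order < 0
      rw [H17.thetaConj_jBar, (qhExpansion_nat_J hN0).2]
      have : (0 : ℤ) < (N : ℤ) := by exact_mod_cast Nat.pos_of_ne_zero hN0
      omega)
    v hv
  refine ⟨Quotient.out x, (m : ℤ), by exact_mod_cast hm, ?_⟩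
  intro f hf hf0
  exact hx ⟨f, hf⟩ (fun h => hf0 (congrArg Subtype.val h))

/-- **The closed form**: all fields of `ModInputs` are proved, given the degree of
`FN N / Qbar(j)` (T6). -/
theorem modInputs_of_finrank [FiniteDimensional Qbar⟮jBar N⟯ (FN N)]
    (hdeg : Module.finrank Qbar⟮jBar N⟯ (FN N) = Nat.card (H24.XN N)) :
    ModInputs N (H17.A N : Set (FN N)) (H17.Theta N) H17.iota (ordInfN N) :=
  modInputs' N (H81.place_fin N hdeg) (fun v hv => place_cusp N hdeg v hv)

/-- **The closed form, no hypothesis at all.** -/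
theorem modInputs_final :
    ModInputs N (H17.A N : Set (FN N)) (H17.Theta N) H17.iota (ordInfN N) := by
  haveI := H40.finiteDimensional_FN N
  exact modInputs_of_finrank N (H40.finrank_FN_eq_natCard N)

end Fermat.Agent.S24.H76
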