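import Mathlib
import Fermat.Prelude.Def_AlgebraicCurve_DivisorClassGroup

set_option autoImplicit false

noncomputable section

open IsDedekindDomain Polynomial
open scoped IntermediateField IntermediateField.algebraAdjoinAdjoin

namespace Fermat.Agent.S24.H97

variable {K F : Type*} [Field K] [Field F] [Algebra K F]

/-- `K[t]` as a subalgebra of `F`. -/
abbrev polyRing (K : Type*) {F : Type*} [Field K] [Field F] [Algebra K F] (t : F) :
    Subalgebra K F := Algebra.adjoin K {t}

/-- The integral closure of `K[t]` in `F`. -/
abbrev intRing (K : Type*) {F : Type*} [Field K] [Field F] [Algebra K F] (t : F) :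
    Subalgebra (polyRing K t) F := integralClosure (polyRing K t) F

variable (t : F)

/-- `K[X] ≃ K[t]` for transcendental `t`. -/
def polyEquiv (ht : Transcendental K t) : K[X] ≃ₐ[K] polyRing K t :=
  (AlgEquiv.ofInjective (aeval t) (transcendental_iff_injective.mp ht)).trans
    (Subalgebra.equivOfEq _ _ (Algebra.adjoin_singleton_eq_range_aeval K t).symm)

theorem polyEquiv_X (ht : Transcendental K t) :
    ((polyEquiv t ht X : polyRing K t) : F) = t := by
  simp [polyEquiv]

theorem isPrincipalIdealRing_polyRing (ht : Transcendental K t) :
    IsPrincipalIdealRing (polyRing K t) :=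
  IsPrincipalIdealRing.of_surjective (polyEquiv t ht : K[X] →+* polyRing K t)
    (polyEquiv t ht).surjective

theorem isDedekindDomain_polyRing (ht : Transcendental K t) :
    IsDedekindDomain (polyRing K t) :=
  haveI := isPrincipalIdealRing_polyRing t ht
  inferInstance

variable [FiniteDimensional K⟮t⟯ F] [CharZero K]

theorem isDedekindDomain_intRing (ht : Transcendental K t) :
    IsDedekindDomain (intRing K t) := by
  haveI := isDedekindDomain_polyRing t ht
  exact integralClosure.isDedekindDomain (polyRing K t) K⟮t⟯ F

omit [CharZero K] in
theorem isFractionRing_intRing :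
    IsFractionRing (intRing K t) F :=
  IsIntegralClosure.isFractionRing_of_finite_extension (polyRing K t) K⟮t⟯ F (intRing K t)

end Fermat.Agent.S24.H97
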