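import Fermat.Agent.S24.H28_JBridge

set_option autoImplicit false

noncomputable section

open Filter Topology Metric UpperHalfPlane ModularForm MatrixGroups Function
  Matrix.SpecialLinearGroup
open scoped Real Manifold

local notation "𝕢" => Periodic.qParam

namespace Fermat.Agent.S24.H28

theorem eulerPhi_zero : eulerPhi 0 = 1 := by
  simp [eulerPhi]

theorem e4Disc_zero : e4Disc 0 = 1 := by
  have h := hasSum_taylorPS differentiableOn_e4Disc (q := 0) (by simp)
  have h2 : HasSum (fun m : ℕ => (taylorPS e4Disc).coeff m * (0 : ℂ) ^ m)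
      ((taylorPS e4Disc).coeff 0) := by
    convert hasSum_single (α := ℂ) 0 ?_ using 1
    · simp
    · intro b hb; simp [hb]
  rw [h.unique h2, taylorPS_e4Disc]
  simp [ModularCurve.eisenstein4]

theorem jDisc_zero : jDisc 0 = 1 := by
  simp [jDisc, eulerPhi_zero, e4Disc_zero]

theorem J_eq_jDisc_div (τ : ℍ) : J τ = jDisc (𝕢 1 τ) / 𝕢 1 τ := by
  rw [jDisc_qParam, mul_div_cancel_left₀ _ (Periodic.qParam_ne_zero _)]

theorem norm_qParam_one (τ : ℍ) : ‖𝕢 1 (τ : ℂ)‖ = Real.exp (-2 * π * τ.im) := by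
  rw [Periodic.norm_qParam]
  simp

/-- Growth bound: on `Im τ ≥ c > 0`, `‖J τ‖ ≤ C * exp (2 π Im τ)`. -/
theorem exists_norm_J_le {c : ℝ} (hc : 0 < c) :
    ∃ C : ℝ, 0 ≤ C ∧ ∀ τ : ℍ, c ≤ τ.im → ‖J τ‖ ≤ C * Real.exp (2 * π * τ.im) := by
  set r : ℝ := Real.exp (-2 * π * c) with hr
  have hr1 : r < 1 := by
    rw [hr, Real.exp_lt_one_iff]
    have : 0 < 2 * π * c := by positivity
    linarith
  have hr0 : 0 < r := Real.exp_pos _
  have hcont : ContinuousOn jDisc (closedBall 0 r) :=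
    differentiableOn_jDisc.continuousOn.mono (closedBall_subset_ball hr1)
  obtain ⟨C, hC⟩ := (isCompact_closedBall (0 : ℂ) r).exists_bound_of_continuousOn hcont
  refine ⟨max C 0, le_max_right _ _, fun τ hτ => ?_⟩
  have hq : ‖𝕢 1 (τ : ℂ)‖ ≤ r := by
    rw [norm_qParam_one, hr]
    apply Real.exp_le_exp.mpr
    have : 2 * π * c ≤ 2 * π * τ.im := by
      apply mul_le_mul_of_nonneg_left hτ (by positivity)
    linarith
  have hj := hC (𝕢 1 τ) (by simpa using hq)
  rw [J_eq_jDisc_div, norm_div, norm_qParam_one, div_eq_mul_inv, ← Real.exp_neg]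
  have : -(-2 * π * τ.im) = 2 * π * τ.im := by ring
  rw [this]
  exact mul_le_mul_of_nonneg_right (hj.trans (le_max_left _ _)) (Real.exp_pos _).le

/-- `1 / (J - a)` tends to `0` at `i∞`. -/
theorem tendsto_inv_J_sub_atImInfty (a : ℂ) :
    Tendsto (fun τ : ℍ => (J τ - a)⁻¹) atImInfty (𝓝 0) := by
  have h1 : Tendsto (fun τ : ℍ => 𝕢 1 τ) atImInfty (𝓝 0) := qParam_tendsto_atImInfty one_pos
  have hc : ContinuousAt jDisc 0 :=
    (differentiableOn_jDisc.differentiableAt (ball_mem_nhds 0 one_pos)).continuousAt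
  have h2 : Tendsto (fun τ : ℍ => jDisc (𝕢 1 τ)) atImInfty (𝓝 1) := by
    have := hc.tendsto.comp h1
    rwa [jDisc_zero] at this
  have h3 : Tendsto (fun τ : ℍ => 𝕢 1 τ / (jDisc (𝕢 1 τ) - a * 𝕢 1 τ)) atImInfty
      (𝓝 (0 / (1 - a * 0))) :=
    h1.div (h2.sub (tendsto_const_nhds.mul h1)) (by simp)
  simp only [mul_zero, sub_zero, div_one] at h3
  refine h3.congr fun τ => ?_
  have hq : 𝕢 1 (τ : ℂ) ≠ 0 := Periodic.qParam_ne_zero _
  rw [J_eq_jDisc_div, ← inv_div]
  congr 1
  field_simp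

theorem J_slash_zero (a : ℂ) (γ : SL(2, ℤ)) :
    (fun τ : ℍ => (J τ - a)⁻¹) ∣[(0 : ℤ)] γ = fun τ : ℍ => (J τ - a)⁻¹ := by
  ext τ
  rw [SL_slash_apply]
  simp only [neg_zero, zpow_zero, mul_one]
  rw [J_smul]

/-- The `j`-function is surjective. -/
theorem J_surjective : Function.Surjective J := by
  intro a
  by_contra hne
  push Not at hne
  have hne' : ∀ τ, J τ - a ≠ 0 := fun τ h => hne τ (sub_eq_zero.mp h)
  -- the weight zero modular form `1 / (J - a)`
  have hz : IsZeroAtImInfty (fun τ : ℍ => (J τ - a)⁻¹) := tendsto_inv_J_sub_atImInfty a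
  let f : ModularForm 𝒮ℒ 0 :=
    { toFun := fun τ : ℍ => (J τ - a)⁻¹
      slash_action_eq' := by
        rintro A ⟨γ, rfl⟩
        exact J_slash_zero a γ
      holo' := by
        have h := J_mdiff
        rw [UpperHalfPlane.mdifferentiable_iff] at h ⊢
        refine ((h.sub (differentiableOn_const a)).inv fun z hz => hne' _).congr fun z hz => ?_
        simp [Function.comp]
      bdd_at_cusps' := by
        intro c hc
        rw [OnePoint.isBoundedAt_iff_forall_SL2Z hc]
        intro γ _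
        rw [J_slash_zero a γ]
        exact hz.isBoundedAtImInfty }
  obtain ⟨c, hc⟩ := ModularFormClass.levelOne_weight_zero_const f
  have hc' : ∀ τ : ℍ, (J τ - a)⁻¹ = c := fun τ => congrFun hc τ
  have hc0 : c = 0 := by
    have h1 : Tendsto (fun τ : ℍ => (J τ - a)⁻¹) atImInfty (𝓝 c) := by
      simp only [hc']
      exact tendsto_const_nhds
    exact tendsto_nhds_unique h1 hz
  have := hc' (⟨Complex.I, by simp⟩ : ℍ)
  rw [hc0, inv_eq_zero] at this
  exact hne' _ this

end Fermat.Agent.S24.H28
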