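import Fermat.Agent.S24.H8_Hol

/-!
Maps on `Hol` and `MerH`: precomposition with `γ : SL(2,ℤ)`, the valuation ring of `ordMer τ₀`,
and the extension of an injective ring hom `R →+* Hol` to the fraction field of `R`.
-/

set_option autoImplicit false

open UpperHalfPlane
open scoped Manifold MatrixGroups Topology

noncomputable section

namespace Fermat.Agent.S24.H8

/-! ### Precomposition with the modular group -/

theorem det_SL_pos (γ : SL(2, ℤ)) : 0 < ((γ : GL (Fin 2) ℝ)).det.val := by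
  simp

theorem det_SL_pos' (γ : SL(2, ℤ)) : 0 < ((γ : GL (Fin 2) ℝ)).val.det := by
  rw [← Matrix.GeneralLinearGroup.val_det_apply]
  exact det_SL_pos γ

theorem mdiff_comp_smul {g : ℍ → ℂ} (hg : MDiff g) (γ : SL(2, ℤ)) :
    MDiff (fun τ : ℍ => g (γ • τ)) :=
  hg.comp (mdifferentiable_smul (det_SL_pos γ))

/-- precomposition with the action of `γ`, as an algebra endomorphism of `Hol`. -/
def compSL (γ : SL(2, ℤ)) : Hol →ₐ[ℂ] Hol where
  toFun g := ⟨fun τ => (g : ℍ → ℂ) (γ • τ), mdiff_comp_smul g.2 γ⟩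
  map_one' := rfl
  map_mul' _ _ := rfl
  map_zero' := rfl
  map_add' _ _ := rfl
  commutes' _ := rfl

@[simp] theorem compSL_apply (γ : SL(2, ℤ)) (g : Hol) (τ : ℍ) :
    (compSL γ g : ℍ → ℂ) τ = (g : ℍ → ℂ) (γ • τ) := rfl

theorem analyticOrderAt_comp_smul (g : ℍ → ℂ) (γ : SL(2, ℤ)) (τ₀ : ℍ) :
    analyticOrderAt ((fun τ : ℍ => g (γ • τ)) ∘ ofComplex) (τ₀ : ℂ) =
      analyticOrderAt (g ∘ ofComplex) ((γ • τ₀ : ℍ) : ℂ) := by
  let G : ℂ → ℂ := fun z => ((γ : GL (Fin 2) ℝ) • ofComplex z : ℍ)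
  have hcomp : ((fun τ : ℍ => g (γ • τ)) ∘ ofComplex) = (g ∘ ofComplex) ∘ G := by
    ext z
    simp [G]
  rw [hcomp, analyticOrderAt_comp_of_deriv_ne_zero (τ₀.analyticAt_smul (det_SL_pos' γ))
    (τ₀.deriv_smul_ne_zero (det_SL_pos' γ))]
  simp

theorem ordHol_compSL (γ : SL(2, ℤ)) (g : Hol) (τ₀ : ℍ) :
    ordHol τ₀ (compSL γ g) = ordHol (γ • τ₀) g := by
  unfold ordHol analyticOrderNatAt
  have := analyticOrderAt_comp_smul (g : ℍ → ℂ) γ τ₀
  rw [show ((compSL γ g : Hol) : ℍ → ℂ) = fun τ : ℍ => (g : ℍ → ℂ) (γ • τ) from rfl, this]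

theorem compSL_injective (γ : SL(2, ℤ)) : Function.Injective (compSL γ) := by
  intro a b hab
  apply Subtype.ext
  funext τ
  have := congrArg (fun g : Hol => (g : ℍ → ℂ) (γ⁻¹ • τ)) hab
  simpa [compSL_apply, smul_smul] using this

/-! ### Fields of `isOrdFunction_ordMer` in plain form, and the valuation ring -/

theorem ordMer_mul (τ₀ : ℍ) {x y : MerH} (hx : x ≠ 0) (hy : y ≠ 0) :
    ordMer τ₀ (x * y) = ordMer τ₀ x + ordMer τ₀ y :=
  (isOrdFunction_ordMer τ₀).map_mul x y hx hy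

theorem ordMer_add (τ₀ : ℍ) {x y : MerH} (hx : x ≠ 0) (hy : y ≠ 0) (hxy : x + y ≠ 0) :
    min (ordMer τ₀ x) (ordMer τ₀ y) ≤ ordMer τ₀ (x + y) :=
  (isOrdFunction_ordMer τ₀).map_add x y hx hy hxy

/-- The valuation ring of `ordMer τ₀`: fractions of holomorphic functions without pole at `τ₀`. -/
def OMer (τ₀ : ℍ) : ValuationSubring MerH := (isOrdFunction_ordMer τ₀).valuationSubring

theorem mem_OMer_iff (τ₀ : ℍ) {x : MerH} (hx : x ≠ 0) : x ∈ OMer τ₀ ↔ 0 ≤ ordMer τ₀ x := by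
  unfold OMer
  rw [(isOrdFunction_ordMer τ₀).mem_valuationSubring_iff]
  constructor
  · rintro (h | h)
    · exact absurd h hx
    · exact h
  · exact fun h => Or.inr h

theorem ordMer_const (τ₀ : ℍ) {c : ℂ} (hc : c ≠ 0) :
    ordMer τ₀ (algebraMap Hol MerH (algebraMap ℂ Hol c)) = 0 := by
  have hne : algebraMap ℂ Hol c ≠ 0 := by
    intro h
    have := congrArg (fun g : Hol => (g : ℍ → ℂ) τ₀) h
    exact hc (by simpa using this)
  rw [ordMer_algebraMap τ₀ hne, ordHol_algebraMap τ₀ hc]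

/-! ### Corestriction to `Hol` and extension to fraction fields -/

section lift

variable {R : Type*} [CommRing R]

/-- A ring hom into functions on `ℍ` with holomorphic values, corestricted to `Hol`. -/
def toHol (Φ : R →+* (ℍ → ℂ)) (hΦ : ∀ r, MDiff (Φ r)) : R →+* Hol :=
  Φ.codRestrict Hol hΦ

@[simp] theorem toHol_apply (Φ : R →+* (ℍ → ℂ)) (hΦ : ∀ r, MDiff (Φ r)) (r : R) :
    ((toHol Φ hΦ r : Hol) : ℍ → ℂ) = Φ r := rfl

theorem toHol_injective (Φ : R →+* (ℍ → ℂ)) (hΦ : ∀ r, MDiff (Φ r))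
    (hinj : Function.Injective Φ) : Function.Injective (toHol Φ hΦ) := by
  intro a b hab
  apply hinj
  have := congrArg (fun g : Hol => (g : ℍ → ℂ)) hab
  simpa using this

variable [IsDomain R] {F : Type*} [Field F] [Algebra R F] [IsFractionRing R F]

/-- Extension of an injective ring hom `R →+* Hol` to the fraction field `F` of `R`. -/
def liftMer (Φ : R →+* Hol) (hΦ : Function.Injective Φ) : F →+* MerH :=
  IsFractionRing.lift (g := (algebraMap Hol MerH).comp Φ)
    (algebraMap_MerH_injective.comp hΦ)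

theorem liftMer_algebraMap (Φ : R →+* Hol) (hΦ : Function.Injective Φ) (a : R) :
    liftMer (F := F) Φ hΦ (algebraMap R F a) = algebraMap Hol MerH (Φ a) := by
  unfold liftMer
  rw [IsFractionRing.lift_algebraMap]
  rfl

theorem liftMer_div (Φ : R →+* Hol) (hΦ : Function.Injective Φ) (a b : R) :
    liftMer (F := F) Φ hΦ (algebraMap R F a / algebraMap R F b) =
      algebraMap Hol MerH (Φ a) / algebraMap Hol MerH (Φ b) := by
  rw [map_div₀, liftMer_algebraMap, liftMer_algebraMap]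

theorem ordMer_liftMer_algebraMap (Φ : R →+* Hol) (hΦ : Function.Injective Φ) (τ₀ : ℍ)
    {a : R} (ha : a ≠ 0) :
    ordMer τ₀ (liftMer (F := F) Φ hΦ (algebraMap R F a)) = ordHol τ₀ (Φ a) := by
  rw [liftMer_algebraMap, ordMer_algebraMap τ₀ ((map_ne_zero_iff Φ hΦ).mpr ha)]

theorem ordMer_liftMer_div (Φ : R →+* Hol) (hΦ : Function.Injective Φ) (τ₀ : ℍ)
    {a b : R} (ha : a ≠ 0) (hb : b ≠ 0) :
    ordMer τ₀ (liftMer (F := F) Φ hΦ (algebraMap R F a / algebraMap R F b)) =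
      ordHol τ₀ (Φ a) - ordHol τ₀ (Φ b) := by
  rw [liftMer_div, ordMer_div τ₀ ((map_ne_zero_iff Φ hΦ).mpr ha)
    ((map_ne_zero_iff Φ hΦ).mpr hb)]

end lift

/-! ### Transfer of the order function along a field embedding -/

/-- If `σ : F →+* MerH` sends the constants of `K` to nonzero constant functions, then
`ordMer τ₀ ∘ σ` is an order function on `F` over `K` as soon as it is nontrivial. -/
theorem isOrdFunction_comp {K F : Type*} [Field K] [Field F] [Algebra K F] (σ : F →+* MerH)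
    (ι : K →+* ℂ) (hσ : ∀ c : K, σ (algebraMap K F c) = algebraMap Hol MerH (algebraMap ℂ Hol (ι c)))
    (τ₀ : ℍ) (hnt : ∃ f : F, f ≠ 0 ∧ ordMer τ₀ (σ f) ≠ 0) :
    H27.IsOrdFunction K (fun f => ordMer τ₀ (σ f)) where
  map_mul := by
    intro f g hf hg
    simp only [map_mul]
    exact ordMer_mul τ₀ ((map_ne_zero σ).mpr hf) ((map_ne_zero σ).mpr hg)
  map_add := by
    intro f g hf hg hfg
    simp only [map_add]
    exact ordMer_add τ₀ ((map_ne_zero σ).mpr hf) ((map_ne_zero σ).mpr hg)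
      (by rw [← map_add]; exact (map_ne_zero σ).mpr hfg)
  map_algebraMap := by
    intro c hc
    rw [hσ c]
    exact ordMer_const τ₀ ((map_ne_zero ι).mpr hc)
  nontrivial := hnt

end Fermat.Agent.S24.H8
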