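import Mathlib
import Fermat.Agent.S24.H95_EmbCusp
import Fermat.Agent.S24.H28_J1

/-!
# S24 / EMB-cusp : the expansion of `J` at the cusp in the parameter `q_N` (helper95)

`J` is `N`-periodic, meromorphic at the cusp, and its `q_N`-expansion has order exactly `-N`.
Hence for a family `Φ` with `Φ jj = J`, `wcR N Φ γ jj = -N` for every `γ` (`hwc_j`).
-/

set_option autoImplicit false

open Complex Filter Function
open UpperHalfPlane hiding I
open scoped Real Topology Manifold MatrixGroups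

noncomputable section

namespace Fermat.Agent.S24.H95

open Fermat.Agent.S24.H4
open Fermat.Agent.S24.H28 (hasSum_jNum)

local notation "𝕢" => Periodic.qParam

theorem J_vadd_one (τ : ℍ) : H28.J ((1 : ℝ) +ᵥ τ) = H28.J τ := by
  rw [← modular_T_smul, H28.J_smul]

theorem hasSum_J_one (τ : ℍ) :
    HasSum (fun n : ℕ => ((ModularCurve.jNum.coeff n : ℤ) : ℂ) * qFun 1 τ ^ n)
      (qFun 1 τ ^ 1 * H28.J τ) := by
  simpa [qFun] using hasSum_jNum τ

theorem periodic_J_one : Periodic (H28.J ∘ ofComplex) (1 : ℝ) :=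
  periodic_comp_ofComplex_iff.mpr J_vadd_one

/-- `J` is `1`-periodic and meromorphic at the cusp. -/
theorem isMeroPeriodic_J_one : IsMeroPeriodic 1 H28.J :=
  IsMeroPeriodic.of_hasSum one_pos H28.J_mdiff periodic_J_one hasSum_J_one

theorem isBoundedAtImInfty_qFun_mul_J : IsBoundedAtImInfty (qFun 1 ^ 1 * H28.J) :=
  isBoundedAtImInfty_of_hasSum_qExpansion one_pos
    (c := fun n : ℕ => ((ModularCurve.jNum.coeff n : ℤ) : ℂ))
    (by simpa [smul_eq_mul, qFun] using hasSum_J_one)

theorem qhExpansion_one_J_coeff (m : ℕ) :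
    (qhExpansion 1 H28.J).coeff ((m : ℤ) - 1) = ((ModularCurve.jNum.coeff m : ℤ) : ℂ) := by
  have := qhExpansion_coeff_of_hasSum one_pos H28.J_mdiff periodic_J_one hasSum_J_one m
  simpa using this

theorem qhExpansion_one_J_coeff_neg_one : (qhExpansion 1 H28.J).coeff (-1) = 1 := by
  have := qhExpansion_one_J_coeff 0
  simp only [Nat.cast_zero, zero_sub, PowerSeries.coeff_zero_eq_constantCoeff,
    ModularCurve.constantCoeff_jNum, Int.cast_one] at this
  exact this

theorem qhExpansion_one_J_coeff_of_lt {n : ℤ} (hn : n < -1) : (qhExpansion 1 H28.J).coeff n = 0 :=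
  qhExpansion_coeff_of_lt one_pos isMeroPeriodic_J_one isBoundedAtImInfty_qFun_mul_J
    (by push_cast; exact hn)

variable (N : ℕ) [NeZero N]

/-- `J` is `N`-periodic and meromorphic at the cusp. -/
theorem isMeroPeriodic_J : IsMeroPeriodic (N : ℝ) H28.J := by
  have := isMeroPeriodic_mul_period one_pos isMeroPeriodic_J_one
    (Nat.pos_of_ne_zero (NeZero.ne N))
  rwa [mul_one] at this

theorem qhExpansion_J_coeff (n : ℤ) :
    (qhExpansion (N : ℝ) H28.J).coeff n =
      if (N : ℤ) ∣ n then (qhExpansion 1 H28.J).coeff (n / N) else 0 := by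
  have := qhExpansion_mul_period_coeff one_pos isMeroPeriodic_J_one
    (Nat.pos_of_ne_zero (NeZero.ne N)) n
  rwa [mul_one] at this

/-- The `q_N`-expansion of `J` has order exactly `-N`. -/
theorem order_qhExpansion_J : (qhExpansion (N : ℝ) H28.J).order = -(N : ℤ) := by
  have hN0 : (N : ℤ) ≠ 0 := by exact_mod_cast NeZero.ne N
  have hNpos : (0 : ℤ) < N := by exact_mod_cast Nat.pos_of_ne_zero (NeZero.ne N)
  have hc : (qhExpansion (N : ℝ) H28.J).coeff (-(N : ℤ)) = 1 := by
    rw [qhExpansion_J_coeff, if_pos (dvd_neg.mpr dvd_rfl), Int.neg_ediv_of_dvd dvd_rfl,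
      Int.ediv_self hN0, qhExpansion_one_J_coeff_neg_one]
  have hne : qhExpansion (N : ℝ) H28.J ≠ 0 := by
    intro h0
    rw [h0, HahnSeries.coeff_zero] at hc
    exact zero_ne_one hc
  apply le_antisymm
  · exact HahnSeries.order_le_of_coeff_ne_zero (by rw [hc]; exact one_ne_zero)
  · by_contra hlt
    rw [not_le] at hlt
    have h1 := HahnSeries.coeff_order_eq_zero.not.mpr hne
    apply h1
    rw [qhExpansion_J_coeff]
    split_ifs with hd
    · apply qhExpansion_one_J_coeff_of_lt
      obtain ⟨m, hm⟩ := hd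
      rw [hm, Int.mul_ediv_cancel_left _ hN0]
      rw [hm] at hlt
      nlinarith
    · rfl

/-- `hwc_j`: if `Φ jj = H28.J`, the order at the cusp of every conjugate of `jj` is `-N`. -/
theorem wcR_of_eq_J {R : Type*} [CommRing R] {Φ : R →+* (ℍ → ℂ)} {jj : R} (hj : Φ jj = H28.J)
    (γ : SL(2, ℤ)) : wcR N Φ γ jj = -(N : ℤ) := by
  have : conjHom Φ γ jj = H28.J := by
    funext τ
    rw [conjHom_apply, hj, H28.J_smul]
  rw [wcR, this, order_qhExpansion_J]

/-- `hwc_j` on the fraction field. -/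
theorem wc_of_eq_J {R : Type*} [CommRing R] {Φ : R →+* (ℍ → ℂ)} {F : Type*} [Field F]
    [Algebra R F] [IsFractionRing R F] (hΦ : IsCuspFamily N Φ) (hinj : Function.Injective Φ)
    {jj : R} (hj : Φ jj = H28.J) (γ : SL(2, ℤ)) :
    wc (F := F) hΦ hinj γ (algebraMap R F jj) = -(N : ℤ) := by
  rw [wc_algebraMap, wcR_of_eq_J N hj]

end Fermat.Agent.S24.H95
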