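import Mathlib
import Fermat.Prelude.Def_ModularCurve_LaurentCoeff
import Fermat.Agent.S24.H15_ConjExpansion
import Fermat.Agent.S24.H4_QhExpansion

/-!
S24 / T2-EXP, part 2 (helper15): the conjugates `τ ↦ Jf (M • (γ • τ))`, `M ∣ N`, are
`IsMeroPeriodic N` (helper4's T1) and their `q_N`-expansion lies in the range of
`coeffMap ι : LaurentSeries k →+* LaurentSeries ℂ`, for `k` algebraically closed of characteristic
zero (e.g. `ℚ̄`).
-/

set_option autoImplicit false

namespace Fermat.Agent.S24.H15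

open Matrix MatrixGroups UpperHalfPlane Function.Periodic ModularCurve
open scoped Manifold

/-- A Laurent series all of whose coefficients lie in the range of `f` is in the range of
`coeffMap f`. -/
theorem exists_coeffMap_eq {R S : Type*} [CommRing R] [CommRing S] (f : R →+* S)
    (y : LaurentSeries S) (hy : ∀ n : ℤ, y.coeff n ∈ Set.range f) :
    ∃ x : LaurentSeries R, coeffMap f x = y := by
  classical
  let co : ℤ → R := fun n => if y.coeff n = 0 then 0 else Classical.choose (hy n)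
  have hco : ∀ n, f (co n) = y.coeff n := by
    intro n
    by_cases h : y.coeff n = 0
    · simp only [co, if_pos h, map_zero, h]
    · simp only [co, if_neg h]
      exact Classical.choose_spec (hy n)
  have hsupp : Function.support co ⊆ y.support := by
    intro n hn
    rw [Function.mem_support] at hn
    rw [HahnSeries.mem_support]
    intro h
    exact hn (by simp only [co, if_pos h])
  refine ⟨⟨co, y.isPWO_support.mono hsupp⟩, ?_⟩
  ext n
  rw [coeffMap_coeff]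
  exact hco n

theorem mem_range_coeffMap_iff {R S : Type*} [CommRing R] [CommRing S] (f : R →+* S)
    (y : LaurentSeries S) :
    y ∈ (coeffMap f).range ↔ ∀ n : ℤ, y.coeff n ∈ Set.range f := by
  constructor
  · rintro ⟨x, rfl⟩ n
    exact ⟨x.coeff n, (coeffMap_coeff f x n).symm⟩
  · intro h
    obtain ⟨x, hx⟩ := exists_coeffMap_eq f y h
    exact ⟨x, hx⟩

section Level

variable (Jf : ℍ → ℂ) (hinv : ∀ (g : SL(2, ℤ)) (τ : ℍ), Jf (g • τ) = Jf τ)
  (N M : ℕ) (hN : 0 < N) (hMN : M ∣ N) (γ : SL(2, ℤ))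

include hinv hMN

/-- The conjugate `τ ↦ Jf (M • (γ • τ))`, `M ∣ N`: holomorphic, `N`-periodic, meromorphic at `i∞`,
with `q_N`-expansion having coefficients in `ι(k)` and a pole of exact order `K > 0`. -/
theorem conj_smul_mero {k : Type*} [Field k] [IsAlgClosed k] [CharZero k] (ι : k →+* ℂ)
    (hJf : MDiff Jf) (c : ℕ → k)
    (hJ : ∀ τ : ℍ, HasSum (fun n : ℕ => ι (c n) * qParam 1 (τ : ℂ) ^ n) (qParam 1 (τ : ℂ) * Jf τ)) :
    H4.IsMeroPeriodic (N : ℝ)
        (fun τ : ℍ => Jf (aff M 0 1 (Nat.pos_of_dvd_of_pos hMN hN) one_pos (γ • τ))) ∧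
      ∃ (K : ℕ) (c' : ℕ → k), 0 < K ∧ (∃ ζ : k, ζ ^ N = 1 ∧ c' 0 = c 0 * ζ) ∧
        H4.qhExpansion (N : ℝ)
            (fun τ : ℍ => Jf (aff M 0 1 (Nat.pos_of_dvd_of_pos hMN hN) one_pos (γ • τ))) =
          HahnSeries.single (-(K : ℤ)) (1 : ℂ) *
            HahnSeries.ofPowerSeries ℤ ℂ (PowerSeries.mk fun m => ι (c' m)) := by
  have hh : (0 : ℝ) < (N : ℝ) := by exact_mod_cast hN
  have hmd := mdiff_conj_smul Jf hinv N M hN hMN γ hJf
  have hper : Function.Periodic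
      ((fun τ : ℍ => Jf (aff M 0 1 (Nat.pos_of_dvd_of_pos hMN hN) one_pos (γ • τ))) ∘ ofComplex)
      (N : ℝ) :=
    H4.periodic_comp_ofComplex_iff.mpr fun τ => periodic_conj_smul Jf hinv N M hN hMN γ τ
  obtain ⟨K, c', hK, hc0, hsum⟩ := exists_hasSum_conj_smul Jf hinv N M hN hMN γ ι c hJ
  exact ⟨H4.IsMeroPeriodic.of_hasSum hh hmd hper (M := K) (c := fun m => ι (c' m)) hsum,
    K, c', hK, hc0, H4.qhExpansion_eq_of_hasSum hh hmd hper (M := K) (c := fun m => ι (c' m)) hsum⟩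

/-- The `q_N`-expansion of a conjugate lies in the range of `coeffMap ι`. -/
theorem qhExpansion_conj_smul_mem_range {k : Type*} [Field k] [IsAlgClosed k] [CharZero k]
    (ι : k →+* ℂ) (hJf : MDiff Jf) (c : ℕ → k)
    (hJ : ∀ τ : ℍ, HasSum (fun n : ℕ => ι (c n) * qParam 1 (τ : ℂ) ^ n) (qParam 1 (τ : ℂ) * Jf τ)) :
    H4.qhExpansion (N : ℝ)
        (fun τ : ℍ => Jf (aff M 0 1 (Nat.pos_of_dvd_of_pos hMN hN) one_pos (γ • τ))) ∈
      (coeffMap ι).range := by
  obtain ⟨-, K, c', -, -, h⟩ := conj_smul_mero Jf hinv N M hN hMN γ ι hJf c hJ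
  rw [h]
  refine ⟨HahnSeries.single (-(K : ℤ)) (1 : k) * HahnSeries.ofPowerSeries ℤ k (PowerSeries.mk c'),
    ?_⟩
  rw [map_mul, coeffMap_single, map_one]
  congr 1
  ext n
  rw [coeffMap_coeff]
  rcases lt_or_ge n 0 with hn | hn
  · rw [H4.ofPowerSeries_coeff_of_neg _ hn]
    have : (HahnSeries.ofPowerSeries ℤ k (PowerSeries.mk c')).coeff n = 0 := by
      rw [HahnSeries.ofPowerSeries_apply]
      apply HahnSeries.embDomain_of_notMem_range
      rintro ⟨m, hm⟩
      have : (0 : ℤ) ≤ n := by rw [← hm]; exact Int.natCast_nonneg m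
      omega
    rw [this, map_zero]
  · obtain ⟨m, rfl⟩ := Int.eq_ofNat_of_zero_le hn
    rw [HahnSeries.ofPowerSeries_apply_coeff, HahnSeries.ofPowerSeries_apply_coeff,
      PowerSeries.coeff_mk, PowerSeries.coeff_mk]

/-- The order at `i∞` (in `q_N`) of a conjugate is `-K` for some `K > 0`, if the leading
coefficient `c 0` of `q * Jf` is nonzero. -/
theorem order_qhExpansion_conj_smul {k : Type*} [Field k] [IsAlgClosed k] [CharZero k]
    (ι : k →+* ℂ) (hJf : MDiff Jf) (c : ℕ → k) (hc0 : c 0 ≠ 0)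
    (hJ : ∀ τ : ℍ, HasSum (fun n : ℕ => ι (c n) * qParam 1 (τ : ℂ) ^ n) (qParam 1 (τ : ℂ) * Jf τ)) :
    ∃ K : ℕ, 0 < K ∧ (H4.qhExpansion (N : ℝ)
        (fun τ : ℍ => Jf (aff M 0 1 (Nat.pos_of_dvd_of_pos hMN hN) one_pos (γ • τ)))).order =
      -(K : ℤ) := by
  obtain ⟨-, K, c', hK, ⟨ζ, hζ, hc'0⟩, h⟩ := conj_smul_mero Jf hinv N M hN hMN γ ι hJf c hJ
  refine ⟨K, hK, ?_⟩
  have hζ0 : ζ ≠ 0 := by
    intro h0
    rw [h0, zero_pow hN.ne'] at hζ
    exact zero_ne_one hζ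
  have hlead : ι (c' 0) ≠ 0 := by
    rw [hc'0]
    exact (map_ne_zero ι).mpr (mul_ne_zero hc0 hζ0)
  set P : PowerSeries ℂ := PowerSeries.mk fun m => ι (c' m) with hP
  have hcoeff0 : (HahnSeries.ofPowerSeries ℤ ℂ P).coeff ((0 : ℕ) : ℤ) = ι (c' 0) := by
    rw [HahnSeries.ofPowerSeries_apply_coeff, hP, PowerSeries.coeff_mk]
  have hcoeff0' : (HahnSeries.ofPowerSeries ℤ ℂ P).coeff 0 ≠ 0 := by
    have : (((0 : ℕ) : ℤ)) = 0 := rfl
    rw [← this, hcoeff0]
    exact hlead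
  have hne : HahnSeries.ofPowerSeries ℤ ℂ P ≠ 0 := HahnSeries.ne_zero_of_coeff_ne_zero hcoeff0'
  have hP0 : (HahnSeries.ofPowerSeries ℤ ℂ P).order = 0 := by
    apply le_antisymm
    · exact HahnSeries.order_le_of_coeff_ne_zero hcoeff0'
    · by_contra hlt
      rw [not_le] at hlt
      exact hne (HahnSeries.coeff_order_eq_zero.mp (H4.ofPowerSeries_coeff_of_neg P hlt))
  rw [h, HahnSeries.order_single_mul_of_isRegular isRegular_one hne, hP0, add_zero]

end Level

end Fermat.Agent.S24.H15
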