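import Mathlib
import Fermat.Agent.S24.H15_ConjExpansion
import Fermat.Agent.S24.H28_J1

/-!
S24 / KEY-c (helper15): the `ℂ`-subalgebra `Grow` of `ℍ → ℂ` of holomorphic functions all of whose
`SL(2,ℤ)`-translates have at most exponential growth `C * exp (2π M Im τ)` on `Im τ ≥ 1`.
It contains the constants and `τ ↦ J (d τ)`, is stable under translation by `SL(2,ℤ)`, and
for finite families the constants `(C, M)` can be chosen uniformly.
-/

set_option autoImplicit false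

namespace Fermat.Agent.S24.H15

open Matrix MatrixGroups UpperHalfPlane
open scoped Manifold

/-- Monotonicity of the bound `C * exp (2π M y)` in `C` and `M` (for `y ≥ 0`). -/
theorem growBound_mono {C C' : ℝ} {M M' : ℕ} (hC : C ≤ C') (hC' : 0 ≤ C') (hM : M ≤ M') {y : ℝ}
    (hy : 0 ≤ y) :
    C * Real.exp (2 * Real.pi * M * y) ≤ C' * Real.exp (2 * Real.pi * M' * y) := by
  have h1 : Real.exp (2 * Real.pi * M * y) ≤ Real.exp (2 * Real.pi * M' * y) := by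
    apply Real.exp_le_exp.mpr
    have hM' : (M : ℝ) ≤ M' := by exact_mod_cast hM
    have : 0 ≤ 2 * Real.pi * y := by have := Real.pi_pos; positivity
    nlinarith
  calc C * Real.exp (2 * Real.pi * M * y) ≤ C' * Real.exp (2 * Real.pi * M * y) :=
        mul_le_mul_of_nonneg_right hC (Real.exp_pos _).le
    _ ≤ C' * Real.exp (2 * Real.pi * M' * y) := mul_le_mul_of_nonneg_left h1 hC'

/-- `g` is holomorphic on `ℍ` and every `SL(2,ℤ)`-translate has at most exponential growth. -/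
def IsGrow (g : ℍ → ℂ) : Prop :=
  MDiff g ∧ ∀ γ : SL(2, ℤ), ∃ (C : ℝ) (M : ℕ), ∀ τ : ℍ, 1 ≤ τ.im →
    ‖g (γ • τ)‖ ≤ C * Real.exp (2 * Real.pi * M * τ.im)

namespace IsGrow

variable {f g : ℍ → ℂ}

theorem mdiff (hg : IsGrow g) : MDiff g := hg.1

/-- The bound with a nonnegative constant. -/
theorem exists_bound (hg : IsGrow g) (γ : SL(2, ℤ)) :
    ∃ (C : ℝ) (M : ℕ), 0 ≤ C ∧ ∀ τ : ℍ, 1 ≤ τ.im →
      ‖g (γ • τ)‖ ≤ C * Real.exp (2 * Real.pi * M * τ.im) := by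
  obtain ⟨C, M, h⟩ := hg.2 γ
  refine ⟨|C|, M, abs_nonneg C, fun τ hτ => (h τ hτ).trans ?_⟩
  exact growBound_mono (le_abs_self C) (abs_nonneg C) le_rfl (by linarith)

theorem const (c : ℂ) : IsGrow (fun _ : ℍ => c) := by
  refine ⟨mdifferentiable_const, fun γ => ⟨‖c‖, 0, fun τ _ => ?_⟩⟩
  simp

theorem zero : IsGrow (0 : ℍ → ℂ) := const 0

theorem one : IsGrow (1 : ℍ → ℂ) := const 1

theorem add (hf : IsGrow f) (hg : IsGrow g) : IsGrow (f + g) := by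
  refine ⟨hf.1.add hg.1, fun γ => ?_⟩
  obtain ⟨C₁, M₁, hC₁, h₁⟩ := hf.exists_bound γ
  obtain ⟨C₂, M₂, hC₂, h₂⟩ := hg.exists_bound γ
  refine ⟨C₁ + C₂, M₁ + M₂, fun τ hτ => ?_⟩
  have hy : (0 : ℝ) ≤ τ.im := by linarith
  calc ‖(f + g) (γ • τ)‖ ≤ ‖f (γ • τ)‖ + ‖g (γ • τ)‖ := norm_add_le _ _
    _ ≤ C₁ * Real.exp (2 * Real.pi * M₁ * τ.im) + C₂ * Real.exp (2 * Real.pi * M₂ * τ.im) :=
        add_le_add (h₁ τ hτ) (h₂ τ hτ)
    _ ≤ C₁ * Real.exp (2 * Real.pi * (M₁ + M₂ : ℕ) * τ.im) +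
          C₂ * Real.exp (2 * Real.pi * (M₁ + M₂ : ℕ) * τ.im) :=
        add_le_add (growBound_mono le_rfl hC₁ (Nat.le_add_right _ _) hy)
          (growBound_mono le_rfl hC₂ (Nat.le_add_left _ _) hy)
    _ = (C₁ + C₂) * Real.exp (2 * Real.pi * (M₁ + M₂ : ℕ) * τ.im) := by ring

theorem mul (hf : IsGrow f) (hg : IsGrow g) : IsGrow (f * g) := by
  refine ⟨hf.1.mul hg.1, fun γ => ?_⟩
  obtain ⟨C₁, M₁, hC₁, h₁⟩ := hf.exists_bound γ
  obtain ⟨C₂, M₂, hC₂, h₂⟩ := hg.exists_bound γ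
  refine ⟨C₁ * C₂, M₁ + M₂, fun τ hτ => ?_⟩
  calc ‖(f * g) (γ • τ)‖ = ‖f (γ • τ)‖ * ‖g (γ • τ)‖ := norm_mul _ _
    _ ≤ (C₁ * Real.exp (2 * Real.pi * M₁ * τ.im)) * (C₂ * Real.exp (2 * Real.pi * M₂ * τ.im)) :=
        mul_le_mul (h₁ τ hτ) (h₂ τ hτ) (norm_nonneg _)
          (mul_nonneg hC₁ (Real.exp_pos _).le)
    _ = (C₁ * C₂) * Real.exp (2 * Real.pi * (M₁ + M₂ : ℕ) * τ.im) := by
        rw [mul_mul_mul_comm, ← Real.exp_add]
        congr 2
        push_cast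
        ring

theorem neg (hf : IsGrow f) : IsGrow (-f) := by
  refine ⟨hf.1.neg, fun γ => ?_⟩
  obtain ⟨C, M, h⟩ := hf.2 γ
  exact ⟨C, M, fun τ hτ => by simpa using h τ hτ⟩

theorem sub (hf : IsGrow f) (hg : IsGrow g) : IsGrow (f - g) := by
  simpa [sub_eq_add_neg] using hf.add hg.neg

theorem smul (c : ℂ) (hf : IsGrow f) : IsGrow (c • f) := by
  have : c • f = (fun _ => c) * f := by ext τ; simp
  rw [this]
  exact (const c).mul hf

theorem pow (hf : IsGrow f) (n : ℕ) : IsGrow (f ^ n) := by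
  induction n with
  | zero => rw [pow_zero]; exact one
  | succ n ih => rw [pow_succ]; exact ih.mul hf

end IsGrow

/-- The `ℂ`-subalgebra of holomorphic functions on `ℍ` all of whose `SL(2,ℤ)`-translates have at
most exponential growth. -/
def Grow : Subalgebra ℂ (ℍ → ℂ) where
  carrier := {g | IsGrow g}
  mul_mem' hf hg := hf.mul hg
  one_mem' := IsGrow.one
  add_mem' hf hg := hf.add hg
  zero_mem' := IsGrow.zero
  algebraMap_mem' c := IsGrow.const c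

theorem mem_Grow {g : ℍ → ℂ} : g ∈ Grow ↔ IsGrow g := Iff.rfl

theorem IsGrow.sum {ι : Type*} (s : Finset ι) {f : ι → ℍ → ℂ} (hf : ∀ i ∈ s, IsGrow (f i)) :
    IsGrow (∑ i ∈ s, f i) :=
  Grow.sum_mem hf

theorem IsGrow.prod {ι : Type*} (s : Finset ι) {f : ι → ℍ → ℂ} (hf : ∀ i ∈ s, IsGrow (f i)) :
    IsGrow (∏ i ∈ s, f i) :=
  Grow.prod_mem hf

/-- The action of `SL(2,ℤ)` on `ℍ` is holomorphic. -/
theorem mdiff_SL_smul (γ : SL(2, ℤ)) : MDiff (fun τ : ℍ => γ • τ) := by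
  have h : (0 : ℝ) < ((Matrix.SpecialLinearGroup.mapGL ℝ γ : GL (Fin 2) ℝ).det : ℝˣ).val := by
    simp
  exact UpperHalfPlane.mdifferentiable_smul h

/-- Translates of holomorphic functions are holomorphic. -/
theorem mdiff_comp_SL_smul {g : ℍ → ℂ} (hg : MDiff g) (γ : SL(2, ℤ)) :
    MDiff (fun τ : ℍ => g (γ • τ)) :=
  hg.comp (mdiff_SL_smul γ)

/-- `Grow` is stable under translation by `SL(2,ℤ)`. -/
theorem IsGrow.comp_smul {g : ℍ → ℂ} (hg : IsGrow g) (γ : SL(2, ℤ)) :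
    IsGrow (fun τ : ℍ => g (γ • τ)) := by
  refine ⟨mdiff_comp_SL_smul hg.1 γ, fun γ' => ?_⟩
  obtain ⟨C, M, h⟩ := hg.2 (γ * γ')
  refine ⟨C, M, fun τ hτ => ?_⟩
  have := h τ hτ
  rwa [mul_smul] at this

/-- Uniform constants for a finite family of functions in `Grow` and of translates. -/
theorem exists_uniform_bound {X : Type*} [Finite X] (g : X → ℍ → ℂ) (hg : ∀ x, IsGrow (g x))
    (γ : X → SL(2, ℤ)) :
    ∃ (C : ℝ) (M : ℕ), 0 ≤ C ∧ ∀ (x : X) (τ : ℍ), 1 ≤ τ.im →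
      ‖g x (γ x • τ)‖ ≤ C * Real.exp (2 * Real.pi * M * τ.im) := by
  classical
  cases nonempty_fintype X
  choose C M hC h using fun x => (hg x).exists_bound (γ x)
  refine ⟨∑ x, C x, ∑ x, M x, Finset.sum_nonneg fun x _ => hC x, fun x τ hτ => ?_⟩
  refine (h x τ hτ).trans (growBound_mono ?_ (Finset.sum_nonneg fun x _ => hC x) ?_ (by linarith))
  · exact Finset.single_le_sum (f := C) (fun y _ => hC y) (Finset.mem_univ x)
  · exact Finset.single_le_sum (f := M) (fun y _ => Nat.zero_le _) (Finset.mem_univ x)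

/-- Uniform constants for one function in `Grow` and a finite family of translates. -/
theorem IsGrow.exists_uniform_bound {g : ℍ → ℂ} (hg : IsGrow g) {X : Type*} [Finite X]
    (γ : X → SL(2, ℤ)) :
    ∃ (C : ℝ) (M : ℕ), 0 ≤ C ∧ ∀ (x : X) (τ : ℍ), 1 ≤ τ.im →
      ‖g (γ x • τ)‖ ≤ C * Real.exp (2 * Real.pi * M * τ.im) :=
  Fermat.Agent.S24.H15.exists_uniform_bound (fun _ => g) (fun _ => hg) γ

/-- `τ ↦ J (d τ)` lies in `Grow`. -/
theorem isGrow_J_aff (d : ℕ) (hd : 0 < d) :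
    IsGrow (fun τ : ℍ => H28.J (aff d 0 1 hd one_pos τ)) := by
  refine ⟨mdiff_conj H28.J H28.J_mdiff d 0 1 hd one_pos, fun γ => ?_⟩
  have hd' : (0 : ℝ) < (d : ℝ) := by exact_mod_cast hd
  obtain ⟨C, hC, hbd⟩ := H28.exists_norm_J_le (c := 1 / (d : ℝ)) (by positivity)
  refine ⟨C, d, fun τ hτ => ?_⟩
  have := norm_conj_smul_le H28.J H28.J_smul d d hd (dvd_refl d) γ (1 / (d : ℝ)) C
    (by positivity) hC hbd τ (by rw [one_div, inv_mul_cancel₀ hd'.ne']; exact hτ)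
  exact this

/-- `J` itself lies in `Grow`. -/
theorem isGrow_J : IsGrow H28.J := by
  refine ⟨H28.J_mdiff, fun γ => ?_⟩
  obtain ⟨C, -, hbd⟩ := H28.exists_norm_J_le (c := 1) one_pos
  refine ⟨C, 1, fun τ hτ => ?_⟩
  rw [H28.J_smul]
  simpa using hbd τ hτ

end Fermat.Agent.S24.H15
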