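import Mathlib
import Fermat.Agent.S24.H15_ConjMero
import Fermat.Agent.S24.H15_Grow

/-!
S24 / T2 (helper15): the concrete conjugates `Jconj M γ : τ ↦ J (M • (γ • τ))` of `τ ↦ J (M τ)`
for helper28's analytic `J`: holomorphy, `N`-periodicity (`M ∣ N`), meromorphy at `i∞` in the sense
of helper4's T1, `q_N`-expansion in the range of `coeffMap ι` for any `ι : k →+* ℂ` with `k`
algebraically closed of characteristic zero, exact pole order, growth, coset dependence.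
-/

set_option autoImplicit false

namespace Fermat.Agent.S24.H15

open Matrix MatrixGroups UpperHalfPlane Function.Periodic ModularCurve
open scoped Manifold

/-- `τ ↦ J (M • (γ • τ))`. -/
noncomputable def Jconj (M : ℕ) (hM : 0 < M) (γ : SL(2, ℤ)) : ℍ → ℂ :=
  fun τ => H28.J (aff M 0 1 hM one_pos (γ • τ))

theorem Jconj_apply (M : ℕ) (hM : 0 < M) (γ : SL(2, ℤ)) (τ : ℍ) :
    Jconj M hM γ τ = H28.J (aff M 0 1 hM one_pos (γ • τ)) := rfl

theorem Jconj_one (M : ℕ) (hM : 0 < M) (τ : ℍ) :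
    Jconj M hM 1 τ = H28.J (aff M 0 1 hM one_pos τ) := by
  rw [Jconj_apply, one_smul]

theorem Jconj_smul (M : ℕ) (hM : 0 < M) (γ γ' : SL(2, ℤ)) (τ : ℍ) :
    Jconj M hM γ (γ' • τ) = Jconj M hM (γ * γ') τ := by
  rw [Jconj_apply, Jconj_apply, mul_smul]

/-- The `q`-expansion of `J` with coefficients in any field of characteristic zero. -/
theorem hasSum_J_of_ringHom {k : Type*} [Field k] (ι : k →+* ℂ) (τ : ℍ) :
    HasSum (fun n : ℕ => ι (((jNum.coeff n : ℤ) : k)) * qParam 1 (τ : ℂ) ^ n)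
      (qParam 1 (τ : ℂ) * H28.J τ) := by
  have h := H28.hasSum_jNum τ
  simpa using h

theorem J_hasym : Filter.Tendsto (fun τ : ℍ => qParam 1 (τ : ℂ) * H28.J τ) atImInfty (nhds 1) := by
  have h1 : Filter.Tendsto (fun τ : ℍ => qParam 1 (τ : ℂ)) atImInfty (nhds 0) :=
    UpperHalfPlane.qParam_tendsto_atImInfty one_pos
  have hc : ContinuousAt H28.jDisc 0 :=
    (H28.differentiableOn_jDisc.differentiableAt (Metric.ball_mem_nhds 0 one_pos)).continuousAt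
  have h2 := hc.tendsto.comp h1
  rw [H28.jDisc_zero] at h2
  refine h2.congr fun τ => ?_
  simp only [Function.comp]
  exact H28.jDisc_qParam τ

/-- Coset dependence and distinctness: `Jconj M γ₁ = Jconj M γ₂ ↔ γ₁ γ₂⁻¹ ∈ Γ₀(M)`. -/
theorem Jconj_eq_iff (M : ℕ) (hM : 0 < M) (γ₁ γ₂ : SL(2, ℤ)) :
    Jconj M hM γ₁ = Jconj M hM γ₂ ↔ γ₁ * γ₂⁻¹ ∈ CongruenceSubgroup.Gamma0 M := by
  rw [← conj_eq_iff_mem_Gamma0 H28.J H28.J_smul J_hasym M hM γ₁ γ₂]
  exact ⟨fun h τ => congr_fun h τ, fun h => funext h⟩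

theorem Jconj_mdiff (M : ℕ) (hM : 0 < M) (γ : SL(2, ℤ)) : MDiff (Jconj M hM γ) :=
  mdiff_conj_smul H28.J H28.J_smul M M hM (dvd_refl M) γ H28.J_mdiff

theorem isGrow_Jconj (M : ℕ) (hM : 0 < M) (γ : SL(2, ℤ)) : IsGrow (Jconj M hM γ) :=
  (isGrow_J_aff M hM).comp_smul γ

section Level

variable (N M : ℕ) (hN : 0 < N) (hMN : M ∣ N) (γ : SL(2, ℤ))

include hMN

theorem Jconj_vadd (τ : ℍ) :
    Jconj M (Nat.pos_of_dvd_of_pos hMN hN) γ (((N : ℕ) : ℝ) +ᵥ τ) =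
      Jconj M (Nat.pos_of_dvd_of_pos hMN hN) γ τ :=
  periodic_conj_smul H28.J H28.J_smul N M hN hMN γ τ

theorem isMeroPeriodic_Jconj :
    H4.IsMeroPeriodic (N : ℝ) (Jconj M (Nat.pos_of_dvd_of_pos hMN hN) γ) :=
  (conj_smul_mero H28.J H28.J_smul N M hN hMN γ (RingHom.id ℂ) H28.J_mdiff
    (fun n => ((jNum.coeff n : ℤ) : ℂ)) (hasSum_J_of_ringHom _)).1

/-- The `q_N`-expansion of `Jconj M γ` has coefficients in `ι(k)`. -/
theorem qhExpansion_Jconj_mem_range {k : Type*} [Field k] [IsAlgClosed k] [CharZero k]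
    (ι : k →+* ℂ) :
    H4.qhExpansion (N : ℝ) (Jconj M (Nat.pos_of_dvd_of_pos hMN hN) γ) ∈ (coeffMap ι).range :=
  qhExpansion_conj_smul_mem_range H28.J H28.J_smul N M hN hMN γ ι H28.J_mdiff
    (fun n => ((jNum.coeff n : ℤ) : k)) (hasSum_J_of_ringHom ι)

/-- The `q_N`-expansion of `Jconj M γ` has a pole of order `K > 0`. -/
theorem order_qhExpansion_Jconj :
    ∃ K : ℕ, 0 < K ∧
      (H4.qhExpansion (N : ℝ) (Jconj M (Nat.pos_of_dvd_of_pos hMN hN) γ)).order = -(K : ℤ) := by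
  refine order_qhExpansion_conj_smul H28.J H28.J_smul N M hN hMN γ (RingHom.id ℂ) H28.J_mdiff
    (fun n => ((jNum.coeff n : ℤ) : ℂ)) ?_ (hasSum_J_of_ringHom _)
  have h0 : jNum.coeff 0 = 1 := by
    rw [PowerSeries.coeff_zero_eq_constantCoeff]
    exact constantCoeff_jNum
  simp [h0]

end Level


/-! ## Conjugates indexed by the coset space `SL(2,ℤ) ⧸ Γ₀(N)`

Convention (S24, C2): the conjugate attached to the left coset `x = γ Γ₀(N)` is
`τ ↦ J (M • (γ⁻¹ • τ))`, so that `JX (γ • x) τ = JX x (γ⁻¹ • τ)`. -/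

theorem Gamma0_le_of_dvd {N M : ℕ} (hMN : M ∣ N) :
    CongruenceSubgroup.Gamma0 N ≤ CongruenceSubgroup.Gamma0 M := by
  intro A hA
  rw [CongruenceSubgroup.Gamma0_mem, ZMod.intCast_zmod_eq_zero_iff_dvd] at hA ⊢
  exact (Int.natCast_dvd_natCast.mpr hMN).trans hA

theorem Jconj_inv_eq_of_coset (N M : ℕ) (hM : 0 < M) (hMN : M ∣ N) (γ₁ γ₂ : SL(2, ℤ))
    (h : γ₁⁻¹ * γ₂ ∈ CongruenceSubgroup.Gamma0 N) :
    Jconj M hM γ₁⁻¹ = Jconj M hM γ₂⁻¹ := by
  rw [Jconj_eq_iff, inv_inv]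
  exact Gamma0_le_of_dvd hMN h

/-- The conjugate of `τ ↦ J (M τ)` attached to `x ∈ SL(2,ℤ) ⧸ Γ₀(N)` (`M ∣ N`). -/
noncomputable def JX (N M : ℕ) (hM : 0 < M) (hMN : M ∣ N)
    (x : SL(2, ℤ) ⧸ CongruenceSubgroup.Gamma0 N) : ℍ → ℂ :=
  Quotient.liftOn' x (fun γ => Jconj M hM γ⁻¹) (by
    intro γ₁ γ₂ h
    rw [QuotientGroup.leftRel_apply] at h
    exact Jconj_inv_eq_of_coset N M hM hMN γ₁ γ₂ h)

theorem JX_mk (N M : ℕ) (hM : 0 < M) (hMN : M ∣ N) (γ : SL(2, ℤ)) :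
    JX N M hM hMN (γ : SL(2, ℤ) ⧸ CongruenceSubgroup.Gamma0 N) = Jconj M hM γ⁻¹ := rfl

theorem JX_one (N M : ℕ) (hM : 0 < M) (hMN : M ∣ N) (τ : ℍ) :
    JX N M hM hMN ((1 : SL(2, ℤ)) : SL(2, ℤ) ⧸ CongruenceSubgroup.Gamma0 N) τ =
      H28.J (aff M 0 1 hM one_pos τ) := by
  rw [JX_mk, inv_one, Jconj_one]

/-- Equivariance: `JX (γ • x) τ = JX x (γ⁻¹ • τ)`. -/
theorem JX_smul (N M : ℕ) (hM : 0 < M) (hMN : M ∣ N) (γ : SL(2, ℤ))
    (x : SL(2, ℤ) ⧸ CongruenceSubgroup.Gamma0 N) (τ : ℍ) :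
    JX N M hM hMN (γ • x) τ = JX N M hM hMN x (γ⁻¹ • τ) := by
  induction x using QuotientGroup.induction_on with
  | H γ' =>
    rw [MulAction.Quotient.smul_mk, JX_mk, JX_mk, Jconj_smul, smul_eq_mul, _root_.mul_inv_rev]

/-- Distinct cosets of `Γ₀(N)` give distinct conjugates of `τ ↦ J (N τ)`. -/
theorem JX_injective (N : ℕ) (hN : 0 < N) : Function.Injective (JX N N hN (dvd_refl N)) := by
  intro x y
  induction x using QuotientGroup.induction_on with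
  | H γ₁ =>
    induction y using QuotientGroup.induction_on with
    | H γ₂ =>
      intro h
      rw [JX_mk, JX_mk, Jconj_eq_iff, inv_inv] at h
      exact QuotientGroup.eq.mpr h

theorem JX_mdiff (N M : ℕ) (hM : 0 < M) (hMN : M ∣ N)
    (x : SL(2, ℤ) ⧸ CongruenceSubgroup.Gamma0 N) : MDiff (JX N M hM hMN x) := by
  induction x using QuotientGroup.induction_on with
  | H γ => exact Jconj_mdiff M hM γ⁻¹

theorem isGrow_JX (N M : ℕ) (hM : 0 < M) (hMN : M ∣ N)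
    (x : SL(2, ℤ) ⧸ CongruenceSubgroup.Gamma0 N) : IsGrow (JX N M hM hMN x) := by
  induction x using QuotientGroup.induction_on with
  | H γ => exact isGrow_Jconj M hM γ⁻¹

theorem isMeroPeriodic_JX (N M : ℕ) (hN : 0 < N) (hMN : M ∣ N)
    (x : SL(2, ℤ) ⧸ CongruenceSubgroup.Gamma0 N) :
    H4.IsMeroPeriodic (N : ℝ) (JX N M (Nat.pos_of_dvd_of_pos hMN hN) hMN x) := by
  induction x using QuotientGroup.induction_on with
  | H γ => exact isMeroPeriodic_Jconj N M hN hMN γ⁻¹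

theorem qhExpansion_JX_mem_range (N M : ℕ) (hN : 0 < N) (hMN : M ∣ N)
    (x : SL(2, ℤ) ⧸ CongruenceSubgroup.Gamma0 N)
    {k : Type*} [Field k] [IsAlgClosed k] [CharZero k] (ι : k →+* ℂ) :
    H4.qhExpansion (N : ℝ) (JX N M (Nat.pos_of_dvd_of_pos hMN hN) hMN x) ∈ (coeffMap ι).range := by
  induction x using QuotientGroup.induction_on with
  | H γ => exact qhExpansion_Jconj_mem_range N M hN hMN γ⁻¹ ι

theorem order_qhExpansion_JX (N M : ℕ) (hN : 0 < N) (hMN : M ∣ N)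
    (x : SL(2, ℤ) ⧸ CongruenceSubgroup.Gamma0 N) :
    ∃ K : ℕ, 0 < K ∧
      (H4.qhExpansion (N : ℝ) (JX N M (Nat.pos_of_dvd_of_pos hMN hN) hMN x)).order = -(K : ℤ) := by
  induction x using QuotientGroup.induction_on with
  | H γ => exact order_qhExpansion_Jconj N M hN hMN γ⁻¹

end Fermat.Agent.S24.H15
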