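import Fermat.Agent.S24.H28_Taylor
import Fermat.Prelude.Def_ModularCurve_X0

set_option autoImplicit false

noncomputable section

open Filter Topology Metric
open scoped Real

namespace Fermat.Agent.S24.H28

open PowerSeries.WithPiTopology in
theorem taylorPS_tprod_one_sub_pow :
    taylorPS (fun q : ℂ => ∏' n : ℕ, (1 - q ^ (n + 1))) =
      ModularCurve.etaProd.map (Int.castRingHom ℂ) := by
  ext k
  let P : Finset ℕ → Polynomial ℤ := fun s => ∏ n ∈ s, (1 - Polynomial.X ^ (n + 1))
  have hFP : ∀ s : Finset ℕ, (fun q : ℂ => ∏ n ∈ s, (1 - q ^ (n + 1))) =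
      fun z => ((P s).map (Int.castRingHom ℂ)).eval z := by
    intro s
    ext z
    simp [P, Polynomial.eval_prod, Polynomial.map_prod]
  -- analytic side
  have h1 : Tendsto (fun s : Finset ℕ => (((P s).coeff k : ℤ) : ℂ)) atTop
      (𝓝 ((taylorPS (fun q : ℂ => ∏' n : ℕ, (1 - q ^ (n + 1)))).coeff k)) := by
    have hloc := ModularForm.multipliableLocallyUniformlyOn_one_sub_pow.hasProdLocallyUniformlyOn
    have := tendsto_coeff_taylorPS (φ := atTop) (F := fun (s : Finset ℕ) (q : ℂ) =>
      ∏ n ∈ s, (1 - q ^ (n + 1))) isOpen_ball (mem_ball_self one_pos) hloc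
      (.of_forall fun s => by
        have : (fun q : ℂ => ∏ n ∈ s, (1 - q ^ (n + 1))) = ∏ n ∈ s, fun q : ℂ => (1 - q ^ (n + 1)) := by
          ext q; simp [Finset.prod_apply]
        rw [this]
        apply DifferentiableOn.finsetProd
        intro i _
        fun_prop) k
    refine this.congr fun s => ?_
    rw [hFP s, taylorPS_polynomial, Polynomial.coeff_coe, Polynomial.coeff_map]
    simp
  -- formal side
  have h2 : Tendsto (fun s : Finset ℕ => (((P s).coeff k : ℤ) : ℂ)) atTop
      (𝓝 (((ModularCurve.etaProd.coeff k : ℤ)) : ℂ)) := by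
    have hprod := (multipliable_one_sub_X_pow ℤ).hasProd
    have hc := ((continuous_coeff ℤ k).tendsto _).comp hprod
    have hc' : Tendsto (fun s : Finset ℕ => (P s).coeff k) atTop
        (𝓝 (ModularCurve.etaProd.coeff k)) := by
      refine hc.congr fun s => ?_
      simp only [Function.comp, P]
      rw [← Polynomial.coeff_coe]
      congr 1
      rw [← Polynomial.coeToPowerSeries.ringHom_apply, map_prod]
      simp [Polynomial.coeToPowerSeries.ringHom_apply]
    exact (continuous_of_discreteTopology (f := fun n : ℤ => (n : ℂ))).continuousAt.tendsto.comp hc'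
  rw [tendsto_nhds_unique h1 h2]
  simp


end Fermat.Agent.S24.H28
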