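import Mathlib

set_option autoImplicit false

noncomputable section

open Filter Topology Metric
open scoped Real

namespace Fermat.Agent.S24.H28

/-- Taylor series at `0` of `g : ℂ → ℂ`, bundled as a power series. -/
def taylorPS (g : ℂ → ℂ) : PowerSeries ℂ :=
  .mk fun m => ((m.factorial : ℕ) : ℂ)⁻¹ * iteratedDeriv m g 0

theorem coeff_taylorPS (g : ℂ → ℂ) (m : ℕ) :
    (taylorPS g).coeff m = ((m.factorial : ℕ) : ℂ)⁻¹ * iteratedDeriv m g 0 := by
  simp [taylorPS]

theorem taylorPS_eq_qExpansion (h : ℝ) (f : UpperHalfPlane → ℂ) :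
    UpperHalfPlane.qExpansion h f = taylorPS (UpperHalfPlane.cuspFunction h f) := rfl

theorem taylorPS_congr {f g : ℂ → ℂ} (h : f =ᶠ[𝓝 0] g) : taylorPS f = taylorPS g := by
  ext m
  rw [coeff_taylorPS, coeff_taylorPS, h.iteratedDeriv_eq m]

theorem taylorPS_mul {f g : ℂ → ℂ} (hf : AnalyticAt ℂ f 0) (hg : AnalyticAt ℂ g 0) :
    taylorPS (f * g) = taylorPS f * taylorPS g := by
  ext
  simp only [coeff_taylorPS, iteratedDeriv_mul hf.contDiffAt hg.contDiffAt, Finset.mul_sum,
    PowerSeries.coeff_mul, Finset.Nat.sum_antidiagonal_eq_sum_range_succ_mk, Nat.succ_eq_add_one]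
  refine Finset.sum_congr rfl fun i hi ↦ ?_
  rw [Nat.cast_choose _ (by grind)]
  field_simp [Nat.factorial_ne_zero]

theorem taylorPS_pow {f : ℂ → ℂ} (hf : AnalyticAt ℂ f 0) (n : ℕ) :
    taylorPS (f ^ n) = taylorPS f ^ n := by
  induction n with
  | zero =>
    ext m
    have h2 : iteratedDeriv m (1 : ℂ → ℂ) 0 = if m = 0 then 1 else 0 := by
      simpa [ite_apply] using! iteratedDeriv_const
    simp +contextual [coeff_taylorPS, h2, PowerSeries.coeff_one]
  | succ n ih =>
    rw [pow_succ, pow_succ, taylorPS_mul (hf.pow n) hf, ih]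

theorem hasSum_taylorPS {g : ℂ → ℂ} (hg : DifferentiableOn ℂ g (ball 0 1)) {q : ℂ}
    (hq : ‖q‖ < 1) : HasSum (fun m : ℕ => (taylorPS g).coeff m * q ^ m) (g q) := by
  convert! Complex.hasSum_taylorSeries_on_ball hg (by simpa using hq) using 2 with m
  grind [coeff_taylorPS, sub_zero, smul_eq_mul]

theorem tendstoLocallyUniformlyOn_iteratedDeriv {ι : Type*} {φ : Filter ι} [φ.NeBot]
    {F : ι → ℂ → ℂ} {f : ℂ → ℂ} {U : Set ℂ} (hU : IsOpen U)
    (hf : TendstoLocallyUniformlyOn F f φ U) (hF : ∀ᶠ n in φ, DifferentiableOn ℂ (F n) U)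
    (k : ℕ) :
    TendstoLocallyUniformlyOn (fun i => iteratedDeriv k (F i)) (iteratedDeriv k f) φ U ∧
      ∀ᶠ n in φ, DifferentiableOn ℂ (iteratedDeriv k (F n)) U := by
  induction k with
  | zero =>
    simp only [iteratedDeriv_zero]
    exact ⟨hf, hF⟩
  | succ k ih =>
    obtain ⟨h1, h2⟩ := ih
    refine ⟨?_, ?_⟩
    · have := h1.deriv h2 hU
      simp only [iteratedDeriv_succ]
      exact this
    · filter_upwards [h2] with n hn
      rw [iteratedDeriv_succ]
      exact hn.deriv hU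

theorem tendsto_coeff_taylorPS {ι : Type*} {φ : Filter ι} [φ.NeBot]
    {F : ι → ℂ → ℂ} {f : ℂ → ℂ} {U : Set ℂ} (hU : IsOpen U) (h0 : (0 : ℂ) ∈ U)
    (hf : TendstoLocallyUniformlyOn F f φ U) (hF : ∀ᶠ n in φ, DifferentiableOn ℂ (F n) U)
    (k : ℕ) :
    Tendsto (fun i => (taylorPS (F i)).coeff k) φ (𝓝 ((taylorPS f).coeff k)) := by
  have h := ((tendstoLocallyUniformlyOn_iteratedDeriv hU hf hF k).1).tendsto_at h0
  simp only [coeff_taylorPS]
  exact h.const_mul _

theorem taylorPS_polynomial (p : Polynomial ℂ) :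
    taylorPS (fun z => p.eval z) = (p : PowerSeries ℂ) := by
  ext m
  rw [coeff_taylorPS, Polynomial.coeff_coe]
  have h : ∀ (k : ℕ) (p : Polynomial ℂ),
      iteratedDeriv k (fun z => p.eval z) = fun z => (Polynomial.derivative^[k] p).eval z := by
    intro k
    induction k with
    | zero => intro p; simp
    | succ k ih =>
      intro p
      rw [iteratedDeriv_succ', Function.iterate_succ_apply]
      have : deriv (fun z => p.eval z) = fun z => (Polynomial.derivative p).eval z := by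
        ext z; exact p.deriv
      rw [this, ih]
  rw [h]
  show _ * Polynomial.eval 0 _ = _
  rw [← Polynomial.coeff_zero_eq_eval_zero, Polynomial.coeff_iterate_derivative]
  simp only [zero_add, Nat.descFactorial_self, nsmul_eq_mul]
  have hne : ((m.factorial : ℕ) : ℂ) ≠ 0 := by exact_mod_cast Nat.factorial_ne_zero m
  field_simp


end Fermat.Agent.S24.H28
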