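import Mathlib
import Fermat.Prelude.Def_ModularCurve_GenusNumerics
import Fermat.Agent.S24.H24_Group
import Fermat.Agent.S24.H37_OrbitCount

/-!
S24 / COMB: fixed points of `S` and `S * T` on `SL(2, ℤ) ⧸ Γ₀(N)`, counted directly
(no projective line model): `#Fix S = nuTwo N`, `#Fix (S * T) = nuThree N`.
-/

namespace Fermat.Agent.S24.H32

open scoped MatrixGroups
open Matrix Matrix.SpecialLinearGroup Fermat.Agent.S24.H24 ModularCurve

/-- The matrix `(0 -1; 1 t)`: `S` for `t = 0`, `S * T` for `t = 1`. -/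
def ellT (t : ℤ) : SL(2, ℤ) := ⟨!![0, -1; 1, t], by simp [Matrix.det_fin_two]⟩

/-- The matrix `(z -1; 1 0)`. -/
def colRep (z : ℤ) : SL(2, ℤ) := ⟨!![z, -1; 1, 0], by simp [Matrix.det_fin_two]⟩

theorem ellT_zero : ellT 0 = ModularGroup.S := by
  apply Subtype.ext
  rw [ModularGroup.coe_S]
  rfl

theorem ellT_one : ellT 1 = ModularGroup.S * ModularGroup.T := by
  apply Subtype.ext
  rw [Matrix.SpecialLinearGroup.coe_mul, ModularGroup.coe_S, ModularGroup.coe_T]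
  ext i j
  fin_cases i <;> fin_cases j <;> simp [ellT, Matrix.mul_apply, Fin.sum_univ_two]

theorem inv_mul_apply_one_zero' (γ δ : SL(2, ℤ)) :
    (γ⁻¹ * δ) 1 0 = -(γ 1 0) * (δ 0 0) + (γ 0 0) * (δ 1 0) := by
  have h1 : (γ⁻¹ * δ).val = γ⁻¹.val * δ.val := rfl
  show (γ⁻¹ * δ).val 1 0 = _
  rw [h1, Matrix.SpecialLinearGroup.coe_inv, Matrix.adjugate_fin_two, Matrix.mul_apply,
    Fin.sum_univ_two]
  simp

theorem ellT_mul_apply_zero_zero (t : ℤ) (γ : SL(2, ℤ)) : (ellT t * γ) 0 0 = -(γ 1 0) := by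
  have h1 : (ellT t * γ).val = (ellT t).val * γ.val := rfl
  show (ellT t * γ).val 0 0 = _
  rw [h1, Matrix.mul_apply, Fin.sum_univ_two]
  simp [ellT]

theorem ellT_mul_apply_one_zero (t : ℤ) (γ : SL(2, ℤ)) :
    (ellT t * γ) 1 0 = γ 0 0 + t * γ 1 0 := by
  have h1 : (ellT t * γ).val = (ellT t).val * γ.val := rfl
  show (ellT t * γ).val 1 0 = _
  rw [h1, Matrix.mul_apply, Fin.sum_univ_two]
  simp [ellT]

theorem conj_ellT_apply_one_zero (t : ℤ) (γ : SL(2, ℤ)) :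
    (γ⁻¹ * (ellT t * γ)) 1 0 = (γ 0 0) ^ 2 + t * (γ 0 0) * (γ 1 0) + (γ 1 0) ^ 2 := by
  rw [inv_mul_apply_one_zero', ellT_mul_apply_zero_zero, ellT_mul_apply_one_zero]
  ring

theorem det_entries (γ : SL(2, ℤ)) : (γ 0 0) * (γ 1 1) - (γ 0 1) * (γ 1 0) = 1 := by
  have h := γ.det_coe
  rw [Matrix.det_fin_two] at h
  exact h

/-- Equality of cosets in terms of the first columns. -/
theorem mk_eq_mk_iff (N : ℕ) (γ δ : SL(2, ℤ)) :
    ((γ : SL(2, ℤ)) : XN N) = (δ : XN N) ↔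
      ((-(γ 1 0) * (δ 0 0) + (γ 0 0) * (δ 1 0) : ℤ) : ZMod N) = 0 := by
  rw [QuotientGroup.eq, CongruenceSubgroup.Gamma0_mem, inv_mul_apply_one_zero']

/-- Fixed point criterion. -/
theorem ellT_smul_mk_eq_iff (N : ℕ) (t : ℤ) (γ : SL(2, ℤ)) :
    ellT t • ((γ : SL(2, ℤ)) : XN N) = (γ : XN N) ↔
      (((γ 0 0) ^ 2 + t * (γ 0 0) * (γ 1 0) + (γ 1 0) ^ 2 : ℤ) : ZMod N) = 0 := by
  rw [MulAction.Quotient.smul_mk, smul_eq_mul, eq_comm, QuotientGroup.eq,
    CongruenceSubgroup.Gamma0_mem, conj_ellT_apply_one_zero]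

theorem colRep_apply_zero_zero (z : ℤ) : (colRep z) 0 0 = z := rfl

theorem colRep_apply_one_zero (z : ℤ) : (colRep z) 1 0 = 1 := rfl

/-- At a fixed coset the lower left entry is a unit mod `N`, with explicit inverse. -/
theorem lowerLeft_mul_eq_one (N : ℕ) (t : ℤ) (γ : SL(2, ℤ))
    (h : (((γ 0 0) ^ 2 + t * (γ 0 0) * (γ 1 0) + (γ 1 0) ^ 2 : ℤ) : ZMod N) = 0) :
    ((γ 1 0 : ℤ) : ZMod N) *
      ((-t * (γ 0 0) * (γ 1 1) ^ 2 - (γ 1 0) * (γ 1 1) ^ 2 - 2 * (γ 0 0) * (γ 0 1) * (γ 1 1)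
        + (γ 0 1) ^ 2 * (γ 1 0) : ℤ) : ZMod N) = 1 := by
  have hdet := det_entries γ
  have key : (γ 1 0) *
      (-t * (γ 0 0) * (γ 1 1) ^ 2 - (γ 1 0) * (γ 1 1) ^ 2 - 2 * (γ 0 0) * (γ 0 1) * (γ 1 1)
        + (γ 0 1) ^ 2 * (γ 1 0)) =
      ((γ 0 0) * (γ 1 1) - (γ 0 1) * (γ 1 0)) ^ 2 -
        (γ 1 1) ^ 2 * ((γ 0 0) ^ 2 + t * (γ 0 0) * (γ 1 0) + (γ 1 0) ^ 2) := by ring
  rw [hdet] at key
  have h' : ((γ 0 0 : ℤ) : ZMod N) ^ 2 + (t : ZMod N) * ((γ 0 0 : ℤ) : ZMod N) *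
      ((γ 1 0 : ℤ) : ZMod N) + ((γ 1 0 : ℤ) : ZMod N) ^ 2 = 0 := by exact_mod_cast h
  rw [← Int.cast_mul, key]
  push_cast
  linear_combination (-((γ 1 1 : ℤ) : ZMod N) ^ 2) * h'

/-- The set of roots of `x ^ 2 + t x + 1` maps bijectively onto the fixed cosets. -/
theorem natCard_fixed_ellT (N : ℕ) (t : ℤ) :
    Nat.card {y : XN N // ellT t • y = y} =
      Nat.card {x : ZMod N // x ^ 2 + (t : ZMod N) * x + 1 = 0} := by
  symm
  refine Nat.card_congr (Equiv.ofBijective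
    (fun x => ⟨((colRep (ZMod.cast x.1 : ℤ) : SL(2, ℤ)) : XN N), ?_⟩) ⟨?_, ?_⟩)
  · -- well defined
    rw [ellT_smul_mk_eq_iff, colRep_apply_zero_zero, colRep_apply_one_zero]
    push_cast
    have := x.2
    linear_combination this
  · -- injective
    intro x x' hxx'
    have h1 := congrArg Subtype.val hxx'
    simp only at h1
    rw [mk_eq_mk_iff, colRep_apply_zero_zero, colRep_apply_one_zero, colRep_apply_zero_zero,
      colRep_apply_one_zero] at h1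
    push_cast at h1
    apply Subtype.ext
    linear_combination h1
  · -- surjective
    rintro ⟨y, hy⟩
    induction y using QuotientGroup.induction_on with
    | H γ =>
      rw [ellT_smul_mk_eq_iff] at hy
      have hu := lowerLeft_mul_eq_one N t γ hy
      set u : ZMod N := ((-t * (γ 0 0) * (γ 1 1) ^ 2 - (γ 1 0) * (γ 1 1) ^ 2
        - 2 * (γ 0 0) * (γ 0 1) * (γ 1 1) + (γ 0 1) ^ 2 * (γ 1 0) : ℤ) : ZMod N) with hu_def
      push_cast at hy
      have hroot : (((γ 0 0 : ℤ) : ZMod N) * u) ^ 2 + (t : ZMod N) * (((γ 0 0 : ℤ) : ZMod N) * u)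
          + 1 = 0 := by
        have e : (((γ 0 0 : ℤ) : ZMod N) * u) ^ 2 + (t : ZMod N) * (((γ 0 0 : ℤ) : ZMod N) * u)
          + 1 = u ^ 2 * (((γ 0 0 : ℤ) : ZMod N) ^ 2 +
            (t : ZMod N) * ((γ 0 0 : ℤ) : ZMod N) * ((γ 1 0 : ℤ) : ZMod N) +
            ((γ 1 0 : ℤ) : ZMod N) ^ 2) := by
          linear_combination (-(t : ZMod N) * ((γ 0 0 : ℤ) : ZMod N) * u
            - ((γ 1 0 : ℤ) : ZMod N) * u - 1) * hu
        rw [e, hy, mul_zero]
      refine ⟨⟨((γ 0 0 : ℤ) : ZMod N) * u, hroot⟩, ?_⟩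
      apply Subtype.ext
      simp only
      rw [mk_eq_mk_iff, colRep_apply_zero_zero, colRep_apply_one_zero]
      push_cast
      linear_combination ((γ 0 0 : ℤ) : ZMod N) * hu

theorem numFixed_perm_eq_natCard (N : ℕ) [NeZero N] (g : SL(2, ℤ)) :
    H37.numFixed (perm N g) = Nat.card {y : XN N // g • y = y} := by
  rw [H37.numFixed, Nat.card_eq_fintype_card, Fintype.card_subtype]
  rfl

/-- `#Fix S = nuTwo N` on `SL(2, ℤ) ⧸ Γ₀(N)` (shape of `H24_Assembly`). -/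
theorem numFixed_perm_S (N : ℕ) [NeZero N] :
    H37.numFixed (perm N ModularGroup.S) = nuTwo N := by
  rw [numFixed_perm_eq_natCard, ← ellT_zero, natCard_fixed_ellT, nuTwo]
  refine Nat.card_congr (Equiv.subtypeEquivRight fun x => ?_)
  simp

/-- `#Fix (S * T) = nuThree N` on `SL(2, ℤ) ⧸ Γ₀(N)` (shape of `H24_Assembly`). -/
theorem numFixed_perm_ST (N : ℕ) [NeZero N] :
    H37.numFixed (perm N (ModularGroup.S * ModularGroup.T)) = nuThree N := by
  rw [numFixed_perm_eq_natCard, ← ellT_one, natCard_fixed_ellT, nuThree]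
  refine Nat.card_congr (Equiv.subtypeEquivRight fun x => ?_)
  simp

/-- Version without `Fintype`: fixed cosets of `S`. -/
theorem natCard_fixed_S (N : ℕ) :
    Nat.card {y : XN N // ModularGroup.S • y = y} = nuTwo N := by
  rw [← ellT_zero, natCard_fixed_ellT, nuTwo]
  refine Nat.card_congr (Equiv.subtypeEquivRight fun x => ?_)
  simp

/-- Version without `Fintype`: fixed cosets of `S * T`. -/
theorem natCard_fixed_ST (N : ℕ) :
    Nat.card {y : XN N // (ModularGroup.S * ModularGroup.T) • y = y} = nuThree N := by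
  rw [← ellT_one, natCard_fixed_ellT, nuThree]
  refine Nat.card_congr (Equiv.subtypeEquivRight fun x => ?_)
  simp

end Fermat.Agent.S24.H32
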