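import Mathlib
import Fermat.Prelude.Def_ModularCurve_GenusNumerics
import Fermat.Agent.S24.H24_Assembly
import Fermat.Agent.S24.H32_FixedPoints
import Fermat.Agent.S20.H86_CuspBridge
import Fermat.Agent.S20.H78_Adapters

/-!
S24 / COMB wrappers in the shapes consumed by `H24_Assembly.genus_eq_genusFormula_of`.
-/

namespace Fermat.Agent.S24.H32

open scoped MatrixGroups
open Fermat.Agent.S24.H24 ModularCurve

/-- `orb N T = cuspCount N` (from helper86's `card_T_orbits`). -/
theorem orb_T_eq_cuspCount (N : ℕ) [NeZero N] : orb N ModularGroup.T = cuspCount N := by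
  rw [← Fermat.Agent.S20.H86.card_T_orbits N]
  exact H6.numOrbits_zpowers_toPerm (X := XN N) ModularGroup.T

/-- `card (XN N) = dedekindPsi N` (from helper78's index computation). -/
theorem card_XN_eq_dedekindPsi (N : ℕ) [NeZero N] : Fintype.card (XN N) = dedekindPsi N :=
  Fermat.Agent.S20.H78.fintype_card_quotient_Gamma0 N

/-- All four combinatorial inputs of `H24.genus_eq_genusFormula_of` at once. -/
theorem comb_inputs (N : ℕ) [NeZero N] :
    Fintype.card (XN N) = dedekindPsi N ∧
    H37.numFixed (perm N ModularGroup.S) = nuTwo N ∧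
    H37.numFixed (perm N (ModularGroup.S * ModularGroup.T)) = nuThree N ∧
    orb N ModularGroup.T = cuspCount N :=
  ⟨card_XN_eq_dedekindPsi N, numFixed_perm_S N, numFixed_perm_ST N, orb_T_eq_cuspCount N⟩

end Fermat.Agent.S24.H32
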