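import Mathlib
import Fermat.Prelude.Def_AlgebraicCurve_DivisorClassGroup

set_option autoImplicit false

noncomputable section

namespace Fermat.Agent.S24.H37

open AlgebraicCurve

variable {K F : Type*} [Field K] [Field F] [Algebra K F]

/-- An abstract `ℤ`-valued order function on the nonzero elements of `F`, trivial on `K`. -/
structure IsOrdFunction (w : F → ℤ) : Prop where
  map_mul : ∀ f g : F, f ≠ 0 → g ≠ 0 → w (f * g) = w f + w g
  map_add : ∀ f g : F, f ≠ 0 → g ≠ 0 → f + g ≠ 0 → min (w f) (w g) ≤ w (f + g)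
  map_algebraMap : ∀ a : K, a ≠ 0 → w (algebraMap K F a) = 0

namespace IsOrdFunction

variable {w : F → ℤ} (hw : IsOrdFunction (K := K) w)

include hw

theorem map_one : w 1 = 0 := by
  have h := hw.map_mul 1 1 one_ne_zero one_ne_zero
  rw [mul_one] at h
  omega

theorem map_neg_one : w (-1) = 0 := by
  have h := hw.map_mul (-1) (-1) (neg_ne_zero.mpr one_ne_zero) (neg_ne_zero.mpr one_ne_zero)
  rw [neg_mul_neg, mul_one, hw.map_one] at h
  omega

theorem map_neg {f : F} (hf : f ≠ 0) : w (-f) = w f := by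
  have h := hw.map_mul (-1) f (neg_ne_zero.mpr one_ne_zero) hf
  rw [neg_one_mul, hw.map_neg_one, zero_add] at h
  exact h

theorem map_inv {f : F} (hf : f ≠ 0) : w f⁻¹ = -w f := by
  have h := hw.map_mul f f⁻¹ hf (inv_ne_zero hf)
  rw [mul_inv_cancel₀ hf, hw.map_one] at h
  omega

theorem map_pow {f : F} (hf : f ≠ 0) (n : ℕ) : w (f ^ n) = n * w f := by
  induction n with
  | zero => simp [hw.map_one]
  | succ n ih =>
    rw [pow_succ, hw.map_mul _ _ (pow_ne_zero n hf) hf, ih]
    push_cast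
    ring

theorem map_zpow {f : F} (hf : f ≠ 0) (n : ℤ) : w (f ^ n) = n * w f := by
  obtain ⟨m, rfl | rfl⟩ := n.eq_nat_or_neg
  · rw [zpow_natCast, hw.map_pow hf]
  · rw [zpow_neg, zpow_natCast, hw.map_inv (pow_ne_zero m hf), hw.map_pow hf]
    ring

/-- The valuation subring `{f | f = 0 ∨ 0 ≤ w f}`. -/
def valuationSubring : ValuationSubring F where
  carrier := {f | f = 0 ∨ 0 ≤ w f}
  mul_mem' := by
    rintro a b (rfl | ha) (rfl | hb)
    · left; simp
    · left; simp
    · left; simp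
    · by_cases ha0 : a = 0
      · left; simp [ha0]
      by_cases hb0 : b = 0
      · left; simp [hb0]
      right
      rw [hw.map_mul a b ha0 hb0]
      omega
  one_mem' := Or.inr (by rw [hw.map_one])
  add_mem' := by
    rintro a b (rfl | ha) (rfl | hb)
    · left; simp
    · rw [zero_add]; exact Or.inr hb
    · rw [add_zero]; exact Or.inr ha
    · by_cases ha0 : a = 0
      · rw [ha0, zero_add]; exact Or.inr hb
      by_cases hb0 : b = 0
      · rw [hb0, add_zero]; exact Or.inr ha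
      by_cases hab : a + b = 0
      · exact Or.inl hab
      right
      have := hw.map_add a b ha0 hb0 hab
      omega
  zero_mem' := Or.inl rfl
  neg_mem' := by
    rintro a (rfl | ha)
    · left; simp
    · by_cases ha0 : a = 0
      · left; simp [ha0]
      right
      rw [hw.map_neg ha0]
      exact ha
  mem_or_inv_mem' := by
    intro a
    by_cases ha0 : a = 0
    · exact Or.inl (Or.inl ha0)
    by_cases h : 0 ≤ w a
    · exact Or.inl (Or.inr h)
    · right
      right
      rw [hw.map_inv ha0]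
      omega

theorem mem_valuationSubring_iff {f : F} :
    f ∈ hw.valuationSubring ↔ f = 0 ∨ 0 ≤ w f := Iff.rfl

theorem mem_valuationSubring_of_ne_zero {f : F} (hf : f ≠ 0) :
    f ∈ hw.valuationSubring ↔ 0 ≤ w f := by
  rw [hw.mem_valuationSubring_iff]
  exact ⟨fun h => h.resolve_left hf, Or.inr⟩

theorem isUnit_iff {a : hw.valuationSubring} (ha : (a : F) ≠ 0) :
    IsUnit a ↔ w (a : F) = 0 := by
  constructor
  · rintro ⟨u, rfl⟩
    have h1 : 0 ≤ w ((u : hw.valuationSubring) : F) :=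
      (hw.mem_valuationSubring_of_ne_zero ha).mp (u : hw.valuationSubring).2
    have hinv : ((u⁻¹ : (hw.valuationSubring)ˣ) : hw.valuationSubring).1
        = ((u : hw.valuationSubring) : F)⁻¹ := by
      have h := congrArg Subtype.val u.mul_inv
      simp only [MulMemClass.coe_mul, OneMemClass.coe_one] at h
      exact eq_inv_of_mul_eq_one_right h
    have h2 : 0 ≤ w (((u : hw.valuationSubring) : F)⁻¹) := by
      have hmem : (((u : hw.valuationSubring) : F)⁻¹) ∈ hw.valuationSubring := by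
        rw [← hinv]; exact Subtype.mem _
      exact (hw.mem_valuationSubring_of_ne_zero (inv_ne_zero ha)).mp hmem
    rw [hw.map_inv ha] at h2
    omega
  · intro h0
    have hmem : (a : F)⁻¹ ∈ hw.valuationSubring :=
      (hw.mem_valuationSubring_of_ne_zero (inv_ne_zero ha)).mpr (by rw [hw.map_inv ha, h0]; simp)
    refine IsUnit.of_mul_eq_one ⟨(a : F)⁻¹, hmem⟩ (Subtype.ext ?_)
    simp [mul_inv_cancel₀ ha]

theorem isPrincipalIdealRing : IsPrincipalIdealRing hw.valuationSubring := by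
  classical
  refine ⟨fun I => ?_⟩
  by_cases hI : I = ⊥
  · subst hI; exact bot_isPrincipal
  -- the set of values of nonzero elements of `I`
  have hne : ∃ x ∈ I, x ≠ 0 := by
    by_contra h
    push Not at h
    exact hI ((Submodule.eq_bot_iff I).mpr h)
  let S : Set ℕ := {n | ∃ x ∈ I, x ≠ 0 ∧ (w (x : F)).toNat = n}
  have hS : S.Nonempty := by
    obtain ⟨x, hx, hx0⟩ := hne
    exact ⟨_, x, hx, hx0, rfl⟩
  obtain ⟨x, hxI, hx0, hxmin⟩ : ∃ x ∈ I, x ≠ 0 ∧ ∀ y ∈ I, y ≠ 0 → w (x : F) ≤ w (y : F) := by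
    have hmem := Nat.sInf_mem hS
    obtain ⟨x, hxI, hx0, hxn⟩ := hmem
    refine ⟨x, hxI, hx0, fun y hyI hy0 => ?_⟩
    have hx0' : (x : F) ≠ 0 := fun h => hx0 (Subtype.ext h)
    have hy0' : (y : F) ≠ 0 := fun h => hy0 (Subtype.ext h)
    have hxw : 0 ≤ w (x : F) := (hw.mem_valuationSubring_of_ne_zero hx0').mp x.2
    have hyw : 0 ≤ w (y : F) := (hw.mem_valuationSubring_of_ne_zero hy0').mp y.2
    have hle : sInf S ≤ (w (y : F)).toNat := Nat.sInf_le ⟨y, hyI, hy0, rfl⟩
    rw [← hxn] at hle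
    omega
  refine ⟨⟨x, ?_⟩⟩
  apply le_antisymm
  · intro y hyI
    by_cases hy0 : y = 0
    · rw [hy0]; exact Submodule.zero_mem _
    have hx0' : (x : F) ≠ 0 := fun h => hx0 (Subtype.ext h)
    have hy0' : (y : F) ≠ 0 := fun h => hy0 (Subtype.ext h)
    have hq : (y : F) / (x : F) ∈ hw.valuationSubring := by
      rw [hw.mem_valuationSubring_of_ne_zero (div_ne_zero hy0' hx0'), div_eq_mul_inv,
        hw.map_mul _ _ hy0' (inv_ne_zero hx0'), hw.map_inv hx0']
      have := hxmin y hyI hy0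
      omega
    rw [Submodule.mem_span_singleton]
    refine ⟨⟨_, hq⟩, Subtype.ext ?_⟩
    simp only [smul_eq_mul, MulMemClass.coe_mul]
    field_simp
  · rw [Submodule.span_le]
    exact Set.singleton_subset_iff.mpr hxI

/-- The place attached to a nontrivial order function. -/
def place (hnt : ∃ f : F, f ≠ 0 ∧ w f ≠ 0) : Place K F where
  toValuationSubring := hw.valuationSubring
  algebraMap_mem' a := by
    by_cases ha : a = 0
    · left; simp [ha]
    · right; rw [hw.map_algebraMap a ha]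
  ne_top' := by
    intro htop
    obtain ⟨f, hf0, hf⟩ := hnt
    have h1 : f ∈ hw.valuationSubring := htop ▸ ValuationSubring.mem_top f
    have h2 : f⁻¹ ∈ hw.valuationSubring := htop ▸ ValuationSubring.mem_top f⁻¹
    rw [hw.mem_valuationSubring_of_ne_zero hf0] at h1
    rw [hw.mem_valuationSubring_of_ne_zero (inv_ne_zero hf0), hw.map_inv hf0] at h2
    omega
  isPrincipalIdealRing' := hw.isPrincipalIdealRing

@[simp]
theorem place_toValuationSubring (hnt : ∃ f : F, f ≠ 0 ∧ w f ≠ 0) :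
    (hw.place hnt).toValuationSubring = hw.valuationSubring := rfl

/-- Main theorem: `w = e * ord` for the attached place, with `e > 0`. -/
theorem exists_pos_eq_mul_ord (hnt : ∃ f : F, f ≠ 0 ∧ w f ≠ 0) :
    ∃ e : ℕ, 0 < e ∧ ∀ f : F, f ≠ 0 → w f = e * (hw.place hnt).ord f := by
  set v := hw.place hnt with hv
  obtain ⟨π, hπ⟩ := IsDiscreteValuationRing.exists_irreducible v.toValuationSubring
  have hπ0 : (π : F) ≠ 0 := by
    intro h
    exact hπ.ne_zero (Subtype.ext h)
  have hπw : 0 ≤ w (π : F) := (hw.mem_valuationSubring_of_ne_zero hπ0).mp π.2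
  have hπpos : 0 < w (π : F) := by
    rcases hπw.lt_or_eq with h | h
    · exact h
    · exact absurd ((hw.isUnit_iff (a := π) hπ0).mpr h.symm) hπ.not_isUnit
  refine ⟨(w (π : F)).toNat, by omega, fun f hf => ?_⟩
  obtain ⟨u, hu⟩ := v.exists_unit_mul_zpow hf hπ
  have hu0 : ((u : v.toValuationSubring) : F) ≠ 0 := by
    intro h
    exact u.ne_zero (Subtype.ext h)
  have huw : w ((u : v.toValuationSubring) : F) = 0 :=
    (hw.isUnit_iff (a := (u : v.toValuationSubring)) hu0).mp u.isUnit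
  have h1 : w f = w ((u : v.toValuationSubring) : F) + w ((π : F) ^ v.ord f) := by
    conv_lhs => rw [hu]
    exact hw.map_mul _ _ hu0 (zpow_ne_zero _ hπ0)
  rw [h1, huw, zero_add, hw.map_zpow hπ0, Int.toNat_of_nonneg hπw]
  ring

end IsOrdFunction

/-- Unbundled form of the main theorem. -/
theorem exists_place_of_ord (w : F → ℤ)
    (hmul : ∀ f g : F, f ≠ 0 → g ≠ 0 → w (f * g) = w f + w g)
    (hadd : ∀ f g : F, f ≠ 0 → g ≠ 0 → f + g ≠ 0 → min (w f) (w g) ≤ w (f + g))
    (hK : ∀ a : K, a ≠ 0 → w (algebraMap K F a) = 0)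
    (hnt : ∃ f : F, f ≠ 0 ∧ w f ≠ 0) :
    ∃ (v : Place K F) (e : ℕ), 0 < e ∧ (∀ f : F, f ≠ 0 → w f = e * v.ord f) ∧
      ∀ f : F, f ∈ v.toValuationSubring ↔ f = 0 ∨ 0 ≤ w f := by
  have hw : IsOrdFunction (K := K) w := ⟨hmul, hadd, hK⟩
  obtain ⟨e, he, h⟩ := hw.exists_pos_eq_mul_ord hnt
  exact ⟨hw.place hnt, e, he, h, fun f => Iff.rfl⟩

end Fermat.Agent.S24.H37
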