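import Mathlib
import Fermat.Agent.S24.Defs
import Fermat.Agent.S24.H15_Conjugates
import Fermat.Agent.S24.H28_J1
import Fermat.Agent.S24.H24_Group
import Fermat.Agent.S24.H40_Generation
import Fermat.Agent.S24.H40_Separation

set_option autoImplicit false

noncomputable section

namespace Fermat.Agent.S24.H40

open UpperHalfPlane ModularCurve Filter Topology
open scoped Manifold MatrixGroups

/-- `q · J → 1` at `i∞`. -/
theorem tendsto_qParam_mul_J :
    Tendsto (fun τ : ℍ => Function.Periodic.qParam 1 (τ : ℂ) * H28.J τ) atImInfty (𝓝 1) := by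
  have h1 : Tendsto (fun τ : ℍ => Function.Periodic.qParam 1 (τ : ℂ)) atImInfty (𝓝 0) :=
    qParam_tendsto_atImInfty one_pos
  have hc : ContinuousAt H28.jDisc 0 :=
    (H28.differentiableOn_jDisc.differentiableAt (Metric.ball_mem_nhds 0 one_pos)).continuousAt
  have h2 : Tendsto (fun τ : ℍ => H28.jDisc (Function.Periodic.qParam 1 (τ : ℂ))) atImInfty
      (𝓝 1) := by
    have := hc.tendsto.comp h1
    rwa [H28.jDisc_zero] at this
  exact h2.congr fun τ => H28.jDisc_qParam τ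

/-- `τ ↦ d τ` as a map of `ℍ`. -/
abbrev scale (d : ℕ) [NeZero d] (τ : ℍ) : ℍ :=
  H15.aff d 0 1 (Nat.pos_of_ne_zero (NeZero.ne d)) one_pos τ

theorem coe_scale (d : ℕ) [NeZero d] (τ : ℍ) : ((scale d τ : ℍ) : ℂ) = (d : ℂ) * τ := by
  simp [scale]

theorem mdiff_J_scale (d : ℕ) [NeZero d] : MDiff (fun τ : ℍ => H28.J (scale d τ)) := by
  have hJ := H28.J_mdiff
  rw [UpperHalfPlane.mdifferentiable_iff] at hJ ⊢
  have hd : (0 : ℝ) < d := by exact_mod_cast Nat.pos_of_ne_zero (NeZero.ne d)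
  have hmaps : Set.MapsTo (fun z : ℂ => (d : ℂ) * z) {z | 0 < z.im} {z | 0 < z.im} := by
    intro z hz
    show 0 < ((d : ℂ) * z).im
    have hz' : 0 < z.im := hz
    have : ((d : ℂ) * z).im = (d : ℝ) * z.im := by simp
    rw [this]
    exact mul_pos hd hz'
  have hcomp : DifferentiableOn ℂ ((H28.J ∘ ofComplex) ∘ fun z : ℂ => (d : ℂ) * z)
      {z | 0 < z.im} :=
    hJ.comp ((differentiable_id.const_mul _).differentiableOn) hmaps
  refine hcomp.congr fun z hz => ?_
  simp only [Function.comp_apply]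
  congr 1
  apply UpperHalfPlane.ext
  rw [coe_scale, ofComplex_apply_of_im_pos hz, ofComplex_apply_of_im_pos (hmaps hz)]

section Theta

variable (N : ℕ) [NeZero N] (ι : Qbar →+* ℂ) (Θ : AN N →+* (ℍ → ℂ))

/-- The two defining properties of `Θ` (package T3) used below. -/
structure IsTheta : Prop where
  const_eq : ∀ c : Qbar, Θ (algebraMap Qbar (AN N) c) = fun _ => ι c
  jd_eq : ∀ (d : ℕ) [NeZero d] (hd : d ∣ N) (τ : ℍ),
    Θ ⟨jd N d hd, jd_mem_AN N d hd⟩ τ = H28.J (scale d τ)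

variable {N ι Θ}

/-- Induction principle for statements about `Θ f`, `f ∈ A`. -/
theorem IsTheta.induction (hΘ : IsTheta N ι Θ) (p : (ℍ → ℂ) → Prop)
    (hconst : ∀ c : ℂ, p (fun _ => c))
    (hgen : ∀ (d : ℕ) [NeZero d], d ∣ N → p (fun τ => H28.J (scale d τ)))
    (hadd : ∀ f g, p f → p g → p (f + g)) (hmul : ∀ f g, p f → p g → p (f * g))
    (f : AN N) : p (Θ f) := by
  obtain ⟨x, hx⟩ := f
  induction hx using Algebra.adjoin_induction with
  | mem y hy =>
      obtain ⟨d, hne, hd, rfl⟩ := hy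
      have : Θ ⟨@jd N _ d hne hd, Algebra.subset_adjoin ⟨d, hne, hd, rfl⟩⟩
          = fun τ => H28.J (@scale d hne τ) := funext fun τ => @IsTheta.jd_eq N _ ι Θ hΘ d hne hd τ
      rw [this]
      exact @hgen d hne hd
  | algebraMap c =>
      have : (⟨algebraMap Qbar (FN N) c, Subalgebra.algebraMap_mem _ c⟩ : AN N)
          = algebraMap Qbar (AN N) c := rfl
      rw [this, hΘ.const_eq]
      exact hconst _
  | add y z hy hz ihy ihz =>
      have : (⟨y + z, add_mem hy hz⟩ : AN N) = ⟨y, hy⟩ + ⟨z, hz⟩ := rfl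
      rw [this, map_add]
      exact hadd _ _ ihy ihz
  | mul y z hy hz ihy ihz =>
      have : (⟨y * z, mul_mem hy hz⟩ : AN N) = ⟨y, hy⟩ * ⟨z, hz⟩ := rfl
      rw [this, map_mul]
      exact hmul _ _ ihy ihz

theorem IsTheta.mdiff (hΘ : IsTheta N ι Θ) (f : AN N) : MDiff (Θ f) :=
  hΘ.induction (fun g => MDiff g) (fun _ => mdifferentiable_const)
    (fun d _ _ => mdiff_J_scale d) (fun _ _ hf hg => hf.add hg) (fun _ _ hf hg => hf.mul hg) f

end Theta

end Fermat.Agent.S24.H40
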