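import Mathlib
import Fermat.Agent.S24.Defs
import Fermat.Agent.S24.H4_QhExpansion
import Fermat.Agent.S24.H15_JConj
import Fermat.Agent.S24.H28_J1

/-!
# S24 / T3, first section, through T1 (`helper4`)

For a ring homomorphism `ι : K →+* ℂ` from a field, a Laurent series `x : LaurentSeries K` is
*realized* if `coeffMap ι x` is the `q`-expansion of a holomorphic `1`-periodic function on `ℍ`
that is meromorphic at `i∞`.  Realized series form a `K`-subalgebra, on which `evalQ ι`
(termwise evaluation at `q = exp (2πiτ)`) is an injective ring homomorphism into `ℍ → ℂ`.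
The series `j(q^d)` are realized by `τ ↦ J (d τ)`.  This gives helper17's `Theta` on
`A = Qbar[j_d : d ∣ N]`.
-/

set_option autoImplicit false

open Complex Filter Function
open UpperHalfPlane hiding I
open scoped Real Topology Manifold MatrixGroups

noncomputable section

namespace Fermat.Agent.S24.H4

local notation "𝕢" => Periodic.qParam

open ModularCurve

section Realize

variable {K : Type*} [Field K] (ι : K →+* ℂ)

/-- Evaluation of a Laurent series with coefficients in `K` at `q = exp (2πiτ)`, via `ι`. -/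
def evalQ (x : LaurentSeries K) (τ : ℍ) : ℂ :=
  ∑' n : ℤ, ι (x.coeff n) * 𝕢 1 (τ : ℂ) ^ n

/-- `x` is (via `ι`) the `q`-expansion of a holomorphic `1`-periodic function on `ℍ` meromorphic at
`i∞`. -/
def IsRealized (x : LaurentSeries K) : Prop :=
  ∃ g : ℍ → ℂ, IsMeroPeriodic 1 g ∧ qhExpansion 1 g = coeffMap ι x

variable {ι}

theorem hasSum_of_qhExpansion_eq {x : LaurentSeries K} {g : ℍ → ℂ} (hg : IsMeroPeriodic 1 g)
    (h : qhExpansion 1 g = coeffMap ι x) (τ : ℍ) :
    HasSum (fun n : ℤ => ι (x.coeff n) * 𝕢 1 (τ : ℂ) ^ n) (g τ) := by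
  have h1 := hasSum_qhExpansion_int one_pos hg τ
  simp only [h, coeffMap_coeff, qFun_apply] at h1
  exact h1

theorem evalQ_eq_of_qhExpansion_eq {x : LaurentSeries K} {g : ℍ → ℂ} (hg : IsMeroPeriodic 1 g)
    (h : qhExpansion 1 g = coeffMap ι x) : evalQ ι x = g := by
  funext τ
  exact (hasSum_of_qhExpansion_eq hg h τ).tsum_eq

namespace IsRealized

variable {x y : LaurentSeries K}

theorem isMeroPeriodic (hx : IsRealized ι x) : IsMeroPeriodic 1 (evalQ ι x) := by
  obtain ⟨g, hg, h⟩ := hx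
  rwa [evalQ_eq_of_qhExpansion_eq hg h]

theorem qhExpansion_evalQ (hx : IsRealized ι x) : qhExpansion 1 (evalQ ι x) = coeffMap ι x := by
  obtain ⟨g, hg, h⟩ := hx
  rwa [evalQ_eq_of_qhExpansion_eq hg h]

theorem hasSum (hx : IsRealized ι x) (τ : ℍ) :
    HasSum (fun n : ℤ => ι (x.coeff n) * 𝕢 1 (τ : ℂ) ^ n) (evalQ ι x τ) :=
  hasSum_of_qhExpansion_eq hx.isMeroPeriodic hx.qhExpansion_evalQ τ

theorem mdiff (hx : IsRealized ι x) : MDiff (evalQ ι x) := hx.isMeroPeriodic.mdiff

theorem add (hx : IsRealized ι x) (hy : IsRealized ι y) : IsRealized ι (x + y) :=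
  ⟨evalQ ι x + evalQ ι y, hx.isMeroPeriodic.add one_pos hy.isMeroPeriodic, by
    rw [qhExpansion_add one_pos hx.isMeroPeriodic hy.isMeroPeriodic, hx.qhExpansion_evalQ,
      hy.qhExpansion_evalQ, map_add]⟩

theorem evalQ_add (hx : IsRealized ι x) (hy : IsRealized ι y) :
    evalQ ι (x + y) = evalQ ι x + evalQ ι y :=
  evalQ_eq_of_qhExpansion_eq (hx.isMeroPeriodic.add one_pos hy.isMeroPeriodic) (by
    rw [qhExpansion_add one_pos hx.isMeroPeriodic hy.isMeroPeriodic, hx.qhExpansion_evalQ,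
      hy.qhExpansion_evalQ, map_add])

theorem mul (hx : IsRealized ι x) (hy : IsRealized ι y) : IsRealized ι (x * y) :=
  ⟨evalQ ι x * evalQ ι y, hx.isMeroPeriodic.mul hy.isMeroPeriodic, by
    rw [qhExpansion_mul one_pos hx.isMeroPeriodic hy.isMeroPeriodic, hx.qhExpansion_evalQ,
      hy.qhExpansion_evalQ, map_mul]⟩

theorem evalQ_mul (hx : IsRealized ι x) (hy : IsRealized ι y) :
    evalQ ι (x * y) = evalQ ι x * evalQ ι y :=
  evalQ_eq_of_qhExpansion_eq (hx.isMeroPeriodic.mul hy.isMeroPeriodic) (by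
    rw [qhExpansion_mul one_pos hx.isMeroPeriodic hy.isMeroPeriodic, hx.qhExpansion_evalQ,
      hy.qhExpansion_evalQ, map_mul])

end IsRealized

theorem coeffMap_C (c : K) : coeffMap ι (HahnSeries.C c) = HahnSeries.C (ι c) := by
  rw [HahnSeries.C_apply, coeffMap_single, HahnSeries.C_apply]

theorem isRealized_C (c : K) : IsRealized ι (HahnSeries.C c) :=
  ⟨fun _ => ι c, IsMeroPeriodic.const 1 (ι c), by
    rw [qhExpansion_const one_pos, coeffMap_C]⟩

theorem evalQ_C (c : K) : evalQ ι (HahnSeries.C c) = fun _ => ι c :=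
  evalQ_eq_of_qhExpansion_eq (IsMeroPeriodic.const 1 (ι c)) (by
    rw [qhExpansion_const one_pos, coeffMap_C])

theorem algebraMap_eq_C (c : K) : algebraMap K (LaurentSeries K) c = HahnSeries.C c := by
  rw [algebraMap_laurentSeries_eq_single, HahnSeries.C_apply]

theorem isRealized_algebraMap (c : K) : IsRealized ι (algebraMap K (LaurentSeries K) c) := by
  rw [algebraMap_eq_C]; exact isRealized_C c

theorem evalQ_algebraMap (c : K) :
    evalQ ι (algebraMap K (LaurentSeries K) c) = fun _ => ι c := by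
  rw [algebraMap_eq_C]; exact evalQ_C c

theorem isRealized_zero : IsRealized ι (0 : LaurentSeries K) := by
  have := isRealized_C (ι := ι) (0 : K)
  rwa [map_zero] at this

theorem isRealized_one : IsRealized ι (1 : LaurentSeries K) := by
  have := isRealized_C (ι := ι) (1 : K)
  rwa [map_one] at this

theorem evalQ_zero : evalQ ι (0 : LaurentSeries K) = 0 := by
  have := evalQ_C (ι := ι) (0 : K)
  rw [map_zero, map_zero] at this
  exact this

theorem evalQ_one : evalQ ι (1 : LaurentSeries K) = 1 := by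
  have := evalQ_C (ι := ι) (1 : K)
  rw [map_one, map_one] at this
  exact this

variable (ι) in
/-- The `K`-subalgebra of realized Laurent series. -/
def realized : Subalgebra K (LaurentSeries K) where
  carrier := {x | IsRealized ι x}
  mul_mem' hx hy := hx.mul hy
  one_mem' := isRealized_one
  add_mem' hx hy := hx.add hy
  zero_mem' := isRealized_zero
  algebraMap_mem' c := isRealized_algebraMap c

theorem mem_realized {x : LaurentSeries K} : x ∈ realized ι ↔ IsRealized ι x := Iff.rfl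

variable (ι) in
/-- `evalQ` as a ring homomorphism on the realized series. -/
def evalQHom : realized ι →+* (ℍ → ℂ) where
  toFun x := evalQ ι x.1
  map_one' := evalQ_one
  map_mul' x y := IsRealized.evalQ_mul x.2 y.2
  map_zero' := evalQ_zero
  map_add' x y := IsRealized.evalQ_add x.2 y.2

theorem IsRealized.eq_zero_of_evalQ_eq_zero {x : LaurentSeries K} (hx : IsRealized ι x)
    (h : evalQ ι x = 0) : x = 0 := by
  have h1 := hx.qhExpansion_evalQ
  rw [h, qhExpansion_zero one_pos] at h1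
  ext n
  have h2 := congrArg (fun y : LaurentSeries ℂ => y.coeff n) h1
  simp only [HahnSeries.coeff_zero, coeffMap_coeff] at h2
  have : ι (x.coeff n) = ι 0 := by rw [map_zero]; exact h2.symm
  simpa using ι.injective this

theorem evalQHom_injective : Function.Injective (evalQHom ι) := by
  rw [injective_iff_map_eq_zero]
  intro x hx
  exact Subtype.ext (x.2.eq_zero_of_evalQ_eq_zero hx)

end Realize


/-! ## The `q`-expansion of `J` and of `τ ↦ J (d τ)` -/

section J

theorem periodic_J : Periodic (H28.J ∘ ofComplex) (1 : ℝ) := by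
  rw [periodic_comp_ofComplex_iff]
  intro τ
  rw [← UpperHalfPlane.modular_T_smul, H28.J_smul]

theorem hasSum_J (τ : ℍ) :
    HasSum (fun n : ℕ => ((jq.coeff ((n : ℤ) - 1) : ℚ) : ℂ) * qFun 1 τ ^ n)
      (qFun 1 τ ^ 1 * H28.J τ) := by
  rw [pow_one]
  exact H28.hasSum_jq τ

theorem isMeroPeriodic_J : IsMeroPeriodic 1 H28.J :=
  IsMeroPeriodic.of_hasSum one_pos H28.J_mdiff periodic_J hasSum_J

theorem qhExpansion_J : qhExpansion 1 H28.J = coeffMap (algebraMap ℚ ℂ) jq := by
  ext n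
  rw [coeffMap_coeff]
  by_cases hn : n < -1
  · have hb : IsBoundedAtImInfty (qFun 1 ^ 1 * H28.J) :=
      isBoundedAtImInfty_of_hasSum_qExpansion one_pos
        (c := fun n : ℕ => ((jq.coeff ((n : ℤ) - 1) : ℚ) : ℂ))
        (by simpa [smul_eq_mul, qFun] using hasSum_J)
    rw [qhExpansion_coeff_of_lt one_pos isMeroPeriodic_J hb (by simpa using hn),
      coeff_jq_of_lt hn, map_zero]
  · rw [not_lt] at hn
    obtain ⟨m, hm⟩ : ∃ m : ℕ, (m : ℤ) = n + 1 := ⟨(n + 1).toNat, by omega⟩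
    have h := qhExpansion_coeff_of_hasSum one_pos H28.J_mdiff periodic_J hasSum_J m
    have e : (m : ℤ) - ((1 : ℕ) : ℤ) = n := by push_cast; omega
    have e' : (m : ℤ) - 1 = n := by omega
    rw [e] at h
    rw [h, e']
    rfl

/-- The map `τ ↦ d τ` of `ℍ` (helper15's `aff d 0 1`). -/
abbrev mulNat (d : ℕ) [NeZero d] (τ : ℍ) : ℍ :=
  H15.aff d 0 1 (Nat.pos_of_ne_zero (NeZero.ne d)) one_pos τ

theorem coe_mulNat (d : ℕ) [NeZero d] (τ : ℍ) :
    ((mulNat d τ : ℍ) : ℂ) = ((d : ℝ) : ℂ) * τ + ((0 : ℝ) : ℂ) := by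
  simp [mulNat, H15.coe_aff]

theorem isMeroPeriodic_J_mulNat (d : ℕ) [NeZero d] :
    IsMeroPeriodic 1 (H28.J ∘ mulNat d) := by
  have hd : (0 : ℝ) < d := by exact_mod_cast Nat.pos_of_ne_zero (NeZero.ne d)
  have h1 := (isMeroPeriodic_J.comp_affine one_pos hd (coe_mulNat d)).nat_mul (NeZero.ne d)
  have e : (d : ℝ) * (1 / (d : ℝ)) = 1 := mul_one_div_cancel hd.ne'
  rwa [e] at h1

theorem qhExpansion_J_mulNat (d : ℕ) [NeZero d] :
    qhExpansion 1 (H28.J ∘ mulNat d) = coeffMap (algebraMap ℚ ℂ) (qExpand ℚ d jq) := by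
  have hd : (0 : ℝ) < d := by exact_mod_cast Nat.pos_of_ne_zero (NeZero.ne d)
  have h0 := isMeroPeriodic_J.comp_affine one_pos hd (coe_mulNat d)
  have e : (d : ℝ) * (1 / (d : ℝ)) = 1 := mul_one_div_cancel hd.ne'
  have hq : 𝕢 1 (((0 : ℝ) : ℂ)) = 1 := by simp [Periodic.qParam]
  ext k
  rw [coeffMap_coeff]
  by_cases hk : (d : ℤ) ∣ k
  · obtain ⟨n, rfl⟩ := hk
    have h1 := qhExpansion_nat_mul_coeff (div_pos one_pos hd) h0 (NeZero.ne d) n
    rw [e] at h1
    rw [h1, qhExpansion_comp_affine_coeff one_pos isMeroPeriodic_J hd (coe_mulNat d), hq,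
      one_zpow, one_mul, qhExpansion_J, coeffMap_coeff, qExpand_coeff_mul]
  · have h1 := qhExpansion_nat_mul_coeff_of_not_dvd (div_pos one_pos hd) h0 (NeZero.ne d) hk
    rw [e] at h1
    rw [h1, qExpand_coeff_of_not_dvd _ _ hk, map_zero]

end J


/-! ## `Theta` on `A = Qbar[j_d : d ∣ N]` (helper17's T3 statements, for any `ι : Qbar →+* ℂ`) -/

section Theta

variable (ι : Qbar →+* ℂ) (N : ℕ) [NeZero N]

/-- The generators `j(q^d)`, `d ∣ N`. -/
def gens : Set (FN N) := {x | ∃ (d : ℕ) (_ : NeZero d) (hd : d ∣ N), x = jd N d hd}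

/-- `A = Qbar[j_d : d ∣ N]`. -/
def A : Subalgebra Qbar (FN N) := Algebra.adjoin Qbar (gens N)

/-- The function on `ℍ` attached to an element of `FN N` (meaningful on `A N`). -/
def Theta (f : FN N) : ℍ → ℂ := evalQ ι (f : LaurentSeries Qbar)

theorem coeffMap_coeffEmb_eq (y : LaurentSeries ℚ) :
    coeffMap ι (coeffEmb Qbar y) = coeffMap (algebraMap ℚ ℂ) y := by
  rw [coeffEmb, coeffMap_coeffMap]
  exact coeffMap_congr (Subsingleton.elim _ _) y

theorem coe_jd (d : ℕ) [NeZero d] (hd : d ∣ N) :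
    ((jd N d hd : FN N) : LaurentSeries Qbar) = coeffEmb Qbar (qExpand ℚ d jq) := rfl

theorem coe_jBar : ((jBar N : FN N) : LaurentSeries Qbar) = coeffEmb Qbar jq := rfl

theorem isRealized_jd (d : ℕ) [NeZero d] (hd : d ∣ N) :
    IsRealized ι ((jd N d hd : FN N) : LaurentSeries Qbar) :=
  ⟨H28.J ∘ mulNat d, isMeroPeriodic_J_mulNat d, by
    rw [qhExpansion_J_mulNat, coe_jd, coeffMap_coeffEmb_eq]⟩

theorem isRealized_of_mem_A {f : FN N} (hf : f ∈ A N) :
    IsRealized ι ((f : FN N) : LaurentSeries Qbar) := by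
  induction hf using Algebra.adjoin_induction with
  | mem x hx =>
    obtain ⟨d, hd0, hd, rfl⟩ := hx
    exact isRealized_jd ι N d hd
  | algebraMap c => exact isRealized_algebraMap c
  | add x y _ _ hx hy => exact hx.add hy
  | mul x y _ _ hx hy => exact hx.mul hy

/-- `Θ f` is given by the convergent `q`-series of `f`. -/
theorem Theta_hasSum {f : FN N} (hf : f ∈ A N) (τ : ℍ) :
    HasSum (fun n : ℤ => ι ((f : LaurentSeries Qbar).coeff n) * 𝕢 1 (τ : ℂ) ^ n)
      (Theta ι N f τ) :=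
  (isRealized_of_mem_A ι N hf).hasSum τ

theorem Theta_mdiff {f : FN N} (hf : f ∈ A N) : MDiff (Theta ι N f) :=
  (isRealized_of_mem_A ι N hf).mdiff

theorem Theta_isMeroPeriodic {f : FN N} (hf : f ∈ A N) : IsMeroPeriodic 1 (Theta ι N f) :=
  (isRealized_of_mem_A ι N hf).isMeroPeriodic

theorem qhExpansion_Theta {f : FN N} (hf : f ∈ A N) :
    qhExpansion 1 (Theta ι N f) = coeffMap ι (f : LaurentSeries Qbar) :=
  (isRealized_of_mem_A ι N hf).qhExpansion_evalQ

theorem Theta_algebraMap (c : Qbar) :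
    Theta ι N (algebraMap Qbar (FN N) c) = fun _ => ι c :=
  evalQ_algebraMap c

theorem Theta_zero : Theta ι N 0 = 0 := evalQ_zero

theorem Theta_one : Theta ι N 1 = 1 := evalQ_one

theorem Theta_add {f g : FN N} (hf : f ∈ A N) (hg : g ∈ A N) :
    Theta ι N (f + g) = Theta ι N f + Theta ι N g :=
  (isRealized_of_mem_A ι N hf).evalQ_add (isRealized_of_mem_A ι N hg)

theorem Theta_mul {f g : FN N} (hf : f ∈ A N) (hg : g ∈ A N) :
    Theta ι N (f * g) = Theta ι N f * Theta ι N g :=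
  (isRealized_of_mem_A ι N hf).evalQ_mul (isRealized_of_mem_A ι N hg)

/-- `Θ` as a ring hom on `A`. -/
def ThetaHom : A N →+* (ℍ → ℂ) where
  toFun f := Theta ι N f.1
  map_one' := Theta_one ι N
  map_mul' f g := Theta_mul ι N f.2 g.2
  map_zero' := Theta_zero ι N
  map_add' f g := Theta_add ι N f.2 g.2

theorem ThetaHom_apply (f : A N) : ThetaHom ι N f = Theta ι N f.1 := rfl

theorem Theta_jd (d : ℕ) [NeZero d] (hd : d ∣ N) (τ : ℍ) :
    Theta ι N (jd N d hd) τ =
      H28.J (H15.aff d 0 1 (Nat.pos_of_ne_zero (NeZero.ne d)) one_pos τ) := by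
  have h : Theta ι N (jd N d hd) = H28.J ∘ mulNat d :=
    evalQ_eq_of_qhExpansion_eq (isMeroPeriodic_J_mulNat d) (by
      rw [qhExpansion_J_mulNat, coe_jd, coeffMap_coeffEmb_eq])
  rw [h]
  rfl

theorem Theta_jBar : Theta ι N (jBar N) = H28.J :=
  evalQ_eq_of_qhExpansion_eq isMeroPeriodic_J (by
    rw [qhExpansion_J, coe_jBar, coeffMap_coeffEmb_eq])

/-- injectivity (uniqueness of `q`-coefficients). -/
theorem Theta_eq_zero {f : FN N} (hf : f ∈ A N) (h : Theta ι N f = 0) : f = 0 :=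
  Subtype.ext ((isRealized_of_mem_A ι N hf).eq_zero_of_evalQ_eq_zero h)

theorem ThetaHom_injective : Function.Injective (ThetaHom ι N) := by
  rw [injective_iff_map_eq_zero]
  intro f hf
  exact Subtype.ext (Theta_eq_zero ι N f.2 hf)

theorem jd_mem_A (d : ℕ) [NeZero d] (hd : d ∣ N) : jd N d hd ∈ A N :=
  Algebra.subset_adjoin ⟨d, ‹_›, hd, rfl⟩

/-- `Γ₀(N)`-invariance. -/
theorem Theta_smul {f : FN N} (hf : f ∈ A N) {g : SL(2, ℤ)}
    (hg : g ∈ CongruenceSubgroup.Gamma0 N) (τ : ℍ) : Theta ι N f (g • τ) = Theta ι N f τ := by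
  induction hf using Algebra.adjoin_induction with
  | mem x hx =>
    obtain ⟨d, hd0, hd, rfl⟩ := hx
    rw [Theta_jd, Theta_jd]
    have hd' : 0 < d := Nat.pos_of_ne_zero (NeZero.ne d)
    have h1 : H15.Jconj d hd' g = H15.Jconj d hd' 1 := by
      rw [H15.Jconj_eq_iff, inv_one, mul_one]
      exact H15.Gamma0_le_of_dvd hd hg
    have h2 := congrFun h1 τ
    rwa [H15.Jconj_apply, H15.Jconj_apply, one_smul] at h2
  | algebraMap c => rw [Theta_algebraMap]
  | add x y hx hy ihx ihy =>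
    rw [Theta_add ι N hx hy, Pi.add_apply, Pi.add_apply, ihx, ihy]
  | mul x y hx hy ihx ihy =>
    rw [Theta_mul ι N hx hy, Pi.mul_apply, Pi.mul_apply, ihx, ihy]

end Theta

end Fermat.Agent.S24.H4
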