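import Mathlib
import Fermat.Agent.S24.H17_Theta
import Fermat.Agent.S24.H6_KeyAbstract

set_option autoImplicit false

/-!
S24: the KEY statements for helper17's `Theta` (instantiation of `H6_KeyAbstract`).
-/

noncomputable section

namespace Fermat.Agent.S24.H6

open UpperHalfPlane ModularCurve Fermat.Agent.S24.H17
open scoped MatrixGroups Manifold

variable (N : ℕ) [NeZero N]

theorem T_mem_Gamma0 : ModularGroup.T ∈ CongruenceSubgroup.Gamma0 N := by
  rw [CongruenceSubgroup.Gamma0_mem]
  simp [ModularGroup.T]

/-- helper17's `Theta` and `thetaX` satisfy `ThetaData`. -/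
theorem thetaData_H17 : ThetaData N iota (A N : Set (FN N)) (Theta N) (thetaX N) where
  hasSum f hf τ := Theta_hasSum N hf τ
  mdiff f hf := Theta_mdiff N hf
  periodic f hf τ := by
    have h := Theta_smul N hf (T_mem_Gamma0 N) τ
    rwa [UpperHalfPlane.modular_T_smul] at h
  jBar_mem := jBar_mem_A N
  theta_jBar := Theta_jBar N
  conj_one f hf := by rw [thetaX_mk N hf, thetaConj_one]
  conj_smul f hf := thetaX_smul N hf
  conj_mdiff f hf x := thetaConj_mdiff N hf _
  conj_growth f hf x := thetaConj_growth N hf _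

/-- KEY (weak form): every `f ∈ A` is a root of a monic polynomial of degree `#X_N`
with coefficients in `Qbar[j]`. -/
theorem key_weak {f : FN N} (hf : f ∈ A N) :
    ∃ P : Polynomial (Polynomial Qbar), P.Monic ∧ P.natDegree = Nat.card (H24.XN N) ∧
      Polynomial.eval₂ ((Polynomial.aeval (jBar N)).toRingHom : Polynomial Qbar →+* FN N) f P = 0 :=
  (thetaData_H17 N).key_weak hf

/-- KEY (function form): the coefficients of `∏_x (X - θ_x f)` are polynomials in `J`. -/
theorem key_coeff {f : FN N} (hf : f ∈ A N) (k : ℕ) :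
    ∃ p : Polynomial ℂ, ∀ τ : ℍ,
      (∏ x : H24.XN N, (Polynomial.X - Polynomial.C (thetaX N x f))).coeff k τ =
        p.eval (H28.J τ) :=
  (thetaData_H17 N).key_coeff hf k

end Fermat.Agent.S24.H6
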