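import Mathlib
import Fermat.Agent.S24.H27_PlaceOfValuation

/-!
The ring `Hol` of holomorphic functions on the upper half plane is a domain; for every point `τ₀`
the vanishing order at `τ₀` extends to an order function (in the sense of `H27.IsOrdFunction`)
on its field of fractions `MerH`.
-/

set_option autoImplicit false

open UpperHalfPlane
open scoped Manifold MatrixGroups Topology

noncomputable section

namespace Fermat.Agent.S24.H8

/-! ### Holomorphic functions on `ℍ` as functions on `ℂ` -/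

theorem analyticOnNhd_comp_ofComplex' {g : ℍ → ℂ} (hg : MDiff g) :
    AnalyticOnNhd ℂ (g ∘ ofComplex) upperHalfPlaneSet :=
  (UpperHalfPlane.mdifferentiable_iff.mp hg).analyticOnNhd isOpen_upperHalfPlaneSet

theorem analyticAt_comp_ofComplex' {g : ℍ → ℂ} (hg : MDiff g) (τ : ℍ) :
    AnalyticAt ℂ (g ∘ ofComplex) (τ : ℂ) :=
  analyticOnNhd_comp_ofComplex' hg τ τ.im_pos

/-- identity theorem on `ℍ`. -/
theorem eq_zero_of_analyticOrderAt_eq_top {g : ℍ → ℂ} (hg : MDiff g) (τ₀ : ℍ)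
    (h : analyticOrderAt (g ∘ ofComplex) (τ₀ : ℂ) = ⊤) : g = 0 := by
  have hev : (g ∘ ofComplex) =ᶠ[𝓝 (τ₀ : ℂ)] 0 := analyticOrderAt_eq_top.mp h
  have := (analyticOnNhd_comp_ofComplex' hg).eqOn_zero_of_preconnected_of_eventuallyEq_zero
    (Convex.isPreconnected (convex_halfSpace_im_gt 0)) τ₀.im_pos hev
  ext τ
  have h1 := this τ.im_pos
  simpa using h1

theorem analyticOrderAt_ne_top_of_ne_zero {g : ℍ → ℂ} (hg : MDiff g) (hg0 : g ≠ 0) (τ₀ : ℍ) :
    analyticOrderAt (g ∘ ofComplex) (τ₀ : ℂ) ≠ ⊤ :=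
  fun h => hg0 (eq_zero_of_analyticOrderAt_eq_top hg τ₀ h)

/-! ### The ring `Hol` -/

/-- The `ℂ`-algebra of holomorphic functions on the upper half plane. -/
def Hol : Subalgebra ℂ (ℍ → ℂ) where
  carrier := {g | MDiff g}
  mul_mem' := fun ha hb => MDifferentiable.mul ha hb
  add_mem' := fun ha hb => MDifferentiable.add ha hb
  algebraMap_mem' := fun c => by
    change MDiff (fun _ : ℍ => c)
    exact mdifferentiable_const

theorem mem_Hol {g : ℍ → ℂ} : g ∈ Hol ↔ MDiff g := Iff.rfl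

theorem Hol_mdiff (g : Hol) : MDiff (g : ℍ → ℂ) := g.2

instance : NoZeroDivisors Hol where
  eq_zero_or_eq_zero_of_mul_eq_zero := by
    intro a b hab
    by_contra hcon
    push Not at hcon
    obtain ⟨ha, hb⟩ := hcon
    have ha' : (a : ℍ → ℂ) ≠ 0 := fun h => ha (Subtype.ext h)
    have hb' : (b : ℍ → ℂ) ≠ 0 := fun h => hb (Subtype.ext h)
    have τ₀ : ℍ := UpperHalfPlane.I
    have h1 := analyticOrderAt_ne_top_of_ne_zero a.2 ha' τ₀
    have h2 := analyticOrderAt_ne_top_of_ne_zero b.2 hb' τ₀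
    have hmul : analyticOrderAt (((a : ℍ → ℂ) ∘ ofComplex) * ((b : ℍ → ℂ) ∘ ofComplex)) (τ₀ : ℂ)
        = analyticOrderAt ((a : ℍ → ℂ) ∘ ofComplex) (τ₀ : ℂ) +
          analyticOrderAt ((b : ℍ → ℂ) ∘ ofComplex) (τ₀ : ℂ) :=
      analyticOrderAt_mul (analyticAt_comp_ofComplex' a.2 τ₀) (analyticAt_comp_ofComplex' b.2 τ₀)
    have hzero : (((a : ℍ → ℂ) ∘ ofComplex) * ((b : ℍ → ℂ) ∘ ofComplex)) = 0 := by
      have hab' : (a : ℍ → ℂ) * (b : ℍ → ℂ) = 0 := congrArg Subtype.val hab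
      ext z
      have := congrFun hab' (ofComplex z)
      simpa using this
    rw [hzero] at hmul
    have htop : analyticOrderAt (0 : ℂ → ℂ) (τ₀ : ℂ) = ⊤ := by
      rw [analyticOrderAt_eq_top]; exact Filter.Eventually.of_forall fun _ => rfl
    rw [htop] at hmul
    rcases ENat.add_eq_top.mp hmul.symm with h | h
    · exact h1 h
    · exact h2 h

instance : IsDomain Hol := NoZeroDivisors.to_isDomain _

/-! ### The order at a point on `Hol` -/

/-- The vanishing order at `τ₀` of a holomorphic function on `ℍ` (junk value `0` for `g = 0`). -/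
def ordHol (τ₀ : ℍ) (g : Hol) : ℤ :=
  (analyticOrderNatAt ((g : ℍ → ℂ) ∘ ofComplex) (τ₀ : ℂ) : ℤ)

theorem Hol_coe_ne_zero {g : Hol} (hg : g ≠ 0) : (g : ℍ → ℂ) ≠ 0 :=
  fun h => hg (Subtype.ext h)

theorem Hol_analyticAt (g : Hol) (τ₀ : ℍ) : AnalyticAt ℂ ((g : ℍ → ℂ) ∘ ofComplex) (τ₀ : ℂ) :=
  analyticAt_comp_ofComplex' g.2 τ₀

theorem Hol_analyticOrderAt_ne_top {g : Hol} (hg : g ≠ 0) (τ₀ : ℍ) :
    analyticOrderAt ((g : ℍ → ℂ) ∘ ofComplex) (τ₀ : ℂ) ≠ ⊤ :=
  analyticOrderAt_ne_top_of_ne_zero g.2 (Hol_coe_ne_zero hg) τ₀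

theorem ordHol_nonneg (τ₀ : ℍ) (g : Hol) : 0 ≤ ordHol τ₀ g := Int.natCast_nonneg _

theorem ordHol_mul (τ₀ : ℍ) {a b : Hol} (ha : a ≠ 0) (hb : b ≠ 0) :
    ordHol τ₀ (a * b) = ordHol τ₀ a + ordHol τ₀ b := by
  have h := analyticOrderNatAt_mul (Hol_analyticAt a τ₀) (Hol_analyticAt b τ₀)
    (Hol_analyticOrderAt_ne_top ha τ₀) (Hol_analyticOrderAt_ne_top hb τ₀)
  have hfun : (((a * b : Hol) : ℍ → ℂ) ∘ ofComplex) =
      ((a : ℍ → ℂ) ∘ ofComplex) * ((b : ℍ → ℂ) ∘ ofComplex) := rfl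
  unfold ordHol
  rw [hfun, h]
  push_cast
  ring

theorem ordHol_add (τ₀ : ℍ) {a b : Hol} (ha : a ≠ 0) (hb : b ≠ 0) (hab : a + b ≠ 0) :
    min (ordHol τ₀ a) (ordHol τ₀ b) ≤ ordHol τ₀ (a + b) := by
  have h := le_analyticOrderAt_add (f := (a : ℍ → ℂ) ∘ ofComplex)
    (g := (b : ℍ → ℂ) ∘ ofComplex) (z₀ := (τ₀ : ℂ))
  have hfun : (((a + b : Hol) : ℍ → ℂ) ∘ ofComplex) =
      ((a : ℍ → ℂ) ∘ ofComplex) + ((b : ℍ → ℂ) ∘ ofComplex) := rfl
  rw [← hfun, ← Nat.cast_analyticOrderNatAt (Hol_analyticOrderAt_ne_top ha τ₀),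
    ← Nat.cast_analyticOrderNatAt (Hol_analyticOrderAt_ne_top hb τ₀),
    ← Nat.cast_analyticOrderNatAt (Hol_analyticOrderAt_ne_top hab τ₀)] at h
  unfold ordHol
  rcases min_le_iff.mp h with h1 | h1
  · exact min_le_iff.mpr (Or.inl (by exact_mod_cast h1))
  · exact min_le_iff.mpr (Or.inr (by exact_mod_cast h1))

theorem ordHol_eq_zero_iff (τ₀ : ℍ) {g : Hol} (hg : g ≠ 0) :
    ordHol τ₀ g = 0 ↔ (g : ℍ → ℂ) τ₀ ≠ 0 := by
  unfold ordHol
  rw [Int.natCast_eq_zero, ← Nat.cast_inj (R := ℕ∞),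
    Nat.cast_analyticOrderNatAt (Hol_analyticOrderAt_ne_top hg τ₀), Nat.cast_zero,
    (Hol_analyticAt g τ₀).analyticOrderAt_eq_zero]
  simp

theorem ordHol_pos_iff (τ₀ : ℍ) {g : Hol} (hg : g ≠ 0) :
    0 < ordHol τ₀ g ↔ (g : ℍ → ℂ) τ₀ = 0 := by
  have h1 := ordHol_eq_zero_iff τ₀ hg
  have h2 := ordHol_nonneg τ₀ g
  constructor
  · intro h
    by_contra hne
    have := h1.mpr hne
    omega
  · intro h
    have : ordHol τ₀ g ≠ 0 := fun h0 => (h1.mp h0) h
    omega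

theorem ordHol_algebraMap (τ₀ : ℍ) {c : ℂ} (hc : c ≠ 0) : ordHol τ₀ (algebraMap ℂ Hol c) = 0 := by
  have hne : algebraMap ℂ Hol c ≠ 0 := by
    intro h
    have := congrArg (fun g : Hol => (g : ℍ → ℂ) τ₀) h
    exact hc (by simpa using this)
  rw [ordHol_eq_zero_iff τ₀ hne]
  change c ≠ 0
  exact hc

/-- the coordinate function `τ ↦ τ - τ₀`. -/
def coordHol (τ₀ : ℍ) : Hol :=
  ⟨fun τ => (τ : ℂ) - (τ₀ : ℂ), by
    rw [mem_Hol, UpperHalfPlane.mdifferentiable_iff]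
    have : DifferentiableOn ℂ (fun z : ℂ => z - (τ₀ : ℂ)) upperHalfPlaneSet :=
      (differentiable_id.sub_const _).differentiableOn
    refine this.congr fun z hz => ?_
    simp [Function.comp, ofComplex_apply_of_im_pos hz]⟩

theorem coordHol_ne_zero (τ₀ : ℍ) : coordHol τ₀ ≠ 0 := by
  intro h
  have hpos : 0 < ((τ₀ : ℂ) + Complex.I).im := by
    have := τ₀.im_pos
    simp
    linarith
  have := congrArg (fun g : Hol => (g : ℍ → ℂ) (⟨(τ₀ : ℂ) + Complex.I, hpos⟩ : ℍ)) h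
  simp [coordHol] at this

theorem ordHol_coordHol (τ₀ : ℍ) : ordHol τ₀ (coordHol τ₀) = 1 := by
  have han := Hol_analyticAt (coordHol τ₀) τ₀
  have h0 : ((coordHol τ₀ : ℍ → ℂ) ∘ ofComplex) (τ₀ : ℂ) = 0 := by
    simp [coordHol]
  have heq : ((coordHol τ₀ : ℍ → ℂ) ∘ ofComplex) =ᶠ[𝓝 (τ₀ : ℂ)] fun z : ℂ => z - (τ₀ : ℂ) := by
    filter_upwards [isOpen_upperHalfPlaneSet.mem_nhds τ₀.im_pos] with z hz
    simp [coordHol, ofComplex_apply_of_im_pos hz]
  have hd : deriv ((coordHol τ₀ : ℍ → ℂ) ∘ ofComplex) (τ₀ : ℂ) ≠ 0 := by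
    rw [heq.deriv_eq]
    simp
  have h1 := han.analyticOrderAt_eq_one_of_zero_deriv_ne_zero h0 hd
  unfold ordHol
  rw [analyticOrderNatAt, h1]
  rfl

/-! ### The field of fractions and its order functions -/

/-- The field of fractions of `Hol` (meromorphic functions on `ℍ` that are quotients of
holomorphic ones). -/
abbrev MerH : Type := FractionRing Hol

/-- The order at `τ₀` on `MerH` (junk value at `0`). -/
def ordMer (τ₀ : ℍ) (x : MerH) : ℤ :=
  ordHol τ₀ (IsLocalization.sec (nonZeroDivisors Hol) x).1 -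
    ordHol τ₀ ((IsLocalization.sec (nonZeroDivisors Hol) x).2 : Hol)

theorem algebraMap_MerH_injective : Function.Injective (algebraMap Hol MerH) :=
  IsFractionRing.injective Hol MerH

theorem algebraMap_MerH_ne_zero {a : Hol} (ha : a ≠ 0) : algebraMap Hol MerH a ≠ 0 :=
  fun h => ha (algebraMap_MerH_injective (by rw [h, map_zero]))

/-- order of a fraction. -/
theorem ordMer_div (τ₀ : ℍ) {a b : Hol} (ha : a ≠ 0) (hb : b ≠ 0) :
    ordMer τ₀ (algebraMap Hol MerH a / algebraMap Hol MerH b) = ordHol τ₀ a - ordHol τ₀ b := by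
  set x : MerH := algebraMap Hol MerH a / algebraMap Hol MerH b with hx
  set n : Hol := (IsLocalization.sec (nonZeroDivisors Hol) x).1 with hn
  set d : Hol := ((IsLocalization.sec (nonZeroDivisors Hol) x).2 : Hol) with hd
  have hd0 : d ≠ 0 := nonZeroDivisors.ne_zero (IsLocalization.sec (nonZeroDivisors Hol) x).2.2
  have hspec : x * algebraMap Hol MerH d = algebraMap Hol MerH n :=
    IsLocalization.sec_spec (nonZeroDivisors Hol) x
  have hb' := algebraMap_MerH_ne_zero hb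
  have hmul : a * d = n * b := by
    apply algebraMap_MerH_injective
    rw [map_mul, map_mul, ← hspec, hx]
    field_simp
  have hn0 : n ≠ 0 := by
    intro h0
    rw [h0, zero_mul] at hmul
    exact mul_ne_zero ha hd0 hmul
  have h1 := ordHol_mul τ₀ ha hd0
  have h2 := ordHol_mul τ₀ hn0 hb
  rw [hmul] at h1
  unfold ordMer
  rw [← hn, ← hd]
  omega

theorem ordMer_algebraMap (τ₀ : ℍ) {a : Hol} (ha : a ≠ 0) :
    ordMer τ₀ (algebraMap Hol MerH a) = ordHol τ₀ a := by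
  have h := ordMer_div τ₀ ha (one_ne_zero : (1 : Hol) ≠ 0)
  rw [map_one, div_one] at h
  rw [h]
  have h1 : ordHol τ₀ (1 : Hol) = 0 := by
    have := ordHol_algebraMap τ₀ (one_ne_zero : (1 : ℂ) ≠ 0)
    rwa [map_one] at this
  rw [h1, sub_zero]

theorem exists_eq_div {x : MerH} (hx : x ≠ 0) :
    ∃ a b : Hol, a ≠ 0 ∧ b ≠ 0 ∧ x = algebraMap Hol MerH a / algebraMap Hol MerH b := by
  obtain ⟨a, b, hb, h⟩ := IsFractionRing.div_surjective (A := Hol) x
  have hb0 : b ≠ 0 := nonZeroDivisors.ne_zero hb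
  refine ⟨a, b, ?_, hb0, h.symm⟩
  rintro rfl
  rw [map_zero, zero_div] at h
  exact hx h.symm

/-- `ordMer τ₀` is an order function on `MerH` over `ℂ`. -/
theorem isOrdFunction_ordMer (τ₀ : ℍ) : H27.IsOrdFunction ℂ (ordMer τ₀) where
  map_mul := by
    intro f g hf hg
    obtain ⟨a, b, ha, hb, rfl⟩ := exists_eq_div hf
    obtain ⟨c, d, hc, hd, rfl⟩ := exists_eq_div hg
    have : algebraMap Hol MerH a / algebraMap Hol MerH b *
        (algebraMap Hol MerH c / algebraMap Hol MerH d) =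
        algebraMap Hol MerH (a * c) / algebraMap Hol MerH (b * d) := by
      rw [map_mul, map_mul, div_mul_div_comm]
    rw [this, ordMer_div τ₀ (mul_ne_zero ha hc) (mul_ne_zero hb hd), ordMer_div τ₀ ha hb,
      ordMer_div τ₀ hc hd, ordHol_mul τ₀ ha hc, ordHol_mul τ₀ hb hd]
    ring
  map_add := by
    intro f g hf hg hfg
    obtain ⟨a, b, ha, hb, rfl⟩ := exists_eq_div hf
    obtain ⟨c, d, hc, hd, rfl⟩ := exists_eq_div hg
    have hb' := algebraMap_MerH_ne_zero hb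
    have hd' := algebraMap_MerH_ne_zero hd
    have hsum : algebraMap Hol MerH a / algebraMap Hol MerH b +
        algebraMap Hol MerH c / algebraMap Hol MerH d =
        algebraMap Hol MerH (a * d + c * b) / algebraMap Hol MerH (b * d) := by
      rw [map_add, map_mul, map_mul, map_mul]
      field_simp
    have hnum : a * d + c * b ≠ 0 := by
      intro h0
      rw [hsum, h0, map_zero, zero_div] at hfg
      exact hfg rfl
    rw [hsum, ordMer_div τ₀ hnum (mul_ne_zero hb hd), ordMer_div τ₀ ha hb, ordMer_div τ₀ hc hd,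
      ordHol_mul τ₀ hb hd]
    have h1 := ordHol_add τ₀ (mul_ne_zero ha hd) (mul_ne_zero hc hb) hnum
    rw [ordHol_mul τ₀ ha hd, ordHol_mul τ₀ hc hb] at h1
    rcases min_le_iff.mp h1 with h2 | h2
    · exact min_le_iff.mpr (Or.inl (by omega))
    · exact min_le_iff.mpr (Or.inr (by omega))
  map_algebraMap := by
    intro c hc
    have : algebraMap ℂ MerH c = algebraMap Hol MerH (algebraMap ℂ Hol c) :=
      IsScalarTower.algebraMap_apply ℂ Hol MerH c
    have hne : algebraMap ℂ Hol c ≠ 0 := by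
      intro h
      have := congrArg (fun g : Hol => (g : ℍ → ℂ) τ₀) h
      exact hc (by simpa using this)
    rw [this, ordMer_algebraMap τ₀ hne, ordHol_algebraMap τ₀ hc]
  nontrivial :=
    ⟨algebraMap Hol MerH (coordHol τ₀), algebraMap_MerH_ne_zero (coordHol_ne_zero τ₀), by
      rw [ordMer_algebraMap τ₀ (coordHol_ne_zero τ₀), ordHol_coordHol]; norm_num⟩

theorem exists_ordMer_eq_one (τ₀ : ℍ) : ∃ t : MerH, t ≠ 0 ∧ ordMer τ₀ t = 1 :=
  ⟨algebraMap Hol MerH (coordHol τ₀), algebraMap_MerH_ne_zero (coordHol_ne_zero τ₀), by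
    rw [ordMer_algebraMap τ₀ (coordHol_ne_zero τ₀), ordHol_coordHol]⟩

end Fermat.Agent.S24.H8
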