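import Fermat.Agent.S24.H8_J3

/-!
Package J3, orbit versions: orders of `J - a` at all points `γ • τ₀` of an orbit, in the shapes
consumed by the squeeze step (`w (γ⁻¹ • τ₀) u = 1, 2, 3`).
-/

set_option autoImplicit false

open UpperHalfPlane hiding I
open scoped MatrixGroups
open ModularForm EisensteinSeries

namespace Fermat.Agent.S24.H8

theorem modularForm_smul_eq_zero {k : ℤ} (f : ModularForm 𝒮ℒ k) (γ : SL(2, ℤ)) {τ : ℍ}
    (h : f τ = 0) : f (γ • τ) = 0 := by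
  rw [modularForm_apply_smul, h, mul_zero]

theorem E₆_smul_I (γ : SL(2, ℤ)) : E₆ (γ • UpperHalfPlane.I) = 0 :=
  modularForm_smul_eq_zero E₆ γ E₆_I

theorem E₄_smul_ρ (γ : SL(2, ℤ)) : E₄ (γ • UpperHalfPlane.ρ) = 0 :=
  modularForm_smul_eq_zero E₄ γ E₄_ρ

/-- order of `J - 1728` at every point of the orbit of `i` is `2`. -/
theorem analyticOrderAt_J_sub_1728_smul_I (γ : SL(2, ℤ)) :
    analyticOrderAt (fun z : ℂ => H28.J (ofComplex z) - 1728)
      ((γ • UpperHalfPlane.I : ℍ) : ℂ) = 2 :=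
  analyticOrderAt_J_sub_1728_of_E₆_eq_zero _ (E₆_smul_I γ)

/-- order of `J` at every point of the orbit of `ρ` is `3`. -/
theorem analyticOrderAt_J_smul_ρ (γ : SL(2, ℤ)) :
    analyticOrderAt (fun z : ℂ => H28.J (ofComplex z)) ((γ • UpperHalfPlane.ρ : ℍ) : ℂ) = 3 :=
  analyticOrderAt_J_of_E₄_eq_zero _ (E₄_smul_ρ γ)

/-- order of `J - a` at every point of the orbit of `τ₀` is `1` when `a = J τ₀ ≠ 0, 1728`. -/
theorem analyticOrderAt_J_sub_smul_of_ne {τ₀ : ℍ} {a : ℂ} (ha : H28.J τ₀ = a) (h0 : a ≠ 0)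
    (h1 : a ≠ 1728) (γ : SL(2, ℤ)) :
    analyticOrderAt (fun z : ℂ => H28.J (ofComplex z) - a) ((γ • τ₀ : ℍ) : ℂ) = 1 := by
  have hγ : H28.J (γ • τ₀) = a := by rw [H28.J_smul, ha]
  have := analyticOrderAt_J_sub_generic (γ • τ₀) (by rw [hγ]; exact h0) (by rw [hγ]; exact h1)
  rwa [hγ] at this

/-- `J - a` does not vanish at `τ` unless `J τ = a`: order `0`. -/
theorem analyticOrderAt_J_sub_eq_zero_of_ne {τ : ℍ} {a : ℂ} (ha : H28.J τ ≠ a) :
    analyticOrderAt (fun z : ℂ => H28.J (ofComplex z) - a) (τ : ℂ) = 0 := by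
  rw [analyticOrderAt_eq_zero]
  right
  simpa [sub_eq_zero] using ha

theorem analyticAt_J_comp_ofComplex (τ : ℍ) :
    AnalyticAt ℂ (fun z : ℂ => H28.J (ofComplex z)) (τ : ℂ) :=
  analyticAt_comp_ofComplex Jfun_mdifferentiable τ

theorem analyticOrderNatAt_J_sub_1728_smul_I (γ : SL(2, ℤ)) :
    analyticOrderNatAt (fun z : ℂ => H28.J (ofComplex z) - 1728)
      ((γ • UpperHalfPlane.I : ℍ) : ℂ) = 2 := by
  rw [analyticOrderNatAt, analyticOrderAt_J_sub_1728_smul_I γ]; rfl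

theorem analyticOrderNatAt_J_smul_ρ (γ : SL(2, ℤ)) :
    analyticOrderNatAt (fun z : ℂ => H28.J (ofComplex z))
      ((γ • UpperHalfPlane.ρ : ℍ) : ℂ) = 3 := by
  rw [analyticOrderNatAt, analyticOrderAt_J_smul_ρ γ]; rfl

theorem analyticOrderNatAt_J_sub_smul_of_ne {τ₀ : ℍ} {a : ℂ} (ha : H28.J τ₀ = a) (h0 : a ≠ 0)
    (h1 : a ≠ 1728) (γ : SL(2, ℤ)) :
    analyticOrderNatAt (fun z : ℂ => H28.J (ofComplex z) - a) ((γ • τ₀ : ℍ) : ℂ) = 1 := by
  rw [analyticOrderNatAt, analyticOrderAt_J_sub_smul_of_ne ha h0 h1 γ]; rfl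

end Fermat.Agent.S24.H8
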