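import Fermat.Agent.S24.H8_Ramanujan

/-!
Local orders of the level one `j`-function `J = E₄³ / Δ` on the upper half plane:
`J - J τ₀` has order `1` at generic `τ₀`, `J` has order `3` at zeros of `E₄`,
`J - 1728` has order `2` at zeros of `E₆`.  Also `E₄` vanishes at the fixed point of `S * T`
and `E₆` at the fixed point of `S`.
-/

set_option autoImplicit false

open UpperHalfPlane hiding I
open Real Complex Filter Topology Function
open scoped Manifold MatrixGroups ModularForm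
open Derivative ModularForm EisensteinSeries

namespace Fermat.Agent.S24.H8

local notation "Δ" => ModularForm.discriminant

/-- The analytic `j`-function (same body as the S24 interface `J`). -/
noncomputable def Jfun (τ : ℍ) : ℂ := (E₄ τ) ^ 3 / Δ τ

theorem Jfun_def (τ : ℍ) : Jfun τ = (E₄ τ) ^ 3 / Δ τ := rfl

theorem mdifferentiable_discriminant : MDiff (Δ : ℍ → ℂ) := CuspForm.discriminant.holo'

theorem Jfun_mdifferentiable : MDiff Jfun :=
  ((ModularFormClass.holo E₄).pow 3).div mdifferentiable_discriminant discriminant_ne_zero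

theorem E₄_E₆_not_both_zero (τ : ℍ) (h4 : E₄ τ = 0) (h6 : E₆ τ = 0) : False := by
  have := discriminant_eq_E₄_cube_sub_E₆_sq τ
  rw [h4, h6] at this
  exact discriminant_ne_zero τ (by rw [this]; norm_num)

theorem Jfun_sub_1728 (τ : ℍ) : Jfun τ - 1728 = (E₆ τ) ^ 2 / Δ τ := by
  have hΔ := discriminant_ne_zero τ
  rw [Jfun_def, eq_div_iff hΔ, sub_mul, div_mul_cancel₀ _ hΔ,
    discriminant_eq_E₄_cube_sub_E₆_sq τ]
  ring

theorem Jfun_eq_zero_iff (τ : ℍ) : Jfun τ = 0 ↔ E₄ τ = 0 := by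
  rw [Jfun_def, div_eq_zero_iff]
  simp [discriminant_ne_zero τ]

theorem Jfun_eq_1728_iff (τ : ℍ) : Jfun τ = 1728 ↔ E₆ τ = 0 := by
  rw [← sub_eq_zero, Jfun_sub_1728, div_eq_zero_iff]
  simp [discriminant_ne_zero τ]

/-- `D J · Δ = - E₄² E₆`. -/
theorem D_Jfun_mul_discriminant (z : ℍ) : D Jfun z * Δ z = -(E₄ z ^ 2 * E₆ z) := by
  have h4 : MDiff (E₄ : ℍ → ℂ) := ModularFormClass.holo E₄
  have hprod : Jfun * (Δ : ℍ → ℂ) = (E₄ : ℍ → ℂ) ^ 3 := by
    ext w
    simp only [Pi.mul_apply, Pi.pow_apply, Jfun_def]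
    exact div_mul_cancel₀ _ (discriminant_ne_zero w)
  have hD := congrArg (fun f => D f z) hprod
  simp only [normalizedDerivOfComplex_mul _ _ Jfun_mdifferentiable mdifferentiable_discriminant,
    normalizedDerivOfComplex_pow _ _ h4, Pi.add_apply, Pi.mul_apply, Pi.pow_apply,
    Pi.natCast_apply] at hD
  rw [D_discriminant, D_E₄] at hD
  have hJ : Jfun z * Δ z = E₄ z ^ 3 := by
    rw [Jfun_def]; exact div_mul_cancel₀ _ (discriminant_ne_zero z)
  push_cast at hD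
  linear_combination hD - E2 z * hJ

/-- A holomorphic function on `ℍ`, precomposed with `ofComplex`, is analytic at points of `ℍ`. -/
theorem analyticAt_comp_ofComplex {f : ℍ → ℂ} (hf : MDiff f) (τ : ℍ) :
    AnalyticAt ℂ (fun z : ℂ => f (ofComplex z)) (τ : ℂ) := by
  have h := UpperHalfPlane.mdifferentiable_iff.mp hf
  exact h.analyticAt (isOpen_upperHalfPlaneSet.mem_nhds τ.im_pos)

theorem deriv_comp_ofComplex_eq (f : ℍ → ℂ) (τ : ℍ) :
    deriv (fun z : ℂ => f (ofComplex z)) (τ : ℂ) = 2 * π * I * D f τ := by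
  have h2pi : (2 * π * I : ℂ) ≠ 0 := two_pi_I_ne_zero
  rw [normalizedDerivOfComplex]
  change _ = 2 * π * I * ((2 * π * I)⁻¹ * deriv (fun z : ℂ => f (ofComplex z)) (τ : ℂ))
  field_simp

/-- Zeros of `E₄` on `ℍ` are simple. -/
theorem analyticOrderAt_E₄_of_eq_zero (τ₀ : ℍ) (h : E₄ τ₀ = 0) :
    analyticOrderAt (fun z : ℂ => E₄ (ofComplex z)) (τ₀ : ℂ) = 1 := by
  have han := analyticAt_comp_ofComplex (ModularFormClass.holo E₄) τ₀
  refine han.analyticOrderAt_eq_one_of_zero_deriv_ne_zero (by simpa using h) ?_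
  rw [deriv_comp_ofComplex_eq, D_E₄, h]
  have h6 : E₆ τ₀ ≠ 0 := fun h6 => E₄_E₆_not_both_zero τ₀ h h6
  have h2pi : (2 * π * I : ℂ) ≠ 0 := two_pi_I_ne_zero
  simp [h6, Real.pi_ne_zero]

/-- Zeros of `E₆` on `ℍ` are simple. -/
theorem analyticOrderAt_E₆_of_eq_zero (τ₀ : ℍ) (h : E₆ τ₀ = 0) :
    analyticOrderAt (fun z : ℂ => E₆ (ofComplex z)) (τ₀ : ℂ) = 1 := by
  have han := analyticAt_comp_ofComplex (ModularFormClass.holo E₆) τ₀
  refine han.analyticOrderAt_eq_one_of_zero_deriv_ne_zero (by simpa using h) ?_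
  rw [deriv_comp_ofComplex_eq, D_E₆, h]
  have h4 : E₄ τ₀ ≠ 0 := fun h4 => E₄_E₆_not_both_zero τ₀ h4 h
  simp [h4, Real.pi_ne_zero]

theorem analyticAt_inv_discriminant (τ₀ : ℍ) :
    AnalyticAt ℂ (fun z : ℂ => (Δ (ofComplex z))⁻¹) (τ₀ : ℂ) :=
  (analyticAt_comp_ofComplex mdifferentiable_discriminant τ₀).inv
    (by simpa using discriminant_ne_zero τ₀)

theorem analyticOrderAt_inv_discriminant (τ₀ : ℍ) :
    analyticOrderAt (fun z : ℂ => (Δ (ofComplex z))⁻¹) (τ₀ : ℂ) = 0 := by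
  rw [(analyticAt_inv_discriminant τ₀).analyticOrderAt_eq_zero]
  simpa using discriminant_ne_zero τ₀

/-- generic points: `J - J τ₀` vanishes to order exactly `1` at `τ₀`. -/
theorem analyticOrderAt_Jfun_sub_generic (τ₀ : ℍ) (h0 : Jfun τ₀ ≠ 0) (h1 : Jfun τ₀ ≠ 1728) :
    analyticOrderAt (fun z : ℂ => Jfun (ofComplex z) - Jfun τ₀) (τ₀ : ℂ) = 1 := by
  have han := analyticAt_comp_ofComplex Jfun_mdifferentiable τ₀
  have h4 : E₄ τ₀ ≠ 0 := fun h => h0 ((Jfun_eq_zero_iff τ₀).mpr h)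
  have h6 : E₆ τ₀ ≠ 0 := fun h => h1 ((Jfun_eq_1728_iff τ₀).mpr h)
  have hd : deriv (fun z : ℂ => Jfun (ofComplex z)) (τ₀ : ℂ) ≠ 0 := by
    rw [deriv_comp_ofComplex_eq]
    have hDJ : D Jfun τ₀ ≠ 0 := by
      intro hz
      have := D_Jfun_mul_discriminant τ₀
      rw [hz, zero_mul] at this
      have : E₄ τ₀ ^ 2 * E₆ τ₀ = 0 := by linear_combination this
      exact mul_ne_zero (pow_ne_zero 2 h4) h6 this
    exact mul_ne_zero two_pi_I_ne_zero hDJ
  have := han.analyticOrderAt_sub_eq_one_of_deriv_ne_zero hd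
  simpa using this

/-- at zeros of `E₄` the function `J` vanishes to order exactly `3`. -/
theorem analyticOrderAt_Jfun_of_E₄_eq_zero (τ₀ : ℍ) (h : E₄ τ₀ = 0) :
    analyticOrderAt (fun z : ℂ => Jfun (ofComplex z)) (τ₀ : ℂ) = 3 := by
  have han4 := analyticAt_comp_ofComplex (ModularFormClass.holo E₄) τ₀
  have heq : (fun z : ℂ => Jfun (ofComplex z)) =
      (fun z : ℂ => E₄ (ofComplex z)) ^ 3 * (fun z : ℂ => (Δ (ofComplex z))⁻¹) := by
    ext z
    simp [Jfun_def, div_eq_mul_inv]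
  rw [heq, analyticOrderAt_mul (han4.pow 3) (analyticAt_inv_discriminant τ₀),
    analyticOrderAt_pow han4, analyticOrderAt_E₄_of_eq_zero τ₀ h,
    analyticOrderAt_inv_discriminant]
  rfl

/-- at zeros of `E₆` the function `J - 1728` vanishes to order exactly `2`. -/
theorem analyticOrderAt_Jfun_sub_1728_of_E₆_eq_zero (τ₀ : ℍ) (h : E₆ τ₀ = 0) :
    analyticOrderAt (fun z : ℂ => Jfun (ofComplex z) - 1728) (τ₀ : ℂ) = 2 := by
  have han6 := analyticAt_comp_ofComplex (ModularFormClass.holo E₆) τ₀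
  have heq : (fun z : ℂ => Jfun (ofComplex z) - 1728) =
      (fun z : ℂ => E₆ (ofComplex z)) ^ 2 * (fun z : ℂ => (Δ (ofComplex z))⁻¹) := by
    ext z
    simp [Jfun_sub_1728, div_eq_mul_inv]
  rw [heq, analyticOrderAt_mul (han6.pow 2) (analyticAt_inv_discriminant τ₀),
    analyticOrderAt_pow han6, analyticOrderAt_E₆_of_eq_zero τ₀ h,
    analyticOrderAt_inv_discriminant]
  rfl

/-! ### Elliptic points -/

theorem modularForm_apply_smul {k : ℤ} (f : ModularForm 𝒮ℒ k) (γ : SL(2, ℤ)) (τ : ℍ) :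
    f (γ • τ) = (denom γ τ) ^ k * f τ := by
  have hγ : (γ : GL (Fin 2) ℝ) ∈ 𝒮ℒ := ⟨γ, rfl⟩
  exact SlashInvariantForm.slash_action_eqn'' f hγ τ

/-- A level one modular form vanishes at a point fixed by `γ` unless the automorphy factor
of `γ` there is trivial. -/
theorem modularForm_eq_zero_of_fixed {k : ℤ} (f : ModularForm 𝒮ℒ k) (γ : SL(2, ℤ)) (τ : ℍ)
    (hfix : γ • τ = τ) (hne : (denom γ τ) ^ k ≠ 1) : f τ = 0 := by
  have h := modularForm_apply_smul f γ τ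
  rw [hfix] at h
  have : (1 - (denom γ τ) ^ k) * f τ = 0 := by linear_combination h
  rcases mul_eq_zero.mp this with h1 | h1
  · exact absurd (by linear_combination -h1) hne
  · exact h1

theorem S_smul_I : ModularGroup.S • UpperHalfPlane.I = UpperHalfPlane.I :=
  ModularGroup.stabilizer_I.mpr (by simp)

theorem ST_smul_ρ : (ModularGroup.S * ModularGroup.T) • UpperHalfPlane.ρ = UpperHalfPlane.ρ :=
  ModularGroup.stabilizer_ρ.mpr (by simp)

/-- `E₆ (i) = 0`. -/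
theorem E₆_I : E₆ UpperHalfPlane.I = 0 := by
  refine modularForm_eq_zero_of_fixed E₆ ModularGroup.S _ S_smul_I ?_
  rw [ModularGroup.denom_S, UpperHalfPlane.coe_I]
  norm_cast
  have : Complex.I ^ 6 = -1 := by
    calc Complex.I ^ 6 = (Complex.I ^ 2) ^ 3 := by ring
      _ = -1 := by rw [Complex.I_sq]; norm_num
  rw [this]
  norm_num

theorem denom_ST (z : ℍ) :
    denom ((ModularGroup.S * ModularGroup.T : SL(2, ℤ)) : GL (Fin 2) ℝ) z = z + 1 := by
  simp [denom, ModularGroup.S, ModularGroup.T, Matrix.mul_apply, Fin.sum_univ_two]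

/-- `E₄ (ρ) = 0`. -/
theorem E₄_ρ : E₄ UpperHalfPlane.ρ = 0 := by
  refine modularForm_eq_zero_of_fixed E₄ (ModularGroup.S * ModularGroup.T) _ ST_smul_ρ ?_
  rw [denom_ST]
  norm_cast
  intro h
  have h2 := congrArg Complex.im h
  have h3 : ((UpperHalfPlane.ρ : ℂ) + 1) = ⟨1 / 2, Real.sqrt 3 / 2⟩ := by
    apply Complex.ext <;> norm_num [UpperHalfPlane.ρ]
  rw [h3] at h2
  have h4 : ((⟨1 / 2, Real.sqrt 3 / 2⟩ : ℂ) ^ 4).im = - (Real.sqrt 3 / 2) := by
    have hs : Real.sqrt 3 ^ 2 = 3 := Real.sq_sqrt (by norm_num)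
    simp [pow_succ, Complex.mul_im, Complex.mul_re]
    linear_combination (-(Real.sqrt 3 / 4)) * hs
  rw [h4] at h2
  simp at h2

/-- `E₄` vanishes at the fixed point `ρ` of `S * T`. -/
theorem exists_E₄_eq_zero :
    ∃ τ₀ : ℍ, (ModularGroup.S * ModularGroup.T) • τ₀ = τ₀ ∧ E₄ τ₀ = 0 :=
  ⟨UpperHalfPlane.ρ, ST_smul_ρ, E₄_ρ⟩

/-- `E₆` vanishes at the fixed point `i` of `S`. -/
theorem exists_E₆_eq_zero : ∃ τ₀ : ℍ, ModularGroup.S • τ₀ = τ₀ ∧ E₆ τ₀ = 0 :=
  ⟨UpperHalfPlane.I, S_smul_I, E₆_I⟩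

theorem Jfun_ρ : Jfun UpperHalfPlane.ρ = 0 := (Jfun_eq_zero_iff _).mpr E₄_ρ

theorem Jfun_I : Jfun UpperHalfPlane.I = 1728 := (Jfun_eq_1728_iff _).mpr E₆_I

theorem discriminant_apply_smul (γ : SL(2, ℤ)) (τ : ℍ) :
    Δ (γ • τ) = (denom γ τ) ^ (12 : ℤ) * Δ τ := by
  have hγ : (γ : GL (Fin 2) ℝ) ∈ 𝒮ℒ := ⟨γ, rfl⟩
  exact SlashInvariantForm.slash_action_eqn'' CuspForm.discriminant hγ τ

/-- `J` is invariant under the modular group. -/
theorem Jfun_smul (γ : SL(2, ℤ)) (τ : ℍ) : Jfun (γ • τ) = Jfun τ := by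
  have hd : (denom γ τ) ≠ 0 := denom_ne_zero _ _
  have h4 := modularForm_apply_smul E₄ γ τ
  rw [Jfun_def, Jfun_def, discriminant_apply_smul, h4, mul_pow, ← zpow_natCast (denom γ τ ^ _) 3,
    ← zpow_mul]
  norm_num
  rw [mul_div_mul_left _ _ (pow_ne_zero 12 hd)]

end Fermat.Agent.S24.H8
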