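import Mathlib

set_option autoImplicit false

open UpperHalfPlane hiding I
open Real Complex Filter Topology Function
open scoped Manifold MatrixGroups ModularForm
open Derivative ModularForm EisensteinSeries

namespace Fermat.Agent.S24.H8

local notation "𝕢" => Periodic.qParam

/-- Chain rule: `f = F ∘ 𝕢` so `D f = 𝕢 * F' ∘ 𝕢`. -/
theorem normalizedDeriv_eq_qParam_mul_deriv_cuspFunction {f : ℍ → ℂ}
    (hfper : Periodic (f ∘ ofComplex) 1) (hfhol : MDiff f) (hfbdd : IsBoundedAtImInfty f) (z : ℍ) :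
    D f z = 𝕢 1 z * deriv (cuspFunction 1 f) (𝕢 1 z) := by
  have hq : ‖𝕢 1 (z : ℂ)‖ < 1 := Periodic.norm_qParam_lt_one one_pos z.im_pos
  have hF : DifferentiableAt ℂ (cuspFunction 1 f) (𝕢 1 z) :=
    differentiableAt_cuspFunction one_pos hfper hfhol hfbdd hq
  have hqd : HasDerivAt (𝕢 1) (𝕢 1 (z : ℂ) * (2 * π * I)) (z : ℂ) := by
    have h2 := (((hasDerivAt_id (z : ℂ)).const_mul (2 * π * I)).div_const ((1 : ℝ) : ℂ)).cexp
    simp only [id_eq, mul_one, ofReal_one, div_one] at h2
    have e1 : (𝕢 1 : ℂ → ℂ) = fun x => cexp (2 * π * I * x) := by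
      ext w; simp [Function.Periodic.qParam]
    rw [e1]
    exact h2
  have hcomp : HasDerivAt (cuspFunction 1 f ∘ 𝕢 1)
      (deriv (cuspFunction 1 f) (𝕢 1 z) * (𝕢 1 (z : ℂ) * (2 * π * I))) (z : ℂ) :=
    hF.hasDerivAt.comp (z : ℂ) hqd
  have heq : (f ∘ ofComplex) =ᶠ[𝓝 (z : ℂ)] (cuspFunction 1 f ∘ 𝕢 1) := by
    filter_upwards [isOpen_upperHalfPlaneSet.mem_nhds z.im_pos] with w hw
    have := eq_cuspFunction (h := 1) (f := f) ⟨w, hw⟩ one_ne_zero hfper
    simp only [comp_apply, ofComplex_apply_of_im_pos hw]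
    exact this.symm
  have hderiv : deriv (f ∘ ofComplex) (z : ℂ) =
      deriv (cuspFunction 1 f) (𝕢 1 z) * (𝕢 1 (z : ℂ) * (2 * π * I)) := by
    rw [heq.deriv_eq]; exact hcomp.deriv
  have h2pi : (2 * π * I : ℂ) ≠ 0 := two_pi_I_ne_zero
  rw [normalizedDerivOfComplex, hderiv]
  field_simp

theorem isZeroAtImInfty_normalizedDeriv {f : ℍ → ℂ}
    (hfper : Periodic (f ∘ ofComplex) 1) (hfhol : MDiff f) (hfbdd : IsBoundedAtImInfty f) :
    IsZeroAtImInfty (D f) := by
  have hFan : AnalyticAt ℂ (cuspFunction 1 f) 0 :=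
    analyticAt_cuspFunction_zero one_pos hfper hfhol hfbdd
  have hcont : ContinuousAt (fun q : ℂ => q * deriv (cuspFunction 1 f) q) 0 :=
    continuousAt_id.mul hFan.deriv.continuousAt
  have h0 : Tendsto (fun z : ℍ => 𝕢 1 z * deriv (cuspFunction 1 f) (𝕢 1 z)) atImInfty (𝓝 0) := by
    have := hcont.tendsto.comp (qParam_tendsto_atImInfty one_pos)
    simp only [zero_mul] at this
    exact this
  refine h0.congr fun z => ?_
  exact (normalizedDeriv_eq_qParam_mul_deriv_cuspFunction hfper hfhol hfbdd z).symm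

variable {k : ℤ}

theorem isBoundedAtImInfty_serreDerivative (f : ModularForm 𝒮ℒ k) :
    IsBoundedAtImInfty (serreDerivative k f) := by
  have hper : Periodic ((f : ℍ → ℂ) ∘ ofComplex) 1 :=
    SlashInvariantFormClass.periodic_comp_ofComplex f one_mem_strictPeriods_SL
  have hbdd : IsBoundedAtImInfty (f : ℍ → ℂ) := ModularFormClass.bdd_at_infty f
  have h1 : IsBoundedAtImInfty (D f) :=
    (isZeroAtImInfty_normalizedDeriv hper (ModularFormClass.holo f) hbdd).isBoundedAtImInfty
  have h2 : IsBoundedAtImInfty (fun z => (k : ℂ) * 12⁻¹ * E2 z * f z) := by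
    have hc : IsBoundedAtImInfty (fun _ : ℍ => (k : ℂ) * 12⁻¹) := const_boundedAtFilter _ _
    exact (hc.mul isBoundedAtImInfty_E2).mul hbdd
  exact h1.sub h2

/-- The Serre derivative of a level one modular form, as a modular form. -/
noncomputable def serreD (f : ModularForm 𝒮ℒ k) : ModularForm 𝒮ℒ (k + 2) where
  toFun := serreDerivative k f
  slash_action_eq' := by
    rintro _ ⟨γ, rfl⟩
    exact serreDerivative_slash_invariant (ModularFormClass.holo f)
      (SlashInvariantFormClass.slash_action_eq f _ ⟨γ, rfl⟩)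
  holo' := serreDerivative_mdifferentiable k (ModularFormClass.holo f)
  bdd_at_cusps' {c} hc := by
    rw [Subgroup.IsArithmetic.isCusp_iff_isCusp_SL2Z] at hc
    rw [OnePoint.isBoundedAt_iff_forall_SL2Z hc]
    intro γ _
    have : serreDerivative k f ∣[k + 2] γ = serreDerivative k f :=
      serreDerivative_slash_invariant (ModularFormClass.holo f)
        (SlashInvariantFormClass.slash_action_eq f _ ⟨γ, rfl⟩)
    rw [this]
    exact isBoundedAtImInfty_serreDerivative f

@[simp] theorem serreD_apply (f : ModularForm 𝒮ℒ k) (z : ℍ) :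
    serreD f z = D f z - k * 12⁻¹ * E2 z * f z := rfl

end Fermat.Agent.S24.H8
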