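import Fermat.Agent.S24.H8_HolMaps
import Fermat.Agent.S24.H40_Generation
import Fermat.Agent.S24.H24_Group
import Fermat.Agent.S24.H28_JDef
import Fermat.Agent.S24.H46_PlacesFromEmb
import Fermat.Agent.S24.H81_PlacesPoints
import Fermat.Agent.S24.H76_Orders

/-!
T5, finite part (abstract in the conjugate embeddings `θ x`): every place of `FN N` over `j = a`
is the "evaluation at `τ₀`" place of one of the conjugate embeddings, and the analytic order
along that embedding is a positive multiple of the order of the place.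
-/

set_option autoImplicit false

open UpperHalfPlane ModularCurve IntermediateField AlgebraicCurve
open scoped Manifold MatrixGroups

noncomputable section

namespace Fermat.Agent.S24.H8

/-! ### More on the valuation ring `OMer τ₀` -/

theorem algebraMap_mem_OMer (τ₀ : ℍ) (g : Hol) : algebraMap Hol MerH g ∈ OMer τ₀ := by
  by_cases hg : g = 0
  · rw [hg, map_zero]; exact zero_mem _
  · rw [mem_OMer_iff τ₀ (algebraMap_MerH_ne_zero hg), ordMer_algebraMap τ₀ hg]
    exact ordHol_nonneg τ₀ g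

theorem ordMer_inv (τ₀ : ℍ) {x : MerH} (hx : x ≠ 0) : ordMer τ₀ x⁻¹ = -ordMer τ₀ x :=
  (isOrdFunction_ordMer τ₀).map_inv hx

theorem mem_nonunits_OMer_iff (τ₀ : ℍ) {x : MerH} (hx : x ≠ 0) :
    x ∈ (OMer τ₀).nonunits ↔ 0 < ordMer τ₀ x := by
  rw [ValuationSubring.mem_nonunits_iff_or]
  constructor
  · rintro (h | h)
    · exact absurd h hx
    · by_contra hle
      apply h
      rw [mem_OMer_iff τ₀ (inv_ne_zero hx), ordMer_inv τ₀ hx]
      omega
  · intro h
    right
    rw [mem_OMer_iff τ₀ (inv_ne_zero hx), ordMer_inv τ₀ hx]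
    omega

theorem algebraMap_mem_nonunits_OMer (τ₀ : ℍ) {g : Hol} (hg : g ≠ 0)
    (h0 : (g : ℍ → ℂ) τ₀ = 0) : algebraMap Hol MerH g ∈ (OMer τ₀).nonunits := by
  rw [mem_nonunits_OMer_iff τ₀ (algebraMap_MerH_ne_zero hg), ordMer_algebraMap τ₀ hg]
  exact (ordHol_pos_iff τ₀ hg).mpr h0

/-! ### T5, finite part -/

section T5

variable (N : ℕ) [NeZero N]

instance isFractionRing_AN : IsFractionRing (H40.AN N) (FN N) :=
  IsFractionRing.of_field (H40.AN N) (FN N) fun z => by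
    obtain ⟨a, ha, b, hb, _, hab⟩ := H40.exists_div_AN N z
    exact ⟨⟨a, ha⟩, ⟨b, hb⟩, hab⟩

/-- **T5 (finite part), abstract in the conjugate embeddings.** -/
theorem exists_conj_ord_eq (ι : Qbar →+* ℂ)
    (θ : H24.XN N → (H40.AN N →+* (ℍ → ℂ)))
    (hmd : ∀ x f, MDiff (θ x f))
    (hinj : ∀ x, Function.Injective (θ x))
    (hconst : ∀ x (c : Qbar), θ x (algebraMap Qbar (H40.AN N) c) = fun _ => ι c)
    (hinv : ∀ (x y : H24.XN N) (c : H40.AN N), (c : FN N) ∈ Algebra.adjoin Qbar {jBar N} →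
      θ x c = θ y c)
    (hdist : Function.Injective fun x => θ x ⟨jd N N dvd_rfl, H40.jd_mem_AN N N dvd_rfl⟩)
    (hJ : ∀ x, θ x ⟨jBar N, H40.jBar_mem_AN N⟩ = H28.J)
    [FiniteDimensional Qbar⟮jBar N⟯ (FN N)]
    (hdeg : Module.finrank Qbar⟮jBar N⟯ (FN N) = Nat.card (H24.XN N))
    (v : Place Qbar (FN N)) (a : Qbar) (τ₀ : ℍ) (hJτ : H28.J τ₀ = ι a)
    (hv : 0 < v.ord (jBar N - algebraMap Qbar (FN N) a)) :
    ∃ x : H24.XN N, ∃ m : ℤ, 0 < m ∧
      ∀ f : H40.AN N, f ≠ 0 → H76.ordH (θ x f) τ₀ = m * v.ord (f : FN N) := by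
  classical
  -- the embeddings
  let Φ : H24.XN N → (H40.AN N →+* Hol) := fun x => toHol (θ x) (hmd x)
  have hΦinj : ∀ x, Function.Injective (Φ x) := fun x => toHol_injective (θ x) (hmd x) (hinj x)
  have hΦcoe : ∀ x f, ((Φ x f : Hol) : ℍ → ℂ) = θ x f := fun x f => rfl
  let σ : H24.XN N → (FN N →+* MerH) := fun x => liftMer (F := FN N) (Φ x) (hΦinj x)
  have hσA : ∀ x (f : H40.AN N), σ x (algebraMap (H40.AN N) (FN N) f) =
      algebraMap Hol MerH (Φ x f) := fun x f => liftMer_algebraMap (Φ x) (hΦinj x) f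
  -- distinctness
  have hσ : Function.Injective σ := by
    intro x y hxy
    apply hdist
    have h1 := congrArg (fun s : FN N →+* MerH =>
      s (algebraMap (H40.AN N) (FN N) ⟨jd N N dvd_rfl, H40.jd_mem_AN N N dvd_rfl⟩)) hxy
    simp only [hσA] at h1
    have h2 := algebraMap_MerH_injective h1
    have h3 := congrArg (fun g : Hol => (g : ℍ → ℂ)) h2
    simpa [hΦcoe] using h3
  have hcard : Fintype.card (H24.XN N) = Module.finrank Qbar⟮jBar N⟯ (FN N) := by
    rw [hdeg, Nat.card_eq_fintype_card]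
  -- polynomials in `j`
  have hpoly : ∀ r : Polynomial Qbar, Polynomial.aeval (jBar N) r ∈ H40.AN N := fun r =>
    (Algebra.adjoin_le (Set.singleton_subset_iff.mpr (H40.jBar_mem_AN N)))
      (Polynomial.aeval_mem_adjoin_singleton Qbar (jBar N))
  have hσpoly : ∀ x y (r : Polynomial Qbar),
      σ x (Polynomial.aeval (jBar N) r) = σ y (Polynomial.aeval (jBar N) r) := by
    intro x y r
    have e : Polynomial.aeval (jBar N) r =
        algebraMap (H40.AN N) (FN N) ⟨Polynomial.aeval (jBar N) r, hpoly r⟩ := rfl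
    rw [e, hσA, hσA]
    congr 1
    apply Subtype.ext
    rw [hΦcoe, hΦcoe]
    exact hinv x y _ (Polynomial.aeval_mem_adjoin_singleton Qbar (jBar N))
  have hagree : ∀ x y, ∀ c ∈ Qbar⟮jBar N⟯, σ x c = σ y c := by
    intro x y c hc
    obtain ⟨r, s, rfl⟩ := (mem_adjoin_simple_iff Qbar c).mp hc
    rw [map_div₀, map_div₀, hσpoly x y r, hσpoly x y s]
  -- constants
  have hconstA : ∀ (c : Qbar), algebraMap Qbar (FN N) c =
      algebraMap (H40.AN N) (FN N) (algebraMap Qbar (H40.AN N) c) := fun c => rfl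
  have hK : ∀ x (c : Qbar), σ x (algebraMap Qbar (FN N) c) ∈ OMer τ₀ := by
    intro x c
    rw [hconstA, hσA]
    exact algebraMap_mem_OMer τ₀ _
  -- `j - a`
  have hne : jBar N - algebraMap Qbar (FN N) a ≠ 0 := by
    intro h0
    rw [h0, Place.ord_zero] at hv
    exact lt_irrefl _ hv
  let u : H40.AN N := ⟨jBar N, H40.jBar_mem_AN N⟩ - algebraMap Qbar (H40.AN N) a
  have hu : algebraMap (H40.AN N) (FN N) u = jBar N - algebraMap Qbar (FN N) a := rfl
  have hu0 : u ≠ 0 := by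
    intro h0
    apply hne
    rw [← hu, h0, map_zero]
  have hθu : ∀ x, θ x u = fun τ => H28.J τ - ι a := by
    intro x
    have : θ x u = θ x ⟨jBar N, H40.jBar_mem_AN N⟩ - θ x (algebraMap Qbar (H40.AN N) a) :=
      map_sub (θ x) _ _
    rw [this, hJ x, hconst x a]
    rfl
  have ha : ∀ x, σ x (jBar N - algebraMap Qbar (FN N) a) ∈ (OMer τ₀).nonunits := by
    intro x
    rw [← hu, hσA]
    refine algebraMap_mem_nonunits_OMer τ₀ ((map_ne_zero_iff (Φ x) (hΦinj x)).mpr hu0) ?_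
    rw [hΦcoe, hθu x]
    simp [hJτ]
  -- the place is induced by one embedding
  have : CharZero Qbar⟮jBar N⟯ :=
    charZero_of_injective_algebraMap (algebraMap Qbar Qbar⟮jBar N⟯).injective
  obtain ⟨x, hx⟩ := H46.exists_embedding_of_place (K := Qbar) (F := FN N) (L := MerH) (jBar N)
    (OMer τ₀) σ hσ hcard hagree hK a ha v hv
  have hK' : ∀ c : Qbar, c ≠ 0 → ordMer τ₀ (σ x (algebraMap Qbar (FN N) c)) = 0 := by
    intro c hc
    rw [hconstA, hσA]
    have hne' : Φ x (algebraMap Qbar (H40.AN N) c) ≠ 0 :=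
      (map_ne_zero_iff (Φ x) (hΦinj x)).mpr
        ((map_ne_zero_iff _ (algebraMap Qbar (H40.AN N)).injective).mpr hc)
    rw [ordMer_algebraMap τ₀ hne', ordHol_eq_zero_iff τ₀ hne', hΦcoe, hconst x c]
    exact (map_ne_zero ι).mpr hc
  obtain ⟨m, hm, hord⟩ := H81.exists_pos_mul_ord_of_ringHom v (σ x) (ordMer τ₀) (OMer τ₀)
    (fun y z hy hz => ordMer_mul τ₀ hy hz) (fun y z hy hz hyz => ordMer_add τ₀ hy hz hyz)
    (fun y hy => mem_OMer_iff τ₀ hy) hK' hx
  refine ⟨x, (m : ℤ), by exact_mod_cast hm, fun f hf => ?_⟩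
  have hf' : algebraMap (H40.AN N) (FN N) f ≠ 0 :=
    (map_ne_zero_iff _ (FaithfulSMul.algebraMap_injective (H40.AN N) (FN N))).mpr hf
  have h1 := hord _ hf'
  rw [hσA, ordMer_algebraMap τ₀ ((map_ne_zero_iff (Φ x) (hΦinj x)).mpr hf)] at h1
  exact h1

end T5

end Fermat.Agent.S24.H8
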