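import Fermat.Agent.S24.H8_T5Fin
import Fermat.Agent.S24.H17_Theta
import Fermat.Agent.S24.H40_M123

/-!
T5, finite part, instantiated with `H17.thetaXHom`: the field `place_fin` of `H76.ModInputs`.
-/

set_option autoImplicit false

open UpperHalfPlane ModularCurve IntermediateField AlgebraicCurve
open scoped Manifold MatrixGroups

noncomputable section

namespace Fermat.Agent.S24.H8

variable (N : ℕ) [NeZero N]

theorem AN_eq_A : H40.AN N = H17.A N := rfl

/-- **T5 (finite part)** in the shape of `H76.ModInputs.place_fin`. -/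
theorem place_fin (v : Place Qbar (FN N)) (a : Qbar) (τ0 : ℍ) (hJ : H28.J τ0 = H17.iota a)
    (hv : 0 < v.ord (jBar N - algebraMap Qbar (FN N) a)) :
    ∃ γ : SL(2, ℤ), ∃ m : ℤ, 0 < m ∧
      ∀ f ∈ (H17.A N : Set (FN N)), f ≠ 0 →
        H76.ordH (H17.Theta N f) (γ⁻¹ • τ0) = m * v.ord f := by
  obtain ⟨hfd, hdeg⟩ := H40.finrank_FN N
  obtain ⟨x, m, hm, hord⟩ := exists_conj_ord_eq N H17.iota (fun x => H17.thetaXHom N x)
    (fun x f => H17.thetaConj_mdiff N f.2 _)
    (fun x => H17.thetaXHom_injective N x)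
    (fun x c => H17.thetaConj_algebraMap N _ c)
    (fun x y c hc => by
      change H17.thetaConj N _ c.1 = H17.thetaConj N _ c.1
      rw [H17.thetaConj_of_mem_adjoin_jBar N hc, H17.thetaConj_of_mem_adjoin_jBar N hc])
    (H17.thetaX_jd_injective N)
    (fun x => H17.thetaConj_jBar N _)
    hdeg v a τ0 hJ hv
  refine ⟨Quotient.out x, m, hm, fun f hf hf0 => ?_⟩
  have h1 := hord ⟨f, hf⟩ (fun h => hf0 (congrArg Subtype.val h))
  rw [← h1, ← H76.ordH_comp_smul]
  rfl

end Fermat.Agent.S24.H8
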