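import Mathlib
import Fermat.Agent.S24.H95_CuspPlaces
import Fermat.Agent.S24.H95_EmbCuspJ
import Fermat.Agent.S24.H17_Theta
import Fermat.Agent.S24.H40_M123
import Fermat.Agent.S24.H46_Separable

/-!
# S24 / T5-cusp : instantiation for `Θ = H17.Theta N` (helper95)

With `ordInf N g := (H4.qhExpansion N g).order`, the five cusp fields of `H76.ModInputs`
(`place_cusp`, `ordInf_one`, `ordInf_trans`, `ordInf_div`, `ordInf_J`) in their verbatim shapes
for `A := ↑(H17.A N)`, `Θ := H17.Theta N`.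
-/

set_option autoImplicit false

open UpperHalfPlane AlgebraicCurve IntermediateField ModularGroup
open scoped Manifold MatrixGroups

noncomputable section

namespace Fermat.Agent.S24.H95

open Fermat.Agent.S24.H4

variable (N : ℕ) [NeZero N]

/-- The order at the cusp `i∞` in the local parameter `q_N`. -/
def ordInf (g : ℍ → ℂ) : ℤ := (qhExpansion (N : ℝ) g).order

theorem ordInf_def (g : ℍ → ℂ) : ordInf N g = (qhExpansion (N : ℝ) g).order := rfl

/-- Every conjugate of `Θ f`, `f ∈ A`, is `N`-periodic and meromorphic at the cusp. -/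
theorem isMeroPeriodic_thetaConj {f : FN N} (hf : f ∈ H17.A N) (γ : SL(2, ℤ)) :
    IsMeroPeriodic (N : ℝ) (H17.thetaConj N γ f) := by
  obtain ⟨C, M, hg⟩ := H17.thetaConj_growth N hf γ
  exact isMeroPeriodic_of_growth (natCast_pos_of_neZero N) (H17.thetaConj_mdiff N hf γ)
    (H17.thetaConj_vadd N hf γ) (C := C) (B := 2 * Real.pi * M) (c := 1) hg

theorem isMeroPeriodic_thetaXHom (x : H24.XN N) (f : H17.A N) :
    IsMeroPeriodic (N : ℝ) (H17.thetaXHom N x f) :=
  isMeroPeriodic_thetaConj N f.2 (Quotient.out x)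

/-- `ordInf_one`. -/
theorem ordInf_one : ordInf N 1 = 0 := by
  rw [ordInf, qhExpansion_one (natCast_pos_of_neZero N)]
  exact HahnSeries.order_one

/-- `ordInf_trans`, verbatim `H76.ModInputs` shape. -/
theorem ordInf_trans : ∀ f ∈ (H17.A N : Set (FN N)), f ≠ 0 → ∀ γ : SL(2, ℤ),
    ordInf N (fun τ => H17.Theta N f (γ⁻¹ • (T⁻¹ • τ))) =
      ordInf N (fun τ => H17.Theta N f (γ⁻¹ • τ)) := by
  intro f hf _ γ
  have h1 : (fun τ : ℍ => H17.Theta N f (γ⁻¹ • (T⁻¹ • τ))) =
      fun τ : ℍ => H17.thetaConj N γ f ((-1 : ℝ) +ᵥ τ) := by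
    funext τ
    rw [H17.thetaConj_apply, neg_one_vadd_eq_T_inv_smul]
  have h2 : (fun τ : ℍ => H17.Theta N f (γ⁻¹ • τ)) = H17.thetaConj N γ f := rfl
  rw [h1, h2, ordInf, ordInf,
    qhExpansion_vadd_order (natCast_pos_of_neZero N) (isMeroPeriodic_thetaConj N hf γ)]

/-- `ordInf_div`, verbatim `H76.ModInputs` shape. -/
theorem ordInf_div : ∀ f ∈ (H17.A N : Set (FN N)), f ≠ 0 → ∀ (γ : SL(2, ℤ)) (k : ℕ), k ∣ N →
    (∀ τ : ℍ, H17.Theta N f (γ⁻¹ • ((k : ℝ) +ᵥ τ)) = H17.Theta N f (γ⁻¹ • τ)) →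
    ((N / k : ℕ) : ℤ) ∣ ordInf N (fun τ => H17.Theta N f (γ⁻¹ • τ)) := by
  intro f hf _ γ k hkN hper
  have hN : 0 < N := Nat.pos_of_ne_zero (NeZero.ne N)
  have hk0 : 0 < k := Nat.pos_of_dvd_of_pos hkN hN
  exact natCast_div_dvd_order_of_periodic hk0 hkN hN (isMeroPeriodic_thetaConj N hf γ) hper

/-- `ordInf_J`. -/
theorem ordInf_J : ordInf N H28.J = -(N : ℤ) := order_qhExpansion_J N

/-- `place_cusp`, verbatim `H76.ModInputs` shape: every pole of `j` is a cusp. -/
theorem place_cusp : ∀ v : Place Qbar (FN N), v.ord (jBar N) < 0 →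
    ∃ γ : SL(2, ℤ), ∃ m : ℤ, 0 < m ∧
      ∀ f ∈ (H17.A N : Set (FN N)), f ≠ 0 →
        ordInf N (fun τ => H17.Theta N f (γ⁻¹ • τ)) = m * v.ord f := by
  intro v hv
  haveI := H40.finiteDimensional_FN N
  haveI := H46.isSeparable_FN N
  have hA : ∀ f : FN N, ∃ a ∈ H17.A N, ∃ b ∈ H17.A N, b ≠ 0 ∧ f = a / b :=
    H40.exists_div_AN N
  obtain ⟨x, m, hm, hx⟩ := exists_cusp_of_place (K := Qbar) (F := FN N) (H17.A N) hA
    (jBar N) (H17.jBar_mem_A N) (H40.card_XN_eq_finrank N) H17.iota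
    (natCast_pos_of_neZero N) (fun x => H17.thetaXHom N x)
    (fun x f => isMeroPeriodic_thetaXHom N x f)
    (fun x => H17.thetaXHom_injective N x)
    (fun x c => by
      rw [H17.thetaXHom_apply]
      exact H17.thetaConj_algebraMap N (Quotient.out x) c)
    (fun x y c hc => by
      rw [H17.thetaXHom_apply, H17.thetaXHom_apply]
      have hc' : (c : FN N) ∈ Algebra.adjoin Qbar {jBar N} := by
        have h1 : (H17.A N).val c ∈ (Algebra.adjoin Qbar
            {(⟨jBar N, H17.jBar_mem_A N⟩ : H17.A N)}).map (H17.A N).val :=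
          Subalgebra.mem_map.mpr ⟨c, hc, rfl⟩
        rw [AlgHom.map_adjoin, Set.image_singleton] at h1
        exact h1
      show H17.thetaConj N (Quotient.out x) c = H17.thetaConj N (Quotient.out y) c
      rw [H17.thetaConj_of_mem_adjoin_jBar N hc', H17.thetaConj_of_mem_adjoin_jBar N hc'])
    (fun x y hxy => by
      refine ⟨⟨jd N N dvd_rfl, H17.jd_mem_A N N dvd_rfl⟩, fun heq => hxy ?_⟩
      exact H17.thetaX_jd_injective N heq)
    (fun x => by
      have h1 : H17.thetaXHom N x ⟨jBar N, H17.jBar_mem_A N⟩ = H28.J := by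
        rw [H17.thetaXHom_apply]
        exact H17.thetaConj_jBar N (Quotient.out x)
      rw [h1, order_qhExpansion_J N]
      have : (0 : ℤ) < N := by exact_mod_cast Nat.pos_of_ne_zero (NeZero.ne N)
      omega)
    v hv
  refine ⟨Quotient.out x, (m : ℤ), by exact_mod_cast hm, fun f hf hf0 => ?_⟩
  have := hx ⟨f, hf⟩ (fun h0 => hf0 (congrArg Subtype.val h0))
  exact this

end Fermat.Agent.S24.H95
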