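import Fermat.Agent.S24.H97_Ord

set_option autoImplicit false

noncomputable section

open IsDedekindDomain Polynomial AlgebraicCurve WithZero
open scoped IntermediateField IntermediateField.algebraAdjoinAdjoin

namespace Fermat.Agent.S24.H97

variable {K F : Type*} [Field K] [Field F] [Algebra K F]

section Finite

variable (t : F)

/-- `K[t]` is a finitely generated `K`-algebra. -/
instance finiteType_polyRing : Algebra.FiniteType K (polyRing K t) :=
  (Subalgebra.fg_iff_finiteType _).mp (by simpa using Subalgebra.fg_adjoin_finset (R := K) {t})

variable [FiniteDimensional K⟮t⟯ F] [CharZero K]

/-- The integral closure of `K[t]` in `F` is a finite `K[t]`-module. -/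
theorem finite_intRing (ht : Transcendental K t) :
    Module.Finite (polyRing K t) (intRing K t) := by
  have := isDedekindDomain_polyRing t ht
  exact IsIntegralClosure.finite (polyRing K t) K⟮t⟯ F (intRing K t)

/-- The integral closure of `K[t]` in `F` is a finitely generated `K`-algebra. -/
theorem finiteType_intRing (ht : Transcendental K t) :
    Algebra.FiniteType K (intRing K t) := by
  have := finite_intRing t ht
  exact Algebra.FiniteType.trans (S := polyRing K t) inferInstance inferInstance

variable [Fact (Transcendental K t)]

instance instFiniteIntRing : Module.Finite (polyRing K t) (intRing K t) :=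
  finite_intRing t Fact.out

instance instFiniteTypeIntRing : Algebra.FiniteType K (intRing K t) :=
  finiteType_intRing t Fact.out

example : Algebra.EssFiniteType K (intRing K t) := inferInstance

end Finite

end Fermat.Agent.S24.H97
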