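import Fermat.Agent.S24.H97_Places

set_option autoImplicit false

noncomputable section

open IsDedekindDomain Polynomial AlgebraicCurve WithZero
open scoped IntermediateField IntermediateField.algebraAdjoinAdjoin

namespace Fermat.Agent.S24.H97

variable {K F : Type*} [Field K] [Field F] [Algebra K F]

section ValuationGeneral

/-- In `ℤᵐ⁰`, `x < 1` iff `x ≤ exp (-1)`. -/
theorem lt_one_iff_le_exp_neg_one {x : ℤᵐ⁰} : x < 1 ↔ x ≤ exp (-1 : ℤ) := by
  have h : (exp (-1 : ℤ) : ℤᵐ⁰) * exp 1 = 1 := by
    rw [← exp_add]; simp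
  rw [← lt_mul_exp_iff_le (x := x) (y := exp (-1 : ℤ)) exp_ne_zero, h]

/-- Two equivalent surjective `ℤᵐ⁰`-valued valuations on a field are equal. -/
theorem valuation_eq_of_isEquiv {v₁ v₂ : Valuation F ℤᵐ⁰} (h : v₁.IsEquiv v₂)
    (h₁ : Function.Surjective v₁) (h₂ : Function.Surjective v₂) : v₁ = v₂ := by
  obtain ⟨π, hπ⟩ := h₂ (exp (-1 : ℤ))
  obtain ⟨ρ, hρ⟩ := h₁ (exp (-1 : ℤ))
  have hlt : (exp (-1 : ℤ) : ℤᵐ⁰) < 1 := lt_one_iff_le_exp_neg_one.mpr le_rfl
  have h1 : v₁ π < 1 := h.lt_one_iff_lt_one.mpr (hπ ▸ hlt)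
  have h2 : v₂ ρ < 1 := h.lt_one_iff_lt_one.mp (hρ ▸ hlt)
  have h3 : v₁ ρ ≤ v₁ π := (h ρ π).mpr (by rw [hπ]; exact lt_one_iff_le_exp_neg_one.mp h2)
  have h4 : v₁ π = exp (-1 : ℤ) :=
    le_antisymm (lt_one_iff_le_exp_neg_one.mp h1) (hρ ▸ h3)
  ext x
  rcases eq_or_ne x 0 with rfl | hx
  · simp
  have hx2 : v₂ x ≠ 0 := (Valuation.ne_zero_iff _).mpr hx
  obtain ⟨n, hn⟩ : ∃ n : ℤ, v₂ x = exp n := ⟨log (v₂ x), (exp_log hx2).symm⟩
  have h5 : v₂ x = v₂ (π ^ (-n)) := by
    rw [map_zpow₀, hπ, ← exp_zsmul, hn]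
    simp
  have h6 : v₁ x = v₁ (π ^ (-n)) := h.eq_iff.mpr h5
  rw [h6, h5, map_zpow₀, map_zpow₀, h4, hπ]

variable (v : Place K F)

/-- The valuation ring of the normalised valuation of a place is the place's valuation ring. -/
theorem adicValuation_valuationSubring : v.adicValuation.valuationSubring = v.toValuationSubring := by
  ext x
  rw [Valuation.mem_valuationSubring_iff]
  constructor
  · intro h
    obtain ⟨a, rfl⟩ := IsDiscreteValuationRing.exists_lift_of_le_one
      (A := v.toValuationSubring) (K := F) h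
    exact a.2
  · intro h
    have := v.adicValuation_coe ⟨x, h⟩
    rw [this]
    exact v.heightOneSpectrum.intValuation_le_one _

theorem adicValuation_surjective : Function.Surjective v.adicValuation :=
  v.heightOneSpectrum.valuation_surjective F

end ValuationGeneral

section OrdGeneral

variable {R : Type*} [CommRing R] [IsDedekindDomain R] [Algebra R F] [IsFractionRing R F]
  [Algebra K R] [IsScalarTower K R F]

/-- The normalised valuation of the place attached to a height-one prime `w` of a Dedekind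
domain with fraction field `F` is the `w`-adic valuation. -/
theorem adicValuation_ofHeightOneSpectrum (w : HeightOneSpectrum R) :
    (Place.ofHeightOneSpectrum (K := K) w).adicValuation = w.valuation F := by
  apply valuation_eq_of_isEquiv
  · rw [Valuation.isEquiv_iff_valuationSubring, adicValuation_valuationSubring,
      Place.ofHeightOneSpectrum_toValuationSubring]
  · exact adicValuation_surjective _
  · exact w.valuation_surjective F

theorem ord_ofHeightOneSpectrum (w : HeightOneSpectrum R) (f : F) :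
    (Place.ofHeightOneSpectrum (K := K) w).ord f = -(log (w.valuation F f)) := by
  rw [Place.ord, adicValuation_ofHeightOneSpectrum]

end OrdGeneral

end Fermat.Agent.S24.H97
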